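/-
PIVOT (item 66), PV-WIRE2 (helper76), layer W: STATEMENTS (definitions only).

`W` a semistable integral Weierstrass model, `E = W_ℚ`, `p` odd, `E[p]` irreducible, `N`
squarefree, `f` an eigenform of level `N` congruent to `W` outside a finite set `S`.

* `UnrW W p q`  : `E[p]` is unramified at `q` (the shape of the hypothesis of `S38.Stmt_PivotW`).
* `IsExcW W p q`: `q ≡ 1 mod p` and all Frobenius elements at some place over `q` act on `E[p]`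
                  through one scalar.
* `Stmt_PivotWCore`   (`fl = true`) : `p ∤ N`, every prime `q' ∣ N` with `E[p]` unramified at `q'`
                  is exceptional, `q ∣ N` one of them  ⟹  `S43.LowerConcl p N q W`.
* `Stmt_PivotWCoreSO` (`fl = false`): the same with `p ∣ N`, `p ∣ Δ`, `E[p]` not peu ramifiée
                  at `p`; the exceptional primes are the unramified primes `q' ≠ p` of `N`.
* `Stmt_PivotWCore5`, `Stmt_PivotWCoreSO5` : the same with the extra hypothesis `5 ≤ p` (the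
                  forms proved by PV-WIRE2; PV-GEOM needs `5 ≤ p`).
* `Stmt_CYC`    : the coefficient ring (split residual quadratics + `p`-power roots of unity),
                  helper3's `L/Pivot/H3_Cyc.lean`.
-/
import Fermat.Agent.S43.Wiring2
import Fermat.Prelude.Def_WeierstrassCurve_PeuRamifiee

set_option autoImplicit false

open WeierstrassCurve WeierstrassCurve.Affine WeierstrassCurve.Affine.Point Polynomial
open scoped WeierstrassCurve.Affine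

namespace Fermat.Agent.L.Pivot.H76

open Fermat.Agent.S44 Fermat.Agent.S43 IsLocalRing

/-- `E[p]` is unramified at `q`. -/
def UnrW (W : WeierstrassCurve ℤ) (p q : ℕ) : Prop :=
  ∀ A : ValuationSubring (AlgebraicClosure ℚ), A.LiesOverPrime q →
    ∀ σ ∈ A.inertiaSubgroupIn ℚ, ∀ v : Tors (W.map (Int.castRingHom ℚ)) p,
      galoisRepModuleEnd (S := ℚ) (K := AlgebraicClosure ℚ)
        (W.map (Int.castRingHom ℚ)).toAffine p σ v = v

/-- The prime `q` is exceptional for `E[p]`. -/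
def IsExcW (W : WeierstrassCurve ℤ) (p q : ℕ) : Prop :=
  p ∣ q - 1 ∧ ∃ A : ValuationSubring (AlgebraicClosure ℚ), A.LiesOverPrime q ∧
    ∃ c : ZMod p, ∀ σ : GQ, A.IsFrobeniusAt σ q →
      ∀ v : Tors (W.map (Int.castRingHom ℚ)) p,
        galoisRepModuleEnd (S := ℚ) (K := AlgebraicClosure ℚ)
          (W.map (Int.castRingHom ℚ)).toAffine p σ v = c • v

/-- **PIVOT, curve form, level prime to `p`.** -/
def Stmt_PivotWCore : Prop :=
  ∀ (p : ℕ), p.Prime → p ≠ 2 → ∀ (W : WeierstrassCurve ℤ), W.Δ ≠ 0 → W.IsSemistableModel →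
    GaloisRepIsIrreducible (K := AlgebraicClosure ℚ) ℚ (W.map (Int.castRingHom ℚ)).toAffine p →
    ∀ (N q : ℕ), Squarefree N → ¬ p ∣ N → q.Prime → q ∣ N → UnrW W p q →
    (∀ q' : ℕ, q'.Prime → q' ∣ N → UnrW W p q' → IsExcW W p q') →
    ∀ (f : CuspForm (CongruenceSubgroup.Gamma0 N) 2) (𝔪 : Ideal (integralClosure ℤ ℂ))
      (S : Finset ℕ),
    f.IsNormalizedEigenform → 𝔪.IsMaximal → (p : integralClosure ℤ ℂ) ∈ 𝔪 →
    (∀ ℓ : ℕ, ℓ.Prime → ℓ ∉ S → W.IsGoodPrimeFor ℓ → ¬ ℓ ∣ N → ℓ ≠ p →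
      ∃ a : integralClosure ℤ ℂ, (a : ℂ) = ModularFormClass.qCoeff f ℓ ∧
        a - ((W.apOfModel ℓ : ℤ) : integralClosure ℤ ℂ) ∈ 𝔪) →
    LowerConcl p N q W

/-- **PIVOT, curve form, `p ∥ N` and `E[p]` très ramifiée at `p`.** -/
def Stmt_PivotWCoreSO : Prop :=
  ∀ (p : ℕ), p.Prime → p ≠ 2 → ∀ (W : WeierstrassCurve ℤ), W.Δ ≠ 0 → W.IsSemistableModel →
    GaloisRepIsIrreducible (K := AlgebraicClosure ℚ) ℚ (W.map (Int.castRingHom ℚ)).toAffine p →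
    ∀ (N q : ℕ), Squarefree N → p ∣ N → (p : ℤ) ∣ W.Δ →
    ¬ (W.map (Int.castRingHom ℚ)).IsPeuRamifieeAt p p →
    q.Prime → q ≠ p → q ∣ N → UnrW W p q →
    (∀ q' : ℕ, q'.Prime → q' ≠ p → q' ∣ N → UnrW W p q' → IsExcW W p q') →
    ∀ (f : CuspForm (CongruenceSubgroup.Gamma0 N) 2) (𝔪 : Ideal (integralClosure ℤ ℂ))
      (S : Finset ℕ),
    f.IsNormalizedEigenform → 𝔪.IsMaximal → (p : integralClosure ℤ ℂ) ∈ 𝔪 →
    (∀ ℓ : ℕ, ℓ.Prime → ℓ ∉ S → W.IsGoodPrimeFor ℓ → ¬ ℓ ∣ N → ℓ ≠ p →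
      ∃ a : integralClosure ℤ ℂ, (a : ℂ) = ModularFormClass.qCoeff f ℓ ∧
        a - ((W.apOfModel ℓ : ℤ) : integralClosure ℤ ℂ) ∈ 𝔪) →
    LowerConcl p N q W

/-- **PIVOT, curve form, level prime to `p`, for `5 ≤ p`** (the form proved by PV-WIRE2: PV-GEOM
needs `5 ≤ p`).  Same text as `S38.P3.Stmt_PivotWCore5`. -/
def Stmt_PivotWCore5 : Prop :=
  ∀ (p : ℕ), p.Prime → 5 ≤ p → ∀ (W : WeierstrassCurve ℤ), W.Δ ≠ 0 → W.IsSemistableModel →
    GaloisRepIsIrreducible (K := AlgebraicClosure ℚ) ℚ (W.map (Int.castRingHom ℚ)).toAffine p →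
    ∀ (N q : ℕ), Squarefree N → ¬ p ∣ N → q.Prime → q ∣ N → UnrW W p q →
    (∀ q' : ℕ, q'.Prime → q' ∣ N → UnrW W p q' → IsExcW W p q') →
    ∀ (f : CuspForm (CongruenceSubgroup.Gamma0 N) 2) (𝔪 : Ideal (integralClosure ℤ ℂ))
      (S : Finset ℕ),
    f.IsNormalizedEigenform → 𝔪.IsMaximal → (p : integralClosure ℤ ℂ) ∈ 𝔪 →
    (∀ ℓ : ℕ, ℓ.Prime → ℓ ∉ S → W.IsGoodPrimeFor ℓ → ¬ ℓ ∣ N → ℓ ≠ p →
      ∃ a : integralClosure ℤ ℂ, (a : ℂ) = ModularFormClass.qCoeff f ℓ ∧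
        a - ((W.apOfModel ℓ : ℤ) : integralClosure ℤ ℂ) ∈ 𝔪) →
    LowerConcl p N q W

/-- **PIVOT, curve form, `p ∥ N` and `E[p]` très ramifiée at `p`, for `5 ≤ p`.**  Same text as
`S38.P3.Stmt_PivotWCoreSO5`. -/
def Stmt_PivotWCoreSO5 : Prop :=
  ∀ (p : ℕ), p.Prime → 5 ≤ p → ∀ (W : WeierstrassCurve ℤ), W.Δ ≠ 0 → W.IsSemistableModel →
    GaloisRepIsIrreducible (K := AlgebraicClosure ℚ) ℚ (W.map (Int.castRingHom ℚ)).toAffine p →
    ∀ (N q : ℕ), Squarefree N → p ∣ N → (p : ℤ) ∣ W.Δ →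
    ¬ (W.map (Int.castRingHom ℚ)).IsPeuRamifieeAt p p →
    q.Prime → q ≠ p → q ∣ N → UnrW W p q →
    (∀ q' : ℕ, q'.Prime → q' ≠ p → q' ∣ N → UnrW W p q' → IsExcW W p q') →
    ∀ (f : CuspForm (CongruenceSubgroup.Gamma0 N) 2) (𝔪 : Ideal (integralClosure ℤ ℂ))
      (S : Finset ℕ),
    f.IsNormalizedEigenform → 𝔪.IsMaximal → (p : integralClosure ℤ ℂ) ∈ 𝔪 →
    (∀ ℓ : ℕ, ℓ.Prime → ℓ ∉ S → W.IsGoodPrimeFor ℓ → ¬ ℓ ∣ N → ℓ ≠ p →
      ∃ a : integralClosure ℤ ℂ, (a : ℂ) = ModularFormClass.qCoeff f ℓ ∧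
        a - ((W.apOfModel ℓ : ℤ) : integralClosure ℤ ℂ) ∈ 𝔪) →
    LowerConcl p N q W

/-- **CYC**: a finite extension of the coefficient ring over whose residue field the residual
quadratics split and which contains a primitive `p^e`-th root of unity. -/
def Stmt_CYC : Prop :=
  ∀ (𝒪 : Type) [CommRing 𝒪] [IsDomain 𝒪] [IsDiscreteValuationRing 𝒪]
    [IsAdicComplete (maximalIdeal 𝒪) 𝒪] [Finite (ResidueField 𝒪)] [CharZero 𝒪] (p e : ℕ),
    p.Prime →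
    ∃ (𝒪' : Type) (_ : CommRing 𝒪') (_ : IsDomain 𝒪') (_ : IsDiscreteValuationRing 𝒪')
      (_ : IsAdicComplete (maximalIdeal 𝒪') 𝒪') (_ : Finite (ResidueField 𝒪'))
      (_ : CharZero 𝒪') (_ : Algebra 𝒪 𝒪') (_ : Module.Finite 𝒪 𝒪') (_ : Module.Free 𝒪 𝒪')
      (_ : IsLocalHom (algebraMap 𝒪 𝒪')),
      (∀ g : (ResidueField 𝒪)[X], g.Monic → g.natDegree = 2 →
        ∃ α β : ResidueField 𝒪',
          g.map (ResidueField.map (algebraMap 𝒪 𝒪')) = (X - C α) * (X - C β)) ∧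
      ∃ ζ : 𝒪', IsPrimitiveRoot ζ (p ^ e)

end Fermat.Agent.L.Pivot.H76
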