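/-
PIVOT (item 66), interfaces (helper3).  Plan: NOTES/plan/L_PIVOT.md.

`k` pivot primes `q_1, …, q_k` (`q_j ≡ 1 mod p`, `ρbar(Frob_{q_j}) = ε_j` scalar, `ε_j = ±1`),
treated SIMULTANEOUSLY.  Local ring with `g` extra variables:
`P = 𝒪⟦y_j, z_j, m_j, v_j, w_j, s_j (j < k), x₁, …, x_g⟧ = MvPowerSeries (Fin (6 * k + g)) 𝒪`.
For a lift `(Σ_j, Φ_j)` (images of a tame generator and of a Frobenius lift at `q_j`) the
coordinates are the TRACELESS PARTS (the traces are determined by the determinants, `p` odd):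
  `y = Σ₁₂, z = Σ₂₁, m = Σ₁₁ − Σ₂₂`  and  `v = εΦ₁₂, w = εΦ₂₁, s = ε(Φ₁₁ − Φ₂₂)`.
Then `Q1 = m² + 4yz = (tr Σ)² − 4 det Σ`, `Q2 = s² + 4vw = (tr Φ)² − 4 det Φ`,
`[Σ, Φ] = 0 ↔ the three minors of (y z m; v w s) vanish`.
* type `ζ ≠ 1` : `Q1 = δ²` (`δ = ζ − ζ⁻¹`) and the minors vanish;
* unipotent type : `Q1 = 0`, `Φ(Σ−1) = q(Σ−1)Φ`; consequence `e • (Σ − 1) = 0`,
  `e = q₀ (Q2 − (q₀ − 1)²) = q₀ (tr Φ)² − (q₀ + 1)² det Φ`.
-/
import Mathlib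

set_option autoImplicit false

namespace Fermat.Agent.L.Pivot

open MvPowerSeries IsLocalRing

section Coord

variable (𝒪 : Type) [CommRing 𝒪] (k g : ℕ)

/-- The local ring of `k` pivot primes with `g` extra variables. -/
abbrev PRing : Type := MvPowerSeries (Fin (6 * k + g)) 𝒪

/-- The index of the `i`-th local coordinate (`i < 6`) at the `j`-th pivot prime. -/
def cIdx (j : Fin k) (i : Fin 6) : Fin (6 * k + g) :=
  ⟨6 * j.1 + i.1, by have := j.2; have := i.2; omega⟩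

/-- The index of the `a`-th extra variable. -/
def xIdx (a : Fin g) : Fin (6 * k + g) := ⟨6 * k + a.1, by have := a.2; omega⟩

variable {k}

/-- `y = Σ₁₂`. -/
noncomputable def cy (j : Fin k) : PRing 𝒪 k g := X (cIdx k g j 0)
/-- `z = Σ₂₁`. -/
noncomputable def cz (j : Fin k) : PRing 𝒪 k g := X (cIdx k g j 1)
/-- `m = Σ₁₁ − Σ₂₂`. -/
noncomputable def cm (j : Fin k) : PRing 𝒪 k g := X (cIdx k g j 2)
/-- `v = ε Φ₁₂`. -/
noncomputable def cv (j : Fin k) : PRing 𝒪 k g := X (cIdx k g j 3)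
/-- `w = ε Φ₂₁`. -/
noncomputable def cw (j : Fin k) : PRing 𝒪 k g := X (cIdx k g j 4)
/-- `s = ε (Φ₁₁ − Φ₂₂)`. -/
noncomputable def cs (j : Fin k) : PRing 𝒪 k g := X (cIdx k g j 5)

/-- `Q1 = m² + 4yz`, the discriminant of the characteristic polynomial of `Σ`. -/
noncomputable def Q1 (j : Fin k) : PRing 𝒪 k g := cm 𝒪 g j ^ 2 + 4 * cy 𝒪 g j * cz 𝒪 g j
/-- `Q2 = s² + 4vw`, the discriminant of the characteristic polynomial of `Φ`. -/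
noncomputable def Q2 (j : Fin k) : PRing 𝒪 k g := cs 𝒪 g j ^ 2 + 4 * cv 𝒪 g j * cw 𝒪 g j

/-- The three minors: they vanish iff `Σ` and `Φ` commute. -/
noncomputable def minor1 (j : Fin k) : PRing 𝒪 k g :=
  cy 𝒪 g j * cw 𝒪 g j - cz 𝒪 g j * cv 𝒪 g j
/-- Second minor. -/
noncomputable def minor2 (j : Fin k) : PRing 𝒪 k g :=
  cy 𝒪 g j * cs 𝒪 g j - cm 𝒪 g j * cv 𝒪 g j
/-- Third minor. -/
noncomputable def minor3 (j : Fin k) : PRing 𝒪 k g :=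
  cz 𝒪 g j * cs 𝒪 g j - cm 𝒪 g j * cw 𝒪 g j

/-- The coordinates of `Σ_j − 1`, `j < k`: `y_j, z_j, m_j`. -/
noncomputable def sigmaCoord (x : Fin k × Fin 3) : PRing 𝒪 k g :=
  X (cIdx k g x.1 (Fin.castLE (by norm_num) x.2))

variable (k)

/-- The unramified component `Σ_j = 1` for all `j`. -/
noncomputable def idealX : Ideal (PRing 𝒪 k g) := Ideal.span (Set.range (sigmaCoord 𝒪 (k := k) g))

variable {𝒪}

/-- The generic point of the special fibre of the unramified component. -/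
noncomputable def idealQ (ϖ : 𝒪) : Ideal (PRing 𝒪 k g) :=
  idealX 𝒪 k g ⊔ Ideal.span {C ϖ}

variable {k}

/-- `e = q₀ (Q2 − (q₀ − 1)²)` at the `j`-th pivot prime. -/
noncomputable def eElt (q₀ : Fin k → 𝒪) (j : Fin k) : PRing 𝒪 k g :=
  C (q₀ j) * (Q2 𝒪 g j - C ((q₀ j - 1) ^ 2))

/-- The relations of unipotent type that are used: `e_j • (Σ_j − 1) = 0`. -/
noncomputable def idealUnip (q₀ : Fin k → 𝒪) : Ideal (PRing 𝒪 k g) :=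
  Ideal.span (Set.range fun x : Fin k × Fin 3 => eElt g q₀ x.1 * sigmaCoord 𝒪 g x)

end Coord

/-! ### PV-LOC: the statements of the local algebra -/

/-- A point of type `δ` (`δ_j = ζ_j − ζ_j⁻¹`): `Q1 = δ²` and `Σ`, `Φ` commute, at every pivot
prime. -/
def IsTypePoint {𝒪 : Type} [CommRing 𝒪] {k : ℕ} (g : ℕ) (δ : Fin k → 𝒪)
    {D : Type} [CommRing D] [Algebra 𝒪 D] (θ : PRing 𝒪 k g →ₐ[𝒪] D) : Prop :=
  ∀ j : Fin k, θ (Q1 𝒪 g j) = algebraMap 𝒪 D (δ j ^ 2) ∧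
    θ (minor1 𝒪 g j) = 0 ∧ θ (minor2 𝒪 g j) = 0 ∧ θ (minor3 𝒪 g j) = 0

/-- An ideal of `P` is a model of the type `δ` if it is killed by every point of type `δ` with
values in a COMPLETE noetherian local domain over `𝒪` in which `𝒪` embeds. -/
def KilledByType {𝒪 : Type} [CommRing 𝒪] {k : ℕ} (g : ℕ) (δ : Fin k → 𝒪)
    (𝔞 : Ideal (PRing 𝒪 k g)) : Prop :=
  ∀ (D : Type) [CommRing D] [IsDomain D] [IsLocalRing D] [IsNoetherianRing D]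
    [IsAdicComplete (maximalIdeal D) D]
    [Algebra 𝒪 D] (θ : PRing 𝒪 k g →ₐ[𝒪] D),
    Function.Injective (algebraMap 𝒪 D) →
    (∀ i, θ (X i) ∈ maximalIdeal D) →
    IsTypePoint g δ θ →
    𝔞 ≤ RingHom.ker (θ : PRing 𝒪 k g →+* D)

/-- **PV-LOC-TYPE.**  For `δ_j ≠ 0` in the maximal ideal of `𝒪`, the ring of type `δ` is cut out
by a PRIME ideal `𝔞` of `P` of dimension `≤ 1 + 3k + g`, contained in `𝔮 = (ϖ, y_j, z_j, m_j)`,
and killed by every point of type `δ`. -/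
def Stmt_PVLoc_type : Prop :=
  ∀ (𝒪 : Type) [CommRing 𝒪] [IsDomain 𝒪] [IsDiscreteValuationRing 𝒪]
    [IsAdicComplete (maximalIdeal 𝒪) 𝒪] (k g : ℕ) (ϖ : 𝒪) (δ : Fin k → 𝒪),
    IsUnit (2 : 𝒪) → maximalIdeal 𝒪 = Ideal.span {ϖ} →
    (∀ j, δ j ≠ 0) → (∀ j, δ j ∈ maximalIdeal 𝒪) →
    ∃ 𝔞 : Ideal (PRing 𝒪 k g), 𝔞.IsPrime ∧
      ringKrullDim (PRing 𝒪 k g ⧸ 𝔞) ≤ ((1 + 3 * k + g : ℕ) : WithBot ℕ∞) ∧
      𝔞 ≤ idealQ k g ϖ ∧ KilledByType g δ 𝔞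

/-- **PV-LOC-UNR.**  `𝔮 = (ϖ, y_j, z_j, m_j)` is prime and `e_j ∉ 𝔮` when `q₀ ≡ 1`. -/
def Stmt_PVLoc_unr : Prop :=
  ∀ (𝒪 : Type) [CommRing 𝒪] [IsDomain 𝒪] [IsDiscreteValuationRing 𝒪]
    [IsAdicComplete (maximalIdeal 𝒪) 𝒪] (k g : ℕ) (ϖ : 𝒪) (q₀ : Fin k → 𝒪),
    IsUnit (2 : 𝒪) → maximalIdeal 𝒪 = Ideal.span {ϖ} →
    (∀ j, q₀ j - 1 ∈ maximalIdeal 𝒪) →
    (idealQ k g ϖ).IsPrime ∧ ∀ j, eElt g q₀ j ∉ idealQ k g ϖ

/-- **PV-LOC-DIM.**  `dim 𝒪⟦s₁, …, s_r⟧ ≥ r + 1`. -/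
def Stmt_PVLoc_dimS : Prop :=
  ∀ (𝒪 : Type) [CommRing 𝒪] [IsDomain 𝒪] [IsDiscreteValuationRing 𝒪] (r : ℕ),
    ((r + 1 : ℕ) : WithBot ℕ∞) ≤ ringKrullDim (MvPowerSeries (Fin r) 𝒪)

/-- **PV-LOC-MAT.**  Unipotent type over a domain: if `(Σ − 1)² = 0`, `tr Σ = 2` and
`Φ(Σ − 1) = q(Σ − 1)Φ` then `(q (tr Φ)² − (q + 1)² det Φ) • (Σ − 1) = 0`. -/
def Stmt_PVLoc_mat : Prop :=
  ∀ (D : Type) [CommRing D] [IsDomain D] (q : D) (Sg Ph : Matrix (Fin 2) (Fin 2) D),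
    (Sg - 1) * (Sg - 1) = 0 → Sg.trace = 2 → Ph * (Sg - 1) = q • ((Sg - 1) * Ph) →
    (q * Ph.trace ^ 2 - (q + 1) ^ 2 * Ph.det) • (Sg - 1) = 0

/-! ### The patching datum of PIVOT -/

/-- A level of the PIVOT patching datum (compare `Algebra.PatchingLevel` of the prelude).
`S = 𝒪⟦s₁..s_r⟧` (Taylor–Wiles variables), `P = 𝒪⟦X₁..X_h⟧` (local ring at the pivot prime with
extra variables, `h = 6 + g`), `T` the Hecke ring of unipotent type at level `∅` acting on `M`.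
Two `P`-modules: `N1` (unipotent type) and `Nχ` (ramified types), both free of rank `d` over
`S/J` through `φ : S → P`, congruent modulo `ϖ`, killed by `I1` resp. `Iχ`;
`N1 / φ(s₁..s_r) N1 = M`, compatibly with `ψ : P ↠ T`; `Ξ` = the ideal of `T` generated by the
image of `𝔵` (the entries of `ρ(σ) − 1`). -/
structure PivotLevel (𝒪 : Type) [CommRing 𝒪] (r h : ℕ) (T : Type) [CommRing T] [Algebra 𝒪 T]
    (M : Type) [AddCommGroup M] [Module T M] (ϖ : 𝒪)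
    (I1 Iχ 𝔵 : Ideal (MvPowerSeries (Fin h) 𝒪)) (Ξ : Ideal T)
    (J : Ideal (MvPowerSeries (Fin r) 𝒪)) (d : ℕ) : Type 1 where
  /-- the module of unipotent type -/
  N1 : Type
  /-- the module of the ramified types -/
  Nχ : Type
  [instAddCommGroup1 : AddCommGroup N1]
  [instModule1 : Module (MvPowerSeries (Fin h) 𝒪) N1]
  [instAddCommGroupχ : AddCommGroup Nχ]
  [instModuleχ : Module (MvPowerSeries (Fin h) 𝒪) Nχ]
  /-- the Taylor–Wiles variables (diamond operators) -/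
  φ : MvPowerSeries (Fin r) 𝒪 →ₐ[𝒪] MvPowerSeries (Fin h) 𝒪
  /-- the map to the Hecke ring of level `∅` -/
  ψ : MvPowerSeries (Fin h) 𝒪 →ₐ[𝒪] T
  ψ_surjective : Function.Surjective ψ
  ψ_φ_X : ∀ i : Fin r, ψ (φ (MvPowerSeries.X i)) = 0
  Ξ_le : Ξ ≤ Ideal.map (ψ : MvPowerSeries (Fin h) 𝒪 →+* T) 𝔵
  /-- the projection to level `∅` -/
  π : N1 →+ M
  π_smul : ∀ (f : MvPowerSeries (Fin h) 𝒪) (x : N1), π (f • x) = ψ f • π x
  π_surjective : Function.Surjective π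
  ker_π : ∀ x : N1, π x = 0 ↔
    x ∈ (Ideal.span (Set.range fun i : Fin r => φ (MvPowerSeries.X i))) •
      (⊤ : Submodule (MvPowerSeries (Fin h) 𝒪) N1)
  /-- generators of `N1` -/
  b1 : Fin d → N1
  /-- generators of `Nχ` -/
  bχ : Fin d → Nχ
  b1_span : ∀ x : N1, ∃ c : Fin d → MvPowerSeries (Fin r) 𝒪, x = ∑ i, φ (c i) • b1 i
  b1_rel : ∀ c : Fin d → MvPowerSeries (Fin r) 𝒪, ∑ i, φ (c i) • b1 i = 0 ↔ ∀ i, c i ∈ J
  bχ_span : ∀ x : Nχ, ∃ c : Fin d → MvPowerSeries (Fin r) 𝒪, x = ∑ i, φ (c i) • bχ i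
  bχ_rel : ∀ c : Fin d → MvPowerSeries (Fin r) 𝒪, ∑ i, φ (c i) • bχ i = 0 ↔ ∀ i, c i ∈ J
  rel1 : ∀ f ∈ I1, ∀ x : N1, f • x = 0
  relχ : ∀ f ∈ Iχ, ∀ x : Nχ, f • x = 0
  /-- the congruence modulo `ϖ` -/
  cmp : ∀ v : Fin d → MvPowerSeries (Fin h) 𝒪,
    (∑ i, v i • b1 i ∈ (Ideal.span {(MvPowerSeries.C ϖ : MvPowerSeries (Fin h) 𝒪)}) •
      (⊤ : Submodule (MvPowerSeries (Fin h) 𝒪) N1)) ↔
    (∑ i, v i • bχ i ∈ (Ideal.span {(MvPowerSeries.C ϖ : MvPowerSeries (Fin h) 𝒪)}) •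
      (⊤ : Submodule (MvPowerSeries (Fin h) 𝒪) Nχ))

attribute [instance] PivotLevel.instAddCommGroup1 PivotLevel.instModule1
  PivotLevel.instAddCommGroupχ PivotLevel.instModuleχ

/-- The relation ideals `((1 + s_j)^(p^n) − 1)_j` of the Taylor–Wiles levels. -/
noncomputable def twIdealP (𝒪 : Type) [CommRing 𝒪] (r p n : ℕ) :
    Ideal (MvPowerSeries (Fin r) 𝒪) :=
  Ideal.span (Set.range fun j : Fin r =>
    ((1 + MvPowerSeries.X j) ^ (p ^ n) - 1 : MvPowerSeries (Fin r) 𝒪))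

/-- **PV-PATCH.**  Levels for all the Taylor–Wiles relation ideals give a level with trivial
relation ideal (pure algebra: ultrafilter limit as in `Fermat.Agent.S59.Patch.patch`). -/
def Stmt_PVPatch : Prop :=
  ∀ (𝒪 : Type) [CommRing 𝒪] [IsDomain 𝒪] [IsDiscreteValuationRing 𝒪]
    [IsAdicComplete (maximalIdeal 𝒪) 𝒪] [Finite (ResidueField 𝒪)]
    (p : ℕ), (p : 𝒪) ∈ maximalIdeal 𝒪 →
    ∀ (r h : ℕ) (T : Type) [CommRing T] [IsLocalRing T] [IsNoetherianRing T]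
      [IsAdicComplete (maximalIdeal T) T] [Algebra 𝒪 T] [IsLocalHom (algebraMap 𝒪 T)],
      Function.Surjective (residue T ∘ algebraMap 𝒪 T) →
    ∀ (M : Type) [AddCommGroup M] [Module T M] (ϖ : 𝒪)
      (I1 Iχ 𝔵 : Ideal (MvPowerSeries (Fin h) 𝒪)) (Ξ : Ideal T) (d : ℕ),
      (∀ n : ℕ, Nonempty (PivotLevel 𝒪 r h T M ϖ I1 Iχ 𝔵 Ξ (twIdealP 𝒪 r p n) d)) →
      Nonempty (PivotLevel 𝒪 r h T M ϖ I1 Iχ 𝔵 Ξ ⊥ d)

end Fermat.Agent.L.Pivot
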