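/-
PIVOT (item 66), GLOBAL interfaces (helper3).  Plan: NOTES/plan/L_PIVOT.md (v3, §3–§5).

Galois side  : `PivotPrimes`, `condPv0`, `Stmt_PVGalN`, `Stmt_PVGalA`, `Stmt_PVGal`.
Hecke side   : `PVGeom` (a `Δ_Σ`-thickening of helper53's `TWGeom`), `Stmt_PVGeom`.
Old forms    : `Stmt_TatePieceStI`, `Stmt_PVOld`.
Definitions only; no `sorry`.
-/
import Fermat.Agent.L.Pivot.Defs
import Fermat.Agent.S56.Leaves
import Fermat.Agent.S59.Asm.Defs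
import Fermat.Agent.S59.Datum.Defs
import Fermat.Agent.S30.Defs
import Fermat.Prelude.Def_CuspForm_Newforms

set_option autoImplicit false

noncomputable section

namespace Fermat.Agent.L.Pivot

open Polynomial IsLocalRing CuspForm Fermat.Agent.S56 Fermat.Agent.S59.Asm

/-! ### The pivot primes -/

/-- `τ` is a uniform generator of the tame inertia at the place `P` over `q`: in every finite
level every element of the inertia group is a power of `τ` up to an element of `q`-power order. -/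
def IsTameGen (q : ℕ) (P : ValuationSubring (AlgebraicClosure ℚ)) (τ : GQ) : Prop :=
  τ ∈ P.inertiaSubgroupIn ℚ ∧
    ∀ F : IntermediateField ℚ (AlgebraicClosure ℚ), FiniteDimensional ℚ F →
      ∀ σ ∈ P.inertiaSubgroupIn ℚ, ∃ i e : ℕ, ∀ x ∈ F, (((τ ^ i)⁻¹ * σ) ^ (q ^ e)) x = x

/-- A family of `k` pivot primes `q_j` with places `P_j`, Frobenius lifts `frob j` and uniform
tame generators `τ j`. -/
structure PivotPrimes (k : ℕ) : Type where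
  /-- the primes -/
  q : Fin k → ℕ
  q_inj : Function.Injective q
  q_prime : ∀ j, (q j).Prime
  /-- places -/
  P : Fin k → ValuationSubring (AlgebraicClosure ℚ)
  P_over : ∀ j, (P j).LiesOverPrime (q j)
  /-- Frobenius lifts -/
  frob : Fin k → GQ
  frob_spec : ∀ j, (P j).IsFrobeniusAt (frob j) (q j)
  /-- tame generators -/
  τ : Fin k → GQ
  τ_gen : ∀ j, IsTameGen (q j) (P j) (τ j)
  /-- the tame relation `φ τ φ⁻¹ = τ ^ q` up to `q`-power torsion, in every finite level -/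
  τ_frob : ∀ j, ∀ F : IntermediateField ℚ (AlgebraicClosure ℚ), FiniteDimensional ℚ F →
    ∃ e : ℕ, ∀ x ∈ F,
      ((((τ j) ^ (q j))⁻¹ * (frob j * τ j * (frob j)⁻¹)) ^ ((q j) ^ e)) x = x

/-- The set of pivot primes. -/
def PivotPrimes.set {k : ℕ} (Pv : PivotPrimes k) : Finset ℕ := Finset.univ.image Pv.q

/-- The pivot primes are exceptional for `ρbar`: `q ≡ 1 mod p`, `ρbar` unramified at `q` and
`ρbar (Frob_q)` scalar. -/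
def PivotPrimes.IsExceptional {k : ℕ} (Pv : PivotPrimes k) (p : ℕ) {κ : Type} [Field κ]
    (ρbar : ResidualGaloisRep κ) : Prop :=
  ∀ j, p ∣ Pv.q j - 1 ∧ Pv.q j ≠ p ∧ ρbar.IsUnramifiedAt (Pv.q j) ∧
    ∃ c : κ, ρbar.ρ (Pv.frob j) = c • (1 : Module.End κ ρbar.V)

/-! ### Galois side: PV-GAL -/

/-- The condition `𝒟⁰`: flat at `p`, unipotent at `Smin`, unramified outside `Smin ∪ Σ ∪ T`,
nothing at `T`, and at the pivot primes `ρ (τ_j) = 1`, `ρ (frob_j)` scalar. -/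
def condPv0 (𝒪 : Type) [CommRing 𝒪] (p : ℕ) (Smin : Finset ℕ) {k : ℕ} (Pv : PivotPrimes k)
    (T : Finset ℕ) : Cond 𝒪 :=
  fun A _ _ _ ρ => condFl 𝒪 p Smin (Pv.set ∪ T) ρ ∧
    ∀ j, ρ.ρ (Pv.τ j) = 1 ∧ ∃ c : A, ρ.ρ (Pv.frob j) = c • (1 : Module.End A ρ.V)

/-- A homomorphism `γ : P → A` sends the local coordinates to the traceless parts of the matrices
`Mσ j` (image of the tame generator) and `Mφ j` (image of the Frobenius lift). -/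
def IsCoordHom {𝒪 : Type} [CommRing 𝒪] {k g : ℕ} {A : Type} [CommRing A] [Algebra 𝒪 A]
    (γ : PRing 𝒪 k g →ₐ[𝒪] A) (Mσ Mφ : Fin k → Matrix (Fin 2) (Fin 2) A) : Prop :=
  ∀ j, γ (cy 𝒪 g j) = Mσ j 0 1 ∧ γ (cz 𝒪 g j) = Mσ j 1 0 ∧
    γ (cm 𝒪 g j) = Mσ j 0 0 - Mσ j 1 1 ∧
    γ (cv 𝒪 g j) = Mφ j 0 1 ∧ γ (cw 𝒪 g j) = Mφ j 1 0 ∧
    γ (cs 𝒪 g j) = Mφ j 0 0 - Mφ j 1 1

/-- **PV-GAL-N** (number theory; S56 machinery with the local condition `L = 0` at the pivot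
primes): Taylor–Wiles families of `r = 3k + g` primes with the tangent bound `|k|^g` for `𝒟⁰`.
[Greenberg–Wiles: `dim Sel⁰_Q ≤ dim Sel⁰'_Q + (r - 3k)`; `dim L_q - h⁰ = -3` at a pivot prime;
`r := dim Sel⁰'_∅ ≥ 3k` by the same inequality for `Q = ∅`; TW-SELECT for `Sel⁰'_∅`.] -/
def Stmt_PVGalN : Prop :=
  ∀ (𝒪 : Type) [CommRing 𝒪] [IsDomain 𝒪] [IsDiscreteValuationRing 𝒪]
    [IsAdicComplete (maximalIdeal 𝒪) 𝒪] [Finite (ResidueField 𝒪)]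
    (p : ℕ) [Fact p.Prime] (ρbar : ResidualGaloisRep (ResidueField 𝒪)) (S Smin : Finset ℕ),
    Hyp 𝒪 p ρbar S Smin →
    ∀ (k : ℕ) (Pv : PivotPrimes k), Pv.IsExceptional p ρbar → Pv.set ⊆ S →
    ∃ r g : ℕ, r = 3 * k + g ∧ ∀ n : ℕ, ∃ qv : Fin r → ℕ, IsTWFamily ρbar p n S qv ∧
      TangentLE 𝒪 ρbar (condPv0 𝒪 p Smin Pv (Finset.univ.image qv)) g

/-- **PV-GAL-A** (relative form of T-A, commutative algebra + universal property): if `𝒟⁰` has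
tangent bound `|k|^g` then every universal ring of `condFl … (Σ ∪ T)` is a quotient of `P` by a
homomorphism sending the local coordinates to the traceless parts of `ρ (τ_j)`, `ρ (frob_j)`. -/
def Stmt_PVGalA : Prop :=
  ∀ (𝒪 : Type) [CommRing 𝒪] [IsDomain 𝒪] [IsDiscreteValuationRing 𝒪]
    [IsAdicComplete (maximalIdeal 𝒪) 𝒪] [Finite (ResidueField 𝒪)]
    (p : ℕ) [Fact p.Prime] (ρbar : ResidualGaloisRep (ResidueField 𝒪)) (S Smin : Finset ℕ),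
    Hyp 𝒪 p ρbar S Smin →
    ∀ (k : ℕ) (Pv : PivotPrimes k), Pv.IsExceptional p ρbar → ∀ (T : Finset ℕ) (g : ℕ),
    TangentLE 𝒪 ρbar (condPv0 𝒪 p Smin Pv T) g →
    ∀ DQ : GaloisRep.DeformationRingData 𝒪 ρbar (condFl 𝒪 p Smin (Pv.set ∪ T)),
    ∀ b : Module.Basis (Fin 2) DQ.R DQ.ρ.V,
      ∃ γ : PRing 𝒪 k g →ₐ[𝒪] DQ.R, Function.Surjective γ ∧
        IsCoordHom γ (fun j => LinearMap.toMatrix b b (DQ.ρ.ρ (Pv.τ j)))
          (fun j => LinearMap.toMatrix b b (DQ.ρ.ρ (Pv.frob j)))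

/-- **PV-GAL** = PV-GAL-N + PV-GAL-A. -/
def Stmt_PVGal : Prop :=
  ∀ (𝒪 : Type) [CommRing 𝒪] [IsDomain 𝒪] [IsDiscreteValuationRing 𝒪]
    [IsAdicComplete (maximalIdeal 𝒪) 𝒪] [Finite (ResidueField 𝒪)]
    (p : ℕ) [Fact p.Prime] (ρbar : ResidualGaloisRep (ResidueField 𝒪)) (S Smin : Finset ℕ),
    Hyp 𝒪 p ρbar S Smin →
    ∀ (k : ℕ) (Pv : PivotPrimes k), Pv.IsExceptional p ρbar → Pv.set ⊆ S →
    ∃ r g : ℕ, r = 3 * k + g ∧ ∀ n : ℕ, ∃ qv : Fin r → ℕ, IsTWFamily ρbar p n S qv ∧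
      ∀ DQ : GaloisRep.DeformationRingData 𝒪 ρbar
          (condFl 𝒪 p Smin (Pv.set ∪ Finset.univ.image qv)),
      ∀ b : Module.Basis (Fin 2) DQ.R DQ.ρ.V,
        ∃ γ : PRing 𝒪 k g →ₐ[𝒪] DQ.R, Function.Surjective γ ∧
          IsCoordHom γ (fun j => LinearMap.toMatrix b b (DQ.ρ.ρ (Pv.τ j)))
            (fun j => LinearMap.toMatrix b b (DQ.ρ.ρ (Pv.frob j)))

theorem stmt_PVGal_of (hN : Stmt_PVGalN) (hA : Stmt_PVGalA) : Stmt_PVGal := by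
  intro 𝒪 _ _ _ _ _ p _ ρbar S Smin hyp k Pv hex hPS
  obtain ⟨r, g, hrg, h⟩ := hN 𝒪 p ρbar S Smin hyp k Pv hex hPS
  refine ⟨r, g, hrg, fun n => ?_⟩
  obtain ⟨qv, hqv, hT⟩ := h n
  exact ⟨qv, hqv, fun DQ b => hA 𝒪 p ρbar S Smin hyp k Pv hex _ g hT DQ b⟩

/-! ### Hecke side: the geometric datum -/

/-- The `Γ₀`-level of the twisted module at the pivot primes and a Taylor–Wiles family:
`N1 · ∏ q_j · ∏ qv_i²` (`N1 = M₀ ∏ q_j` already contains the pivot primes once). -/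
def pvLevel (N1 : ℕ) {k r : ℕ} (qP : Fin k → ℕ) (qv : Fin r → ℕ) : ℕ :=
  twLevel N1 qv * ∏ j, qP j

/-- The quotient `W / ∑_j (c_j - ψ_j) W`, as a submodule to divide by. -/
def typeSub {𝒪 : Type} [CommRing 𝒪] {V : Type} [AddCommGroup V] [Module 𝒪 V] {k : ℕ}
    (c : Fin k → Module.End 𝒪 V) (ψ : Fin k → 𝒪) : Submodule 𝒪 V :=
  ⨆ j, LinearMap.range (c j - ψ j • (1 : Module.End 𝒪 V))

/-- **The geometric datum of PIVOT** at the pivot primes `qP` (`p^(eP j) ∥ qP j - 1`) and a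
Taylor–Wiles family `qv` of level `n`: a `Δ_Σ`-thickening of a Taylor–Wiles datum `G1` of base
level `N1 = M₀ ∏ qP j` (level `Γ₀(q_j)` at the pivot primes: unipotent type).
`W` = Tate module of `J_H`, `H ⊂ ∏_{Σ ∪ Q} (ℤ/q)^×` of `p`-power index, localised, TWISTED
(determinant `ε`), a Hecke module of level `M₀ ∏ q_j² ∏ qv_i²`; `c_j` = diamond operators at the
pivot primes, `d_i` = diamond operators at the Taylor–Wiles primes; `W / ∑ (c_j - 1) W = G1.W`. -/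
structure PVGeom (𝒪 : Type) [CommRing 𝒪] [IsLocalRing 𝒪] (p : ℕ)
    (ρbar : ResidualGaloisRep (ResidueField 𝒪))
    (N1 : ℕ) [NeZero N1] (S : Finset ℕ)
    (θ : CuspForm.heckeAlgebra N1 2 (↑S : Set ℕ) →+* ResidueField 𝒪)
    (M : HMod 𝒪 N1 (↑S : Set ℕ) θ) {k : ℕ} (qP : Fin k → ℕ) (eP : Fin k → ℕ)
    {r : ℕ} (n : ℕ) (qv : Fin r → ℕ)
    [NeZero (twLevel N1 qv)] [NeZero (pvLevel N1 qP qv)] : Type 1 where
  /-- the Taylor–Wiles datum of unipotent type -/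
  G1 : TWGeom 𝒪 p ρbar N1 S θ M n qv
  /-- restriction of Hecke operators to the level `N1 ∏ qv_i²` -/
  rest : CuspForm.heckeAlgebra (pvLevel N1 qP qv) 2 (↑(twSet S qv) : Set ℕ) →+*
    CuspForm.heckeAlgebra (twLevel N1 qv) 2 (↑(twSet S qv) : Set ℕ)
  rest_T : ∀ (ℓ : ℕ) (hℓ : ℓ.Prime) (hℓN' : ¬ ℓ ∣ pvLevel N1 qP qv)
    (hℓS : ℓ ∉ (↑(twSet S qv) : Set ℕ)) (hℓN : ¬ ℓ ∣ twLevel N1 qv),
    rest (CuspForm.heckeAlgebra.T hℓ hℓN' hℓS) = CuspForm.heckeAlgebra.T hℓ hℓN hℓS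
  /-- the Hecke module at the level `M₀ ∏ q_j² ∏ qv_i²` -/
  W : HMod 𝒪 (pvLevel N1 qP qv) (↑(twSet S qv) : Set ℕ) ((θ.comp G1.rest).comp rest)
  /-- the twisted Galois action -/
  gal : GalQ →* Module.End 𝒪 W.V
  gal_cont : GaloisActionIsAdicContinuous 𝒪 gal
  gal_η : ∀ (g : GalQ)
    (t : CuspForm.heckeAlgebra (pvLevel N1 qP qv) 2 (↑(twSet S qv) : Set ℕ)),
    Commute (gal g) (W.η t)
  /-- Eichler–Shimura -/
  es : ∀ (ℓ : ℕ) (hℓ : ℓ.Prime) (hℓN : ¬ ℓ ∣ pvLevel N1 qP qv)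
    (hℓS : ℓ ∉ (↑(twSet S qv) : Set ℕ)),
    ∀ A : ValuationSubring (AlgebraicClosure ℚ), A.LiesOverPrime ℓ →
      ∀ σ : GalQ, A.IsFrobeniusAt σ ℓ →
        gal σ * gal σ - W.η (CuspForm.heckeAlgebra.T hℓ hℓN hℓS) * gal σ
          + (ℓ : 𝒪) • (1 : Module.End 𝒪 W.V) = 0
  /-- the diamond operators at the pivot primes -/
  c : Fin k → Module.End 𝒪 W.V
  c_pow : ∀ j, c j ^ (p ^ eP j) = 1
  /-- the diamond operators at the Taylor–Wiles primes -/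
  d : Fin r → Module.End 𝒪 W.V
  d_pow : ∀ i, d i ^ (p ^ n) = 1
  c_comm : ∀ i j, Commute (c i) (c j)
  d_comm : ∀ i j, Commute (d i) (d j)
  c_d : ∀ j i, Commute (c j) (d i)
  c_η : ∀ (j : Fin k)
    (t : CuspForm.heckeAlgebra (pvLevel N1 qP qv) 2 (↑(twSet S qv) : Set ℕ)),
    Commute (c j) (W.η t)
  d_η : ∀ (i : Fin r)
    (t : CuspForm.heckeAlgebra (pvLevel N1 qP qv) 2 (↑(twSet S qv) : Set ℕ)),
    Commute (d i) (W.η t)
  c_gal : ∀ (j : Fin k) (g : GalQ), Commute (c j) (gal g)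
  d_gal : ∀ (i : Fin r) (g : GalQ), Commute (d i) (gal g)
  /-- freeness over `𝒪[Δ_Σ × Δ_Q]` -/
  rk : ℕ
  b : Fin rk → W.V
  b_basis : Function.Bijective
    (fun f : Fin rk × (∀ j : Fin k, Fin (p ^ eP j)) × (Fin r → Fin (p ^ n)) → 𝒪 =>
      ∑ x : Fin rk × (∀ j : Fin k, Fin (p ^ eP j)) × (Fin r → Fin (p ^ n)),
        f x • Fermat.Agent.S59.TWH.H90.mon c (fun j => (x.2.1 j : ℕ))
          (Fermat.Agent.S59.TWH.H90.mon d (fun i => (x.2.2 i : ℕ)) (b x.1)))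
  /-- the projection to the unipotent type -/
  κ : W.V →ₗ[𝒪] G1.W.V
  κ_surjective : Function.Surjective κ
  ker_κ : LinearMap.ker κ = typeSub c (fun _ => (1 : 𝒪))
  κ_η : ∀ (t : CuspForm.heckeAlgebra (pvLevel N1 qP qv) 2 (↑(twSet S qv) : Set ℕ)) (v : W.V),
    κ (W.η t v) = G1.W.η (rest t) (κ v)
  κ_d : ∀ (i : Fin r) (v : W.V), κ (d i v) = G1.d i (κ v)
  κ_gal : ∀ (g : GalQ) (v : W.V), κ (gal g v) = G1.gal g (κ v)
  /-- **the ramified types are new at the pivot primes** (Atkin–Li): an eigensystem with values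
  in a domain of characteristic `0` which occurs in `W / ∑ (c_j - ψ_j) W`, all `ψ_j ≠ 1`, does
  not come from the level `N' / q_j`. -/
  new : ∀ (ψ : Fin k → 𝒪), (∀ j, ψ j ^ (p ^ eP j) = 1 ∧ ψ j ≠ 1) →
    ∀ (D : Type) [CommRing D] [IsDomain D] [CharZero D]
      (χ : CuspForm.heckeAlgebra (pvLevel N1 qP qv) 2 (↑(twSet S qv) : Set ℕ) →+* D),
      (∀ t, (∀ v : W.V, W.η t v ∈ typeSub c ψ) → χ t = 0) →
      ∀ (j : Fin k) [NeZero (pvLevel N1 qP qv / qP j)]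
        (χ' : CuspForm.heckeAlgebra (pvLevel N1 qP qv / qP j) 2 (↑(twSet S qv) : Set ℕ) →+* D),
        ¬ ∀ (ℓ : ℕ) (hℓ : ℓ.Prime) (hℓN' : ¬ ℓ ∣ pvLevel N1 qP qv)
          (hℓS : ℓ ∉ (↑(twSet S qv) : Set ℕ)) (hℓN : ¬ ℓ ∣ pvLevel N1 qP qv / qP j),
          χ' (CuspForm.heckeAlgebra.T hℓ hℓN hℓS) = χ (CuspForm.heckeAlgebra.T hℓ hℓN' hℓS)

/-- **PV-GEOM** (item 72, LG-NEB with `Δ = Δ_Σ × Δ_Q`): the geometric datum exists for every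
Taylor–Wiles family.  `N1 = M₀ ∏ q_j` squarefree, prime to `p`; the pivot primes divide `N1`. -/
def Stmt_PVGeom : Prop :=
  ∀ (𝒪 : Type) [CommRing 𝒪] [IsDomain 𝒪] [IsDiscreteValuationRing 𝒪]
    [IsAdicComplete (maximalIdeal 𝒪) 𝒪] [Finite (ResidueField 𝒪)] [CharZero 𝒪]
    (p : ℕ) [Fact p.Prime], 5 ≤ p → (p : 𝒪) ∈ maximalIdeal 𝒪 →
    ∀ (N1 : ℕ) [NeZero N1] (S : Finset ℕ), p ∈ S → (∀ q : ℕ, q.Prime → q ∣ N1 → q ∈ S) →
    Squarefree N1 → ¬ p ∣ N1 →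
    ∀ (ρbar : ResidualGaloisRep (ResidueField 𝒪)), ρbar.IsAbsolutelyIrreducible →
    ∀ (θ : CuspForm.heckeAlgebra N1 2 (↑S : Set ℕ) →+* ResidueField 𝒪),
      Fermat.Agent.S59.Datum.FrobHyp ρbar N1 S θ →
    ∀ (k : ℕ) (Pv : PivotPrimes k), Pv.IsExceptional p ρbar → (∀ j, Pv.q j ∣ N1) →
    ∀ (eP : Fin k → ℕ), (∀ j, p ^ eP j ∣ Pv.q j - 1 ∧ ¬ p ^ (eP j + 1) ∣ Pv.q j - 1) →
    ∃ M : HMod 𝒪 N1 (↑S : Set ℕ) θ, Nontrivial M.V ∧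
      ∀ (r n : ℕ) (qv : Fin r → ℕ), IsTWFamily ρbar p n S qv →
        ∀ [NeZero (twLevel N1 qv)] [NeZero (pvLevel N1 Pv.q qv)],
          Nonempty (PVGeom 𝒪 p ρbar N1 S θ M Pv.q eP n qv)

/-! ### The algebraic core of the assembly -/

/-- **PV-CORE** (pure algebra; model: `Fermat.Agent.S59.Asm.twLevel_of_core` and
`Fermat.Agent.S59.TWLevel.toPatchingLevel`).  `P ↠ RQ ↠ T`, `RQ` acts on `V`, `V` is free over
`𝒪[Δ_Σ × Δ_Q]` with diamond operators `c_j` (commuting with `RQ`) and `d_i = fV (δ_i)`;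
`N1 = V / ∑ (c_j - 1) V`, `Nχ = V / ∑ (c_j - ψ_j) V` with `ψ_j ≡ 1 mod ϖ`;
`π : V → M` with kernel `∑ (c_j - 1) V + ∑ (d_i - 1) V`. -/
def Stmt_PVCore : Prop :=
  ∀ (𝒪 : Type) [CommRing 𝒪] [IsLocalRing 𝒪] [IsNoetherianRing 𝒪]
    [IsAdicComplete (maximalIdeal 𝒪) 𝒪] (ϖ : 𝒪) (p r n k h : ℕ)
    (T : Type) [CommRing T] [Algebra 𝒪 T]
    (M : Type) [AddCommGroup M] [Module 𝒪 M] [Module T M] [IsScalarTower 𝒪 T M]
    (I1 Iχ 𝔵 : Ideal (MvPowerSeries (Fin h) 𝒪)) (Ξ : Ideal T)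
    (RQ : Type) [CommRing RQ] [IsLocalRing RQ] [Algebra 𝒪 RQ]
    (γ : MvPowerSeries (Fin h) 𝒪 →ₐ[𝒪] RQ), Function.Surjective γ →
    ∀ (τ : RQ →ₐ[𝒪] T), Function.Surjective τ →
    Ξ ≤ Ideal.map ((τ.comp γ : MvPowerSeries (Fin h) 𝒪 →ₐ[𝒪] T) :
      MvPowerSeries (Fin h) 𝒪 →+* T) 𝔵 →
    ∀ (V : Type) [AddCommGroup V] [Module 𝒪 V] (fV : RQ →ₐ[𝒪] Module.End 𝒪 V)
      (δ : Fin r → RQ), (∀ i, δ i - 1 ∈ maximalIdeal RQ) → (∀ i, τ (δ i) = 1) →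
    ∀ (d : Fin r → Module.End 𝒪 V), (∀ i, fV (δ i) = d i) → (∀ i, d i ^ (p ^ n) = 1) →
    ∀ (e : Fin k → ℕ) (c : Fin k → Module.End 𝒪 V), (∀ j, c j ^ (p ^ e j) = 1) →
      (∀ i j, Commute (c i) (c j)) → (∀ j (a : RQ), Commute (c j) (fV a)) →
    ∀ (ψ : Fin k → 𝒪), (∀ j, ψ j ^ (p ^ e j) = 1) → (∀ j, ψ j - 1 ∈ Ideal.span {ϖ}) →
    ∀ (rk : ℕ) (b : Fin rk → V),
      Function.Bijective
        (fun f : Fin rk × (∀ j : Fin k, Fin (p ^ e j)) × (Fin r → Fin (p ^ n)) → 𝒪 =>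
          ∑ x : Fin rk × (∀ j : Fin k, Fin (p ^ e j)) × (Fin r → Fin (p ^ n)),
            f x • Fermat.Agent.S59.TWH.H90.mon c (fun j => (x.2.1 j : ℕ))
              (Fermat.Agent.S59.TWH.H90.mon d (fun i => (x.2.2 i : ℕ)) (b x.1))) →
    ∀ (π : V →ₗ[𝒪] M), Function.Surjective π →
      LinearMap.ker π = typeSub c (fun _ => (1 : 𝒪)) ⊔ ⨆ i, LinearMap.range (d i - 1) →
      (∀ (a : RQ) (v : V), π (fV a v) = τ a • π v) →
      (∀ f ∈ I1, ∀ v : V, fV (γ f) v ∈ typeSub c (fun _ => (1 : 𝒪))) →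
      (∀ f ∈ Iχ, ∀ v : V, fV (γ f) v ∈ typeSub c ψ) →
      Nonempty (PivotLevel 𝒪 r h T M ϖ I1 Iχ 𝔵 Ξ (twIdealP 𝒪 r p n) rk)

/-! ### Old forms: PV-OLD -/

open Fermat.Agent.S30 in
/-- **Interface to BAD_q (item 65), Steinberg primes, inertia invariants.**  The Tate piece of a
newform `g` of level `M` (as in `Fermat.Agent.S35.Stmt_TatePieceSt`) with, in addition: at a prime
`q ∥ M`, `q ≠ λ`, every vector fixed by an inertia group `I_A` over `q` satisfies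
`Frob² v = q² v` (the inertia invariants of the `q`-new part are the toric part, on which
Frobenius is `± q`). -/
def Stmt_TatePieceStI : Prop :=
  ∀ {M : ℕ} [NeZero M] {g : CuspForm (CongruenceSubgroup.Gamma0 M) 2} (_hg : g.IsNewform)
    (lam : ℕ) [Fact lam.Prime] (S : Finset ℕ)
    (O' : Type) [CommRing O'] [IsDomain O'] [IsDiscreteValuationRing O']
    [IsAdicComplete (IsLocalRing.maximalIdeal O') O'] [Finite (IsLocalRing.ResidueField O')]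
    [CharZero O'] (_hlamO' : (lam : O') ∈ IsLocalRing.maximalIdeal O')
    (chig : CuspForm.heckeAlgebra M 2 (↑S : Set ℕ) →+* ℂ)
    (_hchig : ∀ (ℓ : ℕ) (hℓ : ℓ.Prime) (hℓM : ¬ ℓ ∣ M) (hℓS : ℓ ∉ (↑S : Set ℕ)),
      chig (CuspForm.heckeAlgebra.T hℓ hℓM hℓS) = ModularFormClass.qCoeff g ℓ)
    (iota : chig.range →+* O')
    (_hlamS : lam ∈ S) (_hMS : ∀ q : ℕ, q.Prime → q ∣ M → q ∈ S),
    ∃ (r : ℕ) (ρ : Fermat.Agent.S30.GQ →* Matrix (Fin r) (Fin r) O'), 0 < r ∧ MatAdicCont ρ ∧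
      (∀ (ℓ : ℕ) (hℓ : ℓ.Prime) (hℓM : ¬ ℓ ∣ M) (hℓS : ℓ ∉ (↑S : Set ℕ)),
        ∀ A : ValuationSubring (AlgebraicClosure ℚ), A.LiesOverPrime ℓ →
          ∀ σ : Fermat.Agent.S30.GQ, A.IsFrobeniusAt σ ℓ →
            ρ σ * ρ σ - (iota.comp chig.rangeRestrict) (CuspForm.heckeAlgebra.T hℓ hℓM hℓS) • ρ σ
              + (ℓ : O') • (1 : Matrix _ _ O') = 0) ∧
      (∀ q : ℕ, q.Prime → q ≠ lam → q ∣ M → ¬ q ^ 2 ∣ M →
        ∀ A : ValuationSubring (AlgebraicClosure ℚ), A.LiesOverPrime q →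
          ∀ σ : Fermat.Agent.S30.GQ, A.IsFrobeniusAt σ q →
            ∀ v : Fin r → O', (∀ τ ∈ A.inertiaSubgroupIn ℚ, (ρ τ).mulVec v = v) →
              (ρ σ).mulVec ((ρ σ).mulVec v) = (q : O') ^ 2 • v)

/-- **PV-OLD.**  A characteristic-`0` point of a Hecke–Galois datum of level `N` at which the
representation is unramified at a prime `q ∥ N`, `q ≠ p`, comes (residually) from the level
`N / q`.  [Newform of the eigensystem: level `M_g ∣ N`; if `q ∣ M_g` then `Stmt_TatePieceStI`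
gives `Frob² = q²` on a two-dimensional unramified piece of determinant `q`: `q⁴ = q²`.] -/
def Stmt_PVOld : Prop :=
  ∀ (𝒪 : Type) [CommRing 𝒪] [IsDomain 𝒪] [IsDiscreteValuationRing 𝒪]
    [IsAdicComplete (maximalIdeal 𝒪) 𝒪] [Finite (ResidueField 𝒪)] [CharZero 𝒪]
    (p : ℕ) [Fact p.Prime], p ≠ 2 → (p : 𝒪) ∈ maximalIdeal 𝒪 →
    ∀ (N : ℕ) [NeZero N] (S : Finset ℕ), p ∈ S → (∀ q : ℕ, q.Prime → q ∣ N → q ∈ S) →
    ∀ (θ : CuspForm.heckeAlgebra N 2 (↑S : Set ℕ) →+* ResidueField 𝒪)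
      (T : Type) [CommRing T] [IsLocalRing T] [IsNoetherianRing T]
      [IsAdicComplete (maximalIdeal T) T] [Algebra 𝒪 T] [IsLocalHom (algebraMap 𝒪 T)]
      [Module.Finite 𝒪 T] [Module.Free 𝒪 T]
      (H : CuspForm.HeckeGaloisRepDatum N (↑S : Set ℕ) 𝒪 θ T), H.ρ.DetIsCyclotomic p →
    ∀ (q : ℕ), q.Prime → q ≠ p → q ∣ N → ¬ q ^ 2 ∣ N →
    ∀ (𝔱 : Ideal T), 𝔱.IsPrime → (p : T) ∉ 𝔱 →
      (∀ A : ValuationSubring (AlgebraicClosure ℚ), A.LiesOverPrime q →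
        ∀ σ ∈ A.inertiaSubgroupIn ℚ, ∀ v : H.ρ.V,
          H.ρ.ρ σ v - v ∈ (𝔱 • ⊤ : Submodule T H.ρ.V)) →
      ∀ [NeZero (N / q)], ∃ θ' : CuspForm.heckeAlgebra (N / q) 2 (↑S : Set ℕ) →+* ResidueField 𝒪,
        ∀ (ℓ : ℕ) (hℓ : ℓ.Prime) (hℓN : ¬ ℓ ∣ N) (hℓS : ℓ ∉ (↑S : Set ℕ)) (hℓN' : ¬ ℓ ∣ N / q),
          θ' (CuspForm.heckeAlgebra.T hℓ hℓN' hℓS) = θ (CuspForm.heckeAlgebra.T hℓ hℓN hℓS)

/-! ### The target -/

/-- **PIVOT, Hecke–Galois form.**  `ρbar` (absolutely irreducible, Taylor–Wiles condition,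
cyclotomic determinant) is modular of level `N1` (squarefree, prime to `p`; `θ`); `S` = `p`, the
primes where `ρbar` is ramified (`Smin`, all dividing `N1`) and the exceptional primes `Pv`
dividing `N1`; `𝒪` contains the `p`-power roots of unity of order dividing `q_j - 1`.
Then `ρbar` is modular of level `N1 / q_j` for every pivot prime `q_j`. -/
def Stmt_PivotCore : Prop :=
  ∀ (𝒪 : Type) [CommRing 𝒪] [IsDomain 𝒪] [IsDiscreteValuationRing 𝒪]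
    [IsAdicComplete (maximalIdeal 𝒪) 𝒪] [Finite (ResidueField 𝒪)] [CharZero 𝒪]
    (p : ℕ) [Fact p.Prime], 5 ≤ p →
    ∀ (ρbar : ResidualGaloisRep (ResidueField 𝒪)) (S Smin : Finset ℕ),
    Hyp 𝒪 p ρbar S Smin →
    ∀ (N1 : ℕ) [NeZero N1], Squarefree N1 → ¬ p ∣ N1 → (∀ q : ℕ, q.Prime → q ∣ N1 → q ∈ S) →
    ∀ (θ : CuspForm.heckeAlgebra N1 2 (↑S : Set ℕ) →+* ResidueField 𝒪),
      Fermat.Agent.S59.Datum.FrobHyp ρbar N1 S θ →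
    ∀ (k : ℕ) (Pv : PivotPrimes k), Pv.IsExceptional p ρbar → (∀ j, Pv.q j ∣ N1) →
      S = Smin ∪ Pv.set → (∀ q ∈ Smin, q ≠ p → q ∣ N1) →
      (∀ (j : Fin k) (e : ℕ), p ^ e ∣ Pv.q j - 1 → ∃ ζ : 𝒪, IsPrimitiveRoot ζ (p ^ e)) →
    ∀ (j : Fin k) [NeZero (N1 / Pv.q j)],
      ∃ θ' : CuspForm.heckeAlgebra (N1 / Pv.q j) 2 (↑S : Set ℕ) →+* ResidueField 𝒪,
        ∀ (ℓ : ℕ) (hℓ : ℓ.Prime) (hℓN : ¬ ℓ ∣ N1) (hℓS : ℓ ∉ (↑S : Set ℕ))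
          (hℓN' : ¬ ℓ ∣ N1 / Pv.q j),
          θ' (CuspForm.heckeAlgebra.T hℓ hℓN' hℓS) = θ (CuspForm.heckeAlgebra.T hℓ hℓN hℓS)

end Fermat.Agent.L.Pivot

end
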