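/-
PIVOT (item 66), package PV-END (helper3): the commutative-algebra endgame of Ihara avoidance.
Plan: NOTES/plan/L_PIVOT.md.  Pure algebra, Mathlib only, no Noetherian hypotheses.

Main result: `Fermat.Agent.L.Pivot.H3.pivot_endgame`.
Setting (after double patching): `S` the ring of Taylor-Wiles variables, a ring `P` acting on two
`S`-torsion-free finite modules `Mχ` and `M₁`, a prime `𝔞` of `P` killing `Mχ` with
`dim P/𝔞 ≤ d ≤ dim S` (the irreducible type-χ ring), primes `𝔵 ≤ 𝔮` of `P` (the unramified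
component and a point of its special fibre) and the comparison modulo `π`.
Conclusion: a prime `𝔯` in the support of `M₁`, on the component `𝔵`, over a given prime `𝔰` of `S`.
-/
import Mathlib

set_option autoImplicit false

namespace Fermat.Agent.L.Pivot.H3

open Ideal

section dim

variable {S B : Type*} [CommRing S] [CommRing B] [Algebra S B]

/-- An integral extension with injective structure map has at least the Krull dimension of the
base. -/
theorem ringKrullDim_le_of_isIntegral_of_injective [Algebra.IsIntegral S B]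
    (hinj : Function.Injective (algebraMap S B)) : ringKrullDim S ≤ ringKrullDim B := by
  unfold ringKrullDim Order.krullDim
  refine iSup_le fun l => ?_
  have hker : (⊥ : Ideal B).comap (algebraMap S B) ≤ l.head.asIdeal := by
    have : (⊥ : Ideal B).comap (algebraMap S B) = ⊥ := by
      rw [← RingHom.ker_eq_comap_bot]
      exact (RingHom.injective_iff_ker_eq_bot _).1 hinj
    rw [this]; exact bot_le
  obtain ⟨Q, -, hQ, hQl⟩ := Ideal.exists_ideal_over_prime_of_isIntegral l.head.asIdeal ⊥ hker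
  have : Q.IsPrime := hQ
  have : Q.LiesOver l.head.asIdeal := ⟨hQl.symm⟩
  obtain ⟨L, hL, -, -⟩ := Ideal.exists_ltSeries_of_hasGoingUp l Q
  rw [← hL]
  exact le_iSup (fun p : LTSeries (PrimeSpectrum B) => (p.length : WithBot ℕ∞)) L

end dim

section quot

variable {S P M : Type*} [CommRing S] [CommRing P] [Algebra S P]
  [AddCommGroup M] [Module S M] [Module P M] [IsScalarTower S P M]

/-- If `M` is a finite `S`-module and the ideal `I` of `P` contains the annihilator of `M`, then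
`P ⧸ I` is integral over `S` (Cayley-Hamilton). -/
theorem isIntegral_quotient_annihilator [Module.Finite S M] (I : Ideal P)
    (hI : Module.annihilator P M ≤ I) : Algebra.IsIntegral S (P ⧸ I) := by
  refine ⟨fun b => ?_⟩
  obtain ⟨x, rfl⟩ := Ideal.Quotient.mk_surjective b
  obtain ⟨p, hp, hpx⟩ := (Algebra.IsIntegral.isIntegral (R := S)
    ((Algebra.lsmul S S M : P →ₐ[S] Module.End S M) x))
  refine ⟨p, hp, ?_⟩
  have h1 : Polynomial.aeval x p ∈ Module.annihilator P M := by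
    rw [Module.mem_annihilator]
    intro m
    have := congrArg (fun f : Module.End S M => f m) hpx
    simp only [← Polynomial.aeval_def, Polynomial.aeval_algHom_apply] at this
    simpa using this
  have h2 : (Ideal.Quotient.mk I) (Polynomial.aeval x p) = 0 :=
    Ideal.Quotient.eq_zero_iff_mem.2 (hI h1)
  rw [← Polynomial.aeval_def]
  have h3 : Polynomial.aeval ((Ideal.Quotient.mkₐ S I) x) p
      = (Ideal.Quotient.mkₐ S I) (Polynomial.aeval x p) :=
    Polynomial.aeval_algHom_apply (Ideal.Quotient.mkₐ S I) x p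
  have h4 : Polynomial.aeval ((Ideal.Quotient.mk I) x) p
      = (Ideal.Quotient.mk I) (Polynomial.aeval x p) := h3
  rw [h4, h2]

/-- If `M ≠ 0` is `S`-torsion-free and `I` kills `M`, then `S → P ⧸ I` is injective. -/
theorem injective_algebraMap_quotient [Nontrivial M]
    (htf : ∀ (s : S) (m : M), s • m = 0 → s = 0 ∨ m = 0)
    (I : Ideal P) (hI : I ≤ Module.annihilator P M) :
    Function.Injective (algebraMap S (P ⧸ I)) := by
  rw [injective_iff_map_eq_zero]
  intro s hs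
  have h1 : algebraMap S P s ∈ I := by
    apply Ideal.Quotient.eq_zero_iff_mem.1
    rw [IsScalarTower.algebraMap_apply S P (P ⧸ I)] at hs
    exact hs
  have h2 := Module.mem_annihilator.1 (hI h1)
  obtain ⟨m, hm⟩ := exists_ne (0 : M)
  have h3 := h2 m
  rw [algebraMap_smul] at h3
  exact (htf s m h3).resolve_right hm

end quot

section main

variable {S P : Type*} [CommRing S] [CommRing P] [Algebra S P]

/-- A helper on `WithBot ℕ∞`. -/
theorem dim_absurd {b c : WithBot ℕ∞} {d : ℕ} (h1 : (d : WithBot ℕ∞) ≤ b) (h2 : b + 1 ≤ c)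
    (h3 : c ≤ d) : False := by
  have h4 : ((d : ℕ) : WithBot ℕ∞) + 1 ≤ d := (add_le_add_left h1 1).trans (h2.trans h3)
  have h5 : (((d + 1 : ℕ) : ℕ∞) : WithBot ℕ∞) ≤ ((d : ℕ∞) : WithBot ℕ∞) := by
    simpa using h4
  have h6 : ((d + 1 : ℕ) : ℕ∞) ≤ (d : ℕ∞) := WithBot.coe_le_coe.1 h5
  have h7 : d + 1 ≤ d := by exact_mod_cast h6
  omega

/-- **Faithfulness from dimension.**  A nonzero torsion-free finite `S`-module `M` with a
compatible action of `P`, killed by a prime `𝔞` with `dim P/𝔞 ≤ d ≤ dim S`, has annihilator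
exactly `𝔞`. -/
theorem annihilator_le_of_dim {M : Type*} [AddCommGroup M] [Module S M] [Module P M]
    [IsScalarTower S P M] [Module.Finite S M] [Nontrivial M]
    (htf : ∀ (s : S) (m : M), s • m = 0 → s = 0 ∨ m = 0)
    (d : ℕ) (hd : (d : WithBot ℕ∞) ≤ ringKrullDim S)
    (𝔞 : Ideal P) [𝔞.IsPrime] (h𝔞 : 𝔞 ≤ Module.annihilator P M)
    (hdim : ringKrullDim (P ⧸ 𝔞) ≤ d) :
    Module.annihilator P M ≤ 𝔞 := by
  by_contra hne
  obtain ⟨x, hxI, hx𝔞⟩ := SetLike.not_le_iff_exists.1 hne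
  have hint : Algebra.IsIntegral S (P ⧸ Module.annihilator P M) :=
    isIntegral_quotient_annihilator (S := S) (M := M) _ le_rfl
  have hinj := injective_algebraMap_quotient (S := S) (P := P) (M := M) htf
    (Module.annihilator P M) le_rfl
  have h1 : ringKrullDim S ≤ ringKrullDim (P ⧸ Module.annihilator P M) :=
    ringKrullDim_le_of_isIntegral_of_injective hinj
  have h2 : ringKrullDim (P ⧸ Module.annihilator P M) + 1 ≤ ringKrullDim (P ⧸ 𝔞) := by
    refine ringKrullDim_succ_le_of_surjective (Ideal.Quotient.factor h𝔞)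
      (Ideal.Quotient.factor_surjective h𝔞) (r := Ideal.Quotient.mk 𝔞 x) ?_ ?_
    · apply mem_nonZeroDivisors_of_ne_zero
      rwa [Ne, Ideal.Quotient.eq_zero_iff_mem]
    · rw [Ideal.Quotient.factor_mk]
      exact Ideal.Quotient.eq_zero_iff_mem.2 hxI
  exact dim_absurd (hd.trans h1) h2 hdim

/-- A minimal prime over the annihilator of a torsion-free module lies over `0`. -/
theorem comap_eq_bot_of_mem_minimalPrimes {M : Type*} [AddCommGroup M] [Module S M] [Module P M]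
    [IsScalarTower S P M]
    (htf : ∀ (s : S) (m : M), s • m = 0 → s = 0 ∨ m = 0)
    {𝔭 : Ideal P} (h𝔭 : 𝔭 ∈ (Module.annihilator P M).minimalPrimes) :
    𝔭.comap (algebraMap S P) = ⊥ := by
  rw [eq_bot_iff]
  intro s hs
  rw [Ideal.mem_comap] at hs
  rw [Ideal.mem_bot]
  by_contra hs0
  rw [Ideal.minimalPrimes_eq_comap] at h𝔭
  obtain ⟨𝔭', h𝔭', rfl⟩ := h𝔭
  have hmem : Ideal.Quotient.mk (Module.annihilator P M) (algebraMap S P s) ∈ 𝔭' := hs
  have hnzd : Ideal.Quotient.mk (Module.annihilator P M) (algebraMap S P s) ∈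
      nonZeroDivisors (P ⧸ Module.annihilator P M) := by
    rw [mem_nonZeroDivisors_iff_right]
    intro b hb
    obtain ⟨x, rfl⟩ := Ideal.Quotient.mk_surjective b
    rw [← map_mul, Ideal.Quotient.eq_zero_iff_mem, Module.mem_annihilator] at hb
    rw [Ideal.Quotient.eq_zero_iff_mem, Module.mem_annihilator]
    intro m
    have h1 := hb m
    rw [mul_smul, smul_comm, algebraMap_smul] at h1
    exact (htf s _ h1).resolve_left hs0
  exact Set.disjoint_left.1 (Ideal.disjoint_nonZeroDivisors_of_mem_minimalPrimes h𝔭') hmem hnzd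

/-- **PV-END: the endgame of Ihara avoidance.**

`S` : the ring of Taylor-Wiles variables (a domain of dimension `≥ d`), `𝔰` a prime of `S`
(the augmentation ideal), `P` : the ring acting (local lifting ring at the pivot prime with extra
variables), `Mχ`, `M₁` : the patched modules of type `χ` and of type `1`, finite and torsion-free
over `S`; `𝔞` : the (prime) kernel of `P → ` type-`χ` ring, of dimension `≤ d`;
`hcomp` : the comparison of `Mχ` and `M₁` modulo `π`;
`𝔵` : the unramified component, `𝔮` a point of its special fibre lying in the special fibre of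
the type-`χ` ring; `hdich` : near `𝔮` the support of `M₁` lies on the unramified component.

Conclusion: a prime `𝔯` in the support of `M₁`, on the unramified component, lying over `𝔰`. -/
theorem pivot_endgame
    {Mχ M₁ : Type*} [AddCommGroup Mχ] [Module S Mχ] [Module P Mχ] [IsScalarTower S P Mχ]
    [Module.Finite S Mχ] [Nontrivial Mχ]
    [AddCommGroup M₁] [Module S M₁] [Module P M₁] [IsScalarTower S P M₁] [Module.Finite S M₁]
    (htfχ : ∀ (s : S) (m : Mχ), s • m = 0 → s = 0 ∨ m = 0)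
    (htf₁ : ∀ (s : S) (m : M₁), s • m = 0 → s = 0 ∨ m = 0)
    (π : S) (𝔰 : Ideal S) [𝔰.IsPrime]
    (d : ℕ) (hd : (d : WithBot ℕ∞) ≤ ringKrullDim S)
    (𝔞 : Ideal P) [𝔞.IsPrime] (h𝔞 : 𝔞 ≤ Module.annihilator P Mχ)
    (h𝔞dim : ringKrullDim (P ⧸ 𝔞) ≤ d)
    (hcomp : Module.annihilator P (M₁ ⧸ (Ideal.span {algebraMap S P π} • ⊤ : Submodule P M₁))
      ≤ Module.annihilator P (Mχ ⧸ (Ideal.span {algebraMap S P π} • ⊤ : Submodule P Mχ)))
    (𝔮 𝔵 : Ideal P) [𝔮.IsPrime] [𝔵.IsPrime] (h𝔞𝔮 : 𝔞 ≤ 𝔮) (hπ𝔮 : algebraMap S P π ∈ 𝔮)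
    (h𝔵dim : ringKrullDim (P ⧸ 𝔵) ≤ d)
    (hdich : ∀ 𝔭 : Ideal P, 𝔭.IsPrime → Module.annihilator P M₁ ≤ 𝔭 → 𝔭 ≤ 𝔮 → 𝔵 ≤ 𝔭) :
    ∃ 𝔯 : Ideal P, 𝔯.IsPrime ∧ Module.annihilator P M₁ ≤ 𝔯 ∧ 𝔵 ≤ 𝔯 ∧
      𝔯.comap (algebraMap S P) = 𝔰 := by
  have hfinχ : Module.Finite P Mχ := Module.Finite.of_restrictScalars_finite S P Mχ
  -- Step 1: `Mχ` is faithful over `P ⧸ 𝔞`
  have hAχ : Module.annihilator P Mχ ≤ 𝔞 := annihilator_le_of_dim htfχ d hd 𝔞 h𝔞 h𝔞dim
  -- Step 2: `𝔮` is in the support of `Mχ / π`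
  have hq1 : (⟨𝔮, inferInstance⟩ : PrimeSpectrum P) ∈ Module.support P Mχ := by
    rw [Module.support_eq_zeroLocus, PrimeSpectrum.mem_zeroLocus]
    exact hAχ.trans h𝔞𝔮
  have hq2 : (⟨𝔮, inferInstance⟩ : PrimeSpectrum P) ∈
      PrimeSpectrum.zeroLocus (Ideal.span {algebraMap S P π} : Set P) := by
    rw [PrimeSpectrum.mem_zeroLocus]
    intro x hx
    exact (Ideal.span_singleton_le_iff_mem (I := 𝔮)).2 hπ𝔮 hx
  have hq3 : (⟨𝔮, inferInstance⟩ : PrimeSpectrum P) ∈
      Module.support P (Mχ ⧸ (Ideal.span {algebraMap S P π} • ⊤ : Submodule P Mχ)) := by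
    rw [Module.support_quotient]
    exact ⟨hq1, hq2⟩
  have hq4 : Module.annihilator P (Mχ ⧸ (Ideal.span {algebraMap S P π} • ⊤ : Submodule P Mχ))
      ≤ 𝔮 := by
    rw [Module.support_eq_zeroLocus, PrimeSpectrum.mem_zeroLocus] at hq3
    exact hq3
  -- Step 3: transfer to `M₁`
  have hA₁𝔮 : Module.annihilator P M₁ ≤ 𝔮 :=
    ((LinearMap.annihilator_le_of_surjective _ (Submodule.mkQ_surjective
      (Ideal.span {algebraMap S P π} • ⊤ : Submodule P M₁))).trans hcomp).trans hq4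
  -- Step 4: a minimal prime of the support of `M₁` below `𝔮`
  obtain ⟨𝔭, h𝔭min, h𝔭𝔮⟩ := Ideal.exists_minimalPrimes_le hA₁𝔮
  have h𝔭prime : 𝔭.IsPrime := h𝔭min.1.1
  have hA₁𝔭 : Module.annihilator P M₁ ≤ 𝔭 := h𝔭min.1.2
  have h𝔵𝔭 : 𝔵 ≤ 𝔭 := hdich 𝔭 h𝔭prime hA₁𝔭 h𝔭𝔮
  -- Step 5: `𝔭` lies over `0`, so `dim P/𝔭 ≥ d`
  have h𝔭bot : 𝔭.comap (algebraMap S P) = ⊥ := comap_eq_bot_of_mem_minimalPrimes htf₁ h𝔭min
  have hinj𝔭 : Function.Injective (algebraMap S (P ⧸ 𝔭)) := by
    rw [injective_iff_map_eq_zero]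
    intro s hs
    rw [IsScalarTower.algebraMap_apply S P (P ⧸ 𝔭), Ideal.Quotient.algebraMap_eq,
      Ideal.Quotient.eq_zero_iff_mem] at hs
    have : s ∈ 𝔭.comap (algebraMap S P) := hs
    rwa [h𝔭bot, Ideal.mem_bot] at this
  have hint𝔭 : Algebra.IsIntegral S (P ⧸ 𝔭) :=
    isIntegral_quotient_annihilator (S := S) (M := M₁) 𝔭 hA₁𝔭
  have hdim𝔭 : ringKrullDim S ≤ ringKrullDim (P ⧸ 𝔭) :=
    ringKrullDim_le_of_isIntegral_of_injective hinj𝔭
  -- Step 6: `𝔭 = 𝔵`
  have h𝔭𝔵 : 𝔭 ≤ 𝔵 := by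
    by_contra hne
    obtain ⟨x, hx𝔭, hx𝔵⟩ := SetLike.not_le_iff_exists.1 hne
    have h2 : ringKrullDim (P ⧸ 𝔭) + 1 ≤ ringKrullDim (P ⧸ 𝔵) := by
      refine ringKrullDim_succ_le_of_surjective (Ideal.Quotient.factor h𝔵𝔭)
        (Ideal.Quotient.factor_surjective h𝔵𝔭) (r := Ideal.Quotient.mk 𝔵 x) ?_ ?_
      · apply mem_nonZeroDivisors_of_ne_zero
        rwa [Ne, Ideal.Quotient.eq_zero_iff_mem]
      · rw [Ideal.Quotient.factor_mk]
        exact Ideal.Quotient.eq_zero_iff_mem.2 hx𝔭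
    exact dim_absurd (hd.trans hdim𝔭) h2 h𝔵dim
  have h𝔭eq : 𝔭 = 𝔵 := le_antisymm h𝔭𝔵 h𝔵𝔭
  subst h𝔭eq
  -- Step 7: lying over `𝔰`
  have hker : (⊥ : Ideal (P ⧸ 𝔭)).comap (algebraMap S (P ⧸ 𝔭)) ≤ 𝔰 := by
    have : (⊥ : Ideal (P ⧸ 𝔭)).comap (algebraMap S (P ⧸ 𝔭)) = ⊥ := by
      rw [← RingHom.ker_eq_comap_bot]
      exact (RingHom.injective_iff_ker_eq_bot _).1 hinj𝔭
    rw [this]; exact bot_le
  obtain ⟨Q, -, hQ, hQ𝔰⟩ := Ideal.exists_ideal_over_prime_of_isIntegral 𝔰 ⊥ hker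
  refine ⟨Q.comap (Ideal.Quotient.mk 𝔭), Ideal.comap_isPrime _ _, ?_, ?_, ?_⟩
  · refine hA₁𝔭.trans ?_
    intro x hx
    rw [Ideal.mem_comap, Ideal.Quotient.eq_zero_iff_mem.2 hx]
    exact Q.zero_mem
  · intro x hx
    rw [Ideal.mem_comap, Ideal.Quotient.eq_zero_iff_mem.2 hx]
    exact Q.zero_mem
  · rw [← hQ𝔰, Ideal.comap_comap]
    rfl

end main

end Fermat.Agent.L.Pivot.H3
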