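/-
PIVOT (item 66), package PV-END, second part (helper3): the endgame of Ihara avoidance with
SEVERAL inertial types on the ramified side (helper84's simplification: only "not unipotent" is
known for the ramified-type module, so its support is a union of components `V(𝔞 i)`,
one for each type `i`, all with the same special fibre).

Main results: `pivot_endgame_core` (hypothesis: `𝔮` is in the support of `Mχ`) and
`pivot_endgame_multi` (a finite family of primes `𝔞 i` whose intersection kills `Mχ`).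
-/
import Fermat.Agent.L.Pivot.H3_End

set_option autoImplicit false

namespace Fermat.Agent.L.Pivot.H3

open Ideal

section main2

variable {S P : Type*} [CommRing S] [CommRing P] [Algebra S P]

/-- Core of the endgame: as `pivot_endgame`, but assuming directly that `𝔮` lies in the support
of `Mχ`. -/
theorem pivot_endgame_core
    {Mχ M₁ : Type*} [AddCommGroup Mχ] [Module S Mχ] [Module P Mχ] [IsScalarTower S P Mχ]
    [Module.Finite S Mχ]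
    [AddCommGroup M₁] [Module S M₁] [Module P M₁] [IsScalarTower S P M₁] [Module.Finite S M₁]
    (htf₁ : ∀ (s : S) (m : M₁), s • m = 0 → s = 0 ∨ m = 0)
    (π : S) (𝔰 : Ideal S) [𝔰.IsPrime]
    (d : ℕ) (hd : (d : WithBot ℕ∞) ≤ ringKrullDim S)
    (hcomp : Module.annihilator P (M₁ ⧸ (Ideal.span {algebraMap S P π} • ⊤ : Submodule P M₁))
      ≤ Module.annihilator P (Mχ ⧸ (Ideal.span {algebraMap S P π} • ⊤ : Submodule P Mχ)))
    (𝔮 𝔵 : Ideal P) [𝔮.IsPrime] [𝔵.IsPrime]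
    (hχ𝔮 : Module.annihilator P Mχ ≤ 𝔮) (hπ𝔮 : algebraMap S P π ∈ 𝔮)
    (h𝔵dim : ringKrullDim (P ⧸ 𝔵) ≤ d)
    (hdich : ∀ 𝔭 : Ideal P, 𝔭.IsPrime → Module.annihilator P M₁ ≤ 𝔭 → 𝔭 ≤ 𝔮 → 𝔵 ≤ 𝔭) :
    ∃ 𝔯 : Ideal P, 𝔯.IsPrime ∧ Module.annihilator P M₁ ≤ 𝔯 ∧ 𝔵 ≤ 𝔯 ∧
      𝔯.comap (algebraMap S P) = 𝔰 := by
  have hfinχ : Module.Finite P Mχ := Module.Finite.of_restrictScalars_finite S P Mχ
  have hq1 : (⟨𝔮, inferInstance⟩ : PrimeSpectrum P) ∈ Module.support P Mχ := by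
    rw [Module.support_eq_zeroLocus, PrimeSpectrum.mem_zeroLocus]
    exact hχ𝔮
  have hq2 : (⟨𝔮, inferInstance⟩ : PrimeSpectrum P) ∈
      PrimeSpectrum.zeroLocus (Ideal.span {algebraMap S P π} : Set P) := by
    rw [PrimeSpectrum.mem_zeroLocus]
    intro x hx
    exact (Ideal.span_singleton_le_iff_mem (I := 𝔮)).2 hπ𝔮 hx
  have hq3 : (⟨𝔮, inferInstance⟩ : PrimeSpectrum P) ∈
      Module.support P (Mχ ⧸ (Ideal.span {algebraMap S P π} • ⊤ : Submodule P Mχ)) := by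
    rw [Module.support_quotient]
    exact ⟨hq1, hq2⟩
  have hq4 : Module.annihilator P (Mχ ⧸ (Ideal.span {algebraMap S P π} • ⊤ : Submodule P Mχ))
      ≤ 𝔮 := by
    rw [Module.support_eq_zeroLocus, PrimeSpectrum.mem_zeroLocus] at hq3
    exact hq3
  have hA₁𝔮 : Module.annihilator P M₁ ≤ 𝔮 :=
    ((LinearMap.annihilator_le_of_surjective _ (Submodule.mkQ_surjective
      (Ideal.span {algebraMap S P π} • ⊤ : Submodule P M₁))).trans hcomp).trans hq4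
  obtain ⟨𝔭, h𝔭min, h𝔭𝔮⟩ := Ideal.exists_minimalPrimes_le hA₁𝔮
  have h𝔭prime : 𝔭.IsPrime := h𝔭min.1.1
  have hA₁𝔭 : Module.annihilator P M₁ ≤ 𝔭 := h𝔭min.1.2
  have h𝔵𝔭 : 𝔵 ≤ 𝔭 := hdich 𝔭 h𝔭prime hA₁𝔭 h𝔭𝔮
  have h𝔭bot : 𝔭.comap (algebraMap S P) = ⊥ := comap_eq_bot_of_mem_minimalPrimes htf₁ h𝔭min
  have hinj𝔭 : Function.Injective (algebraMap S (P ⧸ 𝔭)) := by
    rw [injective_iff_map_eq_zero]
    intro s hs
    rw [IsScalarTower.algebraMap_apply S P (P ⧸ 𝔭), Ideal.Quotient.algebraMap_eq,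
      Ideal.Quotient.eq_zero_iff_mem] at hs
    have : s ∈ 𝔭.comap (algebraMap S P) := hs
    rwa [h𝔭bot, Ideal.mem_bot] at this
  have hint𝔭 : Algebra.IsIntegral S (P ⧸ 𝔭) :=
    isIntegral_quotient_annihilator (S := S) (M := M₁) 𝔭 hA₁𝔭
  have hdim𝔭 : ringKrullDim S ≤ ringKrullDim (P ⧸ 𝔭) :=
    ringKrullDim_le_of_isIntegral_of_injective hinj𝔭
  have h𝔭𝔵 : 𝔭 ≤ 𝔵 := by
    by_contra hne
    obtain ⟨x, hx𝔭, hx𝔵⟩ := SetLike.not_le_iff_exists.1 hne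
    have h2 : ringKrullDim (P ⧸ 𝔭) + 1 ≤ ringKrullDim (P ⧸ 𝔵) := by
      refine ringKrullDim_succ_le_of_surjective (Ideal.Quotient.factor h𝔵𝔭)
        (Ideal.Quotient.factor_surjective h𝔵𝔭) (r := Ideal.Quotient.mk 𝔵 x) ?_ ?_
      · apply mem_nonZeroDivisors_of_ne_zero
        rwa [Ne, Ideal.Quotient.eq_zero_iff_mem]
      · rw [Ideal.Quotient.factor_mk]
        exact Ideal.Quotient.eq_zero_iff_mem.2 hx𝔭
    exact dim_absurd (hd.trans hdim𝔭) h2 h𝔵dim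
  have h𝔭eq : 𝔭 = 𝔵 := le_antisymm h𝔭𝔵 h𝔵𝔭
  subst h𝔭eq
  have hker : (⊥ : Ideal (P ⧸ 𝔭)).comap (algebraMap S (P ⧸ 𝔭)) ≤ 𝔰 := by
    have : (⊥ : Ideal (P ⧸ 𝔭)).comap (algebraMap S (P ⧸ 𝔭)) = ⊥ := by
      rw [← RingHom.ker_eq_comap_bot]
      exact (RingHom.injective_iff_ker_eq_bot _).1 hinj𝔭
    rw [this]; exact bot_le
  obtain ⟨Q, -, hQ, hQ𝔰⟩ := Ideal.exists_ideal_over_prime_of_isIntegral 𝔰 ⊥ hker
  refine ⟨Q.comap (Ideal.Quotient.mk 𝔭), Ideal.comap_isPrime _ _, ?_, ?_, ?_⟩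
  · refine hA₁𝔭.trans ?_
    intro x hx
    rw [Ideal.mem_comap, Ideal.Quotient.eq_zero_iff_mem.2 hx]
    exact Q.zero_mem
  · intro x hx
    rw [Ideal.mem_comap, Ideal.Quotient.eq_zero_iff_mem.2 hx]
    exact Q.zero_mem
  · rw [← hQ𝔰, Ideal.comap_comap]
    rfl

/-- **Support of the ramified-type module.**  A nonzero torsion-free finite `S`-module `M` with
a compatible action of `P`, killed by the intersection of finitely many primes `𝔞 i` with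
`dim P/𝔞 i ≤ d ≤ dim S`: some `𝔞 i` contains the annihilator of `M`
(i.e. `V(𝔞 i)` lies in the support). -/
theorem exists_annihilator_le_of_inf {M : Type*} [AddCommGroup M] [Module S M] [Module P M]
    [IsScalarTower S P M] [Module.Finite S M] [Nontrivial M]
    (htf : ∀ (s : S) (m : M), s • m = 0 → s = 0 ∨ m = 0)
    (d : ℕ) (hd : (d : WithBot ℕ∞) ≤ ringKrullDim S)
    {ι : Type*} (t : Finset ι) (𝔞 : ι → Ideal P) (h𝔞prime : ∀ i ∈ t, (𝔞 i).IsPrime)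
    (h𝔞 : t.inf 𝔞 ≤ Module.annihilator P M)
    (hdim : ∀ i ∈ t, ringKrullDim (P ⧸ 𝔞 i) ≤ d) :
    ∃ i ∈ t, Module.annihilator P M ≤ 𝔞 i := by
  have hne : Module.annihilator P M ≠ ⊤ := by
    intro h
    obtain ⟨m, hm⟩ := exists_ne (0 : M)
    have h1 : (1 : P) ∈ Module.annihilator P M := by rw [h]; trivial
    have := Module.mem_annihilator.1 h1 m
    rw [one_smul] at this
    exact hm this
  obtain ⟨𝔪, h𝔪max, h𝔪⟩ := Ideal.exists_le_maximal _ hne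
  have : 𝔪.IsPrime := h𝔪max.isPrime
  obtain ⟨𝔭, h𝔭min, -⟩ := Ideal.exists_minimalPrimes_le h𝔪
  have h𝔭prime : 𝔭.IsPrime := h𝔭min.1.1
  have hA𝔭 : Module.annihilator P M ≤ 𝔭 := h𝔭min.1.2
  obtain ⟨i, hi, hi𝔭⟩ := (Ideal.IsPrime.inf_le' h𝔭prime).1 (h𝔞.trans hA𝔭)
  refine ⟨i, hi, ?_⟩
  have hprime_i : (𝔞 i).IsPrime := h𝔞prime i hi
  have h𝔭bot : 𝔭.comap (algebraMap S P) = ⊥ := comap_eq_bot_of_mem_minimalPrimes htf h𝔭min
  have hinj𝔭 : Function.Injective (algebraMap S (P ⧸ 𝔭)) := by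
    rw [injective_iff_map_eq_zero]
    intro s hs
    rw [IsScalarTower.algebraMap_apply S P (P ⧸ 𝔭), Ideal.Quotient.algebraMap_eq,
      Ideal.Quotient.eq_zero_iff_mem] at hs
    have : s ∈ 𝔭.comap (algebraMap S P) := hs
    rwa [h𝔭bot, Ideal.mem_bot] at this
  have hint𝔭 : Algebra.IsIntegral S (P ⧸ 𝔭) :=
    isIntegral_quotient_annihilator (S := S) (M := M) 𝔭 hA𝔭
  have hdim𝔭 : ringKrullDim S ≤ ringKrullDim (P ⧸ 𝔭) :=
    ringKrullDim_le_of_isIntegral_of_injective hinj𝔭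
  have h𝔭le : 𝔭 ≤ 𝔞 i := by
    by_contra hne'
    obtain ⟨x, hx𝔭, hx𝔞⟩ := SetLike.not_le_iff_exists.1 hne'
    have h2 : ringKrullDim (P ⧸ 𝔭) + 1 ≤ ringKrullDim (P ⧸ 𝔞 i) := by
      refine ringKrullDim_succ_le_of_surjective (Ideal.Quotient.factor hi𝔭)
        (Ideal.Quotient.factor_surjective hi𝔭) (r := Ideal.Quotient.mk (𝔞 i) x) ?_ ?_
      · apply mem_nonZeroDivisors_of_ne_zero
        rwa [Ne, Ideal.Quotient.eq_zero_iff_mem]
      · rw [Ideal.Quotient.factor_mk]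
        exact Ideal.Quotient.eq_zero_iff_mem.2 hx𝔭
    exact dim_absurd (hd.trans hdim𝔭) h2 (hdim i hi)
  exact hA𝔭.trans h𝔭le

/-- **PV-END, several types.**  As `pivot_endgame`, with the single prime `𝔞` replaced by a
finite family of primes `𝔞 i` (one for each inertial type different from the unipotent one),
each of dimension `≤ d` and each contained in `𝔮`, whose intersection kills `Mχ`. -/
theorem pivot_endgame_multi
    {Mχ M₁ : Type*} [AddCommGroup Mχ] [Module S Mχ] [Module P Mχ] [IsScalarTower S P Mχ]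
    [Module.Finite S Mχ] [Nontrivial Mχ]
    [AddCommGroup M₁] [Module S M₁] [Module P M₁] [IsScalarTower S P M₁] [Module.Finite S M₁]
    (htfχ : ∀ (s : S) (m : Mχ), s • m = 0 → s = 0 ∨ m = 0)
    (htf₁ : ∀ (s : S) (m : M₁), s • m = 0 → s = 0 ∨ m = 0)
    (π : S) (𝔰 : Ideal S) [𝔰.IsPrime]
    (d : ℕ) (hd : (d : WithBot ℕ∞) ≤ ringKrullDim S)
    {ι : Type*} (t : Finset ι) (𝔞 : ι → Ideal P) (h𝔞prime : ∀ i ∈ t, (𝔞 i).IsPrime)
    (h𝔞 : t.inf 𝔞 ≤ Module.annihilator P Mχ)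
    (h𝔞dim : ∀ i ∈ t, ringKrullDim (P ⧸ 𝔞 i) ≤ d)
    (hcomp : Module.annihilator P (M₁ ⧸ (Ideal.span {algebraMap S P π} • ⊤ : Submodule P M₁))
      ≤ Module.annihilator P (Mχ ⧸ (Ideal.span {algebraMap S P π} • ⊤ : Submodule P Mχ)))
    (𝔮 𝔵 : Ideal P) [𝔮.IsPrime] [𝔵.IsPrime] (h𝔞𝔮 : ∀ i ∈ t, 𝔞 i ≤ 𝔮)
    (hπ𝔮 : algebraMap S P π ∈ 𝔮)
    (h𝔵dim : ringKrullDim (P ⧸ 𝔵) ≤ d)
    (hdich : ∀ 𝔭 : Ideal P, 𝔭.IsPrime → Module.annihilator P M₁ ≤ 𝔭 → 𝔭 ≤ 𝔮 → 𝔵 ≤ 𝔭) :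
    ∃ 𝔯 : Ideal P, 𝔯.IsPrime ∧ Module.annihilator P M₁ ≤ 𝔯 ∧ 𝔵 ≤ 𝔯 ∧
      𝔯.comap (algebraMap S P) = 𝔰 := by
  obtain ⟨i, hi, hAi⟩ := exists_annihilator_le_of_inf htfχ d hd t 𝔞 h𝔞prime h𝔞 h𝔞dim
  exact pivot_endgame_core htf₁ π 𝔰 d hd hcomp 𝔮 𝔵 (hAi.trans (h𝔞𝔮 i hi)) hπ𝔮 h𝔵dim hdich

end main2

end Fermat.Agent.L.Pivot.H3
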