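/-
PIVOT (item 66), package PV-END, third part (helper3): the endgame WITHOUT any dimension
hypothesis on the unramified component (it is not needed: a minimal prime of the support of `M₁`
containing `𝔵` already has a prime over `𝔰` above it, by lying over).
-/
import Fermat.Agent.L.Pivot.H3_End2

set_option autoImplicit false

namespace Fermat.Agent.L.Pivot.H3

open Ideal

section main3

variable {S P : Type*} [CommRing S] [CommRing P] [Algebra S P]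

/-- Core of the endgame, final form: `𝔮` a prime in the support of `Mχ` containing `π`; near `𝔮`
the support of `M₁` lies in `V(𝔵)` (`𝔵` any ideal).  Then there is a prime in the support of `M₁`,
containing `𝔵`, over any given prime `𝔰` of `S`. -/
theorem pivot_endgame_core'
    {Mχ M₁ : Type*} [AddCommGroup Mχ] [Module S Mχ] [Module P Mχ] [IsScalarTower S P Mχ]
    [Module.Finite S Mχ]
    [AddCommGroup M₁] [Module S M₁] [Module P M₁] [IsScalarTower S P M₁] [Module.Finite S M₁]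
    (htf₁ : ∀ (s : S) (m : M₁), s • m = 0 → s = 0 ∨ m = 0)
    (π : S) (𝔰 : Ideal S) [𝔰.IsPrime]
    (hcomp : Module.annihilator P (M₁ ⧸ (Ideal.span {algebraMap S P π} • ⊤ : Submodule P M₁))
      ≤ Module.annihilator P (Mχ ⧸ (Ideal.span {algebraMap S P π} • ⊤ : Submodule P Mχ)))
    (𝔮 𝔵 : Ideal P) [𝔮.IsPrime]
    (hχ𝔮 : Module.annihilator P Mχ ≤ 𝔮) (hπ𝔮 : algebraMap S P π ∈ 𝔮)
    (hdich : ∀ 𝔭 : Ideal P, 𝔭.IsPrime → Module.annihilator P M₁ ≤ 𝔭 → 𝔭 ≤ 𝔮 → 𝔵 ≤ 𝔭) :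
    ∃ 𝔯 : Ideal P, 𝔯.IsPrime ∧ Module.annihilator P M₁ ≤ 𝔯 ∧ 𝔵 ≤ 𝔯 ∧
      𝔯.comap (algebraMap S P) = 𝔰 := by
  have hfinχ : Module.Finite P Mχ := Module.Finite.of_restrictScalars_finite S P Mχ
  have hq1 : (⟨𝔮, inferInstance⟩ : PrimeSpectrum P) ∈ Module.support P Mχ := by
    rw [Module.support_eq_zeroLocus, PrimeSpectrum.mem_zeroLocus]
    exact hχ𝔮
  have hq2 : (⟨𝔮, inferInstance⟩ : PrimeSpectrum P) ∈
      PrimeSpectrum.zeroLocus (Ideal.span {algebraMap S P π} : Set P) := by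
    rw [PrimeSpectrum.mem_zeroLocus]
    intro x hx
    exact (Ideal.span_singleton_le_iff_mem (I := 𝔮)).2 hπ𝔮 hx
  have hq3 : (⟨𝔮, inferInstance⟩ : PrimeSpectrum P) ∈
      Module.support P (Mχ ⧸ (Ideal.span {algebraMap S P π} • ⊤ : Submodule P Mχ)) := by
    rw [Module.support_quotient]
    exact ⟨hq1, hq2⟩
  have hq4 : Module.annihilator P (Mχ ⧸ (Ideal.span {algebraMap S P π} • ⊤ : Submodule P Mχ))
      ≤ 𝔮 := by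
    rw [Module.support_eq_zeroLocus, PrimeSpectrum.mem_zeroLocus] at hq3
    exact hq3
  have hA₁𝔮 : Module.annihilator P M₁ ≤ 𝔮 :=
    ((LinearMap.annihilator_le_of_surjective _ (Submodule.mkQ_surjective
      (Ideal.span {algebraMap S P π} • ⊤ : Submodule P M₁))).trans hcomp).trans hq4
  obtain ⟨𝔭, h𝔭min, h𝔭𝔮⟩ := Ideal.exists_minimalPrimes_le hA₁𝔮
  have h𝔭prime : 𝔭.IsPrime := h𝔭min.1.1
  have hA₁𝔭 : Module.annihilator P M₁ ≤ 𝔭 := h𝔭min.1.2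
  have h𝔵𝔭 : 𝔵 ≤ 𝔭 := hdich 𝔭 h𝔭prime hA₁𝔭 h𝔭𝔮
  have h𝔭bot : 𝔭.comap (algebraMap S P) = ⊥ := comap_eq_bot_of_mem_minimalPrimes htf₁ h𝔭min
  have hinj𝔭 : Function.Injective (algebraMap S (P ⧸ 𝔭)) := by
    rw [injective_iff_map_eq_zero]
    intro s hs
    rw [IsScalarTower.algebraMap_apply S P (P ⧸ 𝔭), Ideal.Quotient.algebraMap_eq,
      Ideal.Quotient.eq_zero_iff_mem] at hs
    have : s ∈ 𝔭.comap (algebraMap S P) := hs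
    rwa [h𝔭bot, Ideal.mem_bot] at this
  have hint𝔭 : Algebra.IsIntegral S (P ⧸ 𝔭) :=
    isIntegral_quotient_annihilator (S := S) (M := M₁) 𝔭 hA₁𝔭
  have hker : (⊥ : Ideal (P ⧸ 𝔭)).comap (algebraMap S (P ⧸ 𝔭)) ≤ 𝔰 := by
    have : (⊥ : Ideal (P ⧸ 𝔭)).comap (algebraMap S (P ⧸ 𝔭)) = ⊥ := by
      rw [← RingHom.ker_eq_comap_bot]
      exact (RingHom.injective_iff_ker_eq_bot _).1 hinj𝔭
    rw [this]; exact bot_le
  obtain ⟨Q, -, hQ, hQ𝔰⟩ := Ideal.exists_ideal_over_prime_of_isIntegral 𝔰 ⊥ hker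
  have h𝔭Q : 𝔭 ≤ Q.comap (Ideal.Quotient.mk 𝔭) := by
    intro x hx
    rw [Ideal.mem_comap, Ideal.Quotient.eq_zero_iff_mem.2 hx]
    exact Q.zero_mem
  refine ⟨Q.comap (Ideal.Quotient.mk 𝔭), Ideal.comap_isPrime _ _, hA₁𝔭.trans h𝔭Q,
    h𝔵𝔭.trans h𝔭Q, ?_⟩
  rw [← hQ𝔰, Ideal.comap_comap]
  rfl

/-- **PV-END, final form**: several ramified types `𝔞 i`, no hypothesis on `𝔵`. -/
theorem pivot_endgame_multi'
    {Mχ M₁ : Type*} [AddCommGroup Mχ] [Module S Mχ] [Module P Mχ] [IsScalarTower S P Mχ]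
    [Module.Finite S Mχ] [Nontrivial Mχ]
    [AddCommGroup M₁] [Module S M₁] [Module P M₁] [IsScalarTower S P M₁] [Module.Finite S M₁]
    (htfχ : ∀ (s : S) (m : Mχ), s • m = 0 → s = 0 ∨ m = 0)
    (htf₁ : ∀ (s : S) (m : M₁), s • m = 0 → s = 0 ∨ m = 0)
    (π : S) (𝔰 : Ideal S) [𝔰.IsPrime]
    (d : ℕ) (hd : (d : WithBot ℕ∞) ≤ ringKrullDim S)
    {ι : Type*} (t : Finset ι) (𝔞 : ι → Ideal P) (h𝔞prime : ∀ i ∈ t, (𝔞 i).IsPrime)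
    (h𝔞 : t.inf 𝔞 ≤ Module.annihilator P Mχ)
    (h𝔞dim : ∀ i ∈ t, ringKrullDim (P ⧸ 𝔞 i) ≤ d)
    (hcomp : Module.annihilator P (M₁ ⧸ (Ideal.span {algebraMap S P π} • ⊤ : Submodule P M₁))
      ≤ Module.annihilator P (Mχ ⧸ (Ideal.span {algebraMap S P π} • ⊤ : Submodule P Mχ)))
    (𝔮 𝔵 : Ideal P) [𝔮.IsPrime] (h𝔞𝔮 : ∀ i ∈ t, 𝔞 i ≤ 𝔮)
    (hπ𝔮 : algebraMap S P π ∈ 𝔮)
    (hdich : ∀ 𝔭 : Ideal P, 𝔭.IsPrime → Module.annihilator P M₁ ≤ 𝔭 → 𝔭 ≤ 𝔮 → 𝔵 ≤ 𝔭) :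
    ∃ 𝔯 : Ideal P, 𝔯.IsPrime ∧ Module.annihilator P M₁ ≤ 𝔯 ∧ 𝔵 ≤ 𝔯 ∧
      𝔯.comap (algebraMap S P) = 𝔰 := by
  obtain ⟨i, hi, hAi⟩ := exists_annihilator_le_of_inf htfχ d hd t 𝔞 h𝔞prime h𝔞 h𝔞dim
  exact pivot_endgame_core' htf₁ π 𝔰 hcomp 𝔮 𝔵 (hAi.trans (h𝔞𝔮 i hi)) hπ𝔮 hdich

/-- The dichotomy from relations `e • x = 0`, `e ∉ 𝔮`. -/
theorem dich_of_rel {I1 𝔮 𝔵 : Ideal P} {κ : Type*} (e x : κ → P)
    (h𝔵 : 𝔵 ≤ Ideal.span (Set.range x)) (hI1 : ∀ a, e a * x a ∈ I1) (he : ∀ a, e a ∉ 𝔮)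
    (𝔭 : Ideal P) (h𝔭 : 𝔭.IsPrime) (hI : I1 ≤ 𝔭) (hle : 𝔭 ≤ 𝔮) : 𝔵 ≤ 𝔭 := by
  refine h𝔵.trans ?_
  rw [Ideal.span_le]
  rintro _ ⟨a, rfl⟩
  rcases h𝔭.mem_or_mem (hI (hI1 a)) with h | h
  · exact absurd (hle h) (he a)
  · exact h

end main3

end Fermat.Agent.L.Pivot.H3
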