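/-
PIVOT (item 66), package PV-ABS (helper3): from a PIVOT patching level with trivial relation
ideal (the output of PV-PATCH) and the local algebra (PV-LOC) to a characteristic-zero point of
the Hecke ring `T` of unipotent type at which the representation is UNRAMIFIED at the pivot
prime.  Uses `pivot_endgame_multi` (PV-END).
-/
import Fermat.Agent.L.Pivot.Defs
import Fermat.Agent.L.Pivot.H3_End3
import Fermat.Agent.S59.Patch.Level

set_option autoImplicit false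
set_option linter.style.haveILetI false
set_option linter.unusedSectionVars false

namespace Fermat.Agent.L.Pivot.H3

open MvPowerSeries Fermat.Agent.L.Pivot

section Abs

variable {𝒪 : Type} [CommRing 𝒪] [IsDomain 𝒪] [IsLocalRing 𝒪]
  {r h : ℕ} {T : Type} [CommRing T] [Algebra 𝒪 T]
  {M : Type} [AddCommGroup M] [Module T M]
  {ϖ : 𝒪} {I1 Iχ 𝔵 : Ideal (MvPowerSeries (Fin h) 𝒪)} {Ξ : Ideal T} {d : ℕ}

/-- The augmentation ideal of `𝒪⟦s₁..s_r⟧` is prime. -/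
theorem span_range_X_isPrime :
    (Ideal.span (Set.range fun i : Fin r => (X i : MvPowerSeries (Fin r) 𝒪))).IsPrime := by
  have h : Ideal.span (Set.range fun i : Fin r => (X i : MvPowerSeries (Fin r) 𝒪)) =
      RingHom.ker (constantCoeff : MvPowerSeries (Fin r) 𝒪 →+* 𝒪) := by
    ext f
    rw [Fermat.Agent.S59.Patch.mem_span_range_X_iff, RingHom.mem_ker]
  rw [h]
  exact RingHom.ker_isPrime _

/-- Abstract form: a finite module with generators `b`, free over `S` through `φ`. -/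
theorem torsionFree_of_rel {S P N : Type*} [CommRing S] [IsDomain S] [CommRing P]
    [AddCommGroup N] [Module P N] (φ : S →+* P) {d : ℕ} (b : Fin d → N)
    (hspan : ∀ x : N, ∃ c : Fin d → S, x = ∑ i, φ (c i) • b i)
    (hrel : ∀ c : Fin d → S, ∑ i, φ (c i) • b i = 0 ↔ ∀ i, c i ∈ (⊥ : Ideal S))
    (s : S) (x : N) (hsx : φ s • x = 0) : s = 0 ∨ x = 0 := by
  obtain ⟨c, rfl⟩ := hspan x
  by_cases hs : s = 0
  · exact Or.inl hs
  · right
    have h1 : ∑ i, φ (s * c i) • b i = 0 := by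
      rw [← hsx, Finset.smul_sum]
      refine Finset.sum_congr rfl fun i _ => ?_
      rw [map_mul, mul_smul]
    have h2 := (hrel _).1 h1
    rw [(hrel c)]
    intro i
    have h3 := h2 i
    rw [Ideal.mem_bot] at h3 ⊢
    exact (mul_eq_zero.1 h3).resolve_left hs

/-- **PV-ABS.** -/
theorem pivot_abs [Nontrivial M] (hϖ : ϖ ≠ 0)
    (L : PivotLevel 𝒪 r h T M ϖ I1 Iχ 𝔵 Ξ ⊥ d)
    (hdimS : ((r + 1 : ℕ) : WithBot ℕ∞) ≤ ringKrullDim (MvPowerSeries (Fin r) 𝒪))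
    {ι : Type*} (t : Finset ι) (𝔞 : ι → Ideal (MvPowerSeries (Fin h) 𝒪))
    (h𝔞prime : ∀ i ∈ t, (𝔞 i).IsPrime) (h𝔞 : t.inf 𝔞 ≤ Iχ)
    (h𝔞dim : ∀ i ∈ t, ringKrullDim (MvPowerSeries (Fin h) 𝒪 ⧸ 𝔞 i) ≤ ((r + 1 : ℕ) : WithBot ℕ∞))
    (𝔮 : Ideal (MvPowerSeries (Fin h) 𝒪)) [𝔮.IsPrime]
    (h𝔞𝔮 : ∀ i ∈ t, 𝔞 i ≤ 𝔮) (hϖ𝔮 : (C ϖ : MvPowerSeries (Fin h) 𝒪) ∈ 𝔮)
    (hdich : ∀ 𝔭 : Ideal (MvPowerSeries (Fin h) 𝒪), 𝔭.IsPrime → I1 ≤ 𝔭 → 𝔭 ≤ 𝔮 → 𝔵 ≤ 𝔭) :
    ∃ 𝔱 : Ideal T, 𝔱.IsPrime ∧ Module.annihilator T M ≤ 𝔱 ∧ algebraMap 𝒪 T ϖ ∉ 𝔱 ∧ Ξ ≤ 𝔱 := by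
  classical
  -- notation
  let S := MvPowerSeries (Fin r) 𝒪
  let P := MvPowerSeries (Fin h) 𝒪
  letI algSP : Algebra S P := (L.φ : S →+* P).toAlgebra
  have halg : ∀ s : S, algebraMap S P s = L.φ s := fun s => rfl
  letI mod1 : Module S L.N1 := Module.compHom L.N1 (L.φ : S →+* P)
  letI modχ : Module S L.Nχ := Module.compHom L.Nχ (L.φ : S →+* P)
  have hsm1 : ∀ (s : S) (x : L.N1), s • x = L.φ s • x := fun s x => rfl
  have hsmχ : ∀ (s : S) (x : L.Nχ), s • x = L.φ s • x := fun s x => rfl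
  haveI tow1 : IsScalarTower S P L.N1 := ⟨fun s f x => by
    rw [hsm1, Algebra.smul_def, halg, mul_smul]⟩
  haveI towχ : IsScalarTower S P L.Nχ := ⟨fun s f x => by
    rw [hsmχ, Algebra.smul_def, halg, mul_smul]⟩
  -- finiteness
  haveI fin1 : Module.Finite S L.N1 := by
    refine Module.Finite.of_surjective (Fintype.linearCombination S L.b1) ?_
    intro x
    obtain ⟨c, hc⟩ := L.b1_span x
    refine ⟨c, ?_⟩
    rw [Fintype.linearCombination_apply, hc]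
    rfl
  haveI finχ : Module.Finite S L.Nχ := by
    refine Module.Finite.of_surjective (Fintype.linearCombination S L.bχ) ?_
    intro x
    obtain ⟨c, hc⟩ := L.bχ_span x
    refine ⟨c, ?_⟩
    rw [Fintype.linearCombination_apply, hc]
    rfl
  -- torsion-freeness
  haveI domS : IsDomain (MvPowerSeries (Fin r) 𝒪) := NoZeroDivisors.to_isDomain _
  have htf1 : ∀ (s : S) (m : L.N1), s • m = 0 → s = 0 ∨ m = 0 := fun s m hsm =>
    torsionFree_of_rel (L.φ : S →+* P) L.b1 L.b1_span L.b1_rel s m hsm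
  have htfχ : ∀ (s : S) (m : L.Nχ), s • m = 0 → s = 0 ∨ m = 0 := fun s m hsm =>
    torsionFree_of_rel (L.φ : S →+* P) L.bχ L.bχ_span L.bχ_rel s m hsm
  -- `d ≠ 0` and `Nχ ≠ 0`
  have hd : 0 < d := by
    rcases Nat.eq_zero_or_pos d with h0 | h0
    · exfalso
      subst h0
      obtain ⟨x, hx⟩ := exists_ne (0 : M)
      obtain ⟨y, rfl⟩ := L.π_surjective x
      obtain ⟨c, hc⟩ := L.b1_span y
      apply hx
      rw [hc]
      simp
    · exact h0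
  haveI ntχ : Nontrivial L.Nχ := by
    refine ⟨⟨L.bχ ⟨0, hd⟩, 0, fun h0 => ?_⟩⟩
    have h1 : ∑ i, L.φ ((Pi.single (⟨0, hd⟩ : Fin d) (1 : S) : Fin d → S) i) • L.bχ i = 0 := by
      rw [Finset.sum_eq_single (⟨0, hd⟩ : Fin d)]
      · rw [Pi.single_eq_same, map_one, one_smul, h0]
      · intro i _ hi
        rw [Pi.single_eq_of_ne hi, map_zero, zero_smul]
      · intro hi
        exact absurd (Finset.mem_univ _) hi
    have h2 := (L.bχ_rel _).1 h1 ⟨0, hd⟩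
    rw [Pi.single_eq_same, Ideal.mem_bot] at h2
    exact one_ne_zero h2
  -- the augmentation ideal
  let 𝔰 : Ideal S := Ideal.span (Set.range fun i : Fin r => (X i : MvPowerSeries (Fin r) 𝒪))
  haveI h𝔰 : 𝔰.IsPrime := span_range_X_isPrime
  -- `ϖ`
  have hCϖ : algebraMap S P (C ϖ : S) = (C ϖ : P) := by
    rw [halg]
    have h1 : (C ϖ : S) = algebraMap 𝒪 S ϖ := by
      rw [MvPowerSeries.algebraMap_apply, Algebra.algebraMap_self, RingHom.id_apply]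
    have h2 : (C ϖ : P) = algebraMap 𝒪 P ϖ := by
      rw [MvPowerSeries.algebraMap_apply, Algebra.algebraMap_self, RingHom.id_apply]
    rw [h1, h2]
    exact L.φ.commutes ϖ
  -- comparison modulo `ϖ`
  have hcomp : Module.annihilator P
      (L.N1 ⧸ (Ideal.span {algebraMap S P (C ϖ : S)} • ⊤ : Submodule P L.N1)) ≤
      Module.annihilator P
        (L.Nχ ⧸ (Ideal.span {algebraMap S P (C ϖ : S)} • ⊤ : Submodule P L.Nχ)) := by
    rw [hCϖ]
    intro f hf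
    rw [Module.mem_annihilator] at hf ⊢
    have hb : ∀ i : Fin d, f • L.bχ i ∈
        (Ideal.span {(C ϖ : P)} • ⊤ : Submodule P L.Nχ) := by
      intro i
      have h1 := hf (Submodule.Quotient.mk (L.b1 i))
      rw [← Submodule.Quotient.mk_smul, Submodule.Quotient.mk_eq_zero] at h1
      have h2 : ∑ j, (Pi.single i f : Fin d → P) j • L.b1 j = f • L.b1 i := by
        rw [Finset.sum_eq_single i]
        · rw [Pi.single_eq_same]
        · intro j _ hj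
          rw [Pi.single_eq_of_ne hj, zero_smul]
        · intro hi
          exact absurd (Finset.mem_univ _) hi
      have h3 : ∑ j, (Pi.single i f : Fin d → P) j • L.bχ j = f • L.bχ i := by
        rw [Finset.sum_eq_single i]
        · rw [Pi.single_eq_same]
        · intro j _ hj
          rw [Pi.single_eq_of_ne hj, zero_smul]
        · intro hi
          exact absurd (Finset.mem_univ _) hi
      rw [← h3]
      refine (L.cmp _).1 ?_
      rw [h2]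
      exact h1
    intro y
    obtain ⟨x, rfl⟩ := Submodule.Quotient.mk_surjective _ y
    rw [← Submodule.Quotient.mk_smul, Submodule.Quotient.mk_eq_zero]
    obtain ⟨c, rfl⟩ := L.bχ_span x
    rw [Finset.smul_sum]
    refine Submodule.sum_mem _ fun i _ => ?_
    rw [smul_comm]
    exact Submodule.smul_mem _ _ (hb i)
  -- the relations
  have hχ : t.inf 𝔞 ≤ Module.annihilator P L.Nχ := by
    intro f hf
    rw [Module.mem_annihilator]
    exact L.relχ f (h𝔞 hf)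
  have h1 : I1 ≤ Module.annihilator P L.N1 := by
    intro f hf
    rw [Module.mem_annihilator]
    exact L.rel1 f hf
  have hϖ𝔮' : algebraMap S P (C ϖ : S) ∈ 𝔮 := by rw [hCϖ]; exact hϖ𝔮
  -- the endgame
  obtain ⟨𝔯, h𝔯prime, hA𝔯, h𝔵𝔯, h𝔯𝔰⟩ := pivot_endgame_multi' (S := S) (P := P)
    (Mχ := L.Nχ) (M₁ := L.N1) htfχ htf1 (C ϖ : S) 𝔰 (r + 1) hdimS t 𝔞 h𝔞prime hχ h𝔞dim hcomp
    𝔮 𝔵 h𝔞𝔮 hϖ𝔮' (fun 𝔭 h𝔭 hA hle => hdich 𝔭 h𝔭 (h1.trans hA) hle)
  -- descent to `T`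
  haveI finP : Module.Finite P L.N1 := Module.Finite.of_restrictScalars_finite S P L.N1
  let 𝔖 : Ideal P := Ideal.span (Set.range fun i : Fin r => L.φ (X i))
  have h𝔖𝔯 : 𝔖 ≤ 𝔯 := by
    rw [Ideal.span_le]
    rintro _ ⟨i, rfl⟩
    have h2 : (X i : S) ∈ 𝔯.comap (algebraMap S P) := by
      rw [h𝔯𝔰]
      exact Ideal.subset_span ⟨i, rfl⟩
    exact h2
  have hsupp : (⟨𝔯, h𝔯prime⟩ : PrimeSpectrum P) ∈
      Module.support P (L.N1 ⧸ (𝔖 • ⊤ : Submodule P L.N1)) := by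
    rw [Module.support_quotient]
    refine ⟨?_, ?_⟩
    · rw [Module.support_eq_zeroLocus, PrimeSpectrum.mem_zeroLocus]
      exact hA𝔯
    · rw [PrimeSpectrum.mem_zeroLocus]
      exact h𝔖𝔯
  have hkey : ∀ f : P, (∀ x : L.N1, L.π (f • x) = 0) → f ∈ 𝔯 := by
    intro f hf
    rw [Module.support_eq_zeroLocus, PrimeSpectrum.mem_zeroLocus] at hsupp
    apply hsupp
    rw [SetLike.mem_coe, Module.mem_annihilator]
    intro y
    obtain ⟨x, rfl⟩ := Submodule.Quotient.mk_surjective _ y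
    rw [← Submodule.Quotient.mk_smul, Submodule.Quotient.mk_eq_zero]
    exact (L.ker_π _).1 (hf x)
  have hker : RingHom.ker (L.ψ : P →+* T) ≤ 𝔯 := by
    intro f hf
    apply hkey
    intro x
    rw [L.π_smul]
    have : L.ψ f = 0 := hf
    rw [this, zero_smul]
  have hψs : Function.Surjective (L.ψ : P →+* T) := L.ψ_surjective
  refine ⟨Ideal.map (L.ψ : P →+* T) 𝔯, Ideal.map_isPrime_of_surjective hψs hker, ?_, ?_, ?_⟩
  · intro τ hτ
    obtain ⟨f, rfl⟩ := hψs τ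
    refine Ideal.mem_map_of_mem _ (hkey f fun x => ?_)
    rw [L.π_smul]
    exact Module.mem_annihilator.1 hτ _
  · intro hmem
    have h2 : algebraMap 𝒪 T ϖ = (L.ψ : P →+* T) (C ϖ : P) := by
      have h3 : (C ϖ : P) = algebraMap 𝒪 P ϖ := by
        rw [MvPowerSeries.algebraMap_apply, Algebra.algebraMap_self, RingHom.id_apply]
      rw [h3]
      exact (L.ψ.commutes ϖ).symm
    rw [h2, Ideal.mem_map_iff_of_surjective _ hψs] at hmem
    obtain ⟨g, hg, hgϖ⟩ := hmem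
    have h3 : (C ϖ : P) - g ∈ 𝔯 := hker (by
      rw [RingHom.mem_ker, map_sub, hgϖ, sub_self])
    have h4 : (C ϖ : P) ∈ 𝔯 := by
      have := 𝔯.add_mem h3 hg
      rwa [sub_add_cancel] at this
    have h5 : (C ϖ : S) ∈ 𝔯.comap (algebraMap S P) := by
      rw [Ideal.mem_comap, hCϖ]
      exact h4
    rw [h𝔯𝔰] at h5
    have h6 := (Fermat.Agent.S59.Patch.mem_span_range_X_iff (C ϖ : S)).1 h5
    rw [constantCoeff_C] at h6
    exact hϖ h6
  · exact L.Ξ_le.trans (Ideal.map_mono h𝔵𝔯)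

end Abs

section Assemble

/-- **PIVOT, abstract form.**  From the local algebra (PV-LOC), patching (PV-PATCH) and the
levels of the patching datum (the global input: PV-GAL + PV-HECKE + PV-NU): a prime `𝔱` of the
Hecke ring `T` of unipotent type at level `∅`, in the support of `M`, of characteristic zero,
containing `Ξ` (the entries of `ρ(σ) − 1`, `σ` in the inertia groups at the pivot primes).

`t` = the finite set of types `δ = (ζ_j − ζ_j⁻¹)_j` that may occur in the ramified module. -/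
theorem pivot_of_levels (hType : Stmt_PVLoc_type) (hUnr : Stmt_PVLoc_unr)
    (hDim : Stmt_PVLoc_dimS) (hPatch : Stmt_PVPatch)
    {𝒪 : Type} [CommRing 𝒪] [IsDomain 𝒪] [IsDiscreteValuationRing 𝒪]
    [IsAdicComplete (IsLocalRing.maximalIdeal 𝒪) 𝒪] [Finite (IsLocalRing.ResidueField 𝒪)]
    {p : ℕ} (hp : (p : 𝒪) ∈ IsLocalRing.maximalIdeal 𝒪)
    {k g r : ℕ} (hr : r + 1 = 1 + 3 * k + g)
    {T : Type} [CommRing T] [IsLocalRing T] [IsNoetherianRing T]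
    [IsAdicComplete (IsLocalRing.maximalIdeal T) T] [Algebra 𝒪 T]
    [IsLocalHom (algebraMap 𝒪 T)]
    (hres : Function.Surjective (IsLocalRing.residue T ∘ algebraMap 𝒪 T))
    {M : Type} [AddCommGroup M] [Module T M] [Nontrivial M]
    {ϖ : 𝒪} (hϖ : IsLocalRing.maximalIdeal 𝒪 = Ideal.span {ϖ}) (h2 : IsUnit (2 : 𝒪))
    (q₀ : Fin k → 𝒪) (hq₀ : ∀ j, q₀ j - 1 ∈ IsLocalRing.maximalIdeal 𝒪)
    (t : Finset (Fin k → 𝒪)) (ht0 : ∀ δ ∈ t, ∀ j, δ j ≠ 0)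
    (htm : ∀ δ ∈ t, ∀ j, δ j ∈ IsLocalRing.maximalIdeal 𝒪)
    (Ξ : Ideal T) (d : ℕ)
    (levels : ∀ 𝔞 : (Fin k → 𝒪) → Ideal (PRing 𝒪 k g), (∀ δ ∈ t, KilledByType g δ (𝔞 δ)) →
      ∀ n : ℕ, Nonempty (PivotLevel 𝒪 r (6 * k + g) T M ϖ (idealUnip g q₀) (t.inf 𝔞)
        (idealX 𝒪 k g) Ξ (twIdealP 𝒪 r p n) d)) :
    ∃ 𝔱 : Ideal T, 𝔱.IsPrime ∧ Module.annihilator T M ≤ 𝔱 ∧ algebraMap 𝒪 T ϖ ∉ 𝔱 ∧ Ξ ≤ 𝔱 := by
  classical
  have hϖ0 : ϖ ≠ 0 := by
    rintro rfl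
    have h1 : IsLocalRing.maximalIdeal 𝒪 = ⊥ := by
      rw [hϖ, Ideal.span_singleton_eq_bot]
    exact IsDiscreteValuationRing.not_a_field 𝒪 h1
  -- the local ideals
  have hex : ∀ δ : Fin k → 𝒪, ∃ 𝔞 : Ideal (PRing 𝒪 k g), δ ∈ t → (𝔞.IsPrime ∧
      ringKrullDim (PRing 𝒪 k g ⧸ 𝔞) ≤ ((1 + 3 * k + g : ℕ) : WithBot ℕ∞) ∧
      𝔞 ≤ idealQ k g ϖ ∧ KilledByType g δ 𝔞) := by
    intro δ
    by_cases hδ : δ ∈ t
    · obtain ⟨𝔞, h⟩ := hType 𝒪 k g ϖ δ h2 hϖ (ht0 δ hδ) (htm δ hδ)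
      exact ⟨𝔞, fun _ => h⟩
    · exact ⟨⊥, fun h => absurd h hδ⟩
  choose 𝔞 h𝔞 using hex
  obtain ⟨hQprime, he⟩ := hUnr 𝒪 k g ϖ q₀ h2 hϖ hq₀
  obtain ⟨L⟩ := hPatch 𝒪 p hp r (6 * k + g) T hres M ϖ (idealUnip g q₀) (t.inf 𝔞)
    (idealX 𝒪 k g) Ξ d (levels 𝔞 fun δ hδ => (h𝔞 δ hδ).2.2.2)
  haveI := hQprime
  refine pivot_abs hϖ0 L (hDim 𝒪 r) t 𝔞 (fun δ hδ => (h𝔞 δ hδ).1) le_rfl
    (fun δ hδ => ?_) (idealQ k g ϖ) (fun δ hδ => (h𝔞 δ hδ).2.2.1) ?_ ?_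
  · rw [hr]
    exact (h𝔞 δ hδ).2.1
  · exact Ideal.mem_sup_right (Ideal.subset_span rfl)
  · intro 𝔭 h𝔭 hI hle
    refine dich_of_rel (fun x : Fin k × Fin 3 => eElt g q₀ x.1) (sigmaCoord 𝒪 g) le_rfl
      (fun x => Ideal.subset_span (Set.mem_range_self x)) (fun x => he x.1) 𝔭 h𝔭 hI hle

end Assemble

end Fermat.Agent.L.Pivot.H3
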