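/-
PIVOT (item 66), top-level reduction (helper3):

  `pivotCore_of : PV-LOC (type, unr, dimS) → Stmt_PVPatch → Stmt_PVLevels → Stmt_PVTame1 →
      Stmt_PVOld → Stmt_PivotCore`.

`Stmt_PVLevels` = the global construction (PV-ASM): a Hecke–Galois datum `H` of level `N1` and the
levels of the patching datum, with `Ξ` = the ideal of the entries of `H.ρ (τ_j) - 1`.
`Stmt_PVTame1`  = tame inertia: `ρ (τ) ≡ 1 mod J` implies `ρ ≡ 1 mod J` on all inertia groups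
over `q`.
-/
import Fermat.Agent.L.Pivot.Global
import Fermat.Agent.L.Pivot.H3_Abs

set_option autoImplicit false

noncomputable section

namespace Fermat.Agent.L.Pivot

open Polynomial IsLocalRing CuspForm Fermat.Agent.S56 Fermat.Agent.S59.Asm

/-- The ideal of the entries of `ρ (τ_j) - 1`, `j < k`, in the basis `b`. -/
def pvXi {T : Type} [CommRing T] [IsLocalRing T] (ρ : GaloisRepAdic T)
    (b : Module.Basis (Fin 2) T ρ.V) {k : ℕ} (Pv : PivotPrimes k) : Ideal T :=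
  Ideal.span {x | ∃ (j : Fin k) (a c : Fin 2),
    x = (LinearMap.toMatrix b b (ρ.ρ (Pv.τ j)) - 1) a c}

/-- If the entries of the matrix of `f - 1` lie in `J` then `f v - v ∈ J V`. -/
theorem sub_mem_smul_top_of_entries {T : Type} [CommRing T] {V : Type} [AddCommGroup V]
    [Module T V] (b : Module.Basis (Fin 2) T V) (f : Module.End T V) (J : Ideal T)
    (h : ∀ a c : Fin 2, (LinearMap.toMatrix b b f - 1) a c ∈ J) (v : V) :
    f v - v ∈ (J • ⊤ : Submodule T V) := by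
  have h1 : f v - v = ∑ a, ((LinearMap.toMatrix b b (f - 1)).mulVec (b.repr v)) a • b a := by
    rw [LinearMap.toMatrix_mulVec_repr]
    rw [b.sum_repr]
    rfl
  rw [h1]
  refine Submodule.sum_mem _ fun a _ => ?_
  refine Submodule.smul_mem_smul ?_ Submodule.mem_top
  rw [Matrix.mulVec, dotProduct]
  refine Ideal.sum_mem _ fun c _ => ?_
  refine Ideal.mul_mem_right _ _ ?_
  have h2 : LinearMap.toMatrix b b (f - 1) = LinearMap.toMatrix b b f - 1 := by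
    rw [map_sub, LinearMap.toMatrix_one]
  rw [h2]
  exact h a c

/-- **PV-TAME, form used by the assembly.** -/
def Stmt_PVTame1 : Prop :=
  ∀ (A : Type) [CommRing A] [IsLocalRing A] [IsNoetherianRing A]
    [IsAdicComplete (maximalIdeal A) A] (p : ℕ) [Fact p.Prime], (p : A) ∈ maximalIdeal A →
    ∀ (ρ : GaloisRepAdic A) (q : ℕ), q.Prime → q ≠ p → ρ.residual.IsUnramifiedAt q →
    ∀ (P : ValuationSubring (AlgebraicClosure ℚ)), P.LiesOverPrime q →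
    ∀ (τ : GQ), IsTameGen q P τ →
    ∀ (J : Ideal A), (∀ v : ρ.V, ρ.ρ τ v - v ∈ (J • ⊤ : Submodule A ρ.V)) →
    ∀ (A' : ValuationSubring (AlgebraicClosure ℚ)), A'.LiesOverPrime q →
      ∀ σ ∈ A'.inertiaSubgroupIn ℚ, ∀ v : ρ.V, ρ.ρ σ v - v ∈ (J • ⊤ : Submodule A ρ.V)

/-- **PV-ASM: the levels.**  Under the hypotheses of `Stmt_PivotCore`: a Hecke–Galois datum `H`
of level `N1` with cyclotomic determinant, residually unramified at the pivot primes, a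
nontrivial module `M` over its ring, a finite set `t` of types, and levels of the PIVOT patching
datum for every family of ideals killed by the types. -/
def Stmt_PVLevels : Prop :=
  ∀ (𝒪 : Type) [CommRing 𝒪] [IsDomain 𝒪] [IsDiscreteValuationRing 𝒪]
    [IsAdicComplete (maximalIdeal 𝒪) 𝒪] [Finite (ResidueField 𝒪)] [CharZero 𝒪]
    (p : ℕ) [Fact p.Prime], 5 ≤ p →
    ∀ (ρbar : ResidualGaloisRep (ResidueField 𝒪)) (S Smin : Finset ℕ),
    Hyp 𝒪 p ρbar S Smin →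
    ∀ (N1 : ℕ) [NeZero N1], Squarefree N1 → ¬ p ∣ N1 → (∀ q : ℕ, q.Prime → q ∣ N1 → q ∈ S) →
    ∀ (θ : CuspForm.heckeAlgebra N1 2 (↑S : Set ℕ) →+* ResidueField 𝒪),
      Fermat.Agent.S59.Datum.FrobHyp ρbar N1 S θ →
    ∀ (k : ℕ) (Pv : PivotPrimes k), Pv.IsExceptional p ρbar → (∀ j, Pv.q j ∣ N1) →
      S = Smin ∪ Pv.set → (∀ q ∈ Smin, q ≠ p → q ∣ N1) →
      (∀ (j : Fin k) (e : ℕ), p ^ e ∣ Pv.q j - 1 → ∃ ζ : 𝒪, IsPrimitiveRoot ζ (p ^ e)) →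
    ∀ (ϖ : 𝒪), maximalIdeal 𝒪 = Ideal.span {ϖ} →
    ∃ (T : Type) (_ : CommRing T) (_ : IsLocalRing T) (_ : IsNoetherianRing T)
      (_ : IsAdicComplete (maximalIdeal T) T) (_ : Algebra 𝒪 T)
      (_ : IsLocalHom (algebraMap 𝒪 T)) (_ : Module.Finite 𝒪 T) (_ : Module.Free 𝒪 T)
      (H : CuspForm.HeckeGaloisRepDatum N1 (↑S : Set ℕ) 𝒪 θ T)
      (b : Module.Basis (Fin 2) T H.ρ.V)
      (M : Type) (_ : AddCommGroup M) (_ : Module T M) (_ : Nontrivial M)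
      (r g d : ℕ) (t : Finset (Fin k → 𝒪)),
      H.ρ.DetIsCyclotomic p ∧ (∀ j, H.ρ.residual.IsUnramifiedAt (Pv.q j)) ∧
      r + 1 = 1 + 3 * k + g ∧ (∀ δ ∈ t, ∀ j, δ j ≠ 0) ∧ (∀ δ ∈ t, ∀ j, δ j ∈ maximalIdeal 𝒪) ∧
      ∀ 𝔞 : (Fin k → 𝒪) → Ideal (PRing 𝒪 k g), (∀ δ ∈ t, KilledByType g δ (𝔞 δ)) →
        ∀ n : ℕ, Nonempty (PivotLevel 𝒪 r (6 * k + g) T M ϖ
          (idealUnip g (fun j => ((Pv.q j : ℕ) : 𝒪))) (t.inf 𝔞)
          (idealX 𝒪 k g) (pvXi H.ρ b Pv) (twIdealP 𝒪 r p n) d)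

/-- **PIVOT (Hecke–Galois form) from the packages.** -/
theorem pivotCore_of (hType : Stmt_PVLoc_type) (hUnr : Stmt_PVLoc_unr)
    (hDim : Stmt_PVLoc_dimS) (hPatch : Stmt_PVPatch) (hLev : Stmt_PVLevels)
    (hTame : Stmt_PVTame1) (hOld : Stmt_PVOld) : Stmt_PivotCore := by
  intro 𝒪 _ _ _ _ _ _ p _ hp5 ρbar S Smin hyp N1 _ hsq hpN hNS θ hθ k Pv hex hPvN hS hSminN
    hζ j _
  obtain ⟨ϖ, hϖirr⟩ := IsDiscreteValuationRing.exists_irreducible 𝒪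
  have hϖ' : maximalIdeal 𝒪 = Ideal.span {ϖ} :=
    (IsDiscreteValuationRing.irreducible_iff_uniformizer ϖ).mp hϖirr
  obtain ⟨T, _, _, _, _, _, _, _, _, H, b, M, _, _, _, r, g, d, t, hdet, hunr, hr, ht0, htm,
    hlev⟩ := hLev 𝒪 p hp5 ρbar S Smin hyp N1 hsq hpN hNS θ hθ k Pv hex hPvN hS hSminN hζ ϖ hϖ'
  have hp𝒪 : (p : 𝒪) ∈ maximalIdeal 𝒪 := hyp.hp𝒪
  -- `2` is a unit
  have h2 : IsUnit (2 : 𝒪) := by
    by_contra h
    have h2m : (2 : 𝒪) ∈ maximalIdeal 𝒪 := (IsLocalRing.mem_maximalIdeal _).mpr h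
    have hodd : Odd p := (Fact.out : p.Prime).odd_of_ne_two hyp.hp2
    obtain ⟨m, hm⟩ := hodd
    have h1 : (1 : 𝒪) = (p : 𝒪) - 2 * (m : 𝒪) := by
      rw [hm]; push_cast; ring
    have : (1 : 𝒪) ∈ maximalIdeal 𝒪 := by
      rw [h1]
      exact Ideal.sub_mem _ hp𝒪 (Ideal.mul_mem_right _ _ h2m)
    exact (Ideal.ne_top_iff_one _).mp (IsLocalRing.maximalIdeal.isMaximal 𝒪).ne_top this
  -- `q ≡ 1`
  have hq₀ : ∀ i, ((Pv.q i : ℕ) : 𝒪) - 1 ∈ maximalIdeal 𝒪 := by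
    intro i
    obtain ⟨m, hm⟩ := (hex i).1
    have hq1 : 1 ≤ Pv.q i := (Pv.q_prime i).one_le
    have h1 : ((Pv.q i : ℕ) : 𝒪) - 1 = (p : 𝒪) * (m : 𝒪) := by
      have : Pv.q i = p * m + 1 := by omega
      rw [this]; push_cast; ring
    rw [h1]
    exact Ideal.mul_mem_right _ _ hp𝒪
  obtain ⟨𝔱, h𝔱, -, hϖ𝔱, hΞ⟩ := H3.pivot_of_levels hType hUnr hDim hPatch hp𝒪 hr
    H.residue_surjective hϖ' h2 (fun i => ((Pv.q i : ℕ) : 𝒪)) hq₀ t ht0 htm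
    (pvXi H.ρ b Pv) d hlev
  -- `p ∉ 𝔱`
  have hpT : (p : T) ∉ 𝔱 := by
    intro hp
    have h1 : (p : 𝒪) ∈ Ideal.span {ϖ} := hϖ' ▸ hp𝒪
    -- `ϖ ∣ p`, and `p ≠ 0`: write `p = ϖ ^ e * u`
    have hp0 : (p : 𝒪) ≠ 0 := by
      exact_mod_cast (Fact.out : p.Prime).ne_zero
    have hirr : Irreducible ϖ := by
      have hne : ϖ ≠ 0 := by
        rintro rfl
        have h1 : maximalIdeal 𝒪 = ⊥ := by rw [hϖ', Ideal.span_singleton_eq_bot]
        exact IsDiscreteValuationRing.not_a_field 𝒪 h1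
      exact (IsDiscreteValuationRing.irreducible_iff_uniformizer ϖ).mpr hϖ'
    obtain ⟨e, u, hu⟩ := IsDiscreteValuationRing.eq_unit_mul_pow_irreducible hp0 hirr
    have h3 : (p : T) = algebraMap 𝒪 T (u : 𝒪) * (algebraMap 𝒪 T ϖ) ^ e := by
      rw [← map_pow, ← map_mul, ← hu, map_natCast]
    rw [h3] at hp
    rcases h𝔱.mem_or_mem hp with h | h
    · have hu' : IsUnit (algebraMap 𝒪 T (u : 𝒪)) := (u.isUnit).map _
      exact h𝔱.ne_top (Ideal.eq_top_of_isUnit_mem _ h hu')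
    · exact hϖ𝔱 (h𝔱.mem_of_pow_mem e h)
  -- unramified modulo `𝔱` at `q_j`
  have hτ : ∀ v : H.ρ.V, H.ρ.ρ (Pv.τ j) v - v ∈ (𝔱 • ⊤ : Submodule T H.ρ.V) := by
    intro v
    refine sub_mem_smul_top_of_entries b _ 𝔱 (fun a c => ?_) v
    exact hΞ (Ideal.subset_span ⟨j, a, c, rfl⟩)
  have hpTm : (p : T) ∈ maximalIdeal T := hdet.1
  have hall := hTame T p hpTm H.ρ (Pv.q j) (Pv.q_prime j) (hex j).2.1 (hunr j) (Pv.P j)
    (Pv.P_over j) (Pv.τ j) (Pv.τ_gen j) 𝔱 hτ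
  have hqN : ¬ (Pv.q j) ^ 2 ∣ N1 := by
    intro h
    have := Nat.squarefree_iff_prime_squarefree.mp hsq (Pv.q j) (Pv.q_prime j)
    exact this (by rwa [← pow_two])
  have hpS : p ∈ S := hyp.hSmin hyp.hpSmin
  exact hOld 𝒪 p hyp.hp2 hp𝒪 N1 S hpS hNS θ T H hdet (Pv.q j) (Pv.q_prime j) (hex j).2.1
    (hPvN j) hqN 𝔱 h𝔱 hpT hall

end Fermat.Agent.L.Pivot

end
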