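/-
PIVOT (item 66), the assembly PV-ASM (helper3): statements of the leaves A, B, C, C-pt and of the
geometric input `Stmt_PVGeom2`, for both conditions at `p` (`fl : Bool`, as in
`Fermat.Agent.S59.cond`) and every odd `p`.

Notation: `S = Smin ∪ Σ` (`Σ = Pv.set`, the pivot primes), `Q = image qv` a Taylor–Wiles family,
* `DQ.R` = universal ring of `cond 𝒪 p fl Smin (Σ ∪ Q)` (nothing imposed at `Σ ∪ Q`),
* `T'Q = heckeLocal (pvLevel N1 Pv.q qv) (twSet S qv)`, acting on `W` (level `M₀ ∏ q_j² ∏ qv_i²`),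
* `TQ1 = heckeLocal (twLevel N1 qv) (twSet S qv)`, acting on `G1.W = W / ∑ (c_j - 1) W`,
* `T = heckeLocal N1 S`, acting on `M = G1.W / ∑ (d_i - 1) G1.W`.

Leaves:
* `Stmt_PVAsm`   (A): data + (rel1) + (relχ) ⟹ a level `PivotLevel` of the patching datum;
* `Stmt_PVUnip`  (B): (rel1): `idealUnip` kills `W / ∑ (c_j - 1) W`  [S34 + reducedness];
* `Stmt_PVNU`    (C): (relχ): `⋂ 𝔞_δ` kills `W / ∑ (c_j - ψ_j) W`, `ψ_j ≠ 1`  [`new` + C-pt];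
* `Stmt_PVNUPoint` (C-pt): a point of level `M q²` which does not occur at level `M q` is not
  unipotent at `q`  [newform of the point + S36];
* `Stmt_PVGeom2`: the geometric datum (item 72);
* `Stmt_PVGalNB`, `Stmt_PVGalAB`: PV-GAL for `cond 𝒪 p fl`.
-/
import Fermat.Agent.L.Pivot.Global2
import Fermat.Agent.S59.Asm.Main
import Fermat.Agent.S59.Asm.Cond
import Fermat.Agent.R.H86_Defs4
import Fermat.Agent.R.Transfer

set_option autoImplicit false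

noncomputable section

namespace Fermat.Agent.L.Pivot

open Polynomial IsLocalRing CuspForm Fermat.Agent.S56 Fermat.Agent.S59 Fermat.Agent.S59.Asm

/-! ### PV-GAL for both conditions at `p` -/

/-- The condition `𝒟⁰` for `cond 𝒪 p fl`: `cond 𝒪 p fl Smin (Σ ∪ T)` and at the pivot primes
`ρ (τ_j) = 1`, `ρ (frob_j)` scalar. -/
def condPvB (𝒪 : Type) [CommRing 𝒪] (p : ℕ) (fl : Bool) (Smin : Finset ℕ) {k : ℕ}
    (Pv : PivotPrimes k) (T : Finset ℕ) : Cond 𝒪 :=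
  fun A _ _ _ ρ => cond 𝒪 p fl Smin (Pv.set ∪ T) ρ ∧
    ∀ j, ρ.ρ (Pv.τ j) = 1 ∧ ∃ c : A, ρ.ρ (Pv.frob j) = c • (1 : Module.End A ρ.V)

/-- **PV-GAL-N** for `cond 𝒪 p fl`. -/
def Stmt_PVGalNB : Prop :=
  ∀ (𝒪 : Type) [CommRing 𝒪] [IsDomain 𝒪] [IsDiscreteValuationRing 𝒪]
    [IsAdicComplete (maximalIdeal 𝒪) 𝒪] [Finite (ResidueField 𝒪)]
    (p : ℕ) [Fact p.Prime] (fl : Bool) (ρbar : ResidualGaloisRep (ResidueField 𝒪))
    (S Smin : Finset ℕ),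
    Hyp 𝒪 p ρbar S Smin →
    ∀ (k : ℕ) (Pv : PivotPrimes k), Pv.IsExceptional p ρbar → Pv.set ⊆ S →
    ∃ r g : ℕ, r = 3 * k + g ∧ ∀ n : ℕ, ∃ qv : Fin r → ℕ, IsTWFamily ρbar p n S qv ∧
      TangentLE 𝒪 ρbar (condPvB 𝒪 p fl Smin Pv (Finset.univ.image qv)) g

/-- **PV-GAL-A** for `cond 𝒪 p fl`. -/
def Stmt_PVGalAB : Prop :=
  ∀ (𝒪 : Type) [CommRing 𝒪] [IsDomain 𝒪] [IsDiscreteValuationRing 𝒪]
    [IsAdicComplete (maximalIdeal 𝒪) 𝒪] [Finite (ResidueField 𝒪)]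
    (p : ℕ) [Fact p.Prime] (fl : Bool) (ρbar : ResidualGaloisRep (ResidueField 𝒪))
    (S Smin : Finset ℕ),
    Hyp 𝒪 p ρbar S Smin →
    ∀ (k : ℕ) (Pv : PivotPrimes k), Pv.IsExceptional p ρbar → ∀ (T : Finset ℕ) (g : ℕ),
    TangentLE 𝒪 ρbar (condPvB 𝒪 p fl Smin Pv T) g →
    ∀ DQ : GaloisRep.DeformationRingData 𝒪 ρbar (cond 𝒪 p fl Smin (Pv.set ∪ T)),
    ∀ b : Module.Basis (Fin 2) DQ.R DQ.ρ.V,
      ∃ γ : PRing 𝒪 k g →ₐ[𝒪] DQ.R, Function.Surjective γ ∧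
        IsCoordHom γ (fun j => LinearMap.toMatrix b b (DQ.ρ.ρ (Pv.τ j)))
          (fun j => LinearMap.toMatrix b b (DQ.ρ.ρ (Pv.frob j)))

/-- **PV-GAL** for `cond 𝒪 p fl`. -/
def Stmt_PVGalB : Prop :=
  ∀ (𝒪 : Type) [CommRing 𝒪] [IsDomain 𝒪] [IsDiscreteValuationRing 𝒪]
    [IsAdicComplete (maximalIdeal 𝒪) 𝒪] [Finite (ResidueField 𝒪)]
    (p : ℕ) [Fact p.Prime] (fl : Bool) (ρbar : ResidualGaloisRep (ResidueField 𝒪))
    (S Smin : Finset ℕ),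
    Hyp 𝒪 p ρbar S Smin →
    ∀ (k : ℕ) (Pv : PivotPrimes k), Pv.IsExceptional p ρbar → Pv.set ⊆ S →
    ∃ r g : ℕ, r = 3 * k + g ∧ ∀ n : ℕ, ∃ qv : Fin r → ℕ, IsTWFamily ρbar p n S qv ∧
      ∀ DQ : GaloisRep.DeformationRingData 𝒪 ρbar
          (cond 𝒪 p fl Smin (Pv.set ∪ Finset.univ.image qv)),
      ∀ b : Module.Basis (Fin 2) DQ.R DQ.ρ.V,
        ∃ γ : PRing 𝒪 k g →ₐ[𝒪] DQ.R, Function.Surjective γ ∧
          IsCoordHom γ (fun j => LinearMap.toMatrix b b (DQ.ρ.ρ (Pv.τ j)))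
            (fun j => LinearMap.toMatrix b b (DQ.ρ.ρ (Pv.frob j)))

theorem stmt_PVGalB_of (hN : Stmt_PVGalNB) (hA : Stmt_PVGalAB) : Stmt_PVGalB := by
  intro 𝒪 _ _ _ _ _ p _ fl ρbar S Smin hyp k Pv hex hPS
  obtain ⟨r, g, hrg, h⟩ := hN 𝒪 p fl ρbar S Smin hyp k Pv hex hPS
  refine ⟨r, g, hrg, fun n => ?_⟩
  obtain ⟨qv, hqv, hT⟩ := h n
  exact ⟨qv, hqv, fun DQ b => hA 𝒪 p fl ρbar S Smin hyp k Pv hex _ g hT DQ b⟩

/-! ### The geometric datum, second form -/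

/-- **The geometric datum of PIVOT, with the local–global compatibility at the Taylor–Wiles primes
on `W`** (the same fields as in `TWGeom`, for the module `W` of level `M₀ ∏ q_j² ∏ qv_i²`; places,
Frobenius lifts, inertia elements and eigenvalues are those of `G1`). -/
structure PVGeom2 (𝒪 : Type) [CommRing 𝒪] [IsLocalRing 𝒪] (p : ℕ)
    (ρbar : ResidualGaloisRep (ResidueField 𝒪))
    (N1 : ℕ) [NeZero N1] (S : Finset ℕ)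
    (θ : CuspForm.heckeAlgebra N1 2 (↑S : Set ℕ) →+* ResidueField 𝒪)
    (M : HMod 𝒪 N1 (↑S : Set ℕ) θ) {k : ℕ} (qP : Fin k → ℕ) (eP : Fin k → ℕ)
    {r : ℕ} (n : ℕ) (qv : Fin r → ℕ)
    [NeZero (twLevel N1 qv)] [NeZero (pvLevel N1 qP qv)]
    extends PVGeom 𝒪 p ρbar N1 S θ M qP eP n qv where
  Wα : Fin r → Submodule 𝒪 W.V
  Wβ : Fin r → Submodule 𝒪 W.V
  W_isCompl : ∀ i, IsCompl (Wα i) (Wβ i)
  Wα_η : ∀ (i : Fin r)
    (t : CuspForm.heckeAlgebra (pvLevel N1 qP qv) 2 (↑(twSet S qv) : Set ℕ)),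
    ∀ v ∈ Wα i, W.η t v ∈ Wα i
  Wα_d : ∀ (i : Fin r), ∀ v ∈ Wα i, d i v ∈ Wα i
  Wα_frob : ∀ i, ∀ v ∈ Wα i, gal (G1.frob i) v ∈ Wα i
  Wβ_frob : ∀ i, ∀ v ∈ Wβ i, gal (G1.frob i) v ∈ Wβ i
  Wα_nil : ∀ i, ∃ m : ℕ, ∀ v ∈ Wα i,
    ((gal (G1.frob i) - G1.a i • (1 : Module.End 𝒪 W.V)) ^ m) v ∈
      (maximalIdeal 𝒪 • ⊤ : Submodule 𝒪 W.V)
  Wβ_nil : ∀ i, ∃ m : ℕ, ∀ v ∈ Wβ i,
    ((gal (G1.frob i) - G1.a' i • (1 : Module.End 𝒪 W.V)) ^ m) v ∈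
      (maximalIdeal 𝒪 • ⊤ : Submodule 𝒪 W.V)
  /-- the inertia element `σ_i` acts on `W^α` as the diamond operator `d_i` -/
  W_lg : ∀ i, ∀ v ∈ Wα i, gal (G1.σ i) v = d i v

/-- **PV-GEOM, second form** (item 72): the geometric datum exists for every Taylor–Wiles family.
`N1 = M₀ ∏ q_j` squarefree; the pivot primes divide `N1`; `5 ≤ p` or an auxiliary prime
`r ≡ 2 mod 3` divides `N1` (`p ∣ N1` is allowed: ordinary case) and there is at least one pivot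
prime (`0 < k`).
[`5 ≤ p`: for `p = 3` the covering `X_{H'} → X₀` is ramified at the elliptic points of order `3`
when `3 ^ e ∥ q_j - 1`, unless a prime `r ≡ 2 mod 3` divides the level (no elliptic points of
order `3` then); `S` is any set of primes containing the primes of `N1`.] -/
def Stmt_PVGeom2 : Prop :=
  ∀ (𝒪 : Type) [CommRing 𝒪] [IsDomain 𝒪] [IsDiscreteValuationRing 𝒪]
    [IsAdicComplete (maximalIdeal 𝒪) 𝒪] [Finite (ResidueField 𝒪)] [CharZero 𝒪]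
    (p : ℕ) [Fact p.Prime] (ρbar : ResidualGaloisRep (ResidueField 𝒪)) (S Smin : Finset ℕ),
    Hyp 𝒪 p ρbar S Smin →
    ∀ (N1 : ℕ) [NeZero N1] [Fact (CuspForm.HasIntegralStructure N1 2)],
    (∀ q : ℕ, q.Prime → q ∣ N1 → q ∈ S) → Squarefree N1 →
    (5 ≤ p ∨ ∃ r : ℕ, r.Prime ∧ r ∣ N1 ∧ r % 3 = 2) →
    ∀ (θ : CuspForm.heckeAlgebra N1 2 (↑S : Set ℕ) →+* ResidueField 𝒪),
      Fermat.Agent.S59.Datum.FrobHyp ρbar N1 S θ →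
    ∀ (k : ℕ) (Pv : PivotPrimes k), 0 < k → Pv.IsExceptional p ρbar → (∀ j, Pv.q j ∣ N1) →
    ∀ (eP : Fin k → ℕ), (∀ j, p ^ eP j ∣ Pv.q j - 1 ∧ ¬ p ^ (eP j + 1) ∣ Pv.q j - 1) →
    ∃ M : HMod 𝒪 N1 (↑S : Set ℕ) θ, Nontrivial M.V ∧
      ∀ (r n : ℕ) (qv : Fin r → ℕ), IsTWFamily ρbar p n S qv →
        ∀ [NeZero (twLevel N1 qv)] [NeZero (pvLevel N1 Pv.q qv)]
          [Fact (CuspForm.HasIntegralStructure (twLevel N1 qv) 2)]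
          [Fact (CuspForm.HasIntegralStructure (pvLevel N1 Pv.q qv) 2)],
          Nonempty (PVGeom2 𝒪 p ρbar N1 S θ M Pv.q eP n qv)

/-! ### The types -/

/-- The finite set of the ramified types: `δ_j = ζ_j ^ i_j - ζ_j ^ (p ^ e_j - i_j)`,
`0 < i_j < p ^ e_j`. -/
def pvTypes {𝒪 : Type} [CommRing 𝒪] (p : ℕ) {k : ℕ} (eP : Fin k → ℕ) (ζ : Fin k → 𝒪) :
    Finset (Fin k → 𝒪) := by
  classical
  exact ((Finset.univ : Finset (∀ j : Fin k, Fin (p ^ eP j))).filter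
    (fun i => ∀ j, (i j : ℕ) ≠ 0)).image
    (fun i j => ζ j ^ (i j : ℕ) - ζ j ^ (p ^ eP j - (i j : ℕ)))

theorem mem_pvTypes {𝒪 : Type} [CommRing 𝒪] {p : ℕ} {k : ℕ} {eP : Fin k → ℕ} {ζ : Fin k → 𝒪}
    {δ : Fin k → 𝒪} :
    δ ∈ pvTypes p eP ζ ↔ ∃ i : Fin k → ℕ, (∀ j, i j < p ^ eP j) ∧ (∀ j, i j ≠ 0) ∧
      δ = fun j => ζ j ^ i j - ζ j ^ (p ^ eP j - i j) := by
  classical
  unfold pvTypes
  simp only [Finset.mem_image, Finset.mem_filter, Finset.mem_univ, true_and]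
  constructor
  · rintro ⟨i, hi, rfl⟩
    exact ⟨fun j => (i j : ℕ), fun j => (i j).2, hi, rfl⟩
  · rintro ⟨i, hi1, hi2, rfl⟩
    exact ⟨fun j => ⟨i j, hi1 j⟩, hi2, rfl⟩

/-! ### C-pt: points which are new at `q²` are not unipotent at `q` -/

/-- **PV-NU-POINT.**  A characteristic-`0` point `χ` of the Hecke algebra of level `N = M q²`
(`q ∤ M`, `q ≠ p`) with its representation `ρ` (residually absolutely irreducible): if `χ` does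
not occur at level `M q` then `ρ` is not unipotent on inertia at `q`.
[The newform of `χ` has level `Mg ∣ N` (`H50.exists_newform_iota`), `q² ∣ Mg` by
`H50.occursAtLevel_of_newform`; Carayol's theorem `S58.Stmt_S36`; the attached representation
is equivalent to `ρ` (`H50.isEquiv_of_frob`).] -/
def Stmt_PVNUPoint : Prop :=
  ∀ (p N M q : ℕ) [NeZero N] [NeZero (M * q)] (S : Finset ℕ)
    (𝒪 : Type) [CommRing 𝒪] [IsDomain 𝒪] [IsDiscreteValuationRing 𝒪]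
    [IsAdicComplete (maximalIdeal 𝒪) 𝒪] [Finite (ResidueField 𝒪)] [CharZero 𝒪],
    p.Prime → p ≠ 2 → (p : 𝒪) ∈ maximalIdeal 𝒪 → q.Prime → q ≠ p → N = M * q ^ 2 → ¬ q ∣ M →
    p ∈ S → (∀ q' : ℕ, q'.Prime → q' ∣ N → q' ∈ S) →
    ∀ (χ : CuspForm.heckeAlgebra N 2 (↑S : Set ℕ) →+* 𝒪) (ρ : GaloisRepAdic 𝒪),
      Fermat.Agent.R.HasFrobCharpoly χ ρ → ρ.residual.IsAbsolutelyIrreducible →
      ¬ Fermat.Agent.R.OccursAtLevel χ (M * q) → ¬ ρ.IsUnipotentOnInertiaAt q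

/-! ### The context of the assembly -/

/-- The data at a Taylor–Wiles family: geometric datum, universal ring with its coordinates, Hecke
ring of the level `M₀ ∏ q_j² ∏ qv_i²` with its representation and the map from the universal ring,
and the action of the Hecke ring on `W`. -/
structure PVCtx (𝒪 : Type) [CommRing 𝒪] [IsDomain 𝒪] [IsDiscreteValuationRing 𝒪]
    [IsAdicComplete (maximalIdeal 𝒪) 𝒪] (p : ℕ) (fl : Bool)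
    (ρbar : ResidualGaloisRep (ResidueField 𝒪))
    (N1 : ℕ) [NeZero N1] (S Smin : Finset ℕ)
    (θ : CuspForm.heckeAlgebra N1 2 (↑S : Set ℕ) →+* ResidueField 𝒪)
    (M : HMod 𝒪 N1 (↑S : Set ℕ) θ) {k : ℕ} (Pv : PivotPrimes k) (eP : Fin k → ℕ) (g : ℕ)
    {r : ℕ} (n : ℕ) (qv : Fin r → ℕ)
    [NeZero (twLevel N1 qv)] [NeZero (pvLevel N1 Pv.q qv)]
    [Fact (CuspForm.HasIntegralStructure (pvLevel N1 Pv.q qv) 2)] : Type 1 where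
  /-- the geometric datum -/
  G : PVGeom2 𝒪 p ρbar N1 S θ M Pv.q eP n qv
  /-- the universal ring of `cond 𝒪 p fl Smin (Σ ∪ Q)` -/
  DQ : GaloisRep.DeformationRingData 𝒪 ρbar
    (cond 𝒪 p fl Smin (Pv.set ∪ Finset.univ.image qv))
  /-- a basis of the universal deformation -/
  bQ : Module.Basis (Fin 2) DQ.R DQ.ρ.V
  /-- the coordinates -/
  γ : PRing 𝒪 k g →ₐ[𝒪] DQ.R
  γ_surjective : Function.Surjective γ
  γ_coord : IsCoordHom γ (fun j => LinearMap.toMatrix bQ bQ (DQ.ρ.ρ (Pv.τ j)))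
    (fun j => LinearMap.toMatrix bQ bQ (DQ.ρ.ρ (Pv.frob j)))
  /-- the Hecke–Galois datum of the level `M₀ ∏ q_j² ∏ qv_i²` -/
  HQ : CuspForm.HeckeGaloisRepDatum (pvLevel N1 Pv.q qv) (↑(twSet S qv) : Set ℕ) 𝒪
    ((θ.comp G.G1.rest).comp G.rest)
    (CuspForm.heckeLocal (pvLevel N1 Pv.q qv) (↑(twSet S qv) : Set ℕ) 𝒪
      ((θ.comp G.G1.rest).comp G.rest))
  HQ_π : HQ.π = CuspForm.heckeLocal.π (pvLevel N1 Pv.q qv) (↑(twSet S qv) : Set ℕ) 𝒪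
    ((θ.comp G.G1.rest).comp G.rest)
  HQ_det : HQ.ρ.DetIsCyclotomic p
  /-- the map from the universal ring -/
  φQ : DQ.R →ₐ[𝒪] CuspForm.heckeLocal (pvLevel N1 Pv.q qv) (↑(twSet S qv) : Set ℕ) 𝒪
    ((θ.comp G.G1.rest).comp G.rest)
  φQ_local : IsLocalHom (φQ : DQ.R →+* CuspForm.heckeLocal (pvLevel N1 Pv.q qv)
    (↑(twSet S qv) : Set ℕ) 𝒪 ((θ.comp G.G1.rest).comp G.rest))
  φQ_equiv : (DQ.ρ.baseChangeAlong (φQ : DQ.R →+* CuspForm.heckeLocal (pvLevel N1 Pv.q qv)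
    (↑(twSet S qv) : Set ℕ) 𝒪 ((θ.comp G.G1.rest).comp G.rest)) φQ_local).IsEquiv HQ.ρ
  /-- the action of the Hecke ring on `W` -/
  ηW : CuspForm.heckeLocal (pvLevel N1 Pv.q qv) (↑(twSet S qv) : Set ℕ) 𝒪
    ((θ.comp G.G1.rest).comp G.rest) →ₐ[𝒪] Module.End 𝒪 G.W.V
  ηW_π : ∀ t : CuspForm.heckeAlgebra (pvLevel N1 Pv.q qv) 2 (↑(twSet S qv) : Set ℕ),
    ηW (CuspForm.heckeLocal.π (pvLevel N1 Pv.q qv) (↑(twSet S qv) : Set ℕ) 𝒪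
      ((θ.comp G.G1.rest).comp G.rest) t) = G.W.η t

/-- The standing hypotheses of the assembly on the level and the pivot primes. -/
structure PVHyp {𝒪 : Type} [CommRing 𝒪] [IsLocalRing 𝒪] (p : ℕ)
    (ρbar : ResidualGaloisRep (ResidueField 𝒪)) (N1 : ℕ) (S Smin : Finset ℕ) {k : ℕ}
    (Pv : PivotPrimes k) (eP : Fin k → ℕ) : Prop where
  hyp : Hyp 𝒪 p ρbar S Smin
  /-- `5 ≤ p` (needed by PV-GEOM: no elliptic ramification in the pivot tower) -/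
  h5 : 5 ≤ p
  /-- there is at least one pivot prime -/
  hk : 0 < k
  hsq : Squarefree N1
  hNS : ∀ q : ℕ, q.Prime → q ∣ N1 → q ∈ S
  hex : Pv.IsExceptional p ρbar
  hPvN : ∀ j, Pv.q j ∣ N1
  hS : S = Smin ∪ Pv.set
  hSminN : ∀ q ∈ Smin, q ≠ p → q ∣ N1
  heP : ∀ j, p ^ eP j ∣ Pv.q j - 1 ∧ ¬ p ^ (eP j + 1) ∣ Pv.q j - 1

/-! ### Leaf B: the unipotent relations -/

/-- **PV-UNIP** (B).  `idealUnip` kills `W / ∑ (c_j - 1) W = G1.W`.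
[`κ` intertwines `ηW` with the action of `TQ1` through the restriction `T'Q → TQ1` (RESLOC,
`intertwine_of_gen`); `TQ1` is reduced; at a minimal prime of `TQ1` the representation is
unipotent at `q_j` (`hunip`, from the frozen S34), so `H59.types_of_point` with `i_j = 0`
applies.] -/
def Stmt_PVUnip : Prop :=
  ∀ (𝒪 : Type) [CommRing 𝒪] [IsDomain 𝒪] [IsDiscreteValuationRing 𝒪]
    [IsAdicComplete (maximalIdeal 𝒪) 𝒪] [Finite (ResidueField 𝒪)] [CharZero 𝒪]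
    (p : ℕ) [Fact p.Prime] (fl : Bool) (ρbar : ResidualGaloisRep (ResidueField 𝒪))
    (N1 : ℕ) [NeZero N1] (S Smin : Finset ℕ)
    (θ : CuspForm.heckeAlgebra N1 2 (↑S : Set ℕ) →+* ResidueField 𝒪)
    (M : HMod 𝒪 N1 (↑S : Set ℕ) θ) (k : ℕ) (Pv : PivotPrimes k) (eP : Fin k → ℕ),
    PVHyp p ρbar N1 S Smin Pv eP →
    ∀ (g r n : ℕ) (qv : Fin r → ℕ), IsTWFamily ρbar p n S qv →
    ∀ [NeZero (twLevel N1 qv)] [NeZero (pvLevel N1 Pv.q qv)]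
      [Fact (CuspForm.HasIntegralStructure (twLevel N1 qv) 2)]
      [Fact (CuspForm.HasIntegralStructure (pvLevel N1 Pv.q qv) 2)]
      (X : PVCtx 𝒪 p fl ρbar N1 S Smin θ M Pv eP g n qv)
      (HQ1 : CuspForm.HeckeGaloisRepDatum (twLevel N1 qv) (↑(twSet S qv) : Set ℕ) 𝒪
        (θ.comp X.G.G1.rest)
        (CuspForm.heckeLocal (twLevel N1 qv) (↑(twSet S qv) : Set ℕ) 𝒪 (θ.comp X.G.G1.rest))),
    HQ1.π = CuspForm.heckeLocal.π (twLevel N1 qv) (↑(twSet S qv) : Set ℕ) 𝒪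
      (θ.comp X.G.G1.rest) →
    HQ1.ρ.DetIsCyclotomic p →
    (∀ j, HQ1.ρ.IsUnipotentOnInertiaAt (Pv.q j)) →
    ∀ f ∈ idealUnip g (fun j => ((Pv.q j : ℕ) : 𝒪)), ∀ v : X.G.W.V,
      X.ηW (X.φQ (X.γ f)) v ∈ typeSub X.G.c (fun _ => (1 : 𝒪))

/-! ### Leaf C: the ramified types -/

/-- **PV-NU** (C).  The intersection of the type ideals kills `W / ∑ (c_j - ψ_j) W` when all
`ψ_j ≠ 1`.
[`W / typeSub c ψ` is `𝒪`-free and `T'Q` is reduced, so it suffices to test at the points `x` of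
`T'Q` which kill the annihilator of `W / typeSub c ψ`; by the field `new` of the geometric datum
`x ∘ π` does not occur at the level `pvLevel / q_j`, by `Stmt_PVNUPoint` the representation at
`x` is not unipotent at `q_j`, so `i_j ≠ 0` in `H59.types_of_point`: `x ∘ φQ ∘ γ` is a point of
type `δ ∈ pvTypes`, killed by `𝔞 δ`.] -/
def Stmt_PVNU : Prop :=
  ∀ (𝒪 : Type) [CommRing 𝒪] [IsDomain 𝒪] [IsDiscreteValuationRing 𝒪]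
    [IsAdicComplete (maximalIdeal 𝒪) 𝒪] [Finite (ResidueField 𝒪)] [CharZero 𝒪]
    (p : ℕ) [Fact p.Prime] (fl : Bool) (ρbar : ResidualGaloisRep (ResidueField 𝒪))
    (N1 : ℕ) [NeZero N1] (S Smin : Finset ℕ)
    (θ : CuspForm.heckeAlgebra N1 2 (↑S : Set ℕ) →+* ResidueField 𝒪)
    (M : HMod 𝒪 N1 (↑S : Set ℕ) θ) (k : ℕ) (Pv : PivotPrimes k) (eP : Fin k → ℕ),
    PVHyp p ρbar N1 S Smin Pv eP →
    ∀ (g r n : ℕ) (qv : Fin r → ℕ), IsTWFamily ρbar p n S qv →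
    ∀ [NeZero (twLevel N1 qv)] [NeZero (pvLevel N1 Pv.q qv)]
      [Fact (CuspForm.HasIntegralStructure (pvLevel N1 Pv.q qv) 2)]
      (X : PVCtx 𝒪 p fl ρbar N1 S Smin θ M Pv eP g n qv)
      (ζ : Fin k → 𝒪), (∀ j, IsPrimitiveRoot (ζ j) (p ^ eP j)) →
    ∀ (ψ : Fin k → 𝒪), (∀ j, ψ j ^ (p ^ eP j) = 1 ∧ ψ j ≠ 1) →
    ∀ (𝔞 : (Fin k → 𝒪) → Ideal (PRing 𝒪 k g)),
      (∀ δ ∈ pvTypes p eP ζ, KilledByType g δ (𝔞 δ)) →
    ∀ f ∈ (pvTypes p eP ζ).inf 𝔞, ∀ v : X.G.W.V,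
      X.ηW (X.φQ (X.γ f)) v ∈ typeSub X.G.c ψ

/-! ### Leaf A: the assembly -/

/-- **PV-ASM** (A): the level of the patching datum at a Taylor–Wiles family.
[As `Fermat.Agent.S59.Asm.H77.stmt_ASM`, with `H76.pvCore` instead of `twLevel_of_core`:
`V := W`, `fV := ηW ∘ φQ`, `π := G1.π ∘ κ`; `δ_i` from `exists_delta` on `W` (fields `Wα, …` of
`PVGeom2`); `res1 ∘ res' ∘ φQ = τ` by COMPAT; `Ξ ≤ (τ γ)(𝔵) T`: the ideal of the entries of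
`H.ρ (τ_j) - 1` does not depend on the basis, and `a - 1 ∈ (a - d, b, c)` when `a d - b c = 1`,
`a ≡ 1` and `2` is a unit.] -/
def Stmt_PVAsm : Prop :=
  ∀ (𝒪 : Type) [CommRing 𝒪] [IsDomain 𝒪] [IsDiscreteValuationRing 𝒪]
    [IsAdicComplete (maximalIdeal 𝒪) 𝒪] [Finite (ResidueField 𝒪)] [CharZero 𝒪]
    (p : ℕ) [Fact p.Prime] (fl : Bool) (ρbar : ResidualGaloisRep (ResidueField 𝒪))
    (N1 : ℕ) [NeZero N1] [Fact (CuspForm.HasIntegralStructure N1 2)] (S Smin : Finset ℕ)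
    (θ : CuspForm.heckeAlgebra N1 2 (↑S : Set ℕ) →+* ResidueField 𝒪)
    (M : HMod 𝒪 N1 (↑S : Set ℕ) θ) (k : ℕ) (Pv : PivotPrimes k) (eP : Fin k → ℕ),
    PVHyp p ρbar N1 S Smin Pv eP →
    ∀ (H : CuspForm.HeckeGaloisRepDatum N1 (↑S : Set ℕ) 𝒪 θ
        (CuspForm.heckeLocal N1 (↑S : Set ℕ) 𝒪 θ)),
    H.π = CuspForm.heckeLocal.π N1 (↑S : Set ℕ) 𝒪 θ →
    cond 𝒪 p fl Smin Pv.set H.ρ →
    ∀ (ηM : CuspForm.heckeLocal N1 (↑S : Set ℕ) 𝒪 θ →ₐ[𝒪] Module.End 𝒪 M.V),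
    (∀ t : CuspForm.heckeAlgebra N1 2 (↑S : Set ℕ),
      ηM (CuspForm.heckeLocal.π N1 (↑S : Set ℕ) 𝒪 θ t) = M.η t) →
    ∀ (g r n : ℕ) (qv : Fin r → ℕ), IsTWFamily ρbar p n S qv →
    ∀ [NeZero (twLevel N1 qv)] [NeZero (pvLevel N1 Pv.q qv)]
      [Fact (CuspForm.HasIntegralStructure (twLevel N1 qv) 2)]
      [Fact (CuspForm.HasIntegralStructure (pvLevel N1 Pv.q qv) 2)]
      (X : PVCtx 𝒪 p fl ρbar N1 S Smin θ M Pv eP g n qv)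
      (τ : X.DQ.R →ₐ[𝒪] CuspForm.heckeLocal N1 (↑S : Set ℕ) 𝒪 θ),
    Function.Surjective τ →
    ∀ (hτl : IsLocalHom (τ : X.DQ.R →+* CuspForm.heckeLocal N1 (↑S : Set ℕ) 𝒪 θ)),
    (X.DQ.ρ.baseChangeAlong (τ : X.DQ.R →+* CuspForm.heckeLocal N1 (↑S : Set ℕ) 𝒪 θ)
      hτl).IsEquiv H.ρ →
    ∀ (ϖ : 𝒪), maximalIdeal 𝒪 = Ideal.span {ϖ} →
    ∀ (ψ : Fin k → 𝒪), (∀ j, ψ j ^ (p ^ eP j) = 1) → (∀ j, ψ j - 1 ∈ Ideal.span {ϖ}) →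
    ∀ (I1 Iχ : Ideal (PRing 𝒪 k g)),
      (∀ f ∈ I1, ∀ v : X.G.W.V, X.ηW (X.φQ (X.γ f)) v ∈ typeSub X.G.c (fun _ => (1 : 𝒪))) →
      (∀ f ∈ Iχ, ∀ v : X.G.W.V, X.ηW (X.φQ (X.γ f)) v ∈ typeSub X.G.c ψ) →
    ∀ (b : Module.Basis (Fin 2) (CuspForm.heckeLocal N1 (↑S : Set ℕ) 𝒪 θ) H.ρ.V),
      Nonempty (@PivotLevel 𝒪 _ r (6 * k + g) (CuspForm.heckeLocal N1 (↑S : Set ℕ) 𝒪 θ) _ _
        M.V _ (Module.compHom M.V
          ((ηM : CuspForm.heckeLocal N1 (↑S : Set ℕ) 𝒪 θ →ₐ[𝒪] Module.End 𝒪 M.V) :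
            CuspForm.heckeLocal N1 (↑S : Set ℕ) 𝒪 θ →+* Module.End 𝒪 M.V))
        ϖ I1 Iχ (idealX 𝒪 k g) (pvXi H.ρ b Pv) (twIdealP 𝒪 r p n) X.G.rk)

/-! ### The levels and the target, for both conditions at `p` -/

/-- **PV-ASM: the levels** (for `cond 𝒪 p fl`).  As `Stmt_PVLevels`; `fl = true`: `p ∤ N1`,
`fl = false`: `p ∣ N1` and `ρbar` is not flat at `p`. -/
def Stmt_PVLevelsB : Prop :=
  ∀ (𝒪 : Type) [CommRing 𝒪] [IsDomain 𝒪] [IsDiscreteValuationRing 𝒪]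
    [IsAdicComplete (maximalIdeal 𝒪) 𝒪] [Finite (ResidueField 𝒪)] [CharZero 𝒪]
    (p : ℕ) [Fact p.Prime] (fl : Bool) (ρbar : ResidualGaloisRep (ResidueField 𝒪))
    (S Smin : Finset ℕ),
    cond 𝒪 p fl Smin ∅ (GaloisRepAdic.ofResidualGaloisRep ρbar) →
    (fl = false → ¬ (GaloisRepAdic.ofResidualGaloisRep ρbar).IsFlatAt p) →
    ∀ (N1 : ℕ) [NeZero N1], (fl = true → ¬ p ∣ N1) → (fl = false → p ∣ N1) →
    ∀ (θ : CuspForm.heckeAlgebra N1 2 (↑S : Set ℕ) →+* ResidueField 𝒪),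
      Fermat.Agent.S59.Datum.FrobHyp ρbar N1 S θ →
    ∀ (k : ℕ) (Pv : PivotPrimes k) (eP : Fin k → ℕ), PVHyp p ρbar N1 S Smin Pv eP →
      (∀ j, ∃ ζ : 𝒪, IsPrimitiveRoot ζ (p ^ eP j)) →
    ∀ (ϖ : 𝒪), maximalIdeal 𝒪 = Ideal.span {ϖ} →
    ∃ (T : Type) (_ : CommRing T) (_ : IsLocalRing T) (_ : IsNoetherianRing T)
      (_ : IsAdicComplete (maximalIdeal T) T) (_ : Algebra 𝒪 T)
      (_ : IsLocalHom (algebraMap 𝒪 T)) (_ : Module.Finite 𝒪 T) (_ : Module.Free 𝒪 T)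
      (H : CuspForm.HeckeGaloisRepDatum N1 (↑S : Set ℕ) 𝒪 θ T)
      (b : Module.Basis (Fin 2) T H.ρ.V)
      (M : Type) (_ : AddCommGroup M) (_ : Module T M) (_ : Nontrivial M)
      (r g d : ℕ) (t : Finset (Fin k → 𝒪)),
      H.ρ.DetIsCyclotomic p ∧ (∀ j, H.ρ.residual.IsUnramifiedAt (Pv.q j)) ∧
      r + 1 = 1 + 3 * k + g ∧ (∀ δ ∈ t, ∀ j, δ j ≠ 0) ∧ (∀ δ ∈ t, ∀ j, δ j ∈ maximalIdeal 𝒪) ∧
      ∀ 𝔞 : (Fin k → 𝒪) → Ideal (PRing 𝒪 k g), (∀ δ ∈ t, KilledByType g δ (𝔞 δ)) →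
        ∀ n : ℕ, Nonempty (PivotLevel 𝒪 r (6 * k + g) T M ϖ
          (idealUnip g (fun j => ((Pv.q j : ℕ) : 𝒪))) (t.inf 𝔞)
          (idealX 𝒪 k g) (pvXi H.ρ b Pv) (twIdealP 𝒪 r p n) d)

/-- **PIVOT, Hecke–Galois form, for both conditions at `p`.** -/
def Stmt_PivotCoreB : Prop :=
  ∀ (𝒪 : Type) [CommRing 𝒪] [IsDomain 𝒪] [IsDiscreteValuationRing 𝒪]
    [IsAdicComplete (maximalIdeal 𝒪) 𝒪] [Finite (ResidueField 𝒪)] [CharZero 𝒪]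
    (p : ℕ) [Fact p.Prime] (fl : Bool) (ρbar : ResidualGaloisRep (ResidueField 𝒪))
    (S Smin : Finset ℕ),
    cond 𝒪 p fl Smin ∅ (GaloisRepAdic.ofResidualGaloisRep ρbar) →
    (fl = false → ¬ (GaloisRepAdic.ofResidualGaloisRep ρbar).IsFlatAt p) →
    ∀ (N1 : ℕ) [NeZero N1], (fl = true → ¬ p ∣ N1) → (fl = false → p ∣ N1) →
    ∀ (θ : CuspForm.heckeAlgebra N1 2 (↑S : Set ℕ) →+* ResidueField 𝒪),
      Fermat.Agent.S59.Datum.FrobHyp ρbar N1 S θ →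
    ∀ (k : ℕ) (Pv : PivotPrimes k) (eP : Fin k → ℕ), PVHyp p ρbar N1 S Smin Pv eP →
      (∀ j, ∃ ζ : 𝒪, IsPrimitiveRoot ζ (p ^ eP j)) →
    ∀ (j : Fin k) [NeZero (N1 / Pv.q j)],
      ∃ θ' : CuspForm.heckeAlgebra (N1 / Pv.q j) 2 (↑S : Set ℕ) →+* ResidueField 𝒪,
        ∀ (ℓ : ℕ) (hℓ : ℓ.Prime) (hℓN : ¬ ℓ ∣ N1) (hℓS : ℓ ∉ (↑S : Set ℕ))
          (hℓN' : ¬ ℓ ∣ N1 / Pv.q j),
          θ' (CuspForm.heckeAlgebra.T hℓ hℓN' hℓS) = θ (CuspForm.heckeAlgebra.T hℓ hℓN hℓS)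

/-- **PIVOT (Hecke–Galois form, both conditions) from the packages.** -/
theorem pivotCoreB_of (hType : Stmt_PVLoc_type) (hUnr : Stmt_PVLoc_unr)
    (hDim : Stmt_PVLoc_dimS) (hPatch : Stmt_PVPatch) (hLev : Stmt_PVLevelsB)
    (hTame : Stmt_PVTame1) (hOld : Stmt_PVOld) : Stmt_PivotCoreB := by
  intro 𝒪 _ _ _ _ _ _ p _ fl ρbar S Smin hcond hnfl N1 _ hpN hpN' θ hθ k Pv eP hPV hζ j _
  have hyp := hPV.hyp
  have hsq := hPV.hsq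
  have hex := hPV.hex
  obtain ⟨ϖ, hϖirr⟩ := IsDiscreteValuationRing.exists_irreducible 𝒪
  have hϖ' : maximalIdeal 𝒪 = Ideal.span {ϖ} :=
    (IsDiscreteValuationRing.irreducible_iff_uniformizer ϖ).mp hϖirr
  obtain ⟨T, _, _, _, _, _, _, _, _, H, b, M, _, _, _, r, g, d, t, hdet, hunr, hr, ht0, htm,
    hlev⟩ := hLev 𝒪 p fl ρbar S Smin hcond hnfl N1 hpN hpN' θ hθ k Pv eP hPV hζ ϖ hϖ'
  have hp𝒪 : (p : 𝒪) ∈ maximalIdeal 𝒪 := hyp.hp𝒪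
  -- `2` is a unit
  have h2 : IsUnit (2 : 𝒪) := by
    by_contra h
    have h2m : (2 : 𝒪) ∈ maximalIdeal 𝒪 := (IsLocalRing.mem_maximalIdeal _).mpr h
    have hodd : Odd p := (Fact.out : p.Prime).odd_of_ne_two hyp.hp2
    obtain ⟨m, hm⟩ := hodd
    have h1 : (1 : 𝒪) = (p : 𝒪) - 2 * (m : 𝒪) := by
      rw [hm]; push_cast; ring
    have : (1 : 𝒪) ∈ maximalIdeal 𝒪 := by
      rw [h1]
      exact Ideal.sub_mem _ hp𝒪 (Ideal.mul_mem_right _ _ h2m)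
    exact (Ideal.ne_top_iff_one _).mp (IsLocalRing.maximalIdeal.isMaximal 𝒪).ne_top this
  -- `q ≡ 1`
  have hq₀ : ∀ i, ((Pv.q i : ℕ) : 𝒪) - 1 ∈ maximalIdeal 𝒪 := by
    intro i
    obtain ⟨m, hm⟩ := (hex i).1
    have hq1 : 1 ≤ Pv.q i := (Pv.q_prime i).one_le
    have h1 : ((Pv.q i : ℕ) : 𝒪) - 1 = (p : 𝒪) * (m : 𝒪) := by
      have : Pv.q i = p * m + 1 := by omega
      rw [this]; push_cast; ring
    rw [h1]
    exact Ideal.mul_mem_right _ _ hp𝒪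
  obtain ⟨𝔱, h𝔱, -, hϖ𝔱, hΞ⟩ := H3.pivot_of_levels hType hUnr hDim hPatch hp𝒪 hr
    H.residue_surjective hϖ' h2 (fun i => ((Pv.q i : ℕ) : 𝒪)) hq₀ t ht0 htm
    (pvXi H.ρ b Pv) d hlev
  -- `p ∉ 𝔱`
  have hpT : (p : T) ∉ 𝔱 := by
    intro hp
    have hp0 : (p : 𝒪) ≠ 0 := by
      exact_mod_cast (Fact.out : p.Prime).ne_zero
    obtain ⟨e, u, hu⟩ := IsDiscreteValuationRing.eq_unit_mul_pow_irreducible hp0 hϖirr
    have h3 : (p : T) = algebraMap 𝒪 T (u : 𝒪) * (algebraMap 𝒪 T ϖ) ^ e := by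
      rw [← map_pow, ← map_mul, ← hu, map_natCast]
    rw [h3] at hp
    rcases h𝔱.mem_or_mem hp with h | h
    · have hu' : IsUnit (algebraMap 𝒪 T (u : 𝒪)) := (u.isUnit).map _
      exact h𝔱.ne_top (Ideal.eq_top_of_isUnit_mem _ h hu')
    · exact hϖ𝔱 (h𝔱.mem_of_pow_mem e h)
  -- unramified modulo `𝔱` at `q_j`
  have hτ : ∀ v : H.ρ.V, H.ρ.ρ (Pv.τ j) v - v ∈ (𝔱 • ⊤ : Submodule T H.ρ.V) := by
    intro v
    refine sub_mem_smul_top_of_entries b _ 𝔱 (fun a c => ?_) v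
    exact hΞ (Ideal.subset_span ⟨j, a, c, rfl⟩)
  have hpTm : (p : T) ∈ maximalIdeal T := hdet.1
  have hall := hTame T p hpTm H.ρ (Pv.q j) (Pv.q_prime j) (hex j).2.1 (hunr j) (Pv.P j)
    (Pv.P_over j) (Pv.τ j) (Pv.τ_gen j) 𝔱 hτ
  have hqN : ¬ (Pv.q j) ^ 2 ∣ N1 := by
    intro h
    have := Nat.squarefree_iff_prime_squarefree.mp hsq (Pv.q j) (Pv.q_prime j)
    exact this (by rwa [← pow_two])
  have hpS : p ∈ S := hyp.hSmin hyp.hpSmin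
  exact hOld 𝒪 p hyp.hp2 hp𝒪 N1 S hpS hPV.hNS θ T H hdet (Pv.q j) (Pv.q_prime j) (hex j).2.1
    (hPV.hPvN j) hqN 𝔱 h𝔱 hpT hall

/-- The wiring **D = PV-WIRE1** to be proved: the levels from the leaves and the landed results
(`S59.Datum.Stmt_DATUM`, `S59.Asm.Stmt_COND`, `S59.H99.stmt_DEF`, `S54.result`, `S34.result`,
`S59.Asm.H85.stmt_LOCMOD`, `H76.finrank_eq_rk`). -/
def Stmt_PVWire1 : Prop :=
  Stmt_PVGalB → Stmt_PVGeom2 → Fermat.Agent.S59.Datum.Stmt_DATUM → Stmt_COND →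
    Stmt_PVAsm → Stmt_PVUnip → Stmt_PVNU → Stmt_PVLevelsB

end Fermat.Agent.L.Pivot

end
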