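/-
PIVOT (item 66), the Frey form (helper3).

* `IsExcAt P q A`     : all Frobenius elements at the place `A` over `q` act on `E[p]` through one
                        scalar (the exceptional case of level lowering at `q`).
* `Stmt_PivotFrey`    : PIVOT for the Frey curve: level `N` prime to `p`, every prime of `N` at
                        which `E[p]` is unramified is exceptional; then an unramified prime `q ∣ N`
                        can be removed from the level.
* `Stmt_NonExcFrey`   : Mazur's principle at a non-exceptional prime (= the second branch of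
                        `Fermat.Agent.S43.lowerConcl_of`).
* `Stmt_S44T`         : the type of the frozen statement S44 (`p` can be removed).
* `s43_of`            : `Stmt_S44T → Stmt_NonExcFrey → Stmt_PivotFrey → <frozen type of S43>`
                        (induction on the level: take the level minimal).

Why `S44` is needed: Ribet's theorem in the exceptional case `q ≡ 1 mod p` requires the level to be
prime to `p`; the frozen S43 only asks for SOME level `M ∣ N` with `q ∤ M`.
-/
import Fermat.Agent.S44.Defs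

set_option autoImplicit false

open WeierstrassCurve WeierstrassCurve.Affine WeierstrassCurve.Affine.Point
open scoped WeierstrassCurve.Affine

namespace Fermat.Agent.L.Pivot

open Fermat.Agent.S44

/-- All Frobenius elements at the place `A` over `q` act on `E[p]` through one scalar. -/
def IsExcAt (P : FreyPackage) (q : ℕ) (A : ValuationSubring (AlgebraicClosure ℚ)) : Prop :=
  ∃ c : ZMod P.p, ∀ σ : GQ, A.IsFrobeniusAt σ q → ∀ v : Tors P.freyCurve P.p,
    galoisRepModuleEnd (S := ℚ) (K := AlgebraicClosure ℚ) P.freyCurve.toAffine P.p σ v = c • v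

/-- **PIVOT, Frey form.** -/
def Stmt_PivotFrey : Prop :=
  ∀ (P : FreyPackage) (N q : ℕ), P.IsConductorLevel N → ¬ P.p ∣ N → q.Prime → q ≠ P.p → q ∣ N →
    GaloisRepIsIrreducible (K := AlgebraicClosure ℚ) ℚ P.freyCurve P.p →
    P.ModularRepOfLevel N → P.GaloisRepUnramifiedAt q →
    (∀ q' : ℕ, q'.Prime → q' ∣ N → P.GaloisRepUnramifiedAt q' →
      ∃ A : ValuationSubring (AlgebraicClosure ℚ), A.LiesOverPrime q' ∧ IsExcAt P q' A) →
    ∃ M : ℕ, M ∣ N ∧ ¬ q ∣ M ∧ P.ModularRepOfLevel M

/-- **Mazur's principle at a non-exceptional prime, Frey form.** -/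
def Stmt_NonExcFrey : Prop :=
  ∀ (P : FreyPackage) (N q : ℕ), P.IsConductorLevel N → q.Prime → q ≠ P.p → q ∣ N →
    GaloisRepIsIrreducible (K := AlgebraicClosure ℚ) ℚ P.freyCurve P.p →
    P.ModularRepOfLevel N → P.GaloisRepUnramifiedAt q →
    (∀ A : ValuationSubring (AlgebraicClosure ℚ), A.LiesOverPrime q → ¬ IsExcAt P q A) →
    ∃ M : ℕ, M ∣ N ∧ ¬ q ∣ M ∧ P.ModularRepOfLevel M

/-- The type of the frozen statement S44. -/
def Stmt_S44T : Prop :=
  ∀ (P : FreyPackage) {N : ℕ}, P.IsConductorLevel N → P.p ∣ N →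
    GaloisRepIsIrreducible (K := AlgebraicClosure ℚ) ℚ P.freyCurve P.p →
    P.ModularRepOfLevel N → ∃ M : ℕ, M ∣ N ∧ ¬ P.p ∣ M ∧ P.ModularRepOfLevel M

/-- A proper divisor obtained by removing a prime. -/
theorem lt_of_dvd_of_not_dvd {M N r : ℕ} (hN : 0 < N) (hMN : M ∣ N) (hrN : r ∣ N)
    (hrM : ¬ r ∣ M) : M < N := by
  rcases (Nat.le_of_dvd hN hMN).lt_or_eq with h | h
  · exact h
  · exact absurd (h ▸ hrN) hrM

/-- **S43 from S44, Mazur's principle and PIVOT (Frey form).** -/
theorem s43_of (h44 : Stmt_S44T) (hNE : Stmt_NonExcFrey) (hPF : Stmt_PivotFrey)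
    (P : FreyPackage) {N q : ℕ} (hcond : P.IsConductorLevel N) (hq : q.Prime) (_hq2 : q ≠ 2)
    (hqp : q ≠ P.p) (_hqN : q ∣ N)
    (hirr : GaloisRepIsIrreducible (K := AlgebraicClosure ℚ) ℚ P.freyCurve P.p)
    (hmod : P.ModularRepOfLevel N) (_hunr : P.GaloisRepUnramifiedAt q) :
    ∃ M : ℕ, M ∣ N ∧ ¬ q ∣ M ∧ P.ModularRepOfLevel M := by
  -- strong induction on the level
  have key : ∀ n : ℕ, ∀ N : ℕ, N ≤ n → P.IsConductorLevel N → P.ModularRepOfLevel N →
      P.GaloisRepUnramifiedAt q → ∃ M : ℕ, M ∣ N ∧ ¬ q ∣ M ∧ P.ModularRepOfLevel M := by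
    intro n
    induction n with
    | zero =>
      intro N hN hc _ _
      exact absurd hc.pos (by omega)
    | succ n ih =>
      intro N hN hc hm hu
      by_cases hqN : q ∣ N
      swap
      · exact ⟨N, dvd_rfl, hqN, hm⟩
      -- a smaller level suffices
      have step : ∀ M : ℕ, M ∣ N → M < N → P.ModularRepOfLevel M →
          ∃ M' : ℕ, M' ∣ N ∧ ¬ q ∣ M' ∧ P.ModularRepOfLevel M' := by
        intro M hMN hlt hM
        have hM0 : 0 < M := Nat.pos_of_dvd_of_pos hMN hc.pos
        obtain ⟨M', hM'M, hqM', hM'⟩ := ih M (by omega) (hc.of_dvd hMN hM0) hM hu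
        exact ⟨M', hM'M.trans hMN, hqM', hM'⟩
      by_cases hpN : P.p ∣ N
      · obtain ⟨M, hMN, hpM, hM⟩ := h44 P hc hpN hirr hm
        exact step M hMN (lt_of_dvd_of_not_dvd hc.pos hMN hpN hpM) hM
      · by_cases hall : ∀ q' : ℕ, q'.Prime → q' ∣ N → P.GaloisRepUnramifiedAt q' →
            ∃ A : ValuationSubring (AlgebraicClosure ℚ), A.LiesOverPrime q' ∧ IsExcAt P q' A
        · exact hPF P N q hc hpN hq hqp hqN hirr hm hu hall
        · push Not at hall
          obtain ⟨q', hq', hq'N, hu', hne⟩ := hall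
          have hq'p : q' ≠ P.p := fun h => hpN (h ▸ hq'N)
          obtain ⟨M, hMN, hq'M, hM⟩ := hNE P N q' hc hq' hq'p hq'N hirr hm hu'
            (fun A hA hexc => hne A hA hexc)
          exact step M hMN (lt_of_dvd_of_not_dvd hc.pos hMN hq'N hq'M) hM
  exact key N N le_rfl hcond hmod _hunr

end Fermat.Agent.L.Pivot
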