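/-
PIVOT (item 66), PV-LOC-TYPE: the definition of the ideal of type `δ` and the split of
`Stmt_PVLoc_type` into four leaves (helper3).

`P' = 𝒪⟦(y, z, m, β)_j, x⟧ = MvPowerSeries (Fin (4 * k + g)) 𝒪`,
`Sub : P → P'`, `(y,z,m)_j ↦ (y,z,m)_j`, `(v,w,s)_j ↦ β_j • (y,z,m)_j`, `x ↦ x`,
`F_j = m_j² + 4 y_j z_j − δ_j²`, `typeIdeal δ = comap Sub (F_1, …, F_k)`.
-/
import Fermat.Agent.L.Pivot.Defs

set_option autoImplicit false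

namespace Fermat.Agent.L.Pivot

open MvPowerSeries IsLocalRing

section Defs

variable (𝒪 : Type) [CommRing 𝒪] (k g : ℕ)

/-- The ring `P' = 𝒪⟦(y, z, m, β)_j, x⟧`. -/
abbrev PRing' : Type := MvPowerSeries (Fin (4 * k + g)) 𝒪

/-- The index of the `i`-th coordinate (`i < 4`: `y, z, m, β`) at the `j`-th pivot prime. -/
def cIdx' (j : Fin k) (i : Fin 4) : Fin (4 * k + g) :=
  ⟨4 * j.1 + i.1, by have := j.2; have := i.2; omega⟩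

/-- The index of the `a`-th extra variable of `P'`. -/
def xIdx' (a : Fin g) : Fin (4 * k + g) := ⟨4 * k + a.1, by have := a.2; omega⟩

variable {k}

/-- `y_j` in `P'`. -/
noncomputable def py (j : Fin k) : PRing' 𝒪 k g := X (cIdx' k g j 0)
/-- `z_j` in `P'`. -/
noncomputable def pz (j : Fin k) : PRing' 𝒪 k g := X (cIdx' k g j 1)
/-- `m_j` in `P'`. -/
noncomputable def pm (j : Fin k) : PRing' 𝒪 k g := X (cIdx' k g j 2)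
/-- `β_j` in `P'`. -/
noncomputable def pβ (j : Fin k) : PRing' 𝒪 k g := X (cIdx' k g j 3)
/-- `x_a` in `P'`. -/
noncomputable def px (a : Fin g) : PRing' 𝒪 k g := X (xIdx' k g a)

variable (k)

/-- The images of the variables of `P` under `Sub`. -/
noncomputable def subFun (i : Fin (6 * k + g)) : PRing' 𝒪 k g :=
  if h : i.1 < 6 * k then
    (if i.1 % 6 = 0 then py 𝒪 g ⟨i.1 / 6, by omega⟩
    else if i.1 % 6 = 1 then pz 𝒪 g ⟨i.1 / 6, by omega⟩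
    else if i.1 % 6 = 2 then pm 𝒪 g ⟨i.1 / 6, by omega⟩
    else if i.1 % 6 = 3 then pβ 𝒪 g ⟨i.1 / 6, by omega⟩ * py 𝒪 g ⟨i.1 / 6, by omega⟩
    else if i.1 % 6 = 4 then pβ 𝒪 g ⟨i.1 / 6, by omega⟩ * pz 𝒪 g ⟨i.1 / 6, by omega⟩
    else pβ 𝒪 g ⟨i.1 / 6, by omega⟩ * pm 𝒪 g ⟨i.1 / 6, by omega⟩)
  else px 𝒪 g ⟨i.1 - 6 * k, by have := i.2; omega⟩

theorem constantCoeff_subFun (i : Fin (6 * k + g)) : constantCoeff (subFun 𝒪 k g i) = 0 := by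
  unfold subFun py pz pm pβ px
  split_ifs <;> simp

theorem hasSubst_subFun : HasSubst (subFun 𝒪 k g) :=
  hasSubst_of_constantCoeff_zero (constantCoeff_subFun 𝒪 k g)

/-- The substitution `Sub : P → P'`. -/
noncomputable def Sub : PRing 𝒪 k g →ₐ[𝒪] PRing' 𝒪 k g :=
  substAlgHom (hasSubst_subFun 𝒪 k g)

variable {𝒪 k g}

theorem Sub_X (i : Fin (6 * k + g)) : Sub 𝒪 k g (X i) = subFun 𝒪 k g i :=
  substAlgHom_X _ i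

theorem subFun_cIdx (j : Fin k) (i : Fin 6) :
    subFun 𝒪 k g (cIdx k g j i) =
      if i.1 = 0 then py 𝒪 g j
      else if i.1 = 1 then pz 𝒪 g j
      else if i.1 = 2 then pm 𝒪 g j
      else if i.1 = 3 then pβ 𝒪 g j * py 𝒪 g j
      else if i.1 = 4 then pβ 𝒪 g j * pz 𝒪 g j
      else pβ 𝒪 g j * pm 𝒪 g j := by
  have hj := j.2
  have hi := i.2
  have h1 : (cIdx k g j i).1 = 6 * j.1 + i.1 := rfl
  have h2 : (6 * j.1 + i.1) / 6 = j.1 := by omega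
  have h3 : (6 * j.1 + i.1) % 6 = i.1 := by omega
  have h4 : 6 * j.1 + i.1 < 6 * k := by omega
  have hj' : (⟨(cIdx k g j i).1 / 6, by rw [h1, h2]; exact hj⟩ : Fin k) = j := by
    apply Fin.ext
    simp only [h1, h2]
  unfold subFun
  rw [dif_pos (by rw [h1]; exact h4)]
  simp only [h1, h3, h2]

@[simp] theorem Sub_cy (j : Fin k) : Sub 𝒪 k g (cy 𝒪 g j) = py 𝒪 g j := by
  rw [cy, Sub_X, subFun_cIdx]; simp
@[simp] theorem Sub_cz (j : Fin k) : Sub 𝒪 k g (cz 𝒪 g j) = pz 𝒪 g j := by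
  rw [cz, Sub_X, subFun_cIdx]; simp
@[simp] theorem Sub_cm (j : Fin k) : Sub 𝒪 k g (cm 𝒪 g j) = pm 𝒪 g j := by
  rw [cm, Sub_X, subFun_cIdx]; simp
@[simp] theorem Sub_cv (j : Fin k) : Sub 𝒪 k g (cv 𝒪 g j) = pβ 𝒪 g j * py 𝒪 g j := by
  rw [cv, Sub_X, subFun_cIdx]; simp
@[simp] theorem Sub_cw (j : Fin k) : Sub 𝒪 k g (cw 𝒪 g j) = pβ 𝒪 g j * pz 𝒪 g j := by
  rw [cw, Sub_X, subFun_cIdx]; simp
@[simp] theorem Sub_cs (j : Fin k) : Sub 𝒪 k g (cs 𝒪 g j) = pβ 𝒪 g j * pm 𝒪 g j := by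
  rw [cs, Sub_X, subFun_cIdx]; simp

theorem Sub_xIdx (a : Fin g) : Sub 𝒪 k g (X (xIdx k g a)) = px 𝒪 g a := by
  rw [Sub_X]
  have ha := a.2
  have h1 : (xIdx k g a).1 = 6 * k + a.1 := rfl
  unfold subFun
  rw [dif_neg (by rw [h1]; omega)]
  congr 1
  apply Fin.ext
  simp only [h1]
  omega

/-- `F_j = m_j² + 4 y_j z_j − δ_j²`. -/
noncomputable def typeF (δ : Fin k → 𝒪) (j : Fin k) : PRing' 𝒪 k g :=
  pm 𝒪 g j ^ 2 + 4 * py 𝒪 g j * pz 𝒪 g j - C (δ j ^ 2)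

/-- The ideal `(F_1, …, F_k)` of `P'`. -/
noncomputable def typeIdeal' (g : ℕ) (δ : Fin k → 𝒪) : Ideal (PRing' 𝒪 k g) :=
  Ideal.span (Set.range (typeF (g := g) δ))

/-- **The ideal of type `δ`.** -/
noncomputable def typeIdeal (g : ℕ) (δ : Fin k → 𝒪) : Ideal (PRing 𝒪 k g) :=
  Ideal.comap (Sub 𝒪 k g) (typeIdeal' g δ)

theorem Sub_Q1 (j : Fin k) :
    Sub 𝒪 k g (Q1 𝒪 g j) = pm 𝒪 g j ^ 2 + 4 * py 𝒪 g j * pz 𝒪 g j := by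
  have h4 : Sub 𝒪 k g (4 : PRing 𝒪 k g) = 4 := map_ofNat _ 4
  simp only [Q1, map_add, map_mul, map_pow, Sub_cy, Sub_cz, Sub_cm, h4]

theorem Q1_sub_mem_typeIdeal (δ : Fin k → 𝒪) (j : Fin k) :
    Q1 𝒪 g j - C (δ j ^ 2) ∈ typeIdeal g δ := by
  rw [typeIdeal, Ideal.mem_comap, map_sub, Sub_Q1]
  have h1 : Sub 𝒪 k g (C (δ j ^ 2)) = C (δ j ^ 2) := by
    have h2 : (C (δ j ^ 2) : PRing 𝒪 k g) = algebraMap 𝒪 _ (δ j ^ 2) := rfl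
    rw [h2, AlgHom.commutes]
    rfl
  rw [h1]
  exact Ideal.subset_span ⟨j, rfl⟩

theorem minor1_mem_typeIdeal (δ : Fin k → 𝒪) (j : Fin k) : minor1 𝒪 g j ∈ typeIdeal g δ := by
  rw [typeIdeal, Ideal.mem_comap]
  have : Sub 𝒪 k g (minor1 𝒪 g j) = 0 := by simp [minor1]; ring
  rw [this]; exact Ideal.zero_mem _

theorem minor2_mem_typeIdeal (δ : Fin k → 𝒪) (j : Fin k) : minor2 𝒪 g j ∈ typeIdeal g δ := by
  rw [typeIdeal, Ideal.mem_comap]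
  have : Sub 𝒪 k g (minor2 𝒪 g j) = 0 := by simp [minor2]; ring
  rw [this]; exact Ideal.zero_mem _

theorem minor3_mem_typeIdeal (δ : Fin k → 𝒪) (j : Fin k) : minor3 𝒪 g j ∈ typeIdeal g δ := by
  rw [typeIdeal, Ideal.mem_comap]
  have : Sub 𝒪 k g (minor3 𝒪 g j) = 0 := by simp [minor3]; ring
  rw [this]; exact Ideal.zero_mem _

end Defs

/-! ### The four leaves of PV-LOC-TYPE -/

/-- **TYPE-PRIME** (QUADRIC + induction): `(F_1, …, F_k)` is a prime ideal of `P'`. -/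
def Stmt_TypePrime : Prop :=
  ∀ (𝒪 : Type) [CommRing 𝒪] [IsDomain 𝒪] [IsDiscreteValuationRing 𝒪]
    [IsAdicComplete (maximalIdeal 𝒪) 𝒪] (k g : ℕ) (δ : Fin k → 𝒪),
    IsUnit (2 : 𝒪) → (∀ j, δ j ≠ 0) → (∀ j, δ j ∈ maximalIdeal 𝒪) →
    (typeIdeal' g δ).IsPrime

/-- **TYPE-DIM**: `dim P / typeIdeal ≤ 1 + 3k + g`. -/
def Stmt_TypeDim : Prop :=
  ∀ (𝒪 : Type) [CommRing 𝒪] [IsDomain 𝒪] [IsDiscreteValuationRing 𝒪]
    [IsAdicComplete (maximalIdeal 𝒪) 𝒪] (k g : ℕ) (ϖ : 𝒪) (δ : Fin k → 𝒪),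
    IsUnit (2 : 𝒪) → maximalIdeal 𝒪 = Ideal.span {ϖ} → (∀ j, δ j ∈ maximalIdeal 𝒪) →
    typeIdeal g δ ≠ ⊤ →
    ringKrullDim (PRing 𝒪 k g ⧸ typeIdeal g δ) ≤ ((1 + 3 * k + g : ℕ) : WithBot ℕ∞)

/-- **TYPE-KILL**: every point of type `δ` kills `typeIdeal δ`. -/
def Stmt_TypeKill : Prop :=
  ∀ (𝒪 : Type) [CommRing 𝒪] [IsDomain 𝒪] (k g : ℕ) (δ : Fin k → 𝒪),
    (∀ j, δ j ≠ 0) → KilledByType g δ (typeIdeal g δ)

/-- **TYPE-LEQ**: `typeIdeal δ ≤ (ϖ, y_j, z_j, m_j)`. -/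
def Stmt_TypeLeQ : Prop :=
  ∀ (𝒪 : Type) [CommRing 𝒪] [IsDomain 𝒪] [IsDiscreteValuationRing 𝒪]
    [IsAdicComplete (maximalIdeal 𝒪) 𝒪] (k g : ℕ) (ϖ : 𝒪) (δ : Fin k → 𝒪),
    IsUnit (2 : 𝒪) → maximalIdeal 𝒪 = Ideal.span {ϖ} →
    (∀ j, δ j ≠ 0) → (∀ j, δ j ∈ maximalIdeal 𝒪) →
    typeIdeal g δ ≤ idealQ k g ϖ

/-- `Stmt_PVLoc_type` from the four leaves. -/
theorem stmt_PVLoc_type_of (h1 : Stmt_TypePrime) (h2 : Stmt_TypeDim) (h3 : Stmt_TypeKill)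
    (h4 : Stmt_TypeLeQ) : Stmt_PVLoc_type := by
  intro 𝒪 _ _ _ _ k g ϖ δ hu hϖ hδ0 hδm
  have hp : (typeIdeal' g δ).IsPrime := h1 𝒪 k g δ hu hδ0 hδm
  have hprime : (typeIdeal g δ).IsPrime := Ideal.comap_isPrime _ _
  exact ⟨typeIdeal g δ, hprime, h2 𝒪 k g ϖ δ hu hϖ hδm hprime.ne_top, h4 𝒪 k g ϖ δ hu hϖ hδ0 hδm,
    h3 𝒪 k g δ hδ0⟩

end Fermat.Agent.L.Pivot
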