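/-
PIVOT (item 66), package PV-LOC-TYPE, leaf TYPE-DIM (helper1):
`dim P / typeIdeal δ ≤ 1 + 3k + g`.  Statement `Stmt_TypeDim` of `L/Pivot/LocDefs.lean`.

Route (helper3): the `1 + 3k + g` elements `ϖ, s_j, v_j + z_j, w_j + y_j, x_a` lie in the maximal
ideal; modulo them and `typeIdeal` every variable is nilpotent (`m³ = y³ = z³ = 0`), so the
quotient has dimension `≤ 0`; conclude with Krull's height theorem
(`ringKrullDim_le_ringKrullDim_quotient_add_encard`).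
-/
import Fermat.Agent.L.Pivot.LocDefs
import Fermat.Agent.S57.H90_PowerSeriesRegular

set_option autoImplicit false

namespace Fermat.Agent.L.Pivot.H01

open MvPowerSeries IsLocalRing

/-! ### Dimension zero from nilpotent variables -/

/-- Every element of the maximal ideal of `𝒪⟦X₁..X_n⟧` (`𝒪` local with maximal ideal `(ϖ)`)
lies in any ideal containing `ϖ` and the variables. -/
theorem mem_of_mem_maximalIdeal {𝒪 : Type} [CommRing 𝒪] [IsLocalRing 𝒪] {n : ℕ} (ϖ : 𝒪)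
    (hϖ : maximalIdeal 𝒪 = Ideal.span {ϖ}) (J : Ideal (MvPowerSeries (Fin n) 𝒪))
    (h0 : (C ϖ : MvPowerSeries (Fin n) 𝒪) ∈ J)
    (hX : ∀ i, (X i : MvPowerSeries (Fin n) 𝒪) ∈ J)
    {f : MvPowerSeries (Fin n) 𝒪} (hf : f ∈ maximalIdeal (MvPowerSeries (Fin n) 𝒪)) : f ∈ J := by
  classical
  have hc : constantCoeff f ∈ maximalIdeal 𝒪 := by
    rw [mem_maximalIdeal, mem_nonunits_iff] at hf ⊢
    intro hu
    exact hf (MvPowerSeries.isUnit_iff_constantCoeff.2 hu)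
  rw [hϖ, Ideal.mem_span_singleton] at hc
  obtain ⟨c, hc⟩ := hc
  have hspan : Ideal.span ((fun j : Fin n => (X j : MvPowerSeries (Fin n) 𝒪)) ''
      ((Finset.univ : Finset (Fin n)) : Set (Fin n))) ≤ J := by
    rw [Ideal.span_le]
    rintro _ ⟨j, -, rfl⟩
    exact hX j
  have h1 : f - C ϖ * C c ∈ Ideal.span ((fun j : Fin n => (X j : MvPowerSeries (Fin n) 𝒪)) ''
      ((Finset.univ : Finset (Fin n)) : Set (Fin n))) := by
    rw [Fermat.Agent.S57.H90.mem_span_X_image_iff]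
    intro m hm
    have hm0 : m = 0 := by
      ext j
      exact hm j (Finset.mem_univ j)
    subst hm0
    rw [coeff_zero_eq_constantCoeff_apply, map_sub, map_mul, constantCoeff_C, constantCoeff_C,
      hc, sub_self]
  have h2 : f = (f - C ϖ * C c) + C ϖ * C c := by ring
  rw [h2]
  exact J.add_mem (hspan h1) (J.mul_mem_right _ h0)

/-- A quotient of `𝒪⟦X₁..X_n⟧` in which `ϖ` and all the variables are nilpotent has dimension
`≤ 0`. -/
theorem ringKrullDim_le_zero_of_nilpotent {𝒪 : Type} [CommRing 𝒪] [IsLocalRing 𝒪] {n : ℕ}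
    {Q : Type} [CommRing Q] (π : MvPowerSeries (Fin n) 𝒪 →+* Q) (hπ : Function.Surjective π)
    (ϖ : 𝒪) (hϖ : maximalIdeal 𝒪 = Ideal.span {ϖ})
    (h0 : IsNilpotent (π (C ϖ))) (hX : ∀ i, IsNilpotent (π (X i))) :
    ringKrullDim Q ≤ 0 := by
  have hK : Ring.KrullDimLE 0 Q := by
    refine Ring.KrullDimLE.mk₀ fun 𝔭 h𝔭 => ?_
    have hcp : (Ideal.comap π 𝔭).IsPrime := Ideal.comap_isPrime π 𝔭
    have hle : maximalIdeal (MvPowerSeries (Fin n) 𝒪) ≤ Ideal.comap π 𝔭 := by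
      intro f hf
      refine mem_of_mem_maximalIdeal ϖ hϖ _ ?_ ?_ hf
      · rw [Ideal.mem_comap]
        obtain ⟨N, hN⟩ := h0
        exact h𝔭.mem_of_pow_mem N (by rw [hN]; exact 𝔭.zero_mem)
      · intro i
        rw [Ideal.mem_comap]
        obtain ⟨N, hN⟩ := hX i
        exact h𝔭.mem_of_pow_mem N (by rw [hN]; exact 𝔭.zero_mem)
    have heq : maximalIdeal (MvPowerSeries (Fin n) 𝒪) = Ideal.comap π 𝔭 :=
      (maximalIdeal.isMaximal _).eq_of_le hcp.ne_top hle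
    have hmap : Ideal.map π (Ideal.comap π 𝔭) = 𝔭 := Ideal.map_comap_of_surjective π hπ 𝔭
    rcases Ideal.map_eq_top_or_isMaximal_of_surjective π hπ
      (maximalIdeal.isMaximal (MvPowerSeries (Fin n) 𝒪)) with h | h
    · rw [heq, hmap] at h
      exact absurd h h𝔭.ne_top
    · rwa [heq, hmap] at h
  have := Ring.krullDimLE_iff.1 hK
  simpa using this

/-! ### The nilpotency computation -/

/-- In a ring where `4` is a unit: `m² + 4yz = 0`, vanishing minors, `s = 0`, `v = -z`, `w = -y`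
imply `m³ = y³ = z³ = 0`. -/
theorem cube_eq_zero {Q : Type} [CommRing Q] (h4 : IsUnit (4 : Q)) {Y Z M V W S : Q}
    (hQ : M ^ 2 + 4 * Y * Z = 0) (h1 : Y * W - Z * V = 0) (h2 : Y * S - M * V = 0)
    (h3 : Z * S - M * W = 0) (hS : S = 0) (hV : V + Z = 0) (hW : W + Y = 0) :
    M ^ 3 = 0 ∧ Y ^ 3 = 0 ∧ Z ^ 3 = 0 := by
  have hMY : M * Y = 0 := by linear_combination h3 - Z * hS + M * hW
  have hMZ : M * Z = 0 := by linear_combination h2 - Y * hS + M * hV
  have hZY : Z ^ 2 - Y ^ 2 = 0 := by linear_combination h1 - Y * hW + Z * hV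
  refine ⟨by linear_combination M * hQ - 4 * Z * hMY, ?_, ?_⟩
  · have h : 4 * Y ^ 3 = 0 := by linear_combination (-4 * Y) * hZY + Z * hQ - M * hMZ
    exact (h4.mul_right_eq_zero).1 h
  · have h : 4 * Z ^ 3 = 0 := by linear_combination (4 * Z) * hZY + Y * hQ - M * hMY
    exact (h4.mul_right_eq_zero).1 h

/-! ### The cutting elements -/

section Main

variable {𝒪 : Type} [CommRing 𝒪] {k g : ℕ}

/-- The index type of the `1 + 3k + g` cutting elements. -/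
abbrev Idx (k g : ℕ) : Type := Unit ⊕ ((Fin k × Fin 3) ⊕ Fin g)

/-- The `1 + 3k + g` elements `ϖ, s_j, v_j + z_j, w_j + y_j, x_a`. -/
noncomputable def cutElt (ϖ : 𝒪) : Idx k g → PRing 𝒪 k g
  | Sum.inl _ => C ϖ
  | Sum.inr (Sum.inl (j, i)) =>
      if i = 0 then cs 𝒪 g j else if i = 1 then cv 𝒪 g j + cz 𝒪 g j else cw 𝒪 g j + cy 𝒪 g j
  | Sum.inr (Sum.inr a) => X (xIdx k g a)

theorem mem_maximalIdeal_iff_constantCoeff [IsLocalRing 𝒪] {n : ℕ}
    (f : MvPowerSeries (Fin n) 𝒪) :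
    f ∈ maximalIdeal (MvPowerSeries (Fin n) 𝒪) ↔ constantCoeff f ∈ maximalIdeal 𝒪 := by
  rw [mem_maximalIdeal, mem_nonunits_iff, mem_maximalIdeal, mem_nonunits_iff,
    MvPowerSeries.isUnit_iff_constantCoeff]

theorem cutElt_mem_maximalIdeal [IsLocalRing 𝒪] (ϖ : 𝒪) (hϖ : ϖ ∈ maximalIdeal 𝒪)
    (i : Idx k g) : cutElt ϖ i ∈ maximalIdeal (PRing 𝒪 k g) := by
  rw [mem_maximalIdeal_iff_constantCoeff]
  rcases i with _ | ⟨j, i⟩ | a
  · simpa [cutElt] using hϖ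
  · simp only [cutElt, cs, cv, cz, cw, cy]
    split_ifs <;> simp
  · simp [cutElt]

theorem card_Idx (k g : ℕ) : Fintype.card (Idx k g) = 1 + 3 * k + g := by
  simp [Idx]
  ring

/-- Every index of `Fin (6k+g)` is a `cIdx` or an `xIdx`. -/
theorem idx_cases (i : Fin (6 * k + g)) :
    (∃ (j : Fin k) (t : Fin 6), i = cIdx k g j t) ∨ ∃ a : Fin g, i = xIdx k g a := by
  by_cases h : i.1 < 6 * k
  · left
    refine ⟨⟨i.1 / 6, by omega⟩, ⟨i.1 % 6, Nat.mod_lt _ (by norm_num)⟩, ?_⟩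
    apply Fin.ext
    show i.1 = 6 * (i.1 / 6) + i.1 % 6
    omega
  · right
    refine ⟨⟨i.1 - 6 * k, by have := i.2; omega⟩, ?_⟩
    apply Fin.ext
    show i.1 = 6 * k + (i.1 - 6 * k)
    omega

/-- Modulo `typeIdeal δ` and the cutting elements every variable is nilpotent. -/
theorem isNilpotent_X_of [IsLocalRing 𝒪] {Q : Type} [CommRing Q] (π : PRing 𝒪 k g →+* Q)
    (ϖ : 𝒪) (δ : Fin k → 𝒪) (h2 : IsUnit (2 : 𝒪)) (hδ : ∀ j, δ j ∈ Ideal.span {ϖ})
    (hπ0 : ∀ i : Idx k g, π (cutElt ϖ i) = 0) (hπI : ∀ f ∈ typeIdeal g δ, π f = 0)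
    (i : Fin (6 * k + g)) : IsNilpotent (π (X i)) := by
  have hπϖ : π (C ϖ) = 0 := hπ0 (Sum.inl ())
  have h4 : IsUnit (4 : Q) := by
    have h := h2.map (π.comp (C : 𝒪 →+* PRing 𝒪 k g))
    rw [map_ofNat] at h
    have h' := h.mul h
    have e : (2 : Q) * 2 = 4 := by norm_num
    rwa [e] at h'
  have hcoord : ∀ j : Fin k, π (cm 𝒪 g j) ^ 3 = 0 ∧ π (cy 𝒪 g j) ^ 3 = 0 ∧
      π (cz 𝒪 g j) ^ 3 = 0 ∧ π (cs 𝒪 g j) = 0 ∧ π (cv 𝒪 g j) + π (cz 𝒪 g j) = 0 ∧
      π (cw 𝒪 g j) + π (cy 𝒪 g j) = 0 := by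
    intro j
    have hS : π (cs 𝒪 g j) = 0 := by
      have := hπ0 (Sum.inr (Sum.inl (j, 0)))
      simpa [cutElt] using this
    have hV : π (cv 𝒪 g j) + π (cz 𝒪 g j) = 0 := by
      have := hπ0 (Sum.inr (Sum.inl (j, 1)))
      simpa [cutElt] using this
    have hW : π (cw 𝒪 g j) + π (cy 𝒪 g j) = 0 := by
      have := hπ0 (Sum.inr (Sum.inl (j, 2)))
      simpa [cutElt] using this
    have hδ0 : π (C (δ j ^ 2)) = 0 := by
      have hd := hδ j
      rw [Ideal.mem_span_singleton] at hd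
      obtain ⟨c, hc⟩ := hd
      have : (C (δ j ^ 2) : PRing 𝒪 k g) = C ϖ * C (ϖ * c ^ 2) := by
        rw [← map_mul, hc]; congr 1; ring
      rw [this, map_mul, hπϖ]
      exact zero_mul _
    have hQ : π (cm 𝒪 g j) ^ 2 + 4 * π (cy 𝒪 g j) * π (cz 𝒪 g j) = 0 := by
      have h := hπI _ (Q1_sub_mem_typeIdeal (g := g) δ j)
      rw [map_sub, hδ0, sub_zero, Q1] at h
      simpa only [map_add, map_mul, map_pow, map_ofNat] using h
    have h1 : π (cy 𝒪 g j) * π (cw 𝒪 g j) - π (cz 𝒪 g j) * π (cv 𝒪 g j) = 0 := by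
      have h := hπI _ (minor1_mem_typeIdeal (g := g) δ j)
      simpa only [minor1, map_sub, map_mul] using h
    have h2' : π (cy 𝒪 g j) * π (cs 𝒪 g j) - π (cm 𝒪 g j) * π (cv 𝒪 g j) = 0 := by
      have h := hπI _ (minor2_mem_typeIdeal (g := g) δ j)
      simpa only [minor2, map_sub, map_mul] using h
    have h3 : π (cz 𝒪 g j) * π (cs 𝒪 g j) - π (cm 𝒪 g j) * π (cw 𝒪 g j) = 0 := by
      have h := hπI _ (minor3_mem_typeIdeal (g := g) δ j)
      simpa only [minor3, map_sub, map_mul] using h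
    obtain ⟨a, b, c⟩ := cube_eq_zero h4 hQ h1 h2' h3 hS hV hW
    exact ⟨a, b, c, hS, hV, hW⟩
  rcases idx_cases i with ⟨j, t, rfl⟩ | ⟨a, rfl⟩
  · obtain ⟨hm, hy, hz, hS, hV, hW⟩ := hcoord j
    fin_cases t
    · exact ⟨3, hy⟩
    · exact ⟨3, hz⟩
    · exact ⟨3, hm⟩
    · have e : π (cv 𝒪 g j) = - π (cz 𝒪 g j) := eq_neg_of_add_eq_zero_left hV
      have : IsNilpotent (π (cv 𝒪 g j)) := by
        rw [e]; exact (IsNilpotent.neg (x := π (cz 𝒪 g j)) ⟨3, hz⟩)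
      exact this
    · have e : π (cw 𝒪 g j) = - π (cy 𝒪 g j) := eq_neg_of_add_eq_zero_left hW
      have : IsNilpotent (π (cw 𝒪 g j)) := by
        rw [e]; exact (IsNilpotent.neg (x := π (cy 𝒪 g j)) ⟨3, hy⟩)
      exact this
    · have : IsNilpotent (π (cs 𝒪 g j)) := by rw [hS]; exact IsNilpotent.zero
      exact this
  · have := hπ0 (Sum.inr (Sum.inr a))
    have h' : π (X (xIdx k g a)) = 0 := by simpa [cutElt] using this
    rw [h']
    exact IsNilpotent.zero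

/-- The dimension bound for any local noetherian quotient of `P` killing `typeIdeal δ`. -/
theorem ringKrullDim_le_of_surjective [IsLocalRing 𝒪] {R : Type} [CommRing R]
    [IsNoetherianRing R] [IsLocalRing R] (φ : PRing 𝒪 k g →+* R) (hφ : Function.Surjective φ)
    (ϖ : 𝒪) (δ : Fin k → 𝒪) (h2 : IsUnit (2 : 𝒪)) (hϖ : maximalIdeal 𝒪 = Ideal.span {ϖ})
    (hδ : ∀ j, δ j ∈ maximalIdeal 𝒪) (hφI : ∀ f ∈ typeIdeal g δ, φ f = 0) :
    ringKrullDim R ≤ ((1 + 3 * k + g : ℕ) : WithBot ℕ∞) := by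
  classical
  have hϖm : ϖ ∈ maximalIdeal 𝒪 := by
    rw [hϖ]; exact Ideal.mem_span_singleton_self ϖ
  let s : Set R := Set.range (fun i : Idx k g => φ (cutElt ϖ i))
  have hcomap : Ideal.comap φ (maximalIdeal R) = maximalIdeal (PRing 𝒪 k g) := by
    have : (Ideal.comap φ (maximalIdeal R)).IsMaximal :=
      Ideal.comap_isMaximal_of_surjective _ hφ
    exact IsLocalRing.eq_maximalIdeal this
  have hs : s ⊆ Ring.jacobson R := by
    rw [IsLocalRing.ringJacobson_eq_maximalIdeal]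
    rintro _ ⟨i, rfl⟩
    have h := cutElt_mem_maximalIdeal (k := k) (g := g) ϖ hϖm i
    rw [← hcomap, Ideal.mem_comap] at h
    exact h
  have hmain := ringKrullDim_le_ringKrullDim_quotient_add_encard s hs
  have hcard : s.encard ≤ ((1 + 3 * k + g : ℕ) : ℕ∞) := by
    show (Set.range (fun i : Idx k g => φ (cutElt ϖ i))).encard ≤ _
    rw [← Set.image_univ]
    refine (Set.encard_image_le _ _).trans ?_
    rw [Set.encard_univ, ENat.card_eq_coe_fintype_card, card_Idx]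
  have hπs : Function.Surjective ((Ideal.Quotient.mk (Ideal.span s)).comp φ) :=
    Ideal.Quotient.mk_surjective.comp hφ
  have hπ0 : ∀ i : Idx k g, ((Ideal.Quotient.mk (Ideal.span s)).comp φ) (cutElt ϖ i) = 0 := by
    intro i
    rw [RingHom.comp_apply, Ideal.Quotient.eq_zero_iff_mem]
    exact Ideal.subset_span ⟨i, rfl⟩
  have hπI : ∀ f ∈ typeIdeal g δ, ((Ideal.Quotient.mk (Ideal.span s)).comp φ) f = 0 := by
    intro f hf
    rw [RingHom.comp_apply, hφI f hf, map_zero]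
  have hnil := isNilpotent_X_of ((Ideal.Quotient.mk (Ideal.span s)).comp φ) ϖ δ h2
    (fun j => hϖ ▸ hδ j) hπ0 hπI
  have hQ0 : ringKrullDim (R ⧸ Ideal.span s) ≤ 0 :=
    ringKrullDim_le_zero_of_nilpotent _ hπs ϖ hϖ
      (by have h : ((Ideal.Quotient.mk (Ideal.span s)).comp φ) (C ϖ) = 0 := hπ0 (Sum.inl ())
          rw [h]; exact IsNilpotent.zero) hnil
  calc ringKrullDim R
      ≤ ringKrullDim (R ⧸ Ideal.span s) + s.encard := hmain
    _ ≤ 0 + ((1 + 3 * k + g : ℕ) : WithBot ℕ∞) :=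
        add_le_add hQ0 (WithBot.coe_le_coe.2 hcard)
    _ = ((1 + 3 * k + g : ℕ) : WithBot ℕ∞) := zero_add _

/-- **TYPE-DIM.** -/
theorem stmt_TypeDim : Stmt_TypeDim := by
  intro 𝒪 _ _ _ _ k g ϖ δ h2 hϖ hδ hI
  have : Nontrivial (PRing 𝒪 k g ⧸ typeIdeal g δ) := Ideal.Quotient.nontrivial_iff.2 hI
  have : IsLocalRing (PRing 𝒪 k g ⧸ typeIdeal g δ) :=
    IsLocalRing.of_surjective' (Ideal.Quotient.mk (typeIdeal g δ)) Ideal.Quotient.mk_surjective
  exact ringKrullDim_le_of_surjective (Ideal.Quotient.mk (typeIdeal g δ))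
    Ideal.Quotient.mk_surjective ϖ δ h2 hϖ hδ
    (fun f hf => (Ideal.Quotient.eq_zero_iff_mem).2 hf)

end Main

end Fermat.Agent.L.Pivot.H01
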