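/-
PIVOT (item 66), PV-CORE, part A (helper76): the splitting lemma.

`V` an `A`-module with commuting operators `c_j`, `c_j ^ m_j = 1`, and an `A`-basis
`c ^ x (W i y)` (`x_j < m_j`).  For scalars `ψ_j` with `ψ_j ^ m_j = 1` the family `W i y` is a
basis of `V / ∑_j (c_j - ψ_j) V`:
* `split_span` : every `v` is congruent to a combination of the `W i y`;
* `split_li`   : a combination of the `W i y` which lies in `∑_j (c_j - ψ_j) V` is trivial.
-/
import Fermat.Agent.S59.TWH.H90_Tower

set_option autoImplicit false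

namespace Fermat.Agent.L.Pivot.H76

open Fermat.Agent.S59.TWH

section Mon

variable {A : Type*} [CommRing A] {V : Type*} [AddCommGroup V] [Module A V]

theorem mon_zero_exp {k : ℕ} (c : Fin k → Module.End A V) : H90.mon c (fun _ => 0) = 1 := by
  induction k with
  | zero => exact H90.mon_zero _ _
  | succ k ih =>
    rw [H90.mon_succ, pow_zero, one_mul]
    exact ih _

theorem mon_add {k : ℕ} (c : Fin k → Module.End A V) (hc : ∀ i j, Commute (c i) (c j))
    (x y : Fin k → ℕ) : H90.mon c (x + y) = H90.mon c x * H90.mon c y := by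
  induction k with
  | zero => simp [H90.mon_zero]
  | succ k ih =>
    rw [H90.mon_succ, H90.mon_succ c x, H90.mon_succ c y]
    have h1 := ih (fun j => c j.succ) (fun i j => hc _ _) (fun j => x j.succ) (fun j => y j.succ)
    have h2 : (fun j : Fin k => (x + y) j.succ) = (fun j => x j.succ) + fun j => y j.succ := rfl
    rw [h2, h1, Pi.add_apply, pow_add]
    have h3 : Commute (c 0 ^ y 0) (H90.mon (fun j => c j.succ) fun j => x j.succ) :=
      H90.commute_mon _ _ fun j => (hc 0 j.succ).pow_left _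
    rw [mul_assoc, mul_assoc, ← mul_assoc (c 0 ^ y 0), h3.eq, mul_assoc]

theorem mon_single {k : ℕ} (c : Fin k → Module.End A V) (j : Fin k) :
    H90.mon c (Pi.single j 1) = c j := by
  induction k with
  | zero => exact j.elim0
  | succ k ih =>
    rw [H90.mon_succ]
    refine Fin.cases ?_ (fun j' => ?_) j
    · have h1 : (fun i : Fin k => (Pi.single (0 : Fin (k + 1)) 1 : Fin (k + 1) → ℕ) i.succ) =
          fun _ => 0 := by
        funext i
        exact Pi.single_eq_of_ne (Fin.succ_ne_zero i) 1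
      rw [h1, mon_zero_exp, Pi.single_eq_same, pow_one, mul_one]
    · have h1 : (fun i : Fin k => (Pi.single j'.succ 1 : Fin (k + 1) → ℕ) i.succ) =
          Pi.single j' 1 := by
        funext i
        by_cases hi : i = j'
        · subst hi
          rw [Pi.single_eq_same, Pi.single_eq_same]
        · rw [Pi.single_eq_of_ne hi, Pi.single_eq_of_ne (fun h => hi (Fin.succ_injective _ h))]
      rw [h1, ih (fun j => c j.succ) j', Pi.single_eq_of_ne (Fin.succ_ne_zero j').symm, pow_zero,
        one_mul]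

theorem mon_mod {k : ℕ} (c : Fin k → Module.End A V) (m : Fin k → ℕ)
    (hm : ∀ j, c j ^ m j = 1) (x : Fin k → ℕ) :
    H90.mon c x = H90.mon c (fun j => x j % m j) := by
  induction k with
  | zero => rw [H90.mon_zero, H90.mon_zero]
  | succ k ih =>
    rw [H90.mon_succ, H90.mon_succ c (fun j => x j % m j),
      ih (fun j => c j.succ) (fun j => m j.succ) (fun j => hm _) (fun j => x j.succ),
      pow_eq_pow_mod (x 0) (hm 0)]

/-- `∑_j (c_j - ψ_j) V`. -/
def tsub {k : ℕ} (c : Fin k → Module.End A V) (ψ : Fin k → A) : Submodule A V :=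
  ⨆ j, LinearMap.range (c j - ψ j • (1 : Module.End A V))

theorem sub_apply_mem_tsub {k : ℕ} (c : Fin k → Module.End A V) (ψ : Fin k → A) (j : Fin k)
    (v : V) : c j v - ψ j • v ∈ tsub c ψ :=
  Submodule.mem_iSup_of_mem j ⟨v, rfl⟩

/-- `∑_j (c_j - ψ_j) V` is stable under the operators commuting with the `c_j`. -/
theorem map_mem_tsub {k : ℕ} (c : Fin k → Module.End A V) (ψ : Fin k → A)
    (D : Module.End A V) (hD : ∀ j, Commute D (c j)) {v : V} (hv : v ∈ tsub c ψ) :
    D v ∈ tsub c ψ := by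
  refine Submodule.iSup_induction (fun j => LinearMap.range (c j - ψ j • (1 : Module.End A V)))
    (motive := fun v => D v ∈ tsub c ψ) hv ?_ ?_ ?_
  · rintro j _ ⟨w, rfl⟩
    have h1 : D ((c j - ψ j • (1 : Module.End A V)) w) = c j (D w) - ψ j • D w := by
      have h2 := congrArg (fun f : Module.End A V => f w) (hD j).eq
      simp only [Module.End.mul_apply] at h2
      simp only [LinearMap.sub_apply, LinearMap.smul_apply, Module.End.one_apply, map_sub,
        map_smul, h2]
    rw [h1]
    exact sub_apply_mem_tsub c ψ j _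
  · rw [map_zero]
    exact Submodule.zero_mem _
  · intro x y hx hy
    rw [map_add]
    exact Submodule.add_mem _ hx hy

theorem pow_sub_mem_range (c : Module.End A V) (a : A) (n : ℕ) (w : V) :
    (c ^ n) w - a ^ n • w ∈ LinearMap.range (c - a • (1 : Module.End A V)) := by
  induction n with
  | zero => simp
  | succ n ih =>
    have h1 : (c ^ (n + 1)) w - a ^ (n + 1) • w =
        (c - a • (1 : Module.End A V)) ((c ^ n) w) + a • ((c ^ n) w - a ^ n • w) := by
      simp only [LinearMap.sub_apply, LinearMap.smul_apply, Module.End.one_apply, pow_succ',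
        Module.End.mul_apply, smul_sub, smul_smul]
      abel
    rw [h1]
    exact Submodule.add_mem _ ⟨_, rfl⟩ (Submodule.smul_mem _ _ ih)

/-- the value of the character `c_j ↦ ψ_j` at the monomial `c ^ x`. -/
def chi {k : ℕ} (ψ : Fin k → A) (x : Fin k → ℕ) : A :=
  H90.mon (fun j => ψ j • (1 : Module.End A A)) x 1

theorem smul_one_pow_apply (a : A) (n : ℕ) (z : A) :
    ((a • (1 : Module.End A A)) ^ n) z = a ^ n * z := by
  rw [smul_pow, one_pow, LinearMap.smul_apply, Module.End.one_apply, smul_eq_mul]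

theorem chi_succ {k : ℕ} (ψ : Fin (k + 1) → A) (x : Fin (k + 1) → ℕ) :
    chi ψ x = ψ 0 ^ x 0 * chi (fun j => ψ j.succ) (fun j => x j.succ) := by
  rw [chi, H90.mon_succ, Module.End.mul_apply, smul_one_pow_apply]
  rfl

theorem chi_zero_exp {k : ℕ} (ψ : Fin k → A) : chi ψ (fun _ => 0) = 1 := by
  rw [chi, mon_zero_exp, Module.End.one_apply]

theorem commute_smul_one {k : ℕ} (ψ : Fin k → A) (i j : Fin k) :
    Commute (ψ i • (1 : Module.End A A)) (ψ j • (1 : Module.End A A)) := by
  rw [Commute, SemiconjBy, smul_mul_smul_comm, smul_mul_smul_comm, mul_comm (ψ i)]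

/-- `c ^ x w ≡ ψ ^ x w` modulo `∑_j (c_j - ψ_j) V`. -/
theorem mon_sub_chi_mem {k : ℕ} (c : Fin k → Module.End A V)
    (hc : ∀ i j, Commute (c i) (c j)) (ψ : Fin k → A) (x : Fin k → ℕ) (w : V) :
    H90.mon c x w - chi ψ x • w ∈ tsub c ψ := by
  induction k with
  | zero =>
    rw [H90.mon_zero, chi, H90.mon_zero]
    simp
  | succ k ih =>
    have h1 := ih (fun j => c j.succ) (fun i j => hc _ _) (fun j => ψ j.succ) (fun j => x j.succ)
    have hle : tsub (fun j => c j.succ) (fun j => ψ j.succ) ≤ tsub c ψ :=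
      iSup_le fun j => le_iSup (fun j => LinearMap.range (c j - ψ j • (1 : Module.End A V))) j.succ
    have h2 : H90.mon c x w - chi ψ x • w =
        (c 0 ^ x 0) (H90.mon (fun j => c j.succ) (fun j => x j.succ) w -
          chi (fun j => ψ j.succ) (fun j => x j.succ) • w) +
        chi (fun j => ψ j.succ) (fun j => x j.succ) • ((c 0 ^ x 0) w - ψ 0 ^ x 0 • w) := by
      rw [H90.mon_succ, chi_succ, Module.End.mul_apply, map_sub, map_smul, smul_sub, smul_smul,
        mul_comm (chi _ _)]
      abel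
    rw [h2]
    refine Submodule.add_mem _ ?_ (Submodule.smul_mem _ _ ?_)
    · exact map_mem_tsub c ψ _ (fun j => (hc 0 j).pow_left _) (hle h1)
    · exact le_iSup (fun j => LinearMap.range (c j - ψ j • (1 : Module.End A V))) 0
        (pow_sub_mem_range (c 0) (ψ 0) (x 0) w)

end Mon

section Split

variable {A : Type*} [CommRing A] {V : Type*} [AddCommGroup V] [Module A V]
variable {k : ℕ} (c : Fin k → Module.End A V) (m : Fin k → ℕ)

/-- the shift of the `j`-th exponent by one, modulo `m j`. -/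
def shiftX (hm0 : ∀ j, 0 < m j) (j : Fin k) (x : ∀ j, Fin (m j)) : ∀ j, Fin (m j) :=
  Function.update x j ⟨((x j : ℕ) + 1) % m j, Nat.mod_lt _ (hm0 j)⟩

theorem shiftX_val (hm0 : ∀ j, 0 < m j) (j : Fin k) (x : ∀ j, Fin (m j)) :
    (fun i => ((shiftX m hm0 j x i : Fin (m i)) : ℕ)) =
      fun i => ((fun i => ((x i : Fin (m i)) : ℕ)) + Pi.single j 1 : Fin k → ℕ) i % m i := by
  funext i
  by_cases hi : i = j
  · subst hi
    simp [shiftX]
  · rw [shiftX, Function.update_of_ne hi, Pi.add_apply, Pi.single_eq_of_ne hi, add_zero,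
      Nat.mod_eq_of_lt (x i).2]

theorem mon_shiftX (hc : ∀ i j, Commute (c i) (c j)) (hm : ∀ j, c j ^ m j = 1)
    (hm0 : ∀ j, 0 < m j) (j : Fin k) (x : ∀ j, Fin (m j)) :
    H90.mon c (fun i => ((shiftX m hm0 j x i : Fin (m i)) : ℕ)) =
      H90.mon c (fun i => ((x i : Fin (m i)) : ℕ)) * c j := by
  rw [shiftX_val, ← mon_mod c m hm, mon_add c hc, mon_single]

theorem chi_shiftX (ψ : Fin k → A) (hψ : ∀ j, ψ j ^ m j = 1)
    (hm0 : ∀ j, 0 < m j) (j : Fin k) (x : ∀ j, Fin (m j)) :
    chi ψ (fun i => ((shiftX m hm0 j x i : Fin (m i)) : ℕ)) =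
      ψ j * chi ψ (fun i => ((x i : Fin (m i)) : ℕ)) := by
  have h1 : ∀ j, (ψ j • (1 : Module.End A A)) ^ m j = 1 := fun j => by
    rw [smul_pow, one_pow, hψ, one_smul]
  rw [chi, mon_shiftX _ m (commute_smul_one ψ) h1 hm0, Module.End.mul_apply,
    LinearMap.smul_apply, Module.End.one_apply, map_smul, smul_eq_mul]
  rfl

variable {I Y : Type*} [Fintype I] [Fintype Y] (W : I → Y → V)

/-- the basis vectors `c ^ x (W i y)`. -/
def bvec (κ : I × (∀ j, Fin (m j)) × Y) : V :=
  H90.mon c (fun j => ((κ.2.1 j : Fin (m j)) : ℕ)) (W κ.1 κ.2.2)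

variable {c m W}

/-- the coordinates with respect to the basis `bvec`. -/
noncomputable def coordE
    (hb : Function.Bijective (Fintype.linearCombination A (bvec c m W))) :
    (I × (∀ j, Fin (m j)) × Y → A) ≃ₗ[A] V :=
  LinearEquiv.ofBijective (Fintype.linearCombination A (bvec c m W)) hb

theorem coordE_symm_bvec
    (hb : Function.Bijective (Fintype.linearCombination A (bvec c m W)))
    [DecidableEq (I × (∀ j, Fin (m j)) × Y)] (κ : I × (∀ j, Fin (m j)) × Y) :
    (coordE hb).symm (bvec c m W κ) = Pi.single κ 1 := by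
  rw [LinearEquiv.symm_apply_eq]
  show _ = Fintype.linearCombination A (bvec c m W) (Pi.single κ 1)
  rw [Fintype.linearCombination_apply_single, one_smul]

/-- the functionals `Λ_z`: the coordinates of the image in `V / ∑ (c_j - ψ_j) V`. -/
noncomputable def lam
    (hb : Function.Bijective (Fintype.linearCombination A (bvec c m W)))
    (ψ : Fin k → A) (z : I × Y) : V →ₗ[A] A :=
  (∑ x : (∀ j, Fin (m j)), chi ψ (fun j => ((x j : Fin (m j)) : ℕ)) •
    (LinearMap.proj (R := A) (φ := fun _ : I × (∀ j, Fin (m j)) × Y => A) (z.1, x, z.2))) ∘ₗ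
    (coordE hb).symm.toLinearMap

theorem lam_bvec
    (hb : Function.Bijective (Fintype.linearCombination A (bvec c m W)))
    (ψ : Fin k → A) [DecidableEq I] [DecidableEq Y] (z : I × Y)
    (κ : I × (∀ j, Fin (m j)) × Y) :
    lam hb ψ z (bvec c m W κ) =
      if (κ.1, κ.2.2) = z then chi ψ (fun j => ((κ.2.1 j : Fin (m j)) : ℕ)) else 0 := by
  classical
  rw [lam, LinearMap.comp_apply, LinearEquiv.coe_coe, coordE_symm_bvec, LinearMap.sum_apply]
  simp only [LinearMap.smul_apply, LinearMap.proj_apply, smul_eq_mul]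
  split_ifs with h
  · subst h
    rw [Finset.sum_eq_single κ.2.1]
    · rw [Pi.single_eq_same, mul_one]
    · intro x _ hx
      rw [Pi.single_eq_of_ne, mul_zero]
      intro h'
      exact hx (congrArg (fun κ' : I × (∀ j, Fin (m j)) × Y => κ'.2.1) h')
    · intro h'
      exact absurd (Finset.mem_univ _) h'
  · refine Finset.sum_eq_zero fun x _ => ?_
    rw [Pi.single_eq_of_ne, mul_zero]
    intro h'
    apply h
    rw [← h']

theorem lam_eq_zero_of_mem (hc : ∀ i j, Commute (c i) (c j)) (hm : ∀ j, c j ^ m j = 1)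
    (hm0 : ∀ j, 0 < m j)
    (hb : Function.Bijective (Fintype.linearCombination A (bvec c m W)))
    (ψ : Fin k → A) (hψ : ∀ j, ψ j ^ m j = 1) (z : I × Y) {v : V} (hv : v ∈ tsub c ψ) :
    lam hb ψ z v = 0 := by
  classical
  refine Submodule.iSup_induction (fun j => LinearMap.range (c j - ψ j • (1 : Module.End A V)))
    (motive := fun v => lam hb ψ z v = 0) hv ?_ (map_zero _) ?_
  · rintro j _ ⟨w, rfl⟩
    obtain ⟨G, rfl⟩ := hb.2 w
    rw [Fintype.linearCombination_apply, map_sum, map_sum]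
    refine Finset.sum_eq_zero fun κ _ => ?_
    rw [map_smul, map_smul]
    have h1 : (c j - ψ j • (1 : Module.End A V)) (bvec c m W κ) =
        bvec c m W (κ.1, shiftX m hm0 j κ.2.1, κ.2.2) - ψ j • bvec c m W κ := by
      have h2 : c j (bvec c m W κ) = bvec c m W (κ.1, shiftX m hm0 j κ.2.1, κ.2.2) := by
        rw [bvec, bvec, mon_shiftX c m hc hm hm0,
          ← (H90.commute_mon c _ (fun i => hc j i)).eq, Module.End.mul_apply]
      rw [LinearMap.sub_apply, LinearMap.smul_apply, Module.End.one_apply, h2]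
    rw [h1, map_sub, map_smul, lam_bvec, lam_bvec]
    simp only [chi_shiftX m ψ hψ hm0]
    split_ifs <;> simp only [smul_eq_mul, sub_self, mul_zero, smul_zero, sub_zero]
  · intro x y hx hy
    rw [map_add, hx, hy, add_zero]

/-- **SPLIT, linear independence.** -/
theorem split_li (hc : ∀ i j, Commute (c i) (c j)) (hm : ∀ j, c j ^ m j = 1)
    (hm0 : ∀ j, 0 < m j)
    (hb : Function.Bijective (Fintype.linearCombination A (bvec c m W)))
    (ψ : Fin k → A) (hψ : ∀ j, ψ j ^ m j = 1) (f : I × Y → A)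
    (hf : ∑ z : I × Y, f z • W z.1 z.2 ∈ tsub c ψ) : f = 0 := by
  classical
  funext z
  have h1 := lam_eq_zero_of_mem hc hm hm0 hb ψ hψ z hf
  have h2 : ∀ z' : I × Y, W z'.1 z'.2 = bvec c m W (z'.1, (fun j => ⟨0, hm0 j⟩), z'.2) := by
    intro z'
    rw [bvec]
    show _ = H90.mon c (fun _ => 0) _
    rw [mon_zero_exp, Module.End.one_apply]
  rw [map_sum] at h1
  simp only [map_smul, h2, lam_bvec] at h1
  rw [Finset.sum_eq_single z] at h1
  · rw [if_pos rfl] at h1
    have h3 : chi ψ (fun j : Fin k => ((⟨0, hm0 j⟩ : Fin (m j)) : ℕ)) = 1 := chi_zero_exp ψ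
    rw [h3, smul_eq_mul, mul_one] at h1
    exact h1
  · intro z' _ hz'
    rw [if_neg hz', smul_zero]
  · intro h'
    exact absurd (Finset.mem_univ _) h'

/-- **SPLIT, generation.** -/
theorem split_span (hc : ∀ i j, Commute (c i) (c j))
    (hb : Function.Bijective (Fintype.linearCombination A (bvec c m W)))
    (ψ : Fin k → A) (v : V) :
    ∃ f : I × Y → A, v - ∑ z : I × Y, f z • W z.1 z.2 ∈ tsub c ψ := by
  classical
  obtain ⟨G, rfl⟩ := hb.2 v
  refine ⟨fun z => ∑ x : (∀ j, Fin (m j)), G (z.1, x, z.2) *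
    chi ψ (fun j => ((x j : Fin (m j)) : ℕ)), ?_⟩
  have h1 : ∑ z : I × Y, (∑ x : (∀ j, Fin (m j)), G (z.1, x, z.2) *
      chi ψ (fun j => ((x j : Fin (m j)) : ℕ))) • W z.1 z.2 =
      ∑ κ : I × (∀ j, Fin (m j)) × Y,
        (G κ * chi ψ (fun j => ((κ.2.1 j : Fin (m j)) : ℕ))) • W κ.1 κ.2.2 := by
    simp only [Finset.sum_smul]
    rw [Fintype.sum_prod_type, Fintype.sum_prod_type]
    refine Finset.sum_congr rfl fun i _ => ?_
    rw [Fintype.sum_prod_type, Finset.sum_comm]
  rw [h1, Fintype.linearCombination_apply, ← Finset.sum_sub_distrib]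
  refine Submodule.sum_mem _ fun κ _ => ?_
  rw [mul_smul, ← smul_sub]
  exact Submodule.smul_mem _ _ (mon_sub_chi_mem c hc ψ _ _)

end Split

end Fermat.Agent.L.Pivot.H76
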