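/-
PIVOT (item 66), PV-CORE, part B (helper76): generation and relations of
`V / ∑_j (c_j - ψ_j) V` over `S = 𝒪⟦X₁, …, X_r⟧`, at the level of `V`.

`G : S → End V` with `G (X_i) = d_i - 1`, `d_i ^ (p ^ n) = 1`, and `c ^ x d ^ y (b i)` an
`𝒪`-basis of `V`:
* `core_span` : every `v` is congruent to `∑ G (cc i) (b i)` modulo `∑_j (c_j - ψ_j) V`;
* `core_rel`  : `∑ G (cc i) (b i) ∈ ∑_j (c_j - ψ_j) V` iff all `cc i` lie in the relation ideal;
* `core_cmp`  : `ϖ V + ∑_j (c_j - ψ_j) V` depends only on `ψ` modulo `ϖ`.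
-/
import Fermat.Agent.L.Pivot.Defs
import Fermat.Agent.L.Pivot.H76_CoreSplit
import Fermat.Agent.S59.Asm.Core

set_option autoImplicit false

namespace Fermat.Agent.L.Pivot.H76

open Fermat.Agent.S59.TWH Fermat.Agent.S59 MvPowerSeries

theorem twIdealP_eq (𝒪 : Type) [CommRing 𝒪] (r p n : ℕ) :
    twIdealP 𝒪 r p n = twIdeal 𝒪 p r n := rfl

section Lin

variable {𝒪 : Type} [CommRing 𝒪] {V : Type} [AddCommGroup V] [Module 𝒪 V] {p r n k : ℕ}
variable (G : MvPowerSeries (Fin r) 𝒪 →ₐ[𝒪] Module.End 𝒪 V) (d : Fin r → Module.End 𝒪 V)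

theorem G_C (a : 𝒪) (v : V) : G (C a) v = a • v := by
  have h1 : (C a : MvPowerSeries (Fin r) 𝒪) = algebraMap 𝒪 _ a := rfl
  rw [h1, AlgHom.commutes, Module.algebraMap_end_apply]

variable {G d}

theorem G_onePlusXPow (hG : ∀ i, G (X i) = d i - 1) {N : ℕ} (y : Fin r → Fin N) :
    G (onePlusXPow 𝒪 y) = H90.mon d (fun j => (y j : ℕ)) := by
  have h1 := Fermat.Agent.S59.Asm.map_prod_pow_eq_mon
    (G : MvPowerSeries (Fin r) 𝒪 →+* Module.End 𝒪 V) (fun j => 1 + X j) (fun j => (y j : ℕ))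
  have h2 : (fun j => (G : MvPowerSeries (Fin r) 𝒪 →+* Module.End 𝒪 V) (1 + X j)) = d := by
    funext j
    show G (1 + X j) = d j
    rw [map_add, map_one, hG]
    abel
  rw [h2] at h1
  exact h1

theorem G_eq_zero_of_mem (hG : ∀ i, G (X i) = d i - 1) (hd : ∀ i, d i ^ (p ^ n) = 1)
    {s : MvPowerSeries (Fin r) 𝒪} (hs : s ∈ twIdealP 𝒪 r p n) : G s = 0 := by
  rw [twIdealP] at hs
  obtain ⟨g, rfl⟩ := (Ideal.mem_span_range_iff_exists_fun).mp hs
  rw [map_sum]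
  refine Finset.sum_eq_zero fun j _ => ?_
  rw [map_mul, map_sub, map_pow, map_add, map_one, hG]
  have h1 : (1 + (d j - 1)) ^ (p ^ n) = d j ^ (p ^ n) := by
    congr 1
    abel
  rw [h1, hd, sub_self, mul_zero]

variable {c : Fin k → Module.End 𝒪 V} {e : Fin k → ℕ} {rk : ℕ} {b : Fin rk → V}

/-- the basis hypothesis of `Stmt_PVCore`, in the form used by the splitting lemma. -/
theorem bijective_bvec
    (hb : Function.Bijective
      (fun f : Fin rk × (∀ j : Fin k, Fin (p ^ e j)) × (Fin r → Fin (p ^ n)) → 𝒪 =>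
        ∑ x : Fin rk × (∀ j : Fin k, Fin (p ^ e j)) × (Fin r → Fin (p ^ n)),
          f x • H90.mon c (fun j => (x.2.1 j : ℕ))
            (H90.mon d (fun i => (x.2.2 i : ℕ)) (b x.1)))) :
    Function.Bijective (Fintype.linearCombination 𝒪
      (bvec c (fun j => p ^ e j)
        (fun (i : Fin rk) (y : Fin r → Fin (p ^ n)) => H90.mon d (fun i => (y i : ℕ)) (b i)))) := by
  have h1 : (⇑(Fintype.linearCombination 𝒪
      (bvec c (fun j => p ^ e j)
        (fun (i : Fin rk) (y : Fin r → Fin (p ^ n)) =>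
          H90.mon d (fun i => (y i : ℕ)) (b i))))) =
      (fun f : Fin rk × (∀ j : Fin k, Fin (p ^ e j)) × (Fin r → Fin (p ^ n)) → 𝒪 =>
        ∑ x : Fin rk × (∀ j : Fin k, Fin (p ^ e j)) × (Fin r → Fin (p ^ n)),
          f x • H90.mon c (fun j => (x.2.1 j : ℕ))
            (H90.mon d (fun i => (x.2.2 i : ℕ)) (b x.1))) := by
    funext f
    rw [Fintype.linearCombination_apply]
    rfl
  rw [h1]
  exact hb

theorem sum_G_apply (hG : ∀ i, G (X i) = d i - 1)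
    (a : Fin rk × (Fin r → Fin (p ^ n)) → 𝒪) :
    ∑ i, G (∑ y, C (a (i, y)) * onePlusXPow 𝒪 y) (b i) =
      ∑ z : Fin rk × (Fin r → Fin (p ^ n)),
        a z • H90.mon d (fun j => (z.2 j : ℕ)) (b z.1) := by
  rw [Fintype.sum_prod_type]
  refine Finset.sum_congr rfl fun i _ => ?_
  rw [map_sum, LinearMap.sum_apply]
  refine Finset.sum_congr rfl fun y _ => ?_
  rw [map_mul, Module.End.mul_apply, G_C, G_onePlusXPow hG]

/-- **generation** -/
theorem core_span (hG : ∀ i, G (X i) = d i - 1)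
    (hcc : ∀ i j, Commute (c i) (c j))
    (hb : Function.Bijective
      (fun f : Fin rk × (∀ j : Fin k, Fin (p ^ e j)) × (Fin r → Fin (p ^ n)) → 𝒪 =>
        ∑ x : Fin rk × (∀ j : Fin k, Fin (p ^ e j)) × (Fin r → Fin (p ^ n)),
          f x • H90.mon c (fun j => (x.2.1 j : ℕ))
            (H90.mon d (fun i => (x.2.2 i : ℕ)) (b x.1))))
    (ψ : Fin k → 𝒪) (v : V) :
    ∃ cc : Fin rk → MvPowerSeries (Fin r) 𝒪, v - ∑ i, G (cc i) (b i) ∈ tsub c ψ := by
  obtain ⟨a, ha⟩ := split_span hcc (bijective_bvec hb) ψ v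
  refine ⟨fun i => ∑ y, C (a (i, y)) * onePlusXPow 𝒪 y, ?_⟩
  rw [sum_G_apply hG]
  exact ha

/-- **relations** -/
theorem core_rel (hp : 0 < p) (hDIV : Stmt_DIV 𝒪 p r n) (hG : ∀ i, G (X i) = d i - 1)
    (hd : ∀ i, d i ^ (p ^ n) = 1)
    (hcc : ∀ i j, Commute (c i) (c j)) (hcpow : ∀ j, c j ^ (p ^ e j) = 1)
    (hb : Function.Bijective
      (fun f : Fin rk × (∀ j : Fin k, Fin (p ^ e j)) × (Fin r → Fin (p ^ n)) → 𝒪 =>
        ∑ x : Fin rk × (∀ j : Fin k, Fin (p ^ e j)) × (Fin r → Fin (p ^ n)),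
          f x • H90.mon c (fun j => (x.2.1 j : ℕ))
            (H90.mon d (fun i => (x.2.2 i : ℕ)) (b x.1))))
    (ψ : Fin k → 𝒪) (hψ : ∀ j, ψ j ^ (p ^ e j) = 1)
    (cc : Fin rk → MvPowerSeries (Fin r) 𝒪) :
    ∑ i, G (cc i) (b i) ∈ tsub c ψ ↔ ∀ i, cc i ∈ twIdealP 𝒪 r p n := by
  constructor
  · intro hmem i
    choose a ha using fun i => hDIV (cc i)
    have h1 : ∀ i, G (cc i) = G (∑ y, C (a i y) * onePlusXPow 𝒪 y) := by
      intro i
      have h2 : cc i = (cc i - ∑ y, C (a i y) * onePlusXPow 𝒪 y) +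
          ∑ y, C (a i y) * onePlusXPow 𝒪 y := by ring
      conv_lhs => rw [h2]
      rw [map_add, G_eq_zero_of_mem hG hd (ha i), zero_add]
    have h3 : ∑ i, G (cc i) (b i) =
        ∑ z : Fin rk × (Fin r → Fin (p ^ n)),
          (fun z : Fin rk × (Fin r → Fin (p ^ n)) => a z.1 z.2) z •
            H90.mon d (fun j => (z.2 j : ℕ)) (b z.1) := by
      rw [← sum_G_apply hG]
      exact Finset.sum_congr rfl fun i _ => by rw [h1]
    rw [h3] at hmem
    have h4 := split_li hcc hcpow (fun j => pow_pos hp _) (bijective_bvec hb) ψ hψ _ hmem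
    have h5 : ∀ y, a i y = 0 := fun y => congrFun h4 (i, y)
    have h6 := ha i
    simp only [h5, map_zero, zero_mul, Finset.sum_const_zero, sub_zero] at h6
    exact h6
  · intro hmem
    have h1 : ∑ i, G (cc i) (b i) = 0 :=
      Finset.sum_eq_zero fun i _ => by
        rw [G_eq_zero_of_mem hG hd (hmem i), LinearMap.zero_apply]
    rw [h1]
    exact Submodule.zero_mem _

/-- **comparison modulo `ϖ`** -/
theorem core_cmp_aux (ϖ : 𝒪) (ψ ψ' : Fin k → 𝒪) (hψ : ∀ j, ψ j - ψ' j ∈ Ideal.span {ϖ})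
    (w : V) (hw : ∃ u : V, w - ϖ • u ∈ tsub c ψ) : ∃ u : V, w - ϖ • u ∈ tsub c ψ' := by
  obtain ⟨u, hu⟩ := hw
  have key : ∀ x ∈ tsub c ψ, ∃ u' : V, x - ϖ • u' ∈ tsub c ψ' := by
    intro x hx
    refine Submodule.iSup_induction
      (fun j => LinearMap.range (c j - ψ j • (1 : Module.End 𝒪 V)))
      (motive := fun x => ∃ u' : V, x - ϖ • u' ∈ tsub c ψ') hx ?_ ?_ ?_
    · rintro j _ ⟨t, rfl⟩
      obtain ⟨a, ha⟩ := Ideal.mem_span_singleton'.1 (hψ j)
      refine ⟨-(a • t), ?_⟩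
      have h1 : (c j - ψ j • (1 : Module.End 𝒪 V)) t - ϖ • -(a • t) = c j t - ψ' j • t := by
        rw [LinearMap.sub_apply, LinearMap.smul_apply, Module.End.one_apply, smul_neg,
          sub_neg_eq_add, smul_smul, mul_comm ϖ a, ha, sub_smul]
        abel
      rw [h1]
      exact sub_apply_mem_tsub c ψ' j t
    · exact ⟨0, by simp⟩
    · rintro x y ⟨ux, hx⟩ ⟨uy, hy⟩
      refine ⟨ux + uy, ?_⟩
      have h1 : x + y - ϖ • (ux + uy) = (x - ϖ • ux) + (y - ϖ • uy) := by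
        rw [smul_add]
        abel
      rw [h1]
      exact Submodule.add_mem _ hx hy
  obtain ⟨u', hu'⟩ := key _ hu
  refine ⟨u + u', ?_⟩
  have h1 : w - ϖ • (u + u') = w - ϖ • u - ϖ • u' := by
    rw [smul_add]
    abel
  rw [h1]
  exact hu'

end Lin

end Fermat.Agent.L.Pivot.H76
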