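/-
PIVOT (item 66), package PV-CORE (helper76): the algebraic core of the assembly.

`pvCore` = `Stmt_PVCore` of `L/Pivot/Global.lean` with the two additional hypotheses
`p.Prime`, `(p : 𝒪) ∈ 𝔪` (needed for the division `Stmt_DIV`; both are available in PV-ASM).
`N1 := V / ∑ (c_j - 1) V`, `Nχ := V / ∑ (c_j - ψ_j) V` as modules over `P` through `fV ∘ γ`.
-/
import Fermat.Agent.L.Pivot.Global
import Fermat.Agent.L.Pivot.H76_CoreLin
import Fermat.Agent.S59.TWH.H14_Div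
import Fermat.Agent.S56.H50_Gen
import Fermat.Agent.S53.Limit

set_option autoImplicit false

namespace Fermat.Agent.L.Pivot.H76

open IsLocalRing MvPowerSeries Fermat.Agent.S59 Fermat.Agent.S59.TWH

theorem typeSub_eq_tsub {𝒪 : Type} [CommRing 𝒪] {V : Type} [AddCommGroup V] [Module 𝒪 V]
    {k : ℕ} (c : Fin k → Module.End 𝒪 V) (ψ : Fin k → 𝒪) : typeSub c ψ = tsub c ψ := rfl

section VF

variable {𝒪 : Type} [CommRing 𝒪] {P : Type} [CommRing P] {V : Type} [AddCommGroup V]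
  [Module 𝒪 V]

/-- `V` with the `P`-module structure given by `F : P → End V`. -/
def VF (_F : P →+* Module.End 𝒪 V) : Type := V

variable (F : P →+* Module.End 𝒪 V)

instance : AddCommGroup (VF F) := inferInstanceAs (AddCommGroup V)

noncomputable instance : Module P (VF F) := Module.compHom V F

/-- the identity `V → VF F`. -/
def toVF (v : V) : VF F := v

/-- the identity `VF F → V`. -/
def ofVF (v : VF F) : V := v

theorem smul_toVF (f : P) (v : V) : f • toVF F v = toVF F (F f v) := rfl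

variable {k : ℕ} (c : Fin k → Module.End 𝒪 V) (hcF : ∀ (j : Fin k) (f : P), Commute (c j) (F f))

/-- `∑_j (c_j - ψ_j) V` as a `P`-submodule. -/
def tsubP (ψ : Fin k → 𝒪) : Submodule P (VF F) where
  carrier := {v | ofVF F v ∈ tsub c ψ}
  add_mem' := fun {_ _} hx hy => (tsub c ψ).add_mem hx hy
  zero_mem' := (tsub c ψ).zero_mem
  smul_mem' := fun f _ hv => map_mem_tsub c ψ (F f) (fun j => (hcF j f).symm) hv

theorem mem_tsubP (ψ : Fin k → 𝒪) (v : V) : toVF F v ∈ tsubP F c hcF ψ ↔ v ∈ tsub c ψ :=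
  Iff.rfl

/-- the quotient `V / ∑_j (c_j - ψ_j) V` as a `P`-module. -/
abbrev NQ (ψ : Fin k → 𝒪) : Type := VF F ⧸ tsubP F c hcF ψ

/-- the class of a vector. -/
noncomputable def cls (ψ : Fin k → 𝒪) (v : V) : NQ F c hcF ψ := Submodule.Quotient.mk (toVF F v)

variable {F c hcF}

theorem cls_surjective (ψ : Fin k → 𝒪) : Function.Surjective (cls F c hcF ψ) := by
  intro x
  obtain ⟨v, rfl⟩ := Submodule.Quotient.mk_surjective _ x
  exact ⟨ofVF F v, rfl⟩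

theorem cls_eq_zero {ψ : Fin k → 𝒪} {v : V} : cls F c hcF ψ v = 0 ↔ v ∈ tsub c ψ := by
  rw [cls, Submodule.Quotient.mk_eq_zero]
  rfl

theorem cls_add (ψ : Fin k → 𝒪) (v w : V) :
    cls F c hcF ψ (v + w) = cls F c hcF ψ v + cls F c hcF ψ w := rfl

theorem cls_sub (ψ : Fin k → 𝒪) (v w : V) :
    cls F c hcF ψ (v - w) = cls F c hcF ψ v - cls F c hcF ψ w := rfl

theorem cls_zero (ψ : Fin k → 𝒪) : cls F c hcF ψ 0 = 0 := rfl

theorem cls_eq_cls {ψ : Fin k → 𝒪} {v w : V} :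
    cls F c hcF ψ v = cls F c hcF ψ w ↔ v - w ∈ tsub c ψ := by
  rw [← sub_eq_zero, ← cls_sub, cls_eq_zero]

theorem smul_cls (ψ : Fin k → 𝒪) (f : P) (v : V) :
    f • cls F c hcF ψ v = cls F c hcF ψ (F f v) := rfl

theorem cls_sum (ψ : Fin k → 𝒪) {ι : Type*} (s : Finset ι) (v : ι → V) :
    cls F c hcF ψ (∑ i ∈ s, v i) = ∑ i ∈ s, cls F c hcF ψ (v i) := by
  classical
  induction s using Finset.induction_on with
  | empty => simp [cls_zero]
  | insert a s ha ih => rw [Finset.sum_insert ha, Finset.sum_insert ha, cls_add, ih]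

theorem sum_smul_cls (ψ : Fin k → 𝒪) {ι : Type*} (s : Finset ι) (g : ι → P) (v : ι → V) :
    ∑ i ∈ s, g i • cls F c hcF ψ (v i) = cls F c hcF ψ (∑ i ∈ s, F (g i) (v i)) := by
  rw [cls_sum]
  rfl

theorem cls_mem_span_singleton_smul_top (ψ : Fin k → 𝒪) (a : P) (w : V) :
    cls F c hcF ψ w ∈ (Ideal.span {a}) • (⊤ : Submodule P (NQ F c hcF ψ)) ↔
      ∃ u : V, w - F a u ∈ tsub c ψ := by
  rw [Submodule.ideal_span_singleton_smul, Submodule.mem_smul_pointwise_iff_exists]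
  constructor
  · rintro ⟨y, -, hy⟩
    obtain ⟨u, rfl⟩ := cls_surjective ψ y
    rw [smul_cls, eq_comm, cls_eq_cls] at hy
    exact ⟨u, hy⟩
  · rintro ⟨u, hu⟩
    refine ⟨cls F c hcF ψ u, Submodule.mem_top, ?_⟩
    rw [smul_cls, eq_comm, cls_eq_cls]
    exact hu

/-- additive maps out of the quotient, semilinear for `ψr`. -/
noncomputable def liftNQ {T : Type} [CommRing T] {M : Type} [AddCommGroup M] [Module T M]
    (ψr : P →+* T) (π : V →+ M) (hπ : ∀ (f : P) (v : V), π (F f v) = ψr f • π v)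
    (ψ : Fin k → 𝒪) (hker : ∀ v ∈ tsub c ψ, π v = 0) : NQ F c hcF ψ →+ M :=
  ((tsubP F c hcF ψ).liftQ
    ({ toFun := fun v => π (ofVF F v)
       map_add' := fun _ _ => π.map_add _ _
       map_smul' := fun f _ => hπ f _ } : VF F →ₛₗ[ψr] M)
    (fun _ hv => hker _ hv)).toAddMonoidHom

theorem liftNQ_cls {T : Type} [CommRing T] {M : Type} [AddCommGroup M] [Module T M]
    (ψr : P →+* T) (π : V →+ M) (hπ : ∀ (f : P) (v : V), π (F f v) = ψr f • π v)
    (ψ : Fin k → 𝒪) (hker : ∀ v ∈ tsub c ψ, π v = 0) (v : V) :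
    liftNQ (hcF := hcF) ψr π hπ ψ hker (cls F c hcF ψ v) = π v := rfl

theorem liftNQ_smul {T : Type} [CommRing T] {M : Type} [AddCommGroup M] [Module T M]
    (ψr : P →+* T) (π : V →+ M) (hπ : ∀ (f : P) (v : V), π (F f v) = ψr f • π v)
    (ψ : Fin k → 𝒪) (hker : ∀ v ∈ tsub c ψ, π v = 0) (f : P) (x : NQ F c hcF ψ) :
    liftNQ (hcF := hcF) ψr π hπ ψ hker (f • x) = ψr f • liftNQ (hcF := hcF) ψr π hπ ψ hker x := by
  obtain ⟨v, rfl⟩ := cls_surjective ψ x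
  rw [smul_cls, liftNQ_cls, liftNQ_cls, hπ]

end VF

/-- **PV-CORE** (`Stmt_PVCore` with `p` prime and `p ∈ 𝔪`). -/
theorem pvCore (𝒪 : Type) [CommRing 𝒪] [IsLocalRing 𝒪] [IsNoetherianRing 𝒪]
    [IsAdicComplete (maximalIdeal 𝒪) 𝒪] (ϖ : 𝒪) (p r n k h : ℕ)
    (hp : p.Prime) (hpm : (p : 𝒪) ∈ maximalIdeal 𝒪)
    (T : Type) [CommRing T] [Algebra 𝒪 T]
    (M : Type) [AddCommGroup M] [Module 𝒪 M] [Module T M]
    (I1 Iχ 𝔵 : Ideal (MvPowerSeries (Fin h) 𝒪)) (Ξ : Ideal T)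
    (RQ : Type) [CommRing RQ] [IsLocalRing RQ] [Algebra 𝒪 RQ]
    (γ : MvPowerSeries (Fin h) 𝒪 →ₐ[𝒪] RQ) (hγ : Function.Surjective γ)
    (τ : RQ →ₐ[𝒪] T) (hτ : Function.Surjective τ)
    (hΞ : Ξ ≤ Ideal.map ((τ.comp γ : MvPowerSeries (Fin h) 𝒪 →ₐ[𝒪] T) :
      MvPowerSeries (Fin h) 𝒪 →+* T) 𝔵)
    (V : Type) [AddCommGroup V] [Module 𝒪 V] (fV : RQ →ₐ[𝒪] Module.End 𝒪 V)
    (δ : Fin r → RQ) (hδm : ∀ i, δ i - 1 ∈ maximalIdeal RQ) (hτδ : ∀ i, τ (δ i) = 1)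
    (d : Fin r → Module.End 𝒪 V) (hδd : ∀ i, fV (δ i) = d i) (hdpow : ∀ i, d i ^ (p ^ n) = 1)
    (e : Fin k → ℕ) (c : Fin k → Module.End 𝒪 V) (hcpow : ∀ j, c j ^ (p ^ e j) = 1)
    (hcc : ∀ i j, Commute (c i) (c j)) (hcf : ∀ j (a : RQ), Commute (c j) (fV a))
    (ψ : Fin k → 𝒪) (hψ : ∀ j, ψ j ^ (p ^ e j) = 1) (hψϖ : ∀ j, ψ j - 1 ∈ Ideal.span {ϖ})
    (rk : ℕ) (b : Fin rk → V)
    (hb : Function.Bijective
      (fun f : Fin rk × (∀ j : Fin k, Fin (p ^ e j)) × (Fin r → Fin (p ^ n)) → 𝒪 =>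
        ∑ x : Fin rk × (∀ j : Fin k, Fin (p ^ e j)) × (Fin r → Fin (p ^ n)),
          f x • H90.mon c (fun j => (x.2.1 j : ℕ))
            (H90.mon d (fun i => (x.2.2 i : ℕ)) (b x.1))))
    (π : V →ₗ[𝒪] M) (hπs : Function.Surjective π)
    (hker : LinearMap.ker π = typeSub c (fun _ => (1 : 𝒪)) ⊔ ⨆ i, LinearMap.range (d i - 1))
    (hπ : ∀ (a : RQ) (v : V), π (fV a v) = τ a • π v)
    (h1 : ∀ f ∈ I1, ∀ v : V, fV (γ f) v ∈ typeSub c (fun _ => (1 : 𝒪)))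
    (hχ : ∀ f ∈ Iχ, ∀ v : V, fV (γ f) v ∈ typeSub c ψ) :
    Nonempty (PivotLevel 𝒪 r h T M ϖ I1 Iχ 𝔵 Ξ (twIdealP 𝒪 r p n) rk) := by
  classical
  have hp0 : 0 < p := hp.pos
  have hDIV : Stmt_DIV 𝒪 p r n := H14.stmt_DIV 𝒪 r n hp hpm
  have hcomp : IsAdicComplete (maximalIdeal (MvPowerSeries (Fin h) 𝒪))
      (MvPowerSeries (Fin h) 𝒪) := Fermat.Agent.S53.Limit.isAdicComplete_mvPowerSeries_fin 𝒪 h
  -- the substitution `φ`
  have hy : ∀ i, ∃ y ∈ maximalIdeal (MvPowerSeries (Fin h) 𝒪), γ y = δ i - 1 := by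
    intro i
    obtain ⟨y, hy⟩ := hγ (δ i - 1)
    refine ⟨y, ?_, hy⟩
    by_contra hym
    have hu : IsUnit y := by
      by_contra hnu
      exact hym ((mem_maximalIdeal y).mpr hnu)
    have : IsUnit (γ y) := hu.map γ
    rw [hy] at this
    exact ((mem_maximalIdeal _).mp (hδm i)) this
  choose y hym hγy using hy
  obtain ⟨φ, hφ⟩ := Fermat.Agent.S56.H50.exists_eval (𝒪 := 𝒪) r y hym
  -- the homomorphisms `F = fV ∘ γ` and `G = F ∘ φ`
  obtain ⟨F, hF⟩ : ∃ F : MvPowerSeries (Fin h) 𝒪 →ₐ[𝒪] Module.End 𝒪 V,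
      ∀ f, F f = fV (γ f) := ⟨fV.comp γ, fun _ => rfl⟩
  obtain ⟨G, hG'⟩ : ∃ G : MvPowerSeries (Fin r) 𝒪 →ₐ[𝒪] Module.End 𝒪 V,
      ∀ s, G s = F (φ s) := ⟨F.comp φ, fun _ => rfl⟩
  have hG : ∀ i, G (X i) = d i - 1 := fun i => by
    rw [hG', hF, hφ, hγy, map_sub, map_one, hδd]
  have hcF : ∀ (j : Fin k) (f : MvPowerSeries (Fin h) 𝒪),
      Commute (c j) ((F : MvPowerSeries (Fin h) 𝒪 →+* Module.End 𝒪 V) f) := fun j f => by
    show Commute (c j) (F f)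
    rw [hF]
    exact hcf j _
  have hFC : ∀ (a : 𝒪) (v : V), F (C a) v = a • v := fun a v => by
    have h2 : (C a : MvPowerSeries (Fin h) 𝒪) = algebraMap 𝒪 _ a := rfl
    rw [h2, AlgHom.commutes, Module.algebraMap_end_apply]
  have hψ1 : ∀ j : Fin k, (fun _ : Fin k => (1 : 𝒪)) j ^ (p ^ e j) = 1 := fun j => one_pow _
  -- the projection
  have hπF : ∀ (f : MvPowerSeries (Fin h) 𝒪) (v : V),
      π.toAddMonoidHom ((F : MvPowerSeries (Fin h) 𝒪 →+* Module.End 𝒪 V) f v) =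
        ((τ.comp γ : MvPowerSeries (Fin h) 𝒪 →ₐ[𝒪] T) : MvPowerSeries (Fin h) 𝒪 →+* T) f •
          π.toAddMonoidHom v := fun f v => by
    show π (F f v) = τ (γ f) • π v
    rw [hF, hπ]
  have hπker : ∀ v ∈ tsub c (fun _ : Fin k => (1 : 𝒪)), π.toAddMonoidHom v = 0 := by
    intro v hv
    have h2 : v ∈ LinearMap.ker π := by
      rw [hker]
      exact Submodule.mem_sup_left hv
    exact h2
  have hψφ : ∀ i, (τ.comp γ) (φ (X i)) = 0 := fun i => by
    show τ (γ (φ (X i))) = 0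
    rw [hφ, hγy, map_sub, hτδ, map_one, sub_self]
  refine ⟨{
    N1 := NQ (F : MvPowerSeries (Fin h) 𝒪 →+* Module.End 𝒪 V) c hcF (fun _ => (1 : 𝒪))
    Nχ := NQ (F : MvPowerSeries (Fin h) 𝒪 →+* Module.End 𝒪 V) c hcF ψ
    φ := φ
    ψ := τ.comp γ
    ψ_surjective := hτ.comp hγ
    ψ_φ_X := hψφ
    Ξ_le := hΞ
    π := liftNQ (hcF := hcF) _ π.toAddMonoidHom hπF _ hπker
    π_smul := fun f x => liftNQ_smul _ _ hπF _ hπker f x
    π_surjective := ?_
    ker_π := ?_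
    b1 := fun i => cls _ c hcF _ (b i)
    bχ := fun i => cls _ c hcF _ (b i)
    b1_span := ?_
    b1_rel := ?_
    bχ_span := ?_
    bχ_rel := ?_
    rel1 := ?_
    relχ := ?_
    cmp := ?_ }⟩
  · -- π_surjective
    intro x
    obtain ⟨v, rfl⟩ := hπs x
    exact ⟨cls _ c hcF _ v, rfl⟩
  · -- ker_π
    have hback : ∀ x : NQ (F : MvPowerSeries (Fin h) 𝒪 →+* Module.End 𝒪 V) c hcF
        (fun _ => (1 : 𝒪)),
        x ∈ (Ideal.span (Set.range fun i : Fin r => φ (X i))) •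
          (⊤ : Submodule (MvPowerSeries (Fin h) 𝒪) _) →
        liftNQ (hcF := hcF) _ π.toAddMonoidHom hπF _ hπker x = 0 := by
      intro x hx
      refine Submodule.smul_induction_on hx ?_ ?_
      · intro a ha z _
        rw [liftNQ_smul]
        have h2 : ((τ.comp γ : MvPowerSeries (Fin h) 𝒪 →ₐ[𝒪] T) :
            MvPowerSeries (Fin h) 𝒪 →+* T) a = 0 := by
          have h3 : Ideal.span (Set.range fun i : Fin r => φ (X i)) ≤
              RingHom.ker ((τ.comp γ : MvPowerSeries (Fin h) 𝒪 →ₐ[𝒪] T) :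
                MvPowerSeries (Fin h) 𝒪 →+* T) := by
            rw [Ideal.span_le]
            rintro _ ⟨i, rfl⟩
            exact hψφ i
          exact h3 ha
        rw [h2, zero_smul]
      · intro x y hx hy
        rw [map_add, hx, hy, add_zero]
    intro x
    refine ⟨fun hv => ?_, hback x⟩
    obtain ⟨v, rfl⟩ := cls_surjective _ x
    rw [liftNQ_cls] at hv
    have h2 : v ∈ LinearMap.ker π := hv
    rw [hker, Submodule.mem_sup] at h2
    obtain ⟨u, hu, w, hw, rfl⟩ := h2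
    have h3 : cls (F : MvPowerSeries (Fin h) 𝒪 →+* Module.End 𝒪 V) c hcF
        (fun _ => (1 : 𝒪)) (u + w) = cls _ c hcF _ w := by
      rw [cls_eq_cls, add_sub_cancel_right]
      exact hu
    rw [h3]
    refine Submodule.iSup_induction (fun i => LinearMap.range (d i - 1))
      (motive := fun w => cls (F : MvPowerSeries (Fin h) 𝒪 →+* Module.End 𝒪 V) c hcF
        (fun _ => (1 : 𝒪)) w ∈ (Ideal.span (Set.range fun i : Fin r => φ (X i))) •
          (⊤ : Submodule (MvPowerSeries (Fin h) 𝒪) _)) hw ?_ ?_ ?_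
    · rintro i _ ⟨t, rfl⟩
      have h4 : (d i - 1) t = F (φ (X i)) t := by
        rw [← hG', hG]
      rw [h4]
      have h5 : cls (F : MvPowerSeries (Fin h) 𝒪 →+* Module.End 𝒪 V) c hcF
          (fun _ => (1 : 𝒪)) (F (φ (X i)) t) = φ (X i) • cls _ c hcF _ t := rfl
      rw [h5]
      exact Submodule.smul_mem_smul (Ideal.subset_span ⟨i, rfl⟩) Submodule.mem_top
    · rw [cls_zero]
      exact Submodule.zero_mem _
    · intro x y hx hy
      rw [cls_add]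
      exact Submodule.add_mem _ hx hy
  · -- b1_span
    intro x
    obtain ⟨v, rfl⟩ := cls_surjective _ x
    obtain ⟨cc, hcc'⟩ := core_span hG hcc hb (fun _ => (1 : 𝒪)) v
    refine ⟨cc, ?_⟩
    rw [sum_smul_cls, cls_eq_cls]
    have h7 : ∑ i, G (cc i) (b i) =
        ∑ i, (F : MvPowerSeries (Fin h) 𝒪 →+* Module.End 𝒪 V) (φ (cc i)) (b i) :=
      Finset.sum_congr rfl fun i _ => by rw [hG']; rfl
    rw [← h7]
    exact hcc'
  · -- b1_rel
    intro cc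
    have h7 : ∑ i, G (cc i) (b i) =
        ∑ i, (F : MvPowerSeries (Fin h) 𝒪 →+* Module.End 𝒪 V) (φ (cc i)) (b i) :=
      Finset.sum_congr rfl fun i _ => by rw [hG']; rfl
    rw [sum_smul_cls, cls_eq_zero, ← core_rel hp0 hDIV hG hdpow hcc hcpow hb _ hψ1 cc, h7]
  · -- bχ_span
    intro x
    obtain ⟨v, rfl⟩ := cls_surjective _ x
    obtain ⟨cc, hcc'⟩ := core_span hG hcc hb ψ v
    refine ⟨cc, ?_⟩
    rw [sum_smul_cls, cls_eq_cls]
    have h7 : ∑ i, G (cc i) (b i) =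
        ∑ i, (F : MvPowerSeries (Fin h) 𝒪 →+* Module.End 𝒪 V) (φ (cc i)) (b i) :=
      Finset.sum_congr rfl fun i _ => by rw [hG']; rfl
    rw [← h7]
    exact hcc'
  · -- bχ_rel
    intro cc
    have h7 : ∑ i, G (cc i) (b i) =
        ∑ i, (F : MvPowerSeries (Fin h) 𝒪 →+* Module.End 𝒪 V) (φ (cc i)) (b i) :=
      Finset.sum_congr rfl fun i _ => by rw [hG']; rfl
    rw [sum_smul_cls, cls_eq_zero, ← core_rel hp0 hDIV hG hdpow hcc hcpow hb _ hψ cc, h7]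
  · -- rel1
    intro f hf x
    obtain ⟨v, rfl⟩ := cls_surjective _ x
    rw [smul_cls, cls_eq_zero]
    show F f v ∈ _
    rw [hF]
    exact h1 f hf v
  · -- relχ
    intro f hf x
    obtain ⟨v, rfl⟩ := cls_surjective _ x
    rw [smul_cls, cls_eq_zero]
    show F f v ∈ _
    rw [hF]
    exact hχ f hf v
  · -- cmp
    intro v
    rw [sum_smul_cls, sum_smul_cls, cls_mem_span_singleton_smul_top,
      cls_mem_span_singleton_smul_top]
    have hFϖ : ∀ u : V, (F : MvPowerSeries (Fin h) 𝒪 →+* Module.End 𝒪 V) (C ϖ) u = ϖ • u :=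
      fun u => hFC ϖ u
    simp only [hFϖ]
    constructor
    · exact core_cmp_aux ϖ _ _ (fun j => by
        have := (Ideal.span {ϖ}).neg_mem (hψϖ j)
        rwa [neg_sub] at this) _
    · exact core_cmp_aux ϖ _ _ (fun j => hψϖ j) _

end Fermat.Agent.L.Pivot.H76
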