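/-
PIVOT (item 66), PV-ASM, leaf RANK (helper76): the rank `rk` of the geometric datum is the rank
of the module `M` at the minimal level.

`V` free over `𝒪` with basis `c ^ x d ^ y (b i)`, `π : V → M` onto with kernel
`∑ (c_j - 1) V + ∑ (d_i - 1) V`.  Then `π (b i)` is an `𝒪`-basis of `M`; in particular
`Module.finrank 𝒪 M = rk`.
-/
import Fermat.Agent.L.Pivot.H76_Core

set_option autoImplicit false

namespace Fermat.Agent.L.Pivot.H76

open Fermat.Agent.S59.TWH

section Aug

variable {A : Type*} [CommRing A] {V : Type*} [AddCommGroup V] [Module A V]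
variable {I K : Type*} [Fintype I] [Fintype K] {bv : I × K → V}

/-- the augmentation functional `Λ_i`: the sum of the coordinates `(i, κ)`, `κ : K`. -/
noncomputable def augL (hb : Function.Bijective (Fintype.linearCombination A bv)) (i : I) :
    V →ₗ[A] A :=
  (∑ κ : K, LinearMap.proj (R := A) (φ := fun _ : I × K => A) (i, κ)) ∘ₗ
    (LinearEquiv.ofBijective (Fintype.linearCombination A bv) hb).symm.toLinearMap

theorem ofBijective_symm_bv (hb : Function.Bijective (Fintype.linearCombination A bv))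
    [DecidableEq (I × K)] (κ : I × K) :
    (LinearEquiv.ofBijective (Fintype.linearCombination A bv) hb).symm (bv κ) =
      Pi.single κ 1 := by
  rw [LinearEquiv.symm_apply_eq]
  show _ = Fintype.linearCombination A bv (Pi.single κ 1)
  rw [Fintype.linearCombination_apply_single, one_smul]

theorem augL_bv (hb : Function.Bijective (Fintype.linearCombination A bv)) [DecidableEq I]
    (i : I) (κ : I × K) : augL hb i (bv κ) = if κ.1 = i then 1 else 0 := by
  classical
  rw [augL, LinearMap.comp_apply, LinearEquiv.coe_coe, ofBijective_symm_bv, LinearMap.sum_apply]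
  simp only [LinearMap.proj_apply]
  split_ifs with h
  · subst h
    rw [Finset.sum_eq_single κ.2]
    · exact Pi.single_eq_same _ _
    · intro x _ hx
      rw [Pi.single_eq_of_ne]
      intro h'
      exact hx (congrArg Prod.snd h')
    · intro h'
      exact absurd (Finset.mem_univ _) h'
  · refine Finset.sum_eq_zero fun x _ => ?_
    rw [Pi.single_eq_of_ne]
    intro h'
    exact h (congrArg Prod.fst h').symm

/-- `Λ_i` is invariant under an operator permuting the basis vectors within the blocks. -/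
theorem augL_invariant (hb : Function.Bijective (Fintype.linearCombination A bv)) (i : I)
    (T : Module.End A V) (σ : K → K) (hT : ∀ κ : I × K, T (bv κ) = bv (κ.1, σ κ.2)) (v : V) :
    augL hb i (T v) = augL hb i v := by
  classical
  obtain ⟨G, rfl⟩ := hb.2 v
  rw [Fintype.linearCombination_apply, map_sum, map_sum, map_sum]
  refine Finset.sum_congr rfl fun κ _ => ?_
  rw [map_smul, map_smul, map_smul, hT, augL_bv, augL_bv]

theorem augL_sub_one (hb : Function.Bijective (Fintype.linearCombination A bv)) (i : I)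
    (T : Module.End A V) (σ : K → K) (hT : ∀ κ : I × K, T (bv κ) = bv (κ.1, σ κ.2)) (v : V) :
    augL hb i ((T - 1) v) = 0 := by
  rw [LinearMap.sub_apply, Module.End.one_apply, map_sub, augL_invariant hb i T σ hT, sub_self]

end Aug

section Rank

variable {𝒪 : Type} [CommRing 𝒪] {V : Type} [AddCommGroup V] [Module 𝒪 V] {p r n k : ℕ}
variable {d : Fin r → Module.End 𝒪 V} {c : Fin k → Module.End 𝒪 V} {e : Fin k → ℕ} {rk : ℕ}
  {b : Fin rk → V}

/-- the basis vectors `c ^ x d ^ y (b i)`. -/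
def bvec2 (c : Fin k → Module.End 𝒪 V) (d : Fin r → Module.End 𝒪 V) (e : Fin k → ℕ) (p n : ℕ)
    (b : Fin rk → V) (κ : Fin rk × (∀ j : Fin k, Fin (p ^ e j)) × (Fin r → Fin (p ^ n))) : V :=
  H90.mon c (fun j => (κ.2.1 j : ℕ)) (H90.mon d (fun i => (κ.2.2 i : ℕ)) (b κ.1))

theorem bijective_bvec2
    (hb : Function.Bijective
      (fun f : Fin rk × (∀ j : Fin k, Fin (p ^ e j)) × (Fin r → Fin (p ^ n)) → 𝒪 =>
        ∑ x : Fin rk × (∀ j : Fin k, Fin (p ^ e j)) × (Fin r → Fin (p ^ n)),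
          f x • H90.mon c (fun j => (x.2.1 j : ℕ))
            (H90.mon d (fun i => (x.2.2 i : ℕ)) (b x.1)))) :
    Function.Bijective (Fintype.linearCombination 𝒪 (bvec2 c d e p n b)) := by
  have h1 : (⇑(Fintype.linearCombination 𝒪 (bvec2 c d e p n b))) =
      (fun f : Fin rk × (∀ j : Fin k, Fin (p ^ e j)) × (Fin r → Fin (p ^ n)) → 𝒪 =>
        ∑ x : Fin rk × (∀ j : Fin k, Fin (p ^ e j)) × (Fin r → Fin (p ^ n)),
          f x • H90.mon c (fun j => (x.2.1 j : ℕ))
            (H90.mon d (fun i => (x.2.2 i : ℕ)) (b x.1))) := by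
    funext f
    rw [Fintype.linearCombination_apply]
    rfl
  rw [h1]
  exact hb

theorem chi_one (x : Fin k → ℕ) : chi (fun _ : Fin k => (1 : 𝒪)) x = 1 := by
  induction k with
  | zero => rw [chi, H90.mon_zero, Module.End.one_apply]
  | succ k ih => rw [chi_succ, one_pow, one_mul, ih]

theorem tsub_one_eq (d : Fin r → Module.End 𝒪 V) :
    tsub d (fun _ => (1 : 𝒪)) = ⨆ i, LinearMap.range (d i - 1) := by
  rw [tsub]
  simp only [one_smul]

theorem c_bvec2 (hp : 0 < p) (hcc : ∀ i j, Commute (c i) (c j))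
    (hc : ∀ j, c j ^ (p ^ e j) = 1) (j : Fin k)
    (κ : Fin rk × (∀ j : Fin k, Fin (p ^ e j)) × (Fin r → Fin (p ^ n))) :
    c j (bvec2 c d e p n b κ) =
      bvec2 c d e p n b (κ.1, (shiftX (fun j => p ^ e j) (fun j => pow_pos hp _) j κ.2.1,
        κ.2.2)) := by
  rw [bvec2, bvec2]
  show _ = H90.mon c (fun i => ((shiftX (fun j => p ^ e j) (fun j => pow_pos hp _) j κ.2.1 i :
    Fin (p ^ e i)) : ℕ)) _
  rw [mon_shiftX c (fun j => p ^ e j) hcc hc, ← (H90.commute_mon c _ (fun i => hcc j i)).eq,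
    Module.End.mul_apply]

theorem d_bvec2 (hp : 0 < p) (hdd : ∀ i j, Commute (d i) (d j))
    (hd : ∀ i, d i ^ (p ^ n) = 1) (hcd : ∀ j i, Commute (c j) (d i)) (i : Fin r)
    (κ : Fin rk × (∀ j : Fin k, Fin (p ^ e j)) × (Fin r → Fin (p ^ n))) :
    d i (bvec2 c d e p n b κ) =
      bvec2 c d e p n b (κ.1, (κ.2.1,
        shiftX (fun _ : Fin r => p ^ n) (fun _ => pow_pos hp _) i κ.2.2)) := by
  rw [bvec2, bvec2]
  show _ = H90.mon c _ (H90.mon d (fun i' => ((shiftX (fun _ : Fin r => p ^ n)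
    (fun _ => pow_pos hp _) i κ.2.2 i' : Fin (p ^ n)) : ℕ)) _)
  rw [mon_shiftX d (fun _ : Fin r => p ^ n) hdd hd,
    ← (H90.commute_mon d _ (fun i' => hdd i i')).eq, Module.End.mul_apply]
  have h1 := (H90.commute_mon c (fun j => (κ.2.1 j : ℕ)) (fun j => (hcd j i).symm)).eq
  have h2 := congrArg (fun f : Module.End 𝒪 V =>
    f (H90.mon d (fun i => (κ.2.2 i : ℕ)) (b κ.1))) h1
  simp only [Module.End.mul_apply] at h2
  exact h2

theorem b_eq_bvec2 (hp : 0 < p) (i : Fin rk) :
    b i = bvec2 c d e p n b (i, ((fun j => ⟨0, pow_pos hp _⟩), (fun _ => ⟨0, pow_pos hp _⟩))) := by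
  rw [bvec2]
  show _ = H90.mon c (fun _ => 0) (H90.mon d (fun _ => 0) (b i))
  rw [mon_zero_exp, mon_zero_exp, Module.End.one_apply, Module.End.one_apply]

theorem bvec2_sub_b_mem (hcc : ∀ i j, Commute (c i) (c j)) (hdd : ∀ i j, Commute (d i) (d j))
    (κ : Fin rk × (∀ j : Fin k, Fin (p ^ e j)) × (Fin r → Fin (p ^ n))) :
    bvec2 c d e p n b κ - b κ.1 ∈
      typeSub c (fun _ => (1 : 𝒪)) ⊔ ⨆ i, LinearMap.range (d i - 1) := by
  have h1 := mon_sub_chi_mem c hcc (fun _ => (1 : 𝒪)) (fun j => (κ.2.1 j : ℕ))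
    (H90.mon d (fun i => (κ.2.2 i : ℕ)) (b κ.1))
  have h2 := mon_sub_chi_mem d hdd (fun _ => (1 : 𝒪)) (fun i => (κ.2.2 i : ℕ)) (b κ.1)
  rw [chi_one, one_smul] at h1 h2
  rw [tsub_one_eq] at h2
  have h3 : bvec2 c d e p n b κ - b κ.1 =
      (H90.mon c (fun j => (κ.2.1 j : ℕ)) (H90.mon d (fun i => (κ.2.2 i : ℕ)) (b κ.1)) -
        H90.mon d (fun i => (κ.2.2 i : ℕ)) (b κ.1)) +
      (H90.mon d (fun i => (κ.2.2 i : ℕ)) (b κ.1) - b κ.1) := by
    rw [bvec2]
    abel
  rw [h3, typeSub_eq_tsub]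
  exact Submodule.add_mem _ (Submodule.mem_sup_left h1) (Submodule.mem_sup_right h2)

/-- **RANK**: `π ∘ b` is a basis of `M`. -/
theorem exists_basis_of_pvCore (hp : 0 < p) {M : Type} [AddCommGroup M] [Module 𝒪 M]
    (hd : ∀ i, d i ^ (p ^ n) = 1) (hdd : ∀ i j, Commute (d i) (d j))
    (hc : ∀ j, c j ^ (p ^ e j) = 1) (hcc : ∀ i j, Commute (c i) (c j))
    (hcd : ∀ j i, Commute (c j) (d i))
    (hb : Function.Bijective
      (fun f : Fin rk × (∀ j : Fin k, Fin (p ^ e j)) × (Fin r → Fin (p ^ n)) → 𝒪 =>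
        ∑ x : Fin rk × (∀ j : Fin k, Fin (p ^ e j)) × (Fin r → Fin (p ^ n)),
          f x • H90.mon c (fun j => (x.2.1 j : ℕ))
            (H90.mon d (fun i => (x.2.2 i : ℕ)) (b x.1))))
    (π : V →ₗ[𝒪] M) (hπ : Function.Surjective π)
    (hker : LinearMap.ker π =
      typeSub c (fun _ => (1 : 𝒪)) ⊔ ⨆ i, LinearMap.range (d i - 1)) :
    ∃ B : Module.Basis (Fin rk) 𝒪 M, ∀ i, B i = π (b i) := by
  classical
  have hb' := bijective_bvec2 hb
  -- the augmentations kill the kernel
  have hΛ : ∀ (i : Fin rk) (v : V), v ∈ LinearMap.ker π → augL hb' i v = 0 := by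
    intro i v hv
    rw [hker] at hv
    have hle : typeSub c (fun _ => (1 : 𝒪)) ⊔ ⨆ i, LinearMap.range (d i - 1) ≤
        LinearMap.ker (augL hb' i) := by
      refine sup_le ?_ ?_
      · rw [typeSub_eq_tsub, tsub_one_eq]
        refine iSup_le fun j => ?_
        rintro _ ⟨w, rfl⟩
        rw [LinearMap.mem_ker]
        exact augL_sub_one hb' i (c j)
          (fun x => (shiftX (fun j => p ^ e j) (fun j => pow_pos hp _) j x.1, x.2))
          (fun κ => c_bvec2 hp hcc hc j κ) w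
      · refine iSup_le fun j => ?_
        rintro _ ⟨w, rfl⟩
        rw [LinearMap.mem_ker]
        exact augL_sub_one hb' i (d j)
          (fun x => (x.1, shiftX (fun _ : Fin r => p ^ n) (fun _ => pow_pos hp _) j x.2))
          (fun κ => d_bvec2 hp hdd hd hcd j κ) w
    exact hle hv
  have hli : LinearIndependent 𝒪 (fun i => π (b i)) := by
    rw [Fintype.linearIndependent_iff]
    intro f hf i
    have h1 : ∑ i, f i • b i ∈ LinearMap.ker π := by
      rw [LinearMap.mem_ker, map_sum]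
      simp only [map_smul]
      exact hf
    have h2 := hΛ i _ h1
    rw [map_sum] at h2
    simp only [map_smul] at h2
    have h3 : ∀ i' : Fin rk, augL hb' i (b i') = if i' = i then 1 else 0 := by
      intro i'
      have h4 := augL_bv hb' i
        (i', ((fun j => (⟨0, pow_pos hp _⟩ : Fin (p ^ e j))),
          (fun _ : Fin r => (⟨0, pow_pos hp _⟩ : Fin (p ^ n)))))
      rw [← b_eq_bvec2 hp i'] at h4
      exact h4
    simp only [h3, smul_eq_mul, mul_ite, mul_one, mul_zero, Finset.sum_ite_eq',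
      Finset.mem_univ, if_true] at h2
    exact h2
  have hsp : ⊤ ≤ Submodule.span 𝒪 (Set.range fun i => π (b i)) := by
    rintro m -
    obtain ⟨v, rfl⟩ := hπ m
    obtain ⟨G, rfl⟩ := hb'.2 v
    rw [Fintype.linearCombination_apply, map_sum]
    refine Submodule.sum_mem _ fun κ _ => ?_
    rw [map_smul]
    refine Submodule.smul_mem _ _ ?_
    have h1 : π (bvec2 c d e p n b κ) = π (b κ.1) := by
      have h2 : bvec2 c d e p n b κ - b κ.1 ∈ LinearMap.ker π := by
        rw [hker]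
        exact bvec2_sub_b_mem hcc hdd κ
      rw [LinearMap.mem_ker, map_sub, sub_eq_zero] at h2
      exact h2
    rw [h1]
    exact Submodule.subset_span ⟨κ.1, rfl⟩
  exact ⟨Module.Basis.mk hli hsp, fun i => Module.Basis.mk_apply hli hsp i⟩

/-- **RANK**: `Module.finrank 𝒪 M = rk`. -/
theorem finrank_eq_rk [Nontrivial 𝒪] (hp : 0 < p) {M : Type} [AddCommGroup M] [Module 𝒪 M]
    (hd : ∀ i, d i ^ (p ^ n) = 1) (hdd : ∀ i j, Commute (d i) (d j))
    (hc : ∀ j, c j ^ (p ^ e j) = 1) (hcc : ∀ i j, Commute (c i) (c j))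
    (hcd : ∀ j i, Commute (c j) (d i))
    (hb : Function.Bijective
      (fun f : Fin rk × (∀ j : Fin k, Fin (p ^ e j)) × (Fin r → Fin (p ^ n)) → 𝒪 =>
        ∑ x : Fin rk × (∀ j : Fin k, Fin (p ^ e j)) × (Fin r → Fin (p ^ n)),
          f x • H90.mon c (fun j => (x.2.1 j : ℕ))
            (H90.mon d (fun i => (x.2.2 i : ℕ)) (b x.1))))
    (π : V →ₗ[𝒪] M) (hπ : Function.Surjective π)
    (hker : LinearMap.ker π =
      typeSub c (fun _ => (1 : 𝒪)) ⊔ ⨆ i, LinearMap.range (d i - 1)) :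
    Module.finrank 𝒪 M = rk := by
  obtain ⟨B, -⟩ := exists_basis_of_pvCore hp hd hdd hc hcc hcd hb π hπ hker
  rw [Module.finrank_eq_card_basis B, Fintype.card_fin]

end Rank

end Fermat.Agent.L.Pivot.H76
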