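/-
PIVOT (item 66), leaf D = PV-WIRE1 (helper19): the wiring of the levels,

  `pvLevelsB_of : S23 → Stmt_PVGalB → Stmt_PVGeom2 → Stmt_DATUM → Stmt_COND → Stmt_PVAsm →
      Stmt_PVUnip → Stmt_PVNU → Stmt_PVLevelsB`       and       `stmt_PVWire1 : Stmt_PVWire1`.

Contents:
* arithmetic of the level `pvLevel N1 Pv.q qv = N1 ∏ qv_i² ∏ q_j`;
* the Frobenius hypothesis at the level `pvLevel`;
* roots of unity of `p`-power order in a local ring of residue characteristic `p`;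
* the kernel of `G1.π ∘ κ`;
* `exists_ctx` : the context `PVCtx` of a Taylor–Wiles family (DEF, PV-GAL, DATUM, COND, S54, LOCMOD);
* `level_of_ctx` : the level from a context (DATUM, S34, S54, leaves A, B, C, RANK);
* the wiring.
-/
import Fermat.Agent.L.Pivot.Asm
import Fermat.Agent.L.Pivot.H76_Rank
import Fermat.Agent.S59.Asm.H2_Min2
import Fermat.Agent.S59.Asm.H77_MainDelta
import Fermat.Agent.S34
import Fermat.Agent.S54

set_option autoImplicit false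
set_option linter.style.haveILetI false
set_option linter.unusedSectionVars false
set_option linter.unusedVariables false
set_option maxHeartbeats 1000000

open Polynomial CuspForm IsLocalRing

namespace Fermat.Agent.L.Pivot.H19

open Fermat.Agent.S56 Fermat.Agent.S59 Fermat.Agent.S59.Asm

/-! ### Arithmetic of the level -/

section Level

variable {N1 k r : ℕ} {qP : Fin k → ℕ} {qv : Fin r → ℕ}

theorem pvLevel_ne_zero (hN : N1 ≠ 0) (hqv : ∀ i, (qv i).Prime) (hqP : ∀ j, (qP j).Prime) :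
    pvLevel N1 qP qv ≠ 0 := by
  unfold pvLevel
  exact mul_ne_zero (H2.twLevel_ne_zero hN hqv)
    (Finset.prod_ne_zero_iff.mpr fun j _ => (hqP j).ne_zero)

/-- a prime dividing `∏ q_j` is one of the `q_j` -/
theorem prime_dvd_prod_pv (hqP : ∀ j, (qP j).Prime) {q : ℕ} (hq : q.Prime)
    (h : q ∣ ∏ j, qP j) : ∃ j, q = qP j := by
  obtain ⟨j, -, hj⟩ := (Prime.dvd_finsetProd_iff hq.prime _).mp h
  exact ⟨j, (Nat.prime_dvd_prime_iff_eq hq (hqP j)).mp hj⟩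

theorem prime_dvd_pvLevel {S : Finset ℕ} (hNS : ∀ q : ℕ, q.Prime → q ∣ N1 → q ∈ S)
    (hqv : ∀ i, (qv i).Prime) (hqP : ∀ j, (qP j).Prime) (hPS : ∀ j, qP j ∈ S)
    {q : ℕ} (hq : q.Prime) (h : q ∣ pvLevel N1 qP qv) : q ∈ twSet S qv := by
  unfold pvLevel at h
  rcases (Nat.Prime.dvd_mul hq).mp h with h1 | h1
  · exact H2.prime_dvd_twLevel hNS hqv hq h1
  · obtain ⟨j, rfl⟩ := prime_dvd_prod_pv hqP hq h1
    unfold twSet
    exact Finset.mem_union_left _ (hPS j)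

/-- a prime different from the Taylor–Wiles primes and from the pivot primes divides
`pvLevel N1 qP qv` exactly as it divides `N1` -/
theorem pow_dvd_pvLevel_iff (hqv : ∀ i, (qv i).Prime) (hqP : ∀ j, (qP j).Prime) {q : ℕ}
    (hq : q.Prime) (h1 : ∀ i, q ≠ qv i) (h2 : ∀ j, q ≠ qP j) (m : ℕ) :
    q ^ m ∣ pvLevel N1 qP qv ↔ q ^ m ∣ N1 := by
  unfold pvLevel twLevel
  have hc1 : Nat.Coprime (q ^ m) (∏ j, qv j ^ 2) := by
    refine Nat.Coprime.pow_left m ?_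
    rw [Nat.Prime.coprime_iff_not_dvd hq]
    intro h
    obtain ⟨j, hj⟩ := H2.prime_dvd_prod_sq hqv hq h
    exact h1 j hj
  have hc2 : Nat.Coprime (q ^ m) (∏ j, qP j) := by
    refine Nat.Coprime.pow_left m ?_
    rw [Nat.Prime.coprime_iff_not_dvd hq]
    intro h
    obtain ⟨j, hj⟩ := prime_dvd_prod_pv hqP hq h
    exact h2 j hj
  constructor
  · intro h
    exact hc1.dvd_of_dvd_mul_right (hc2.dvd_of_dvd_mul_right h)
  · intro h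
    exact Dvd.dvd.mul_right (Dvd.dvd.mul_right h _) _

end Level

/-! ### The Frobenius hypothesis at the level `pvLevel` -/

theorem frobHyp_pv {κ : Type} [Field κ] {ρbar : ResidualGaloisRep κ} {N1 : ℕ} [NeZero N1]
    {S : Finset ℕ} {θ : CuspForm.heckeAlgebra N1 2 (↑S : Set ℕ) →+* κ}
    (hθ : Fermat.Agent.S59.Datum.FrobHyp ρbar N1 S θ) {k r : ℕ} {qP : Fin k → ℕ}
    {qv : Fin r → ℕ} [NeZero (twLevel N1 qv)] [NeZero (pvLevel N1 qP qv)]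
    (rest1 : CuspForm.heckeAlgebra (twLevel N1 qv) 2 (↑(twSet S qv) : Set ℕ) →+*
      CuspForm.heckeAlgebra N1 2 (↑S : Set ℕ))
    (rest1_T : ∀ (ℓ : ℕ) (hℓ : ℓ.Prime) (hℓN' : ¬ ℓ ∣ twLevel N1 qv)
      (hℓS' : ℓ ∉ (↑(twSet S qv) : Set ℕ)) (hℓN : ¬ ℓ ∣ N1) (hℓS : ℓ ∉ (↑S : Set ℕ)),
      rest1 (CuspForm.heckeAlgebra.T hℓ hℓN' hℓS') = CuspForm.heckeAlgebra.T hℓ hℓN hℓS)
    (rest : CuspForm.heckeAlgebra (pvLevel N1 qP qv) 2 (↑(twSet S qv) : Set ℕ) →+*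
      CuspForm.heckeAlgebra (twLevel N1 qv) 2 (↑(twSet S qv) : Set ℕ))
    (rest_T : ∀ (ℓ : ℕ) (hℓ : ℓ.Prime) (hℓN' : ¬ ℓ ∣ pvLevel N1 qP qv)
      (hℓS : ℓ ∉ (↑(twSet S qv) : Set ℕ)) (hℓN : ¬ ℓ ∣ twLevel N1 qv),
      rest (CuspForm.heckeAlgebra.T hℓ hℓN' hℓS) = CuspForm.heckeAlgebra.T hℓ hℓN hℓS) :
    Fermat.Agent.S59.Datum.FrobHyp ρbar (pvLevel N1 qP qv) (twSet S qv)
      ((θ.comp rest1).comp rest) := by
  intro ℓ hℓ hℓN' hℓS' A hA σ hσ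
  have hℓN : ¬ ℓ ∣ twLevel N1 qv := fun h =>
    hℓN' (show ℓ ∣ pvLevel N1 qP qv from Dvd.dvd.mul_right h _)
  have h1 := H2.frobHyp_comp_rest hθ rest1 rest1_T ℓ hℓ hℓN hℓS' A hA σ hσ
  rw [RingHom.comp_apply, rest_T ℓ hℓ hℓN' hℓS' hℓN]
  exact h1

/-! ### Roots of unity of `p`-power order -/

section Roots

/-- `x ^ (p ^ e) = 1` implies `x ≡ 1` in a local ring of residue characteristic `p`. -/
theorem sub_one_mem_of_pow_eq_one {A : Type*} [CommRing A] [IsLocalRing A] {p : ℕ}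
    (hp : p.Prime) (hpA : (p : A) ∈ maximalIdeal A) {e : ℕ} {x : A} (hx : x ^ (p ^ e) = 1) :
    x - 1 ∈ maximalIdeal A := by
  have h0 : ((p : ℕ) : ResidueField A) = 0 := by
    have := (residue_eq_zero_iff (p : A)).mpr hpA
    rwa [map_natCast] at this
  have hchar : ringChar (ResidueField A) = p := CharP.ringChar_of_prime_eq_zero hp h0
  have hCP : CharP (ResidueField A) p := hchar ▸ ringChar.charP (ResidueField A)
  have hF : Fact p.Prime := ⟨hp⟩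
  rw [← residue_eq_zero_iff, map_sub, map_one]
  have h1 : (residue A x - 1) ^ (p ^ e) = 0 := by
    rw [sub_pow_char_pow, one_pow, ← map_pow, hx, map_one, sub_self]
  exact pow_eq_zero_iff (pow_ne_zero e hp.ne_zero) |>.mp h1

theorem pow_sub_one_mem {A : Type*} [CommRing A] (I : Ideal A) {x : A} (hx : x - 1 ∈ I)
    (n : ℕ) : x ^ n - 1 ∈ I := by
  have h := sub_dvd_pow_sub_pow x 1 n
  rw [one_pow] at h
  exact Ideal.mem_of_dvd I h hx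

/-- the types `ζ ^ i - ζ ^ (p ^ e - i)`, `0 < i < p ^ e`, are not zero (`p` odd) -/
theorem type_ne_zero {A : Type*} [CommRing A] [IsDomain A] {p e : ℕ} (hp : p.Prime)
    (hp2 : p ≠ 2) {ζ : A} (hζ : IsPrimitiveRoot ζ (p ^ e)) {i : ℕ} (hi : i < p ^ e)
    (hi0 : i ≠ 0) : ζ ^ i - ζ ^ (p ^ e - i) ≠ 0 := by
  intro h
  rw [sub_eq_zero] at h
  have h1 : ζ ^ (2 * i) = 1 := by
    rw [two_mul, pow_add]
    nth_rewrite 2 [h]
    rw [← pow_add, Nat.add_sub_cancel' hi.le, hζ.pow_eq_one]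
  have h2 : p ^ e ∣ 2 * i := hζ.dvd_of_pow_eq_one _ h1
  have hcop : Nat.Coprime (p ^ e) 2 := by
    refine Nat.Coprime.pow_left e ?_
    rw [Nat.coprime_primes hp Nat.prime_two]
    exact hp2
  have h3 : p ^ e ∣ i := hcop.dvd_of_dvd_mul_left h2
  have := Nat.le_of_dvd (Nat.pos_of_ne_zero hi0) h3
  omega

/-- the types lie in the maximal ideal -/
theorem type_mem {A : Type*} [CommRing A] [IsLocalRing A] {p e : ℕ} (hp : p.Prime)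
    (hpA : (p : A) ∈ maximalIdeal A) {ζ : A} (hζ : ζ ^ (p ^ e) = 1) (i j : ℕ) :
    ζ ^ i - ζ ^ j ∈ maximalIdeal A := by
  have h := sub_one_mem_of_pow_eq_one hp hpA hζ
  have h1 := pow_sub_one_mem _ h i
  have h2 := pow_sub_one_mem _ h j
  have : ζ ^ i - ζ ^ j = (ζ ^ i - 1) - (ζ ^ j - 1) := by ring
  rw [this]
  exact Ideal.sub_mem _ h1 h2

end Roots

/-! ### The kernel of `G1.π ∘ κ` -/

theorem ker_comp_κ {𝒪 : Type} [CommRing 𝒪] [IsLocalRing 𝒪] {p : ℕ}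
    {ρbar : ResidualGaloisRep (ResidueField 𝒪)} {N1 : ℕ} [NeZero N1] {S : Finset ℕ}
    {θ : CuspForm.heckeAlgebra N1 2 (↑S : Set ℕ) →+* ResidueField 𝒪}
    {M : HMod 𝒪 N1 (↑S : Set ℕ) θ} {k : ℕ} {qP : Fin k → ℕ} {eP : Fin k → ℕ}
    {r : ℕ} {n : ℕ} {qv : Fin r → ℕ}
    [NeZero (twLevel N1 qv)] [NeZero (pvLevel N1 qP qv)]
    (G : PVGeom 𝒪 p ρbar N1 S θ M qP eP n qv) :
    LinearMap.ker (G.G1.π ∘ₗ G.κ) =
      typeSub G.c (fun _ => (1 : 𝒪)) ⊔ ⨆ i, LinearMap.range (G.d i - 1) := by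
  rw [LinearMap.ker_comp, G.G1.ker_π, ← G.ker_κ]
  have h1 : ∀ i, LinearMap.range (G.G1.d i - 1) =
      Submodule.map G.κ (LinearMap.range (G.d i - 1)) := by
    intro i
    rw [← LinearMap.range_comp]
    have h2 : G.κ ∘ₗ (G.d i - 1) = (G.G1.d i - 1) ∘ₗ G.κ := by
      ext v
      simp only [LinearMap.comp_apply, LinearMap.sub_apply, Module.End.one_apply, map_sub,
        G.κ_d]
    rw [h2, LinearMap.range_comp_of_range_eq_top _ (LinearMap.range_eq_top.mpr G.κ_surjective)]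
  simp only [h1]
  rw [← Submodule.map_iSup, Submodule.comap_map_eq, sup_comm]

/-! ### The wiring -/

section Wire

variable (𝒪 : Type) [CommRing 𝒪] [IsDomain 𝒪] [IsDiscreteValuationRing 𝒪]
  [IsAdicComplete (maximalIdeal 𝒪) 𝒪] [Finite (ResidueField 𝒪)] [CharZero 𝒪]
  (p : ℕ) [Fact p.Prime]

/-- the standing hypotheses on the residual representation, from those of S56 -/
theorem resHyp_of_hyp {ρbar : ResidualGaloisRep (ResidueField 𝒪)} {S Smin : Finset ℕ}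
    (hyp : Hyp 𝒪 p ρbar S Smin) : ResHyp p ρbar Smin :=
  ⟨hyp.habs, hyp.hdet, hyp.hsplit, hyp.hTW, hyp.hpSmin, fun q hq => hyp.hS q (hyp.hSmin hq),
    hyp.hmin⟩

/-- the pivot primes lie in `S` -/
theorem pv_mem_S {ρbar : ResidualGaloisRep (ResidueField 𝒪)} {N1 : ℕ} {S Smin : Finset ℕ}
    {k : ℕ} {Pv : PivotPrimes k} {eP : Fin k → ℕ} (hPV : PVHyp p ρbar N1 S Smin Pv eP)
    (j : Fin k) : Pv.q j ∈ S := by
  have h : Pv.q j ∈ Smin ∪ Pv.set :=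
    Finset.mem_union_right _ (Finset.mem_image_of_mem _ (Finset.mem_univ j))
  exact hPV.hS ▸ h

/-- the pivot primes do not lie in `Smin` -/
theorem pv_notMem_Smin {ρbar : ResidualGaloisRep (ResidueField 𝒪)} {N1 : ℕ} {S Smin : Finset ℕ}
    {k : ℕ} {Pv : PivotPrimes k} {eP : Fin k → ℕ} (hPV : PVHyp p ρbar N1 S Smin Pv eP)
    (j : Fin k) : Pv.q j ∉ Smin := fun h =>
  (hPV.hyp.hmin (Pv.q j) (Pv.q_prime j) (hPV.hex j).2.1).mp h (hPV.hex j).2.2.1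

/-- **The context of a Taylor–Wiles family** (DEF + PV-GAL + DATUM + COND + S54 + LOCMOD). -/
theorem exists_ctx (hDatum : Fermat.Agent.S59.Datum.Stmt_DATUM) (hCond : Stmt_COND)
    (fl : Bool) (ρbar : ResidualGaloisRep (ResidueField 𝒪)) (S Smin : Finset ℕ)
    (hbar : cond 𝒪 p fl Smin ∅ (GaloisRepAdic.ofResidualGaloisRep ρbar))
    (hnfl : fl = false → ¬ (GaloisRepAdic.ofResidualGaloisRep ρbar).IsFlatAt p)
    (N1 : ℕ) [NeZero N1] (hpN : fl = true → ¬ p ∣ N1) (hpN' : fl = false → p ∣ N1)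
    (θ : CuspForm.heckeAlgebra N1 2 (↑S : Set ℕ) →+* ResidueField 𝒪)
    (hθ : Fermat.Agent.S59.Datum.FrobHyp ρbar N1 S θ)
    (k : ℕ) (Pv : PivotPrimes k) (eP : Fin k → ℕ) (hPV : PVHyp p ρbar N1 S Smin Pv eP)
    (M : HMod 𝒪 N1 (↑S : Set ℕ) θ) (g r n : ℕ) (qv : Fin r → ℕ)
    (hqv : IsTWFamily ρbar p n S qv)
    (hγ : ∀ DQ : GaloisRep.DeformationRingData 𝒪 ρbar
        (cond 𝒪 p fl Smin (Pv.set ∪ Finset.univ.image qv)),
      ∀ b : Module.Basis (Fin 2) DQ.R DQ.ρ.V,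
        ∃ γ : PRing 𝒪 k g →ₐ[𝒪] DQ.R, Function.Surjective γ ∧
          IsCoordHom γ (fun j => LinearMap.toMatrix b b (DQ.ρ.ρ (Pv.τ j)))
            (fun j => LinearMap.toMatrix b b (DQ.ρ.ρ (Pv.frob j))))
    [NeZero (twLevel N1 qv)] [NeZero (pvLevel N1 Pv.q qv)]
    [Fact (CuspForm.HasIntegralStructure (pvLevel N1 Pv.q qv) 2)]
    (G : PVGeom2 𝒪 p ρbar N1 S θ M Pv.q eP n qv) :
    Nonempty (PVCtx 𝒪 p fl ρbar N1 S Smin θ M Pv eP g n qv) := by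
  have hpP : p.Prime := Fact.out
  have hyp := hPV.hyp
  have hp2 := hyp.hp2
  have hp𝒪 := hyp.hp𝒪
  have hres : ResHyp p ρbar Smin := resHyp_of_hyp 𝒪 p hyp
  have hpS : p ∈ S := hyp.hSmin hyp.hpSmin
  have hqvP : ∀ i, (qv i).Prime := fun i => (hqv.2.1 i).1
  have hqvS : ∀ i, qv i ∉ S := fun i => (hqv.2.1 i).2.1
  have hPvS : ∀ j, Pv.q j ∈ S := pv_mem_S 𝒪 p hPV
  have hPvSmin : ∀ j, Pv.q j ∉ Smin := pv_notMem_Smin 𝒪 p hPV
  -- the universal ring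
  have hbarQ : cond 𝒪 p fl Smin (Pv.set ∪ Finset.univ.image qv)
      (GaloisRepAdic.ofResidualGaloisRep ρbar) :=
    Fermat.Agent.S59.Asm.cond_mono (Finset.empty_subset _) hbar
  obtain ⟨DQ⟩ := Fermat.Agent.S59.H99.stmt_DEF 𝒪 p hp2 hp𝒪 fl ρbar hyp.habs Smin
    (Pv.set ∪ Finset.univ.image qv) hyp.hpSmin
    (fun q hq => by
      rcases Finset.mem_union.mp hq with h | h
      · exact hres.hS q h
      · rcases Finset.mem_union.mp h with h | h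
        · obtain ⟨j, -, rfl⟩ := Finset.mem_image.mp h
          exact Pv.q_prime j
        · obtain ⟨i, -, rfl⟩ := Finset.mem_image.mp h
          exact hqvP i) hbarQ
  let bQ : Module.Basis (Fin 2) DQ.R DQ.ρ.V :=
    Module.finBasisOfFinrankEq DQ.R DQ.ρ.V DQ.ρ.finrank_eq
  obtain ⟨γ, hγs, hγc⟩ := hγ DQ bQ
  -- the Hecke–Galois datum of the level `pvLevel`
  have hN''S : ∀ q : ℕ, q.Prime → q ∣ pvLevel N1 Pv.q qv → q ∈ twSet S qv :=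
    fun q hq h => prime_dvd_pvLevel hPV.hNS hqvP Pv.q_prime hPvS hq h
  have hθQ : Fermat.Agent.S59.Datum.FrobHyp ρbar (pvLevel N1 Pv.q qv) (twSet S qv)
      ((θ.comp G.G1.rest).comp G.rest) :=
    frobHyp_pv hθ G.G1.rest G.G1.rest_T G.rest G.rest_T
  obtain ⟨HQ, hHQπ, hHQdet, hHQres⟩ :=
    hDatum 𝒪 p hp2 hp𝒪 (pvLevel N1 Pv.q qv) (twSet S qv)
      (Finset.mem_union_left _ hpS) hN''S ρbar hyp.habs ((θ.comp G.G1.rest).comp G.rest) hθQ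
  have hS' : twSet S qv = Smin ∪ (Pv.set ∪ Finset.univ.image qv) := by
    unfold twSet
    rw [← Finset.union_assoc, ← hPV.hS]
  have hne1 : ∀ q ∈ Smin, ∀ i, q ≠ qv i := fun q hq i h => hqvS i (h ▸ hyp.hSmin hq)
  have hne2 : ∀ q ∈ Smin, ∀ j, q ≠ Pv.q j := fun q hq j h => hPvSmin j (h ▸ hq)
  have hHQcond : cond 𝒪 p fl Smin (Pv.set ∪ Finset.univ.image qv) HQ.ρ := by
    refine hCond 𝒪 p hp2 hp𝒪 fl ρbar Smin hres hbar hnfl (Pv.set ∪ Finset.univ.image qv)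
      (pvLevel N1 Pv.q qv) (twSet S qv) hS' hN''S ?_ ?_ ?_ ((θ.comp G.G1.rest).comp G.rest)
      hθQ HQ hHQπ hHQdet hHQres
    · intro q hq hqp
      have h1 := pow_dvd_pvLevel_iff (N1 := N1) hqvP Pv.q_prime (hres.hS q hq) (hne1 q hq)
        (hne2 q hq) 1
      have h2 := pow_dvd_pvLevel_iff (N1 := N1) hqvP Pv.q_prime (hres.hS q hq) (hne1 q hq)
        (hne2 q hq) 2
      rw [pow_one] at h1
      exact ⟨h1.mpr (hPV.hSminN q hq hqp),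
        fun h => H2.not_sq_dvd_of_squarefree hPV.hsq (hres.hS q hq) (h2.mp h)⟩
    · intro hfl h
      have h1 := pow_dvd_pvLevel_iff (N1 := N1) hqvP Pv.q_prime hpP (hne1 p hyp.hpSmin)
        (hne2 p hyp.hpSmin) 1
      rw [pow_one] at h1
      exact hpN hfl (h1.mp h)
    · intro hfl
      have h1 := pow_dvd_pvLevel_iff (N1 := N1) hqvP Pv.q_prime hpP (hne1 p hyp.hpSmin)
        (hne2 p hyp.hpSmin) 1
      have h2 := pow_dvd_pvLevel_iff (N1 := N1) hqvP Pv.q_prime hpP (hne1 p hyp.hpSmin)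
        (hne2 p hyp.hpSmin) 2
      rw [pow_one] at h1
      exact ⟨h1.mpr (hpN' hfl), fun h => H2.not_sq_dvd_of_squarefree hPV.hsq hpP (h2.mp h)⟩
  obtain ⟨φQ, -, hφQl, hφQe⟩ := Fermat.Agent.S54.result DQ HQ
    (fun q hq hqN => Finset.mem_coe.mpr (hN''S q hq hqN)) hHQcond hHQres
  obtain ⟨ηW, hηW⟩ := Fermat.Agent.S59.Asm.H85.stmt_LOCMOD 𝒪 (pvLevel N1 Pv.q qv)
    (↑(twSet S qv) : Set ℕ) ((θ.comp G.G1.rest).comp G.rest) G.W
  exact ⟨⟨G, DQ, bQ, γ, hγs, hγc, HQ, hHQπ, hHQdet, φQ, hφQl, hφQe, ηW, hηW⟩⟩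

/-- **The level from a context** (DATUM, S34, S54 and the leaves A, B, C; RANK). -/
theorem level_of_ctx (hDatum : Fermat.Agent.S59.Datum.Stmt_DATUM)
    (hAsm : Stmt_PVAsm) (hUnip : Stmt_PVUnip) (hNU : Stmt_PVNU)
    (fl : Bool) (ρbar : ResidualGaloisRep (ResidueField 𝒪)) (S Smin : Finset ℕ)
    (N1 : ℕ) [NeZero N1] [Fact (CuspForm.HasIntegralStructure N1 2)]
    (θ : CuspForm.heckeAlgebra N1 2 (↑S : Set ℕ) →+* ResidueField 𝒪)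
    (hθ : Fermat.Agent.S59.Datum.FrobHyp ρbar N1 S θ)
    (k : ℕ) (Pv : PivotPrimes k) (eP : Fin k → ℕ) (hPV : PVHyp p ρbar N1 S Smin Pv eP)
    (ζ : Fin k → 𝒪) (hζ : ∀ j, IsPrimitiveRoot (ζ j) (p ^ eP j))
    (hζ1 : ∀ j, ζ j ≠ 1)
    (ϖ : 𝒪) (hϖ : maximalIdeal 𝒪 = Ideal.span {ϖ})
    (M : HMod 𝒪 N1 (↑S : Set ℕ) θ)
    (H : CuspForm.HeckeGaloisRepDatum N1 (↑S : Set ℕ) 𝒪 θ
      (CuspForm.heckeLocal N1 (↑S : Set ℕ) 𝒪 θ))
    (hHπ : H.π = CuspForm.heckeLocal.π N1 (↑S : Set ℕ) 𝒪 θ)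
    (hHres : H.ρ.residual.IsEquiv (ρbar.baseChangeAlong
      (ResidueField.map (algebraMap 𝒪 (CuspForm.heckeLocal N1 (↑S : Set ℕ) 𝒪 θ)))))
    (hHcond : cond 𝒪 p fl Smin Pv.set H.ρ)
    (ηM : CuspForm.heckeLocal N1 (↑S : Set ℕ) 𝒪 θ →ₐ[𝒪] Module.End 𝒪 M.V)
    (hηM : ∀ t : CuspForm.heckeAlgebra N1 2 (↑S : Set ℕ),
      ηM (CuspForm.heckeLocal.π N1 (↑S : Set ℕ) 𝒪 θ t) = M.η t)
    (b : Module.Basis (Fin 2) (CuspForm.heckeLocal N1 (↑S : Set ℕ) 𝒪 θ) H.ρ.V)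
    (g r n : ℕ) (qv : Fin r → ℕ) (hqv : IsTWFamily ρbar p n S qv)
    [NeZero (twLevel N1 qv)] [NeZero (pvLevel N1 Pv.q qv)]
    [Fact (CuspForm.HasIntegralStructure (twLevel N1 qv) 2)]
    [Fact (CuspForm.HasIntegralStructure (pvLevel N1 Pv.q qv) 2)]
    (X : PVCtx 𝒪 p fl ρbar N1 S Smin θ M Pv eP g n qv)
    (𝔞 : (Fin k → 𝒪) → Ideal (PRing 𝒪 k g))
    (h𝔞 : ∀ δ ∈ pvTypes p eP ζ, KilledByType g δ (𝔞 δ)) :
    Nonempty (@PivotLevel 𝒪 _ r (6 * k + g) (CuspForm.heckeLocal N1 (↑S : Set ℕ) 𝒪 θ) _ _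
      M.V _ (Module.compHom M.V
        ((ηM : CuspForm.heckeLocal N1 (↑S : Set ℕ) 𝒪 θ →ₐ[𝒪] Module.End 𝒪 M.V) :
          CuspForm.heckeLocal N1 (↑S : Set ℕ) 𝒪 θ →+* Module.End 𝒪 M.V))
      ϖ (idealUnip g (fun j => ((Pv.q j : ℕ) : 𝒪))) ((pvTypes p eP ζ).inf 𝔞)
      (idealX 𝒪 k g) (pvXi H.ρ b Pv) (twIdealP 𝒪 r p n) (Module.finrank 𝒪 M.V)) := by
  have hpP : p.Prime := Fact.out
  have hyp := hPV.hyp
  have hp2 := hyp.hp2
  have hp𝒪 := hyp.hp𝒪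
  have hpS : p ∈ S := hyp.hSmin hyp.hpSmin
  have hqvP : ∀ i, (qv i).Prime := fun i => (hqv.2.1 i).1
  have hqvS : ∀ i, qv i ∉ S := fun i => (hqv.2.1 i).2.1
  have hPvS : ∀ j, Pv.q j ∈ S := pv_mem_S 𝒪 p hPV
  -- the Hecke–Galois datum of the level `twLevel`
  have hN'S : ∀ q : ℕ, q.Prime → q ∣ twLevel N1 qv → q ∈ twSet S qv :=
    fun q hq h => H2.prime_dvd_twLevel hPV.hNS hqvP hq h
  have hθQ1 : Fermat.Agent.S59.Datum.FrobHyp ρbar (twLevel N1 qv) (twSet S qv)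
      (θ.comp X.G.G1.rest) := H2.frobHyp_comp_rest hθ X.G.G1.rest X.G.G1.rest_T
  obtain ⟨HQ1, hHQ1π, hHQ1det, -⟩ :=
    hDatum 𝒪 p hp2 hp𝒪 (twLevel N1 qv) (twSet S qv)
      (Finset.mem_union_left _ hpS) hN'S ρbar hyp.habs (θ.comp X.G.G1.rest) hθQ1
  have hunip : ∀ j, HQ1.ρ.IsUnipotentOnInertiaAt (Pv.q j) := by
    intro j
    have h1 := H2.pow_dvd_twLevel_iff (N := N1) hqvP hqvS (Pv.q_prime j) (hPvS j) 1
    have h2 := H2.pow_dvd_twLevel_iff (N := N1) hqvP hqvS (Pv.q_prime j) (hPvS j) 2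
    rw [pow_one] at h1
    exact Fermat.Agent.S34.result (S := twSet S qv) hpP hp𝒪 (Finset.mem_union_left _ hpS) hN'S
      HQ1 (Pv.q j)
      (Pv.q_prime j) (hPV.hex j).2.1 (h1.mpr (hPV.hPvN j))
      (fun h => H2.not_sq_dvd_of_squarefree hPV.hsq (Pv.q_prime j) (h2.mp h))
  -- the map from the universal ring to the Hecke ring of level `N1`
  have hHcondQ : cond 𝒪 p fl Smin (Pv.set ∪ Finset.univ.image qv) H.ρ :=
    Fermat.Agent.S59.Asm.cond_mono Finset.subset_union_left hHcond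
  obtain ⟨τ, hτs, hτl, hτe⟩ := Fermat.Agent.S54.result X.DQ H
    (fun q hq hqN => Finset.mem_coe.mpr (hPV.hNS q hq hqN)) hHcondQ hHres
  -- the relations
  have hrel1 := hUnip 𝒪 p fl ρbar N1 S Smin θ M k Pv eP hPV g r n qv hqv X HQ1 hHQ1π hHQ1det
    hunip
  have hrelχ := hNU 𝒪 p fl ρbar N1 S Smin θ M k Pv eP hPV g r n qv hqv X ζ hζ ζ
    (fun j => ⟨(hζ j).pow_eq_one, hζ1 j⟩) 𝔞 h𝔞
  have hψ1 : ∀ j, ζ j - 1 ∈ Ideal.span {ϖ} := fun j =>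
    hϖ ▸ sub_one_mem_of_pow_eq_one hpP hp𝒪 (hζ j).pow_eq_one
  -- the rank
  have hrk : Module.finrank 𝒪 M.V = X.G.rk :=
    Fermat.Agent.L.Pivot.H76.finrank_eq_rk hpP.pos X.G.d_pow X.G.d_comm X.G.c_pow X.G.c_comm
      X.G.c_d X.G.b_basis (X.G.G1.π ∘ₗ X.G.κ)
      (X.G.G1.π_surjective.comp X.G.κ_surjective) (ker_comp_κ X.G.toPVGeom)
  rw [hrk]
  exact hAsm 𝒪 p fl ρbar N1 S Smin θ M k Pv eP hPV H hHπ hHcond ηM hηM g r n qv hqv X τ hτs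
    hτl hτe ϖ hϖ ζ (fun j => (hζ j).pow_eq_one) hψ1 _ _ hrel1 hrelχ b

end Wire

/-- **PV-WIRE1**: the levels of the patching datum of PIVOT from the leaves and the landed
results. -/
theorem pvLevelsB_of (hIS : ∀ (N : ℕ) [NeZero N], CuspForm.HasIntegralStructure N 2)
    (hGal : Stmt_PVGalB) (hGeom : Stmt_PVGeom2)
    (hDatum : Fermat.Agent.S59.Datum.Stmt_DATUM) (hCond : Stmt_COND)
    (hAsm : Stmt_PVAsm) (hUnip : Stmt_PVUnip) (hNU : Stmt_PVNU) : Stmt_PVLevelsB := by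
  intro 𝒪 _ _ _ _ _ _ p _ fl ρbar S Smin hbar hnfl N1 _ hpN hpN' θ hθ k Pv eP hPV hζex ϖ hϖ
  have hpP : p.Prime := Fact.out
  haveI : Fact (CuspForm.HasIntegralStructure N1 2) := ⟨hIS N1⟩
  have hyp := hPV.hyp
  have hp2 := hyp.hp2
  have hp𝒪 := hyp.hp𝒪
  have hres : ResHyp p ρbar Smin := resHyp_of_hyp 𝒪 p hyp
  have hpS : p ∈ S := hyp.hSmin hyp.hpSmin
  have hPvS : ∀ j, Pv.q j ∈ S := pv_mem_S 𝒪 p hPV
  have hPvset : Pv.set ⊆ S := by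
    intro q hq
    obtain ⟨j, -, rfl⟩ := Finset.mem_image.mp hq
    exact hPvS j
  -- the Hecke–Galois datum of the level `N1`
  obtain ⟨H, hHπ, hHdet, hHres⟩ :=
    hDatum 𝒪 p hp2 hp𝒪 N1 S hpS hPV.hNS ρbar hyp.habs θ hθ
  have hHcond : cond 𝒪 p fl Smin Pv.set H.ρ :=
    hCond 𝒪 p hp2 hp𝒪 fl ρbar Smin hres hbar hnfl Pv.set N1 S hPV.hS hPV.hNS
      (fun q hq hqp => ⟨hPV.hSminN q hq hqp,
        H2.not_sq_dvd_of_squarefree hPV.hsq (hres.hS q hq)⟩)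
      hpN (fun h => ⟨hpN' h, H2.not_sq_dvd_of_squarefree hPV.hsq hpP⟩)
      θ hθ H hHπ hHdet hHres
  -- the module, the Taylor–Wiles families
  obtain ⟨M, hMnt, hG⟩ := hGeom 𝒪 p ρbar S Smin hyp N1 hPV.hNS hPV.hsq (Or.inl hPV.h5) θ hθ k Pv
    hPV.hk hPV.hex hPV.hPvN eP hPV.heP
  obtain ⟨ηM, hηM⟩ := Fermat.Agent.S59.Asm.H85.stmt_LOCMOD 𝒪 N1 (↑S : Set ℕ) θ M
  obtain ⟨r, g, hrg, hfam⟩ := hGal 𝒪 p fl ρbar S Smin hyp k Pv hPV.hex hPvset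
  -- the types
  choose ζ hζ using hζex
  have heP0 : ∀ j, eP j ≠ 0 := by
    intro j h0
    have h1 := (hPV.heP j).2
    rw [h0, zero_add, pow_one] at h1
    exact h1 (hPV.hex j).1
  have hζ1 : ∀ j, ζ j ≠ 1 := fun j =>
    (hζ j).ne_one (Nat.one_lt_pow (heP0 j) hpP.one_lt)
  have ht0 : ∀ δ ∈ pvTypes p eP ζ, ∀ j, δ j ≠ 0 := by
    intro δ hδ j
    obtain ⟨i, hi1, hi2, rfl⟩ := mem_pvTypes.mp hδ
    exact type_ne_zero hpP hp2 (hζ j) (hi1 j) (hi2 j)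
  have htm : ∀ δ ∈ pvTypes p eP ζ, ∀ j, δ j ∈ maximalIdeal 𝒪 := by
    intro δ hδ j
    obtain ⟨i, hi1, hi2, rfl⟩ := mem_pvTypes.mp hδ
    exact type_mem hpP hp𝒪 (hζ j).pow_eq_one _ _
  have hunr : ∀ j, H.ρ.residual.IsUnramifiedAt (Pv.q j) := fun j A hA σ hσ =>
    Fermat.Agent.S59.Asm.H77.resid_eq_one_of_isEquiv ρbar H.ρ hHres σ
      ((hPV.hex j).2.2.1 A hA σ hσ)
  let b : Module.Basis (Fin 2) (CuspForm.heckeLocal N1 (↑S : Set ℕ) 𝒪 θ) H.ρ.V :=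
    Module.finBasisOfFinrankEq _ _ H.ρ.finrank_eq
  refine ⟨CuspForm.heckeLocal N1 (↑S : Set ℕ) 𝒪 θ, inferInstance, inferInstance, inferInstance,
    inferInstance, inferInstance, inferInstance, inferInstance, inferInstance, H, b, M.V,
    inferInstance, Module.compHom M.V
      ((ηM : CuspForm.heckeLocal N1 (↑S : Set ℕ) 𝒪 θ →ₐ[𝒪] Module.End 𝒪 M.V) :
        CuspForm.heckeLocal N1 (↑S : Set ℕ) 𝒪 θ →+* Module.End 𝒪 M.V), hMnt, r, g,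
    Module.finrank 𝒪 M.V, pvTypes p eP ζ, hHdet, hunr, by omega, ht0, htm, ?_⟩
  intro 𝔞 h𝔞 n
  obtain ⟨qv, hqv, hγ⟩ := hfam n
  have hqvP : ∀ i, (qv i).Prime := fun i => (hqv.2.1 i).1
  haveI : NeZero (twLevel N1 qv) := ⟨H2.twLevel_ne_zero (NeZero.ne N1) hqvP⟩
  haveI : NeZero (pvLevel N1 Pv.q qv) := ⟨pvLevel_ne_zero (NeZero.ne N1) hqvP Pv.q_prime⟩
  haveI : Fact (CuspForm.HasIntegralStructure (twLevel N1 qv) 2) := ⟨hIS _⟩
  haveI : Fact (CuspForm.HasIntegralStructure (pvLevel N1 Pv.q qv) 2) := ⟨hIS _⟩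
  obtain ⟨G⟩ := hG r n qv hqv
  obtain ⟨X⟩ := exists_ctx 𝒪 p hDatum hCond fl ρbar S Smin hbar hnfl N1 hpN hpN' θ hθ k Pv eP
    hPV M g r n qv hqv hγ G
  exact level_of_ctx 𝒪 p hDatum hAsm hUnip hNU fl ρbar S Smin N1 θ hθ k Pv eP hPV ζ hζ hζ1 ϖ
    hϖ M H hHπ hHres hHcond ηM hηM b g r n qv hqv X 𝔞 h𝔞

/-- **PV-WIRE1.** -/
theorem stmt_PVWire1 : Stmt_PVWire1 := fun hGal hGeom hDatum hCond hAsm hUnip hNU =>
  pvLevelsB_of (fun N _ => Fermat.Agent.S23.result N) hGal hGeom hDatum hCond hAsm hUnip hNU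

end Fermat.Agent.L.Pivot.H19
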