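import Fermat.Agent.S59.H99_SplitRing

/-!
# PIVOT, leaf CYC (helper3): a coefficient ring with roots of unity

`exists_split_cyc_ext`: for a complete discrete valuation ring `𝒪` (characteristic `0`, finite
residue field `k`) and `n > 0` there is a complete discrete valuation ring `𝒪'`, finite free over
`𝒪` with local structure map, such that
* every monic quadratic polynomial over `k` is a product of two linear factors over the residue
  field of `𝒪'` (as in `S59.H99.exists_split_ext`), and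
* `𝒪'` contains a primitive `m`-th root of unity for every `m ∣ n`.

Construction: `𝒪'` = integral closure of `𝒪` in the splitting field of `G · (Xⁿ − 1)`, `G` the
product of the lifts of the quadratics.
-/

set_option autoImplicit false

open Polynomial IsLocalRing

namespace Fermat.Agent.L.Pivot.H3

open Fermat.Agent.S59.H99

/-- A field of characteristic `0` over which `Xⁿ − 1` splits has a primitive `n`-th root of
unity. -/
theorem exists_primitiveRoot_of_splits {E : Type*} [Field E] [CharZero E] (n : ℕ) (hn : 0 < n)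
    (h : (X ^ n - 1 : E[X]).Splits) : ∃ ζ : E, IsPrimitiveRoot ζ n := by
  have : NeZero n := ⟨hn.ne'⟩
  have : NeZero (n : E) := ⟨Nat.cast_ne_zero.mpr hn.ne'⟩
  have hc : (cyclotomic n E).Splits := by
    refine h.of_dvd (monic_X_pow_sub_C (1 : E) hn.ne').ne_zero ?_
    simpa using cyclotomic.dvd_X_pow_sub_one n E
  have hdeg : (cyclotomic n E).degree ≠ 0 := by
    rw [degree_cyclotomic]
    exact_mod_cast (Nat.totient_pos.mpr hn).ne'
  obtain ⟨ζ, hζ⟩ := hc.exists_eval_eq_zero hdeg
  exact ⟨ζ, (isRoot_cyclotomic_iff).mp hζ⟩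

/-- **The coefficient ring for PIVOT.** -/
theorem exists_split_cyc_ext (𝒪 : Type) [CommRing 𝒪] [IsDomain 𝒪] [IsDiscreteValuationRing 𝒪]
    [IsAdicComplete (maximalIdeal 𝒪) 𝒪] [Finite (ResidueField 𝒪)] [CharZero 𝒪]
    (n : ℕ) (hn : 0 < n) :
    ∃ (𝒪' : Type) (_ : CommRing 𝒪') (_ : IsDomain 𝒪') (_ : IsDiscreteValuationRing 𝒪')
      (_ : IsAdicComplete (maximalIdeal 𝒪') 𝒪') (_ : Finite (ResidueField 𝒪'))
      (_ : CharZero 𝒪') (_ : Algebra 𝒪 𝒪') (_ : Module.Finite 𝒪 𝒪') (_ : Module.Free 𝒪 𝒪')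
      (_ : IsLocalHom (algebraMap 𝒪 𝒪')),
      (∀ g : (ResidueField 𝒪)[X], g.Monic → g.natDegree = 2 →
        ∃ α β : ResidueField 𝒪',
          g.map (ResidueField.map (algebraMap 𝒪 𝒪')) = (X - C α) * (X - C β)) ∧
      ∀ m : ℕ, m ∣ n → ∃ ζ : 𝒪', IsPrimitiveRoot ζ m := by
  classical
  have hfk : Fintype (ResidueField 𝒪) := Fintype.ofFinite _
  let s : ResidueField 𝒪 → 𝒪 := Function.surjInv (residue_surjective (R := 𝒪))
  have hs : ∀ x, residue 𝒪 (s x) = x := Function.surjInv_eq _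
  let q : ResidueField 𝒪 × ResidueField 𝒪 → 𝒪[X] :=
    fun bc => X ^ 2 + (C (s bc.1) * X + C (s bc.2))
  have hqm : ∀ bc, (q bc).Monic := fun bc => quadratic_monic _ _
  have hqd : ∀ bc, (q bc).natDegree = 2 := fun bc => quadratic_natDegree _ _
  let G0 : 𝒪[X] := ∏ bc, q bc
  have hG0m : G0.Monic := monic_prod_of_monic _ _ (fun bc _ => hqm bc)
  have hXm : (X ^ n - 1 : 𝒪[X]).Monic := monic_X_pow_sub_C 1 hn.ne'
  let G : 𝒪[X] := G0 * (X ^ n - 1)
  have hGm : G.Monic := hG0m.mul hXm
  obtain ⟨𝒪', i1, i2, i3, i4, i5, i6, i7, i8, i9, i10, i11, i12, hinj, hint⟩ :=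
    Fermat.Agent.R.H2.exists_finiteExtDVR 𝒪 (FractionRing 𝒪)
      ((G.map (algebraMap 𝒪 (FractionRing 𝒪))).SplittingField)
  have htf : Module.IsTorsionFree 𝒪 𝒪' := Module.isTorsionFree_iff_algebraMap_injective.mpr hinj
  have hfree : Module.Free 𝒪 𝒪' := Module.free_of_finite_type_torsion_free'
  set E := (G.map (algebraMap 𝒪 (FractionRing 𝒪))).SplittingField with hE
  have hGE : (G.map (algebraMap 𝒪 E)).Splits := by
    have h1 : G.map (algebraMap 𝒪 E) =
        (G.map (algebraMap 𝒪 (FractionRing 𝒪))).map (algebraMap (FractionRing 𝒪) E) := by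
      rw [Polynomial.map_map, ← IsScalarTower.algebraMap_eq]
    rw [h1]
    exact SplittingField.splits _
  refine ⟨𝒪', i1, i2, i3, i4, i5, i6, i7, i8, hfree, i9, ?_, ?_⟩
  · intro g hgm hgd
    set bc : ResidueField 𝒪 × ResidueField 𝒪 := (g.coeff 1, g.coeff 0) with hbc
    -- `q bc` reduces to `g`
    have hred : (q bc).map (residue 𝒪) = g := by
      conv_rhs => rw [monic_quadratic_eq hgm hgd]
      simp only [q, Polynomial.map_add, Polynomial.map_mul, Polynomial.map_pow, Polynomial.map_X,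
        Polynomial.map_C, hs, hbc]
    have hdvd : (q bc).map (algebraMap 𝒪 E) ∣ G.map (algebraMap 𝒪 E) :=
      Polynomial.map_dvd _ (Dvd.dvd.mul_right (Finset.dvd_prod_of_mem q (Finset.mem_univ bc)) _)
    have hqE : ((q bc).map (algebraMap 𝒪 E)).Splits :=
      hGE.of_dvd (hGm.map _).ne_zero hdvd
    obtain ⟨r₁, r₂, hr⟩ := exists_roots_of_splits hqE ((hqm bc).map _)
      (by rw [(hqm bc).natDegree_map, hqd])
    -- the roots are integral
    have hroot : ∀ r : E, ((q bc).map (algebraMap 𝒪 E)).IsRoot r → IsIntegral 𝒪 r := by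
      intro r hr0
      refine ⟨q bc, hqm bc, ?_⟩
      rwa [IsRoot.def, eval_map] at hr0
    have hr₁ : IsIntegral 𝒪 r₁ := hroot r₁ (by rw [hr]; simp)
    have hr₂ : IsIntegral 𝒪 r₂ := hroot r₂ (by rw [hr]; simp)
    obtain ⟨y₁, hy₁⟩ := hint r₁ hr₁
    obtain ⟨y₂, hy₂⟩ := hint r₂ hr₂
    subst hy₁ hy₂
    -- the factorisation over `𝒪'`
    have hfac : (q bc).map (algebraMap 𝒪 𝒪') = (X - C y₁) * (X - C y₂) := by
      apply Polynomial.map_injective (algebraMap 𝒪' E) (IsFractionRing.injective 𝒪' E)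
      rw [Polynomial.map_map, ← IsScalarTower.algebraMap_eq, hr]
      simp only [Polynomial.map_mul, Polynomial.map_sub, Polynomial.map_X, Polynomial.map_C]
      rfl
    refine ⟨residue 𝒪' y₁, residue 𝒪' y₂, ?_⟩
    have hcomp : (ResidueField.map (algebraMap 𝒪 𝒪')).comp (residue 𝒪) =
        (residue 𝒪').comp (algebraMap 𝒪 𝒪') := by
      ext x
      exact ResidueField.map_residue _ x
    rw [← hred, Polynomial.map_map, hcomp, ← Polynomial.map_map, hfac]
    simp only [Polynomial.map_mul, Polynomial.map_sub, Polynomial.map_X, Polynomial.map_C]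
  · intro m hm
    have hinjE : Function.Injective (algebraMap 𝒪' E) := IsFractionRing.injective 𝒪' E
    have : CharZero E := charZero_of_injective_algebraMap hinjE
    have hXE : (X ^ n - 1 : E[X]).Splits := by
      have hdvd : (X ^ n - 1 : 𝒪[X]).map (algebraMap 𝒪 E) ∣ G.map (algebraMap 𝒪 E) :=
        Polynomial.map_dvd _ (Dvd.intro_left _ rfl)
      have h2 := hGE.of_dvd (hGm.map _).ne_zero hdvd
      simpa using h2
    obtain ⟨ζ, hζ⟩ := exists_primitiveRoot_of_splits n hn hXE
    -- `ζ` is integral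
    have hint' : IsIntegral 𝒪 ζ := by
      refine ⟨X ^ n - 1, hXm, ?_⟩
      simp [hζ.pow_eq_one]
    obtain ⟨y, hy⟩ := hint ζ hint'
    have hyn : IsPrimitiveRoot y n := by
      have : IsPrimitiveRoot (algebraMap 𝒪' E y) n := hy ▸ hζ
      exact IsPrimitiveRoot.of_map_of_injective (f := algebraMap 𝒪' E) this hinjE
    obtain ⟨d, hd⟩ := hm
    refine ⟨y ^ d, ?_⟩
    have := hyn.pow hn (show n = d * m by rw [hd, mul_comm])
    exact this

end Fermat.Agent.L.Pivot.H3
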