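import Fermat.Agent.L.Pivot.H3_Cyc
import Fermat.Agent.L.Pivot.H76_Wire2WDefs

/-!
# PIVOT, leaf CYC (helper3): `H76.Stmt_CYC`

The statement `Fermat.Agent.L.Pivot.H76.Stmt_CYC` (L/Pivot/H76_Wire2WDefs.lean) is
`exists_split_cyc_ext` (L/Pivot/H3_Cyc.lean) for `n = p ^ e`.
-/

set_option autoImplicit false

open Polynomial IsLocalRing

namespace Fermat.Agent.L.Pivot.H3

/-- **CYC.** -/
theorem stmt_CYC : Fermat.Agent.L.Pivot.H76.Stmt_CYC := by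
  intro 𝒪 _ _ _ _ _ _ p e hp
  obtain ⟨𝒪', i1, i2, i3, i4, i5, i6, i7, i8, i9, i10, hquad, hζ⟩ :=
    exists_split_cyc_ext 𝒪 (p ^ e) (pow_pos hp.pos e)
  exact ⟨𝒪', i1, i2, i3, i4, i5, i6, i7, i8, i9, i10, hquad, hζ _ dvd_rfl⟩

end Fermat.Agent.L.Pivot.H3
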