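import Fermat.Agent.S59.H99_Split
import Fermat.Agent.L.Pivot.H3_Cyc

/-!
# PIVOT, leaf CYC (helper3): base change of a Galois representation to a coefficient ring with
roots of unity and split residual characteristic polynomials

`stmt_SplitCyc` is `S59.H99.stmt_Split` with two additions: the new coefficient ring `𝒪'`
contains a primitive `m`-th root of unity for every `m ∣ n`, and the new representation is
(explicitly) the base change `ρ.baseChangeAlong ι hι`, with `𝒪'` finite free over `𝒪` through `ι`.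
-/

set_option autoImplicit false

open Polynomial IsLocalRing

namespace Fermat.Agent.L.Pivot.H3

open Fermat.Agent.S59 Fermat.Agent.S59.H99

/-- **Stmt_SplitCyc.** -/
def Stmt_SplitCyc : Prop :=
  ∀ (𝒪 : Type) [CommRing 𝒪] [IsDomain 𝒪] [IsDiscreteValuationRing 𝒪]
    [IsAdicComplete (maximalIdeal 𝒪) 𝒪] [Finite (ResidueField 𝒪)] [CharZero 𝒪]
    (ρ : GaloisRepAdic 𝒪) (n : ℕ), 0 < n →
    ∃ (𝒪' : Type) (_ : CommRing 𝒪') (_ : IsDomain 𝒪') (_ : IsDiscreteValuationRing 𝒪')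
      (_ : IsAdicComplete (maximalIdeal 𝒪') 𝒪') (_ : Finite (ResidueField 𝒪'))
      (_ : CharZero 𝒪') (ι : 𝒪 →+* 𝒪') (hι : IsLocalHom ι),
      Function.Injective ι ∧
      (letI := ι.toAlgebra; Module.Finite 𝒪 𝒪') ∧
      (letI := ι.toAlgebra; Module.Free 𝒪 𝒪') ∧
      (∀ m : ℕ, m ∣ n → ∃ ζ : 𝒪', IsPrimitiveRoot ζ m) ∧
      (∀ g : (ResidueField 𝒪)[X], g.Monic → g.natDegree = 2 →
        ∃ α β : ResidueField 𝒪', g.map (ResidueField.map ι) = (X - C α) * (X - C β)) ∧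
      (∀ σ : AlgebraicClosure ℚ ≃ₐ[ℚ] AlgebraicClosure ℚ,
        LinearMap.charpoly ((ρ.baseChangeAlong ι hι).ρ σ) =
          (LinearMap.charpoly (ρ.ρ σ)).map ι) ∧
      (∀ p : ℕ, ρ.DetIsCyclotomic p → (ρ.baseChangeAlong ι hι).DetIsCyclotomic p) ∧
      (∀ q : ℕ, ρ.IsUnramifiedAt q → (ρ.baseChangeAlong ι hι).IsUnramifiedAt q) ∧
      (∀ q : ℕ, ρ.IsUnipotentOnInertiaAt q →
        (ρ.baseChangeAlong ι hι).IsUnipotentOnInertiaAt q) ∧
      (∀ p : ℕ, p.Prime → ρ.IsFlatAt p → (ρ.baseChangeAlong ι hι).IsFlatAt p) ∧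
      (∀ p : ℕ, ρ.IsStrictOrdinaryAt p → (ρ.baseChangeAlong ι hι).IsStrictOrdinaryAt p) ∧
      (ρ.residual.IsAbsolutelyIrreducible →
        (ρ.baseChangeAlong ι hι).residual.IsAbsolutelyIrreducible) ∧
      (TWCond ρ.residual → TWCond (ρ.baseChangeAlong ι hι).residual) ∧
      ∀ σ : AlgebraicClosure ℚ ≃ₐ[ℚ] AlgebraicClosure ℚ,
        ∃ α β : ResidueField 𝒪',
          LinearMap.charpoly ((ρ.baseChangeAlong ι hι).residual.ρ σ) = (X - C α) * (X - C β)

theorem stmt_SplitCyc : Stmt_SplitCyc := by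
  intro 𝒪 _ _ _ _ _ _ ρ n hn
  obtain ⟨𝒪', i1, i2, i3, i4, i5, i6, i7, i8, hfree, i9, hquad, hζ⟩ :=
    exists_split_cyc_ext 𝒪 n hn
  have halg : (algebraMap 𝒪 𝒪').toAlgebra = i7 := Algebra.algebra_ext _ _ (fun r => rfl)
  have hinj : Function.Injective (algebraMap 𝒪 𝒪') :=
    Module.isTorsionFree_iff_algebraMap_injective.mp inferInstance
  refine ⟨𝒪', i1, i2, i3, i4, i5, i6, algebraMap 𝒪 𝒪', i9, hinj, ?_, ?_, hζ, hquad,
    ?_, ?_, ?_, ?_, ?_, ?_, ?_, ?_, ?_⟩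
  · exact halg ▸ i8
  · exact halg ▸ hfree
  · exact fun σ => Fermat.Agent.R.H86.baseChangeAlong_charpoly _ i9 ρ σ
  · exact fun p h => Fermat.Agent.S56.H92.detIsCyclotomic_baseChangeAlong _ i9 ρ p h
  · exact fun q h => Fermat.Agent.S56.H92.isUnramifiedAt_baseChangeAlong _ i9 ρ q h
  · exact fun q h => Fermat.Agent.S56.H92.isUnipotentOnInertiaAt_baseChangeAlong _ i9 ρ q h
  · intro p hp h
    refine isFlatAt_baseChangeAlong_of_finite_free (algebraMap 𝒪 𝒪') i9 ?_ ?_ i5 ρ p hp h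
    · exact halg ▸ hfree
    · exact halg ▸ i8
  · exact fun p h => Fermat.Agent.S56.H92.isStrictOrdinaryAt_baseChangeAlong _ i9 ρ p h
  · exact fun h => Fermat.Agent.R.H86.residual_absIrr_baseChangeAlong _ i9 ρ h
  · exact fun h => twCond_baseChangeAlong _ i9 ρ h
  · intro σ
    have hm : (LinearMap.charpoly (ρ.residual.ρ σ)).Monic := LinearMap.charpoly_monic _
    have hd : (LinearMap.charpoly (ρ.residual.ρ σ)).natDegree = 2 := by
      rw [LinearMap.charpoly_natDegree, ρ.residual.finrank_eq]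
    obtain ⟨α, β, hαβ⟩ := hquad _ hm hd
    refine ⟨α, β, ?_⟩
    rw [← hαβ, charpoly_residual, charpoly_residual,
      Fermat.Agent.R.H86.baseChangeAlong_charpoly, Polynomial.map_map, Polynomial.map_map]
    congr 1

end Fermat.Agent.L.Pivot.H3
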