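/-
PIVOT (item 66), PV-GAL-N, the assembly (helper4).

`assembly_core_pv` is `Fermat.Agent.S56.assembly_core` with one more finite set `Sp` of primes
(the pivot primes: `Sp ⊆ S`, disjoint from `Smin`) at which the local condition is `0` and
`3 ≤ h⁰(ℚ_q, ad⁰ ρbar)`: Taylor–Wiles families of `r = 3 |Sp| + g` primes with the tangent bound
`|k| ^ g`.  Formal: Greenberg–Wiles count + killing of the dual Selmer group.
-/
import Fermat.Agent.L.Pivot.Global
import Fermat.Agent.S56.Assembly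

set_option autoImplicit false
set_option linter.unusedSectionVars false
set_option linter.unusedVariables false
set_option linter.style.haveILetI false

noncomputable section

namespace Fermat.Agent.L.Pivot.H4

open Polynomial IsLocalRing CategoryTheory groupCohomology ExtCitation Module
  Fermat.Agent.S53 Fermat.Agent.S56

section Assembly

variable {𝒪 : Type} [CommRing 𝒪] [IsDomain 𝒪] [IsDiscreteValuationRing 𝒪]
  [IsAdicComplete (maximalIdeal 𝒪) 𝒪] [Finite (ResidueField 𝒪)]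

/-- **Assembly with pivot primes (generic in the family of conditions).** -/
theorem assembly_core_pv
    (hGW : Stmt_GW) (hTWsel : Stmt_TW_select) (hglob : Stmt_glob_h0) (hinf : Stmt_loc_inf)
    (hlocTW : Stmt_loc_TW) (hlocTWh0 : Stmt_loc_TW_h0) (hunr : Stmt_unr_of_res_zero)
    (hdex : Stmt_dict_exists) (hdinj : Stmt_dict_inj) (hdcont : Stmt_dict_cont)
    (had0 : Stmt_ad0_basic) (htate : Stmt_tate_basic)
    (p : ℕ) [Fact p.Prime] (ρbar : ResidualGaloisRep (ResidueField 𝒪)) (S Smin : Finset ℕ)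
    (hyp : Hyp 𝒪 p ρbar S Smin)
    (Sp : Finset ℕ) (hSpS : Sp ⊆ S) (hSpmin : ∀ q ∈ Sp, q ∉ Smin)
    (hSph0 : ∀ q : Nat.Primes, (q : ℕ) ∈ Sp →
      3 ≤ finrank (ResidueField 𝒪) (locRep (ad0 ρbar) q).ρ.invariants)
    (𝒟 : Finset ℕ → Cond 𝒪)
    (h𝒟det : ∀ (T : Finset ℕ) ⦃A : Type⦄ [CommRing A] [IsLocalRing A] [Algebra 𝒪 A]
      (ρ : GaloisRepAdic A), 𝒟 T ρ → ρ.DetIsCyclotomic p)
    (h𝒟unr : ∀ (T : Finset ℕ) ⦃A : Type⦄ [CommRing A] [IsLocalRing A] [Algebra 𝒪 A]
      (ρ : GaloisRepAdic A), 𝒟 T ρ → ∀ q : ℕ, q.Prime → q ∉ Smin ∪ (Sp ∪ T) →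
        ρ.IsUnramifiedAt q)
    (hLB : ∀ q : Nat.Primes, (q : ℕ) ∈ Smin →
      LocalBound ρbar 𝒟 q (if (q : ℕ) = p then 1 else 0))
    (hLBp : ∀ q : Nat.Primes, (q : ℕ) ∈ Sp → ∀ (T : Finset ℕ) (x : TSub 𝒪 ρbar (𝒟 T))
      (ξ : H1 (ad0 ρbar)), IsClassOf x ξ → resAt (ad0 ρbar) q ξ = 0) :
    ∃ r g : ℕ, r = 3 * Sp.card + g ∧ ∀ n : ℕ, ∃ qv : Fin r → ℕ, IsTWFamily ρbar p n S qv ∧
      TangentLE 𝒪 ρbar (𝒟 (Finset.univ.image qv)) g := by
  classical
  haveI hchar : CharP (ResidueField 𝒪) p := charP_residueField p hyp.hp𝒪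
  obtain ⟨hMfd, hMsm, hMur⟩ := had0 (ResidueField 𝒪) ρbar
  haveI := hMfd
  obtain ⟨hM'fd, hM'sm, hM'ur⟩ := htate p (ResidueField 𝒪) (ad0 ρbar) hMsm
  haveI := hM'fd
  obtain ⟨P, hperf, hGWP⟩ := hGW p hyp.hp2 (ResidueField 𝒪) (ad0 ρbar) hMsm
  obtain ⟨hh0, hh0'⟩ := hglob 𝒪 p ρbar S Smin hyp
  obtain ⟨hinf0, hinf1⟩ := hinf 𝒪 p ρbar S Smin hyp
  -- unramifiedness of `ρbar` outside `Smin`
  have hρur : ∀ q : ℕ, q.Prime → q ∉ Smin → ρbar.IsUnramifiedAt q := by
    intro q hq hqS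
    have hqp : q ≠ p := fun h => hqS (h ▸ hyp.hpSmin)
    by_contra hcon
    exact hqS ((hyp.hmin q hq hqp).2 hcon)
  -- per-prime conditions
  let Wall : ∀ q : Nat.Primes, Submodule (ResidueField 𝒪) (H1 (locRep (ad0 ρbar) q)) := fun q =>
    if h : (q : ℕ) ∈ Smin then Classical.choose (hLB q h)
    else if (q : ℕ) ∈ Sp then ⊥ else locH1 (ad0 ρbar) q
  have hWall_in : ∀ (q : Nat.Primes) (h : (q : ℕ) ∈ Smin),
      Wall q = Classical.choose (hLB q h) := fun q h => dif_pos h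
  have hWall_piv : ∀ q : Nat.Primes, (q : ℕ) ∉ Smin → (q : ℕ) ∈ Sp → Wall q = ⊥ := by
    intro q h h'
    show (if h : (q : ℕ) ∈ Smin then Classical.choose (hLB q h)
      else if (q : ℕ) ∈ Sp then ⊥ else locH1 (ad0 ρbar) q) = ⊥
    rw [dif_neg h, if_pos h']
  have hWall_out : ∀ q : Nat.Primes, (q : ℕ) ∉ Smin → (q : ℕ) ∉ Sp →
      Wall q = locH1 (ad0 ρbar) q := by
    intro q h h'
    show (if h : (q : ℕ) ∈ Smin then Classical.choose (hLB q h)
      else if (q : ℕ) ∈ Sp then ⊥ else locH1 (ad0 ρbar) q) = locH1 (ad0 ρbar) q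
    rw [dif_neg h, if_neg h']
  have hWall_le : ∀ q : Nat.Primes, Wall q ≤ locH1 (ad0 ρbar) q := by
    intro q
    by_cases h : (q : ℕ) ∈ Smin
    · rw [hWall_in q h]; exact (Classical.choose_spec (hLB q h)).1
    · by_cases h' : (q : ℕ) ∈ Sp
      · rw [hWall_piv q h h']; exact bot_le
      · rw [hWall_out q h h']
  have hWall_rank : ∀ (q : Nat.Primes), (q : ℕ) ∈ Smin →
      finrank (ResidueField 𝒪) (Wall q) ≤
        finrank (ResidueField 𝒪) (locRep (ad0 ρbar) q).ρ.invariants +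
          (if (q : ℕ) = p then 1 else 0) := by
    intro q h
    rw [hWall_in q h]; exact (Classical.choose_spec (hLB q h)).2.2.1
  have hWall_class : ∀ (q : Nat.Primes), (q : ℕ) ∈ Smin → ∀ (T : Finset ℕ)
      (x : TSub 𝒪 ρbar (𝒟 T)) (ξ : H1 (ad0 ρbar)), IsClassOf x ξ →
      resAt (ad0 ρbar) q ξ ∈ Wall q := by
    intro q h T x ξ hx
    rw [hWall_in q h]; exact (Classical.choose_spec (hLB q h)).2.2.2 T x ξ hx
  -- the sets of primes
  have hpSg : ∀ T : Finset ℕ, pPrime p ∈ primesOf (Smin ∪ (Sp ∪ T)) := fun T =>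
    mem_primesOf.2 (Finset.mem_union_left _ hyp.hpSmin)
  have hurSg : ∀ T : Finset ℕ, ∀ q : Nat.Primes, q ∉ primesOf (Smin ∪ (Sp ∪ T)) →
      IsUnramifiedRepAt (ad0 ρbar) (q : ℕ) := by
    intro T q hq
    refine hMur q (hρur q q.2 fun h => hq (mem_primesOf.2 (Finset.mem_union_left _ h)))
  have hLle : ∀ (T : Finset ℕ) (v : extArithIndex (primesOf (Smin ∪ (Sp ∪ T)))),
      condFam (ad0 ρbar) Wall (primesOf (Smin ∪ (Sp ∪ T))) v ≤
        continuousH1 (extArithLoc (primesOf (Smin ∪ (Sp ∪ T))) v)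
          (Rep.res (extArithLoc (primesOf (Smin ∪ (Sp ∪ T))) v) (ad0 ρbar)) := by
    intro T v
    rcases v with u | q
    · exact bot_le
    · exact hWall_le q.1
  have hGWT := fun T : Finset ℕ => hGWP (primesOf (Smin ∪ (Sp ∪ T))) (hpSg T) (hurSg T)
    (condFam (ad0 ρbar) Wall (primesOf (Smin ∪ (Sp ∪ T)))) (hLle T)
  -- the count, for every auxiliary set of Taylor-Wiles type
  have hcount : ∀ T : Finset ℕ,
      (∀ q : Nat.Primes, (q : ℕ) ∈ T → (q : ℕ) ∉ Smin ∧ (q : ℕ) ∉ Sp ∧ (q : ℕ) % p = 1 ∧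
        ρbar.IsUnramifiedAt (q : ℕ) ∧
        finrank (ResidueField 𝒪) (locRep (ad0 ρbar) q).ρ.invariants = 1) →
      finrank (ResidueField 𝒪)
          (selmerAdm (extArithLoc (primesOf (Smin ∪ (Sp ∪ T)))) (ad0 ρbar)
            (condFam (ad0 ρbar) Wall (primesOf (Smin ∪ (Sp ∪ T))))
            (continuousH1S (primesOf (Smin ∪ (Sp ∪ T))) (ad0 ρbar))) + 3 * Sp.card ≤
        finrank (ResidueField 𝒪)
          (selmerAdm (extArithLoc (primesOf (Smin ∪ (Sp ∪ T)))) (tateDual p (ad0 ρbar))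
            (dualConditions (extArithLoc (primesOf (Smin ∪ (Sp ∪ T)))) (ad0 ρbar)
              (tateDual p (ad0 ρbar)) (P.fam (primesOf (Smin ∪ (Sp ∪ T))))
              (condFam (ad0 ρbar) Wall (primesOf (Smin ∪ (Sp ∪ T)))))
            (continuousH1S (primesOf (Smin ∪ (Sp ∪ T))) (tateDual p (ad0 ρbar)))) + T.card := by
    intro T hT
    have hle := (hGWT T).le
    unfold greenbergWilesLeAdm at hle
    rw [sum_h0, sum_condFam] at hle
    rw [hh0, hh0', hinf1] at hle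
    have h1 : ∀ q ∈ primesOf (Smin ∪ (Sp ∪ T)),
        finrank (ResidueField 𝒪) (Wall q) + (if (q : ℕ) ∈ Sp then 3 else 0) ≤
          finrank (ResidueField 𝒪) (locRep (ad0 ρbar) q).ρ.invariants +
            ((if (q : ℕ) = p then 1 else 0) + (if (q : ℕ) ∈ T then 1 else 0)) := by
      intro q hq
      by_cases h : (q : ℕ) ∈ Smin
      · have := hWall_rank q h
        have hqSp : (q : ℕ) ∉ Sp := fun h' => hSpmin _ h' h
        rw [if_neg hqSp]
        omega
      · by_cases h' : (q : ℕ) ∈ Sp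
        · have := hSph0 q h'
          rw [hWall_piv q h h', if_pos h', finrank_bot]
          omega
        · have hqT : (q : ℕ) ∈ T := by
            rcases Finset.mem_union.1 (mem_primesOf.1 hq) with h'' | h''
            · exact absurd h'' h
            · rcases Finset.mem_union.1 h'' with h3 | h3
              · exact absurd h3 h'
              · exact h3
          obtain ⟨-, -, hq1, hur, hh⟩ := hT q hqT
          have := (hlocTW p q hq1 (ResidueField 𝒪) (ad0 ρbar) hMsm (hMur q hur)).2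
          rw [hWall_out q h h', if_pos hqT, if_neg h']
          rw [hh] at this ⊢
          omega
    have h2 : ∑ q ∈ primesOf (Smin ∪ (Sp ∪ T)), (if (q : ℕ) = p then 1 else 0) ≤ 1 := by
      rw [Finset.sum_boole]
      simp only [Nat.cast_id]
      refine Finset.card_le_one.2 fun a ha b hb => ?_
      exact Subtype.ext ((Finset.mem_filter.1 ha).2.trans (Finset.mem_filter.1 hb).2.symm)
    have h3 : ∑ q ∈ primesOf (Smin ∪ (Sp ∪ T)), (if (q : ℕ) ∈ T then 1 else 0) ≤ T.card := by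
      rw [Finset.sum_boole]
      simp only [Nat.cast_id]
      exact Finset.card_le_card_of_injOn (fun q : Nat.Primes => (q : ℕ))
        (fun q hq => (Finset.mem_filter.1 hq).2)
        (fun a _ b _ hab => Subtype.ext hab)
    have h5 : 3 * Sp.card ≤
        ∑ q ∈ primesOf (Smin ∪ (Sp ∪ T)), (if (q : ℕ) ∈ Sp then 3 else 0) := by
      have e : ∑ q ∈ primesOf (Smin ∪ (Sp ∪ T)), (if (q : ℕ) ∈ Sp then 3 else 0) =
          3 * ((primesOf (Smin ∪ (Sp ∪ T))).filter (fun q : Nat.Primes => (q : ℕ) ∈ Sp)).card := by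
        rw [← Finset.sum_filter, Finset.sum_const, smul_eq_mul, mul_comm]
      rw [e]
      refine Nat.mul_le_mul_left 3 ?_
      have himg : Sp ⊆ ((primesOf (Smin ∪ (Sp ∪ T))).filter
          (fun q : Nat.Primes => (q : ℕ) ∈ Sp)).image (fun q : Nat.Primes => (q : ℕ)) := by
        intro q hq
        refine Finset.mem_image.2 ⟨⟨q, hyp.hS q (hSpS hq)⟩, Finset.mem_filter.2 ⟨?_, hq⟩, rfl⟩
        exact mem_primesOf.2 (Finset.mem_union_right _ (Finset.mem_union_left _ hq))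
      exact (Finset.card_le_card himg).trans Finset.card_image_le
    have h4 : ∑ q ∈ primesOf (Smin ∪ (Sp ∪ T)), finrank (ResidueField 𝒪) (Wall q) +
        3 * Sp.card ≤
        ∑ q ∈ primesOf (Smin ∪ (Sp ∪ T)),
          finrank (ResidueField 𝒪) (locRep (ad0 ρbar) q).ρ.invariants + (1 + T.card) := by
      calc _ ≤ ∑ q ∈ primesOf (Smin ∪ (Sp ∪ T)), finrank (ResidueField 𝒪) (Wall q) +
            ∑ q ∈ primesOf (Smin ∪ (Sp ∪ T)), (if (q : ℕ) ∈ Sp then 3 else 0) := by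
              exact Nat.add_le_add_left h5 _
        _ = ∑ q ∈ primesOf (Smin ∪ (Sp ∪ T)),
            (finrank (ResidueField 𝒪) (Wall q) + (if (q : ℕ) ∈ Sp then 3 else 0)) := by
              rw [Finset.sum_add_distrib]
        _ ≤ ∑ q ∈ primesOf (Smin ∪ (Sp ∪ T)),
            (finrank (ResidueField 𝒪) (locRep (ad0 ρbar) q).ρ.invariants +
            ((if (q : ℕ) = p then 1 else 0) +
              (if (q : ℕ) ∈ T then 1 else 0))) := Finset.sum_le_sum h1
        _ = _ + (_ + _) := by rw [Finset.sum_add_distrib, Finset.sum_add_distrib]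
        _ ≤ _ := by gcongr
    omega
  -- the dual Selmer group for `T = ∅`
  let Z : Submodule (ResidueField 𝒪) (H1 (tateDual p (ad0 ρbar))) :=
    selmerAdm (extArithLoc (primesOf (Smin ∪ (Sp ∪ ∅)))) (tateDual p (ad0 ρbar))
      (dualConditions (extArithLoc (primesOf (Smin ∪ (Sp ∪ ∅)))) (ad0 ρbar)
        (tateDual p (ad0 ρbar))
        (P.fam (primesOf (Smin ∪ (Sp ∪ ∅))))
        (condFam (ad0 ρbar) Wall (primesOf (Smin ∪ (Sp ∪ ∅)))))
      (continuousH1S (primesOf (Smin ∪ (Sp ∪ ∅))) (tateDual p (ad0 ρbar)))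
  haveI hZfin : Module.Finite (ResidueField 𝒪) Z := (hGWT ∅).finite_dualSelmer
  have hZle : Z ≤ continuousH1 (MonoidHom.id Fermat.Agent.S56.GQ) (tateDual p (ad0 ρbar)) :=
    (selmerAdm_le_adm _ _ _ _).trans (continuousH1S_le_continuousH1 _ _)
  have hr3 : 3 * Sp.card ≤ finrank (ResidueField 𝒪) Z := by
    have := hcount ∅ (fun q hq => absurd hq (Finset.notMem_empty _))
    rw [Finset.card_empty, add_zero] at this
    exact le_trans (Nat.le_add_left _ _) this
  refine ⟨finrank (ResidueField 𝒪) Z, finrank (ResidueField 𝒪) Z - 3 * Sp.card, by omega,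
    fun n => ?_⟩
  obtain ⟨qv, hqv, hkill⟩ := hTWsel 𝒪 p ρbar S Smin hyp Z hZle n
  refine ⟨qv, hqv, ?_⟩
  obtain ⟨-, hqv2, hqv3⟩ := hqv
  -- facts on the Taylor-Wiles primes
  have hT : ∀ q : Nat.Primes, (q : ℕ) ∈ Finset.univ.image qv →
      (q : ℕ) ∉ Smin ∧ (q : ℕ) ∉ Sp ∧ (q : ℕ) % p = 1 ∧ ρbar.IsUnramifiedAt (q : ℕ) ∧
        finrank (ResidueField 𝒪) (locRep (ad0 ρbar) q).ρ.invariants = 1 := by
    intro q hq
    obtain ⟨i, -, hi⟩ := Finset.mem_image.1 hq
    obtain ⟨hi1, hi2, hi3⟩ := hqv2 i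
    have hqS : (q : ℕ) ∉ Smin := fun h => hi2 (hyp.hSmin (hi ▸ h))
    have hqSp : (q : ℕ) ∉ Sp := fun h => hi2 (hSpS (hi ▸ h))
    have hur : ρbar.IsUnramifiedAt (q : ℕ) := hρur q q.2 hqS
    refine ⟨hqS, hqSp, ?_, hur, ?_⟩
    · rw [← hi]; exact mod_eq_one_of_pow_dvd (Fact.out : p.Prime) hi1 hi3
    · refine hlocTWh0 (ResidueField 𝒪) ρbar q hur ?_
      rw [← hi]; exact hqv3 i
  -- the dual Selmer group for `T` vanishes
  have hsub : primesOf (Smin ∪ (Sp ∪ ∅)) ⊆ primesOf (Smin ∪ (Sp ∪ Finset.univ.image qv)) := by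
    intro q hq
    rw [mem_primesOf] at hq ⊢
    rcases Finset.mem_union.1 hq with h | h
    · exact Finset.mem_union_left _ h
    · rcases Finset.mem_union.1 h with h' | h'
      · exact Finset.mem_union_right _ (Finset.mem_union_left _ h')
      · exact absurd h' (Finset.notMem_empty _)
  have hnew : ∀ q ∈ primesOf (Smin ∪ (Sp ∪ Finset.univ.image qv)),
      q ∉ primesOf (Smin ∪ (Sp ∪ ∅)) → (q : ℕ) ∈ Finset.univ.image qv := by
    intro q hq hq0
    rw [mem_primesOf] at hq hq0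
    rcases Finset.mem_union.1 hq with h | h
    · exact absurd (Finset.mem_union_left _ h) hq0
    · rcases Finset.mem_union.1 h with h' | h'
      · exact absurd (Finset.mem_union_right _ (Finset.mem_union_left _ h')) hq0
      · exact h'
  have hdual0 : ∀ ξ ∈ selmerAdm (extArithLoc (primesOf (Smin ∪ (Sp ∪ Finset.univ.image qv))))
      (tateDual p (ad0 ρbar))
      (dualConditions (extArithLoc (primesOf (Smin ∪ (Sp ∪ Finset.univ.image qv)))) (ad0 ρbar)
        (tateDual p (ad0 ρbar)) (P.fam (primesOf (Smin ∪ (Sp ∪ Finset.univ.image qv))))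
        (condFam (ad0 ρbar) Wall (primesOf (Smin ∪ (Sp ∪ Finset.univ.image qv)))))
      (continuousH1S (primesOf (Smin ∪ (Sp ∪ Finset.univ.image qv))) (tateDual p (ad0 ρbar))),
      ξ = 0 := by
    intro ξ hξ
    obtain ⟨hξ1, hξ2⟩ := (mem_dualSelmer_condFam_iff (ad0 ρbar) P Wall _ _ ξ).1 hξ
    have hres0 : ∀ q : Nat.Primes, (q : ℕ) ∈ Finset.univ.image qv →
        resAt (tateDual p (ad0 ρbar)) q ξ = 0 := by
      intro q hq
      obtain ⟨hqS, hqSp, hq1, hur, -⟩ := hT q hq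
      have hqSg : q ∈ primesOf (Smin ∪ (Sp ∪ Finset.univ.image qv)) :=
        mem_primesOf.2 (Finset.mem_union_right _ (Finset.mem_union_right _ hq))
      refine hperf q hq1 (hMur q hur) _ (res_contS _ _ q ξ hξ2) fun x hx => ?_
      exact hξ1 q hqSg x (by rw [hWall_out q hqS hqSp]; exact hx)
    have hξ3 : ξ ∈ continuousH1S (primesOf (Smin ∪ (Sp ∪ ∅))) (tateDual p (ad0 ρbar)) := by
      refine hunr (ResidueField 𝒪) (tateDual p (ad0 ρbar)) hM'sm _ _ hsub ?_ ξ hξ2 ?_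
      · intro q hq hq0
        obtain ⟨hqS, -, -, hur, -⟩ := hT q (hnew q hq hq0)
        have hqp : (q : ℕ) ≠ p := fun h => hqS (h ▸ hyp.hpSmin)
        exact hM'ur q q.2 hqp (hMur q hur)
      · intro q hq hq0
        exact hres0 q (hnew q hq hq0)
    have hξZ : ξ ∈ Z :=
      (mem_dualSelmer_condFam_iff (ad0 ρbar) P Wall _ _ ξ).2
        ⟨fun q hq x hx => hξ1 q (hsub hq) x hx, hξ3⟩
    exact hkill ξ hξZ fun q hq => hres0 q hq
  -- all classes lie in the Selmer group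
  have hclassSel : ∀ (x : TSub 𝒪 ρbar (𝒟 (Finset.univ.image qv))) (ξ : H1 (ad0 ρbar)),
      IsClassOf x ξ →
      ξ ∈ selmerAdm (extArithLoc (primesOf (Smin ∪ (Sp ∪ Finset.univ.image qv)))) (ad0 ρbar)
        (condFam (ad0 ρbar) Wall (primesOf (Smin ∪ (Sp ∪ Finset.univ.image qv))))
        (continuousH1S (primesOf (Smin ∪ (Sp ∪ Finset.univ.image qv))) (ad0 ρbar)) := by
    intro x ξ hx
    have hcont : ξ ∈ continuousH1S (primesOf (Smin ∪ (Sp ∪ Finset.univ.image qv)))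
        (ad0 ρbar) := by
      refine hdcont 𝒪 ρbar (𝒟 (Finset.univ.image qv)) _ x ξ ?_ hx
      intro q hq
      letI := dualNumberAlgebra 𝒪
      exact h𝒟unr _ x.1 x.2.1 q q.2 (fun h => hq (mem_primesOf.2 h))
    refine (mem_selmerAdm_condFam_iff _ _ _ _ ξ).2 ⟨hinf0 _, fun q hq => ?_, hcont⟩
    by_cases h : (q : ℕ) ∈ Smin
    · exact hWall_class q h _ x ξ hx
    · by_cases h' : (q : ℕ) ∈ Sp
      · rw [hWall_piv q h h', hLBp q h' _ x ξ hx]
        exact Submodule.zero_mem _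
      · rw [hWall_out q h h']; exact res_contS _ _ q ξ hcont
  refine Dict.tangentLE_of_classes ρbar (𝒟 (Finset.univ.image qv)) _
    (hdex 𝒪 p ρbar (𝒟 (Finset.univ.image qv)) hyp.hp2 hyp.hp𝒪 hyp.hdet (h𝒟det _))
    (hdinj 𝒪 ρbar (𝒟 (Finset.univ.image qv))) _ (hGWT (Finset.univ.image qv)).finite_selmer
    hclassSel ?_
  -- the count
  have hle := hcount (Finset.univ.image qv) hT
  have hdualrank : finrank (ResidueField 𝒪)
      (selmerAdm (extArithLoc (primesOf (Smin ∪ (Sp ∪ Finset.univ.image qv))))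
      (tateDual p (ad0 ρbar))
      (dualConditions (extArithLoc (primesOf (Smin ∪ (Sp ∪ Finset.univ.image qv)))) (ad0 ρbar)
        (tateDual p (ad0 ρbar)) (P.fam (primesOf (Smin ∪ (Sp ∪ Finset.univ.image qv))))
        (condFam (ad0 ρbar) Wall (primesOf (Smin ∪ (Sp ∪ Finset.univ.image qv)))))
      (continuousH1S (primesOf (Smin ∪ (Sp ∪ Finset.univ.image qv)))
        (tateDual p (ad0 ρbar)))) = 0 := by
    rw [(Submodule.eq_bot_iff _).2 hdual0]; exact finrank_bot _ _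
  rw [hdualrank, zero_add] at hle
  have hcard : (Finset.univ.image qv).card ≤ finrank (ResidueField 𝒪) Z := by
    calc (Finset.univ.image qv).card
        ≤ (Finset.univ : Finset (Fin (finrank (ResidueField 𝒪) Z))).card := Finset.card_image_le
      _ = finrank (ResidueField 𝒪) Z := by simp
  omega

end Assembly

end Fermat.Agent.L.Pivot.H4

end
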