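/-
PIVOT (item 66), PV-GAL-N, the two local leaves at a pivot prime (helper4).

* `scalar_on_decomposition` : a representation trivial on an open subgroup, trivial on the inertia
  group of a place `P` over `q` and scalar at a Frobenius of `P` is scalar on the decomposition
  group of EVERY place over `q`.
* `three_le_h0`  (H0-PV)    : `3 ≤ h⁰(ℚ_q, ad⁰ ρbar)` at an exceptional prime.
* `resAt_eq_zero` (LOC-PV)  : the class of a first-order deformation of type `condPv0` is locally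
  trivial at the pivot primes.
-/
import Fermat.Agent.L.Pivot.Global
import Fermat.Agent.S56.LocMin.H85_LocMin
import Fermat.Agent.S59.TWGal.H59_Tame
import Fermat.Agent.S56.H59_LocTWh0

set_option autoImplicit false
set_option linter.unusedSectionVars false
set_option linter.unusedVariables false
set_option linter.style.haveILetI false

noncomputable section

namespace Fermat.Agent.L.Pivot.H4

open Polynomial IsLocalRing CategoryTheory groupCohomology ExtCitation Module
  Fermat.Agent.S56 Fermat.Agent.S56.H9 Fermat.Agent.S56.Dict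
  Fermat.Agent.S56.Dict.H85
open scoped TensorProduct Pointwise

local notation "Qbar" => AlgebraicClosure ℚ

/-! ### Conjugacy of decomposition groups -/

/-- Decomposition groups over the same prime are conjugate. -/
theorem exists_conj_mem_decomposition (ℓ : ℕ) (hℓ : ℓ.Prime)
    (A A' : ValuationSubring Qbar) (hA : A.LiesOverPrime ℓ) (hA' : A'.LiesOverPrime ℓ) :
    ∃ g : GQ, ∀ s : GQ, s ∈ A'.decompositionSubgroup ℚ →
      g⁻¹ * s * g ∈ A.decompositionSubgroup ℚ := by
  obtain ⟨g, hg⟩ := Fermat.Agent.Lib.InertiaConj.exists_smul_primeUnder ℓ hℓ A A' hA hA'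
  refine ⟨g, fun s hs => ?_⟩
  rw [Fermat.Agent.Lib.InertiaBridge.mem_decompositionSubgroup_iff ℓ hℓ A' hA', hg] at hs
  rw [Fermat.Agent.Lib.InertiaBridge.mem_decompositionSubgroup_iff ℓ hℓ A hA]
  rw [mul_smul, mul_smul, hs, inv_smul_smul]

/-! ### Scalars on the decomposition group -/

section scalar

variable {R V : Type*} [CommRing R] [AddCommGroup V] [Module R V]

theorem scalar_on_decomposition (ρ : GQ →* Module.End R V) (q : ℕ) (hq : q.Prime)
    (P : ValuationSubring Qbar) (hP : P.LiesOverPrime q) (φ : GQ) (hφ : P.IsFrobeniusAt φ q)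
    (F : IntermediateField ℚ Qbar) (hF : FiniteDimensional ℚ F)
    (hFker : ∀ s ∈ F.fixingSubgroup, ρ s = 1)
    (hI : ∀ ι ∈ P.inertiaSubgroupIn ℚ, ρ ι = 1) (c : R) (hc : ρ φ = c • (1 : Module.End R V))
    (A' : ValuationSubring Qbar) (hA' : A'.LiesOverPrime q) (σ : GQ)
    (hσ : σ ∈ A'.decompositionSubgroup ℚ) :
    ∃ c' : R, ρ σ = c' • (1 : Module.End R V) := by
  obtain ⟨g, hg⟩ := exists_conj_mem_decomposition q hq P A' hP hA'
  obtain ⟨-, -, -, -, hgen⟩ :=
    Fermat.Agent.S59.TWGal.H59.stmt_TAME q hq P hP φ hφ F hF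
  obtain ⟨n, ι, hι, hker⟩ := hgen _ (hg σ hσ)
  have h1 := hFker _ hker
  have h2 : ρ (g⁻¹ * σ * g) = ρ (φ ^ n * ι) := by
    have e : g⁻¹ * σ * g = (φ ^ n * ι) * ((φ ^ n * ι)⁻¹ * (g⁻¹ * σ * g)) := by
      rw [mul_inv_cancel_left]
    rw [e, map_mul, h1, mul_one]
  have h3 : ρ (φ ^ n * ι) = (c ^ n) • (1 : Module.End R V) := by
    rw [map_mul, hI ι hι, mul_one, map_pow, hc, _root_.smul_pow, one_pow]
  refine ⟨c ^ n, ?_⟩
  have e : σ = g * (g⁻¹ * σ * g) * g⁻¹ := by group
  rw [e, map_mul, map_mul, h2, h3, mul_smul_comm, mul_one, smul_mul_assoc, ← map_mul,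
    mul_inv_cancel, map_one]

end scalar

/-! ### H0-PV: the local invariants at an exceptional prime -/

section h0

variable {k : Type} [Field k]

/-- `dim ad⁰ ≥ 3`. -/
theorem three_le_finrank_ad0Sub (ρbar : ResidualGaloisRep k) :
    3 ≤ finrank k (ad0Sub ρbar) := by
  have h := LinearMap.finrank_range_add_finrank_ker (LinearMap.trace k ρbar.V)
  have h4 : finrank k (ρbar.V →ₗ[k] ρbar.V) = 4 := by
    have := Module.finrank_linearMap k k ρbar.V ρbar.V
    rw [ρbar.finrank_eq] at this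
    exact this
  have h1 : finrank k (LinearMap.range (LinearMap.trace k ρbar.V)) ≤ 1 := by
    calc _ ≤ finrank k k := Submodule.finrank_le _
      _ = 1 := Module.finrank_self k
  show 3 ≤ finrank k (LinearMap.ker (LinearMap.trace k ρbar.V))
  rw [h4] at h
  omega

/-- If `ρbar` is scalar on the decomposition group at `q` then `h⁰(ℚ_q, ad⁰ ρbar) ≥ 3`. -/
theorem three_le_h0_of_scalar (ρbar : ResidualGaloisRep k) (q : Nat.Primes)
    (hscal : ∀ g : primeLocalGaloisGroup q,
      ∃ c : k, ρbar.ρ (primeLocalToGlobal q g) = c • (1 : Module.End k ρbar.V)) :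
    3 ≤ finrank k (locRep (ad0 ρbar) q).ρ.invariants := by
  let ι : (locRep (ad0 ρbar) q).V →ₗ[k] Module.End k ρbar.V := (ad0Sub ρbar).subtype
  have hι_inj : Function.Injective ι := (ad0Sub ρbar).injective_subtype
  have htop : (locRep (ad0 ρbar) q).ρ.invariants = ⊤ := by
    rw [eq_top_iff]
    intro x _
    rw [Representation.mem_invariants]
    intro g
    obtain ⟨c, hc⟩ := hscal g
    have h : adRepr ρbar (primeLocalToGlobal q g) (ι x) = ι x := by
      rw [Fermat.Agent.S56.H59.adRepr_eq_iff, hc, smul_mul_assoc, one_mul, mul_smul_comm,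
        mul_one]
    exact hι_inj h
  rw [htop, finrank_top]
  exact three_le_finrank_ad0Sub ρbar

/-- **H0-PV.** -/
theorem three_le_h0 (ρbar : ResidualGaloisRep k) (q : Nat.Primes)
    (hur : ρbar.IsUnramifiedAt (q : ℕ))
    (P : ValuationSubring Qbar) (hP : P.LiesOverPrime (q : ℕ)) (φ : GQ)
    (hφ : P.IsFrobeniusAt φ (q : ℕ))
    (hsc : ∃ c : k, ρbar.ρ φ = c • (1 : Module.End k ρbar.V)) :
    3 ≤ finrank k (locRep (ad0 ρbar) q).ρ.invariants := by
  obtain ⟨c, hc⟩ := hsc
  obtain ⟨L, hL, hLker⟩ := ρbar.factorsThroughFiniteLevel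
  refine three_le_h0_of_scalar ρbar q fun g => ?_
  exact scalar_on_decomposition ρbar.ρ (q : ℕ) q.2 P hP φ hφ L hL
    (fun s hs => hLker s fun y hy => (IntermediateField.mem_fixingSubgroup_iff L s).1 hs y hy)
    (fun ι hι => hur P hP ι hι) c hc (primeLocalPlace q) (primeLocalPlace_liesOver q) _
    (primeLocalToGlobal_mem_decomposition q g)

end h0

/-! ### LOC-PV: the classes are locally trivial at the pivot primes -/

section locpv

variable {𝒪 : Type} [CommRing 𝒪] [IsLocalRing 𝒪]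
variable {ρbar : ResidualGaloisRep (ResidueField 𝒪)} {𝒟 : Cond 𝒪}

/-- `ρ_x σ = 1` if `ρbar σ = 1` and `c σ = 0`. -/
theorem rho_eq_one_of (x : Fermat.Agent.S53.TSub 𝒪 ρbar 𝒟) (c : GQ → Module.End (ResidueField 𝒪) ρbar.V)
    (hc : IsCocycleOf x c) (σ : GQ) (h1 : ρbar.ρ σ = 1) (h2 : c σ = 0) : x.1.ρ σ = 1 := by
  obtain ⟨θ, hθ⟩ := hc
  apply LinearMap.ext
  intro w
  obtain ⟨z, rfl⟩ := θ.surjective w
  rw [Module.End.one_apply]
  induction z using TensorProduct.induction_on with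
  | zero => rw [map_zero, map_zero]
  | tmul a v =>
    have e : a ⊗ₜ[ResidueField 𝒪] v
        = a • ((1 : DualNumber (ResidueField 𝒪)) ⊗ₜ[ResidueField 𝒪] v) := by
      rw [TensorProduct.smul_tmul', smul_eq_mul, mul_one]
    rw [e, map_smul, map_smul, hθ σ v, h1, h2, Module.End.one_apply, LinearMap.zero_apply,
      TensorProduct.tmul_zero, add_zero]
  | add z w hz hw => rw [map_add, map_add, hz, hw]

/-- If `ρ_x σ` is a scalar then the (traceless) cocycle vanishes at `σ`. -/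
theorem cocycle_eq_zero_of_scalar (h2 : (2 : ResidueField 𝒪) ≠ 0) (x : Fermat.Agent.S53.TSub 𝒪 ρbar 𝒟)
    (c : GQ → Module.End (ResidueField 𝒪) ρbar.V) (hc : IsCocycleOf x c) (σ : GQ)
    (htr : LinearMap.trace (ResidueField 𝒪) ρbar.V (c σ) = 0)
    (s : DualNumber (ResidueField 𝒪))
    (hs : x.1.ρ σ = s • (1 : Module.End (DualNumber (ResidueField 𝒪)) x.1.V)) : c σ = 0 := by
  obtain ⟨θ, hθ⟩ := hc
  have key : ∀ v : ρbar.V, ρbar.ρ σ v = s.fst • v ∧ c σ (ρbar.ρ σ v) = s.snd • v := by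
    intro v
    have h := hθ σ v
    rw [hs, LinearMap.smul_apply, Module.End.one_apply, ← map_smul] at h
    have e : s • ((1 : DualNumber (ResidueField 𝒪)) ⊗ₜ[ResidueField 𝒪] v)
        = (1 : DualNumber (ResidueField 𝒪)) ⊗ₜ[ResidueField 𝒪] (s.fst • v)
          + (DualNumber.eps : DualNumber (ResidueField 𝒪)) ⊗ₜ[ResidueField 𝒪] (s.snd • v) := by
      rw [TensorProduct.smul_tmul', smul_eq_mul, mul_one]
      have hs' : s = s.fst • (1 : DualNumber (ResidueField 𝒪))
          + s.snd • (DualNumber.eps : DualNumber (ResidueField 𝒪)) := by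
        ext <;> simp
      conv_lhs => rw [hs']
      rw [TensorProduct.add_tmul, TensorProduct.smul_tmul, TensorProduct.smul_tmul]
    rw [e] at h
    obtain ⟨e1, e2⟩ := Fermat.Agent.S56.LocMin.eq_of_theta_eq θ h
    exact ⟨e1.symm, e2.symm⟩
  have hinv : ∀ v : ρbar.V, ρbar.ρ σ⁻¹ (ρbar.ρ σ v) = v := by
    intro v
    have : ρbar.ρ σ⁻¹ * ρbar.ρ σ = 1 := by rw [← map_mul, inv_mul_cancel, map_one]
    exact congrArg (fun f : Module.End (ResidueField 𝒪) ρbar.V => f v) this
  haveI : Nontrivial ρbar.V := by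
    apply Module.nontrivial_of_finrank_pos (R := ResidueField 𝒪)
    rw [ρbar.finrank_eq]; norm_num
  have hfst : s.fst ≠ 0 := by
    intro h0
    obtain ⟨v, hv⟩ := exists_ne (0 : ρbar.V)
    apply hv
    have h1 := (key v).1
    rw [h0, zero_smul] at h1
    have h3 := hinv v
    rw [h1, map_zero] at h3
    exact h3.symm
  have hcσ : c σ = (s.fst⁻¹ * s.snd) • (1 : Module.End (ResidueField 𝒪) ρbar.V) := by
    apply LinearMap.ext
    intro v
    obtain ⟨h1, h3⟩ := key v
    rw [h1, map_smul] at h3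
    rw [LinearMap.smul_apply, Module.End.one_apply, mul_smul, ← h3, smul_smul,
      inv_mul_cancel₀ hfst, one_smul]
  rw [hcσ, map_smul, LinearMap.trace_one, ρbar.finrank_eq, smul_eq_mul] at htr
  have h5 : s.fst⁻¹ * s.snd = 0 := by
    rcases mul_eq_zero.1 htr with h | h
    · exact h
    · exact absurd (by exact_mod_cast h) h2
  rw [hcσ, h5, zero_smul]

/-- **LOC-PV** (abstract form).  `ρbar` unramified at `q ≠ p`; `x` a first-order deformation with
`ρ_x (τ) = 1` at a uniform tame generator and `ρ_x (φ)` scalar at a Frobenius of a place over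
`q`.  Then the class of `x` is locally trivial at `q`. -/
theorem resAt_eq_zero_of_tame (p : ℕ) (hp : p.Prime) (hp2 : p ≠ 2)
    (hpk : (p : ResidueField 𝒪) = 0) (q : Nat.Primes) (hqp : (q : ℕ) ≠ p)
    (hur : ρbar.IsUnramifiedAt (q : ℕ))
    (P : ValuationSubring Qbar) (hP : P.LiesOverPrime (q : ℕ)) (φ : GQ)
    (hφ : P.IsFrobeniusAt φ (q : ℕ)) (τ : GQ) (hτ : IsTameGen (q : ℕ) P τ)
    (x : Fermat.Agent.S53.TSub 𝒪 ρbar 𝒟) (hxτ : x.1.ρ τ = 1)
    (hxφ : ∃ s : DualNumber (ResidueField 𝒪),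
      x.1.ρ φ = s • (1 : Module.End (DualNumber (ResidueField 𝒪)) x.1.V))
    (ξ : H1 (ad0 ρbar)) (hξ : IsClassOf x ξ) :
    resAt (ad0 ρbar) q ξ = 0 := by
  classical
  obtain ⟨c, hc, rfl⟩ := hξ
  haveI hchar : CharP (ResidueField 𝒪) p := (CharP.charP_iff_prime_eq_zero hp).2 hpk
  have h2k : (2 : ResidueField 𝒪) ≠ 0 := by
    intro h2
    have h3 : ((2 : ℕ) : ResidueField 𝒪) = 0 := by exact_mod_cast h2
    have h4 := (CharP.cast_eq_zero_iff (ResidueField 𝒪) p 2).1 h3
    exact hp2 ((Nat.prime_dvd_prime_iff_eq hp Nat.prime_two).1 h4)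
  obtain ⟨L, hL, hLker⟩ := exists_finite_le_ker x
  -- inertia at `P` acts trivially
  have hI : ∀ ι ∈ P.inertiaSubgroupIn ℚ, x.1.ρ ι = 1 := by
    intro ι hι
    have hbar : ρbar.ρ ι = 1 := hur P hP ι hι
    obtain ⟨i, e, hie⟩ := hτ.2 L hL ι hι
    have hmem : ((τ ^ i)⁻¹ * ι) ^ ((q : ℕ) ^ e) ∈ L.fixingSubgroup := by
      rw [IntermediateField.mem_fixingSubgroup_iff]
      exact hie
    have h1 : x.1.ρ (((τ ^ i)⁻¹ * ι) ^ ((q : ℕ) ^ e)) = 1 := MonoidHom.mem_ker.1 (hLker hmem)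
    have hτi : x.1.ρ ((τ ^ i)⁻¹) = 1 := by
      have := map_mul x.1.ρ ((τ ^ i)⁻¹) (τ ^ i)
      rw [inv_mul_cancel, map_one, map_pow x.1.ρ τ i, hxτ, one_pow, mul_one] at this
      exact this.symm
    have h3 : x.1.ρ (ι ^ ((q : ℕ) ^ e)) = x.1.ρ 1 := by
      rw [map_pow, map_mul, hτi, one_mul, ← map_pow] at h1
      rw [h1, map_one]
    have h4 := (Fermat.Agent.S56.LocMin.eq_of_rho_eq x _ hc h3).2
    have h5 : (c : GQ → ad0 ρbar) (ι ^ ((q : ℕ) ^ e))
        = ((((q : ℕ) ^ e : ℕ)) : ResidueField 𝒪) • (c : GQ → ad0 ρbar) ι :=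
      cocycle_pow_of_trivial c (Fermat.Agent.S56.H47.ad0_ρ_eq_one ρbar ι hbar) _
    have h6 : (c : GQ → ad0 ρbar) 1 = 0 := cocycles₁_map_one c
    have h7 : (c : GQ → ad0 ρbar) (ι ^ ((q : ℕ) ^ e)) = 0 := by
      apply Fermat.Agent.S56.H47.ad0Val_injective ρbar
      rw [h4, h6]
    have hq0 : ((((q : ℕ) ^ e : ℕ)) : ResidueField 𝒪) ≠ 0 := by
      intro h0
      have h8 := (CharP.cast_eq_zero_iff (ResidueField 𝒪) p _).1 h0
      have h9 := hp.dvd_of_dvd_pow h8
      exact hqp ((Nat.prime_dvd_prime_iff_eq hp q.2).1 h9).symm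
    have h10 : (c : GQ → ad0 ρbar) ι = 0 := by
      rw [h5] at h7
      exact (smul_eq_zero.1 h7).resolve_left hq0
    exact rho_eq_one_of x _ hc ι hbar (by rw [h10, map_zero])
  -- scalars on the decomposition group of the standard place
  obtain ⟨s, hs⟩ := hxφ
  have h0 : ∀ g : primeLocalGaloisGroup q, (c : GQ → ad0 ρbar) (primeLocalToGlobal q g) = 0 := by
    intro g
    obtain ⟨s', hs'⟩ := scalar_on_decomposition x.1.ρ (q : ℕ) q.2 P hP φ hφ L hL
      (fun t ht => MonoidHom.mem_ker.1 (hLker ht)) hI s hs (primeLocalPlace q)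
      (primeLocalPlace_liesOver q) _ (primeLocalToGlobal_mem_decomposition q g)
    apply Fermat.Agent.S56.H47.ad0Val_injective ρbar
    rw [map_zero]
    exact cocycle_eq_zero_of_scalar h2k x _ hc _
      ((c : GQ → ad0 ρbar) (primeLocalToGlobal q g)).2 s' hs'
  rw [Fermat.Agent.S56.Dict.H85.resAt_H1π]
  have hzero : resCocycle (primeLocalToGlobal q) (ad0 ρbar) c = 0 := by
    apply Subtype.ext
    funext g
    exact h0 g
  rw [hzero, map_zero]

end locpv

end Fermat.Agent.L.Pivot.H4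

end
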