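/-
PIVOT (item 66), **PV-GAL-N** (helper4): `Stmt_PVGalN` from the Greenberg–Wiles package.

* `stmt_PVGalN_of_GW    : S56.Stmt_GW → Stmt_PVGalN`
* `stmt_PVGalN_of_open  : (the open leaves of S56, as in `S56.wiring8`) → Stmt_PVGalN`

Everything else is discharged: the S56 leaves (TW-SELECT, GLOB-h0, LOC-inf, LOC-TW, LOC-TW-h0, UNR,
DICT, AD0/TATE-basic, LOC-p-FL, LOC-min), the assembly with pivot primes
(`H4_GalNAsm.lean`) and the two local leaves at the pivot primes (`H4_GalNLoc.lean`).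
-/
import Fermat.Agent.L.Pivot.H4_GalNAsm
import Fermat.Agent.L.Pivot.H4_GalNLoc
import Fermat.Agent.S56.Wiring8

set_option autoImplicit false
set_option linter.unusedSectionVars false
set_option linter.unusedVariables false
set_option linter.style.haveILetI false

noncomputable section

namespace Fermat.Agent.L.Pivot.H4

open Polynomial IsLocalRing CategoryTheory groupCohomology ExtCitation Module
  Fermat.Agent.S56

section

variable {𝒪 : Type} [CommRing 𝒪] [IsLocalRing 𝒪]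

/-- A local bound for the family `T ↦ condFl Smin T` gives a local bound for the family
`T ↦ condPv0 Smin Pv T` (which implies `condFl Smin (Σ ∪ T)`). -/
theorem localBound_condPv0 (p : ℕ) (ρbar : ResidualGaloisRep (ResidueField 𝒪))
    (Smin : Finset ℕ) {k : ℕ} (Pv : PivotPrimes k) (q : Nat.Primes) (δ : ℕ)
    (h : LocalBound ρbar (condFl 𝒪 p Smin) q δ) :
    LocalBound ρbar (fun T => condPv0 𝒪 p Smin Pv T) q δ := by
  obtain ⟨W, h1, h2, h3, h4⟩ := h
  refine ⟨W, h1, h2, h3, fun T x ξ hξ => ?_⟩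
  letI := Fermat.Agent.S53.dualNumberAlgebra 𝒪
  letI := Fermat.Agent.S53.resDualNumberAlgebra 𝒪
  let x' : Fermat.Agent.S53.TSub 𝒪 ρbar (condFl 𝒪 p Smin (Pv.set ∪ T)) :=
    ⟨x.1, x.2.1.1, x.2.2⟩
  exact h4 (Pv.set ∪ T) x' ξ hξ

end

/-- **PV-GAL-N from the Greenberg–Wiles package.** -/
theorem stmt_PVGalN_of_GW (hGW : Stmt_GW) : Stmt_PVGalN := by
  intro 𝒪 _ _ _ _ _ p _ ρbar S Smin hyp k Pv hex hPS
  have hp : p.Prime := Fact.out
  have hpk : (p : ResidueField 𝒪) = 0 := by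
    have := (IsLocalRing.residue_eq_zero_iff (p : 𝒪)).mpr hyp.hp𝒪
    simpa using this
  have hcard : Pv.set.card = k := by
    unfold PivotPrimes.set
    rw [Finset.card_image_of_injective _ Pv.q_inj, Finset.card_univ, Fintype.card_fin]
  have key := assembly_core_pv hGW TWS.stmt_TW_select H27.stmt_glob_h0 H13.stmt_loc_inf
    H9.stmt_loc_TW H59.stmt_loc_TW_h0 H13.stmt_unr_of_res_zero
    Dict.stmt_dict_exists Dict.H85.stmt_dict_inj Dict.stmt_dict_cont H47.ad0_basic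
    H47.tate_basic p ρbar S Smin hyp Pv.set hPS ?_ ?_ (fun T => condPv0 𝒪 p Smin Pv T)
    ?_ ?_ ?_ ?_
  · rw [hcard] at key
    exact key
  · -- the pivot primes are not in `Smin`
    intro q hq hqS
    obtain ⟨j, -, rfl⟩ := Finset.mem_image.1 hq
    obtain ⟨-, hqp, hur, -⟩ := hex j
    exact ((hyp.hmin _ (Pv.q_prime j) hqp).1 hqS) hur
  · -- `h⁰ ≥ 3`
    intro q hq
    obtain ⟨j, -, hj⟩ := Finset.mem_image.1 hq
    obtain ⟨-, hqp, hur, hsc⟩ := hex j
    have hPj : (Pv.P j).LiesOverPrime (q : ℕ) := hj ▸ Pv.P_over j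
    have hFj : (Pv.P j).IsFrobeniusAt (Pv.frob j) (q : ℕ) := hj ▸ Pv.frob_spec j
    exact three_le_h0 ρbar q (hj ▸ hur) (Pv.P j) hPj (Pv.frob j) hFj hsc
  · intro T A _ _ _ ρ h
    exact h.1.1.1
  · intro T A _ _ _ ρ h q hq hqS
    exact h.1.1.2.2 q hq hqS
  · -- the local bounds at `Smin`
    intro q hq
    refine localBound_condPv0 p ρbar Smin Pv q _ ?_
    by_cases h : (q : ℕ) = p
    · rw [if_pos h]
      have hqp : q = pPrime p := Subtype.ext h
      rw [hqp]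
      exact FL.H50.stmt_loc_p_Fl 𝒪 p ρbar S Smin hyp
    · rw [if_neg h]
      exact (LocMin.stmt_loc_min 𝒪 p ρbar S Smin hyp q hq h).2
  · -- the classes are locally trivial at the pivot primes
    intro q hq T x ξ hξ
    obtain ⟨j, -, hj⟩ := Finset.mem_image.1 hq
    obtain ⟨-, hqp, hur, -⟩ := hex j
    have hPj : (Pv.P j).LiesOverPrime (q : ℕ) := hj ▸ Pv.P_over j
    have hFj : (Pv.P j).IsFrobeniusAt (Pv.frob j) (q : ℕ) := hj ▸ Pv.frob_spec j
    have hτj : IsTameGen (q : ℕ) (Pv.P j) (Pv.τ j) := hj ▸ Pv.τ_gen j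
    letI := Fermat.Agent.S53.dualNumberAlgebra 𝒪
    exact resAt_eq_zero_of_tame p hp hyp.hp2 hpk q (hj ▸ hqp) (hj ▸ hur) (Pv.P j) hPj
      (Pv.frob j) hFj (Pv.τ j) hτj x (x.2.1.2 j).1 (x.2.1.2 j).2 ξ hξ

/-- **PV-GAL-N from the open leaves of S56** (the inputs of `Fermat.Agent.S56.wiring8`). -/
theorem stmt_PVGalN_of_open (hQ : S55.Top.Stmt_TopQ0) (h2 : S55.Top.Stmt_I2)
    (h3 : S55.Top.Stmt_I3) (h4 : S55.Top.Stmt_I4) (hEC : Stmt_EC) : Stmt_PVGalN :=
  stmt_PVGalN_of_GW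
    (gw_of_core H92.stmt_fin_glob H9.stmt_fin_loc
      (gw_core_of_leaves5
        (GWC.H64.stmt_INV_of_inputs hQ S55.CFT.LOC.H5.stmt_I1 h2 h3 h4
          (S55.Top.stmt_G1K_of h2 h4))
        (GWC.H64.stmt_PT2_of_inputs hQ S55.CFT.LOC.H5.stmt_I1 h2 h3 h4
          (S55.Top.stmt_G1K_of h2 h4))
        hEC))

end Fermat.Agent.L.Pivot.H4

end
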