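/-
PIVOT (item 66), **PV-GAL-N, generic and `fl : Bool` forms** (helper4).

* `condPvOf 𝒪 𝒟₀ Pv T`  : `𝒟₀ (Σ ∪ T)` + `ρ (τ_j) = 1`, `ρ (frob_j)` scalar at the pivot primes;
  `condPvOf 𝒪 (condFl 𝒪 p Smin) Pv T = condPv0 𝒪 p Smin Pv T` by `rfl`.
* `pvGalN_generic`      : PV-GAL-N for every family `𝒟₀` with cyclotomic determinant, unramified
  outside `Smin ∪ T` and with the local bounds of S56 at `Smin`.
* `pvGalN_bool`         : PV-GAL-N for `𝒟₀ = Fermat.Agent.S59.cond 𝒪 p fl Smin` (flat if `fl`,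
  strictly ordinary if not).
-/
import Fermat.Agent.L.Pivot.H4_GalN
import Fermat.Agent.S59.Min

set_option autoImplicit false
set_option linter.unusedSectionVars false
set_option linter.unusedVariables false
set_option linter.style.haveILetI false

noncomputable section

namespace Fermat.Agent.L.Pivot.H4

open Polynomial IsLocalRing CategoryTheory groupCohomology ExtCitation Module
  Fermat.Agent.S56

/-- The condition `𝒟⁰` over a base family `𝒟₀`: `𝒟₀ (Σ ∪ T)` and, at the pivot primes,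
`ρ (τ_j) = 1`, `ρ (frob_j)` scalar. -/
def condPvOf (𝒪 : Type) [CommRing 𝒪] (𝒟₀ : Finset ℕ → Cond 𝒪) {k : ℕ} (Pv : PivotPrimes k)
    (T : Finset ℕ) : Cond 𝒪 :=
  fun A _ _ _ ρ => 𝒟₀ (Pv.set ∪ T) ρ ∧
    ∀ j, ρ.ρ (Pv.τ j) = 1 ∧ ∃ c : A, ρ.ρ (Pv.frob j) = c • (1 : Module.End A ρ.V)

theorem condPvOf_condFl (𝒪 : Type) [CommRing 𝒪] (p : ℕ) (Smin : Finset ℕ) {k : ℕ}
    (Pv : PivotPrimes k) (T : Finset ℕ) :
    condPvOf 𝒪 (condFl 𝒪 p Smin) Pv T = condPv0 𝒪 p Smin Pv T := rfl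

section

variable {𝒪 : Type} [CommRing 𝒪] [IsLocalRing 𝒪]

/-- A local bound for the family `𝒟₀` gives a local bound for the family `condPvOf 𝒟₀ Pv`. -/
theorem localBound_condPvOf (ρbar : ResidualGaloisRep (ResidueField 𝒪))
    (𝒟₀ : Finset ℕ → Cond 𝒪) {k : ℕ} (Pv : PivotPrimes k) (q : Nat.Primes) (δ : ℕ)
    (h : LocalBound ρbar 𝒟₀ q δ) :
    LocalBound ρbar (fun T => condPvOf 𝒪 𝒟₀ Pv T) q δ := by
  obtain ⟨W, h1, h2, h3, h4⟩ := h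
  refine ⟨W, h1, h2, h3, fun T x ξ hξ => ?_⟩
  letI := Fermat.Agent.S53.dualNumberAlgebra 𝒪
  letI := Fermat.Agent.S53.resDualNumberAlgebra 𝒪
  let x' : Fermat.Agent.S53.TSub 𝒪 ρbar (𝒟₀ (Pv.set ∪ T)) := ⟨x.1, x.2.1.1, x.2.2⟩
  exact h4 (Pv.set ∪ T) x' ξ hξ

end

/-- **PV-GAL-N, generic in the base family.** -/
theorem pvGalN_generic (hGW : Stmt_GW)
    {𝒪 : Type} [CommRing 𝒪] [IsDomain 𝒪] [IsDiscreteValuationRing 𝒪]
    [IsAdicComplete (maximalIdeal 𝒪) 𝒪] [Finite (ResidueField 𝒪)]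
    (p : ℕ) [Fact p.Prime] (ρbar : ResidualGaloisRep (ResidueField 𝒪)) (S Smin : Finset ℕ)
    (hyp : Hyp 𝒪 p ρbar S Smin) (𝒟₀ : Finset ℕ → Cond 𝒪)
    (h𝒟det : ∀ (T : Finset ℕ) ⦃A : Type⦄ [CommRing A] [IsLocalRing A] [Algebra 𝒪 A]
      (ρ : GaloisRepAdic A), 𝒟₀ T ρ → ρ.DetIsCyclotomic p)
    (h𝒟unr : ∀ (T : Finset ℕ) ⦃A : Type⦄ [CommRing A] [IsLocalRing A] [Algebra 𝒪 A]
      (ρ : GaloisRepAdic A), 𝒟₀ T ρ → ∀ q : ℕ, q.Prime → q ∉ Smin ∪ T → ρ.IsUnramifiedAt q)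
    (hLB : ∀ q : Nat.Primes, (q : ℕ) ∈ Smin →
      LocalBound ρbar 𝒟₀ q (if (q : ℕ) = p then 1 else 0))
    (k : ℕ) (Pv : PivotPrimes k) (hex : Pv.IsExceptional p ρbar) (hPS : Pv.set ⊆ S) :
    ∃ r g : ℕ, r = 3 * k + g ∧ ∀ n : ℕ, ∃ qv : Fin r → ℕ, IsTWFamily ρbar p n S qv ∧
      TangentLE 𝒪 ρbar (condPvOf 𝒪 𝒟₀ Pv (Finset.univ.image qv)) g := by
  have hp : p.Prime := Fact.out
  have hpk : (p : ResidueField 𝒪) = 0 := by
    have := (IsLocalRing.residue_eq_zero_iff (p : 𝒪)).mpr hyp.hp𝒪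
    simpa using this
  have hcard : Pv.set.card = k := by
    unfold PivotPrimes.set
    rw [Finset.card_image_of_injective _ Pv.q_inj, Finset.card_univ, Fintype.card_fin]
  have key := assembly_core_pv hGW TWS.stmt_TW_select H27.stmt_glob_h0 H13.stmt_loc_inf
    H9.stmt_loc_TW H59.stmt_loc_TW_h0 H13.stmt_unr_of_res_zero
    Dict.stmt_dict_exists Dict.H85.stmt_dict_inj Dict.stmt_dict_cont H47.ad0_basic
    H47.tate_basic p ρbar S Smin hyp Pv.set hPS ?_ ?_ (fun T => condPvOf 𝒪 𝒟₀ Pv T)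
    ?_ ?_ ?_ ?_
  · rw [hcard] at key
    exact key
  · intro q hq hqS
    obtain ⟨j, -, rfl⟩ := Finset.mem_image.1 hq
    obtain ⟨-, hqp, hur, -⟩ := hex j
    exact ((hyp.hmin _ (Pv.q_prime j) hqp).1 hqS) hur
  · intro q hq
    obtain ⟨j, -, hj⟩ := Finset.mem_image.1 hq
    obtain ⟨-, hqp, hur, hsc⟩ := hex j
    have hPj : (Pv.P j).LiesOverPrime (q : ℕ) := hj ▸ Pv.P_over j
    have hFj : (Pv.P j).IsFrobeniusAt (Pv.frob j) (q : ℕ) := hj ▸ Pv.frob_spec j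
    exact three_le_h0 ρbar q (hj ▸ hur) (Pv.P j) hPj (Pv.frob j) hFj hsc
  · intro T A _ _ _ ρ h
    exact h𝒟det _ ρ h.1
  · intro T A _ _ _ ρ h q hq hqS
    exact h𝒟unr _ ρ h.1 q hq hqS
  · intro q hq
    exact localBound_condPvOf ρbar 𝒟₀ Pv q _ (hLB q hq)
  · intro q hq T x ξ hξ
    obtain ⟨j, -, hj⟩ := Finset.mem_image.1 hq
    obtain ⟨-, hqp, hur, -⟩ := hex j
    have hPj : (Pv.P j).LiesOverPrime (q : ℕ) := hj ▸ Pv.P_over j
    have hFj : (Pv.P j).IsFrobeniusAt (Pv.frob j) (q : ℕ) := hj ▸ Pv.frob_spec j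
    have hτj : IsTameGen (q : ℕ) (Pv.P j) (Pv.τ j) := hj ▸ Pv.τ_gen j
    letI := Fermat.Agent.S53.dualNumberAlgebra 𝒪
    exact resAt_eq_zero_of_tame p hp hyp.hp2 hpk q (hj ▸ hqp) (hj ▸ hur) (Pv.P j) hPj
      (Pv.frob j) hFj (Pv.τ j) hτj x (x.2.1.2 j).1 (x.2.1.2 j).2 ξ hξ

/-- **PV-GAL-N for the flat (`fl = true`) and the strictly ordinary (`fl = false`) condition.** -/
theorem pvGalN_bool (hGW : Stmt_GW)
    {𝒪 : Type} [CommRing 𝒪] [IsDomain 𝒪] [IsDiscreteValuationRing 𝒪]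
    [IsAdicComplete (maximalIdeal 𝒪) 𝒪] [Finite (ResidueField 𝒪)]
    (p : ℕ) [Fact p.Prime] (ρbar : ResidualGaloisRep (ResidueField 𝒪)) (S Smin : Finset ℕ)
    (hyp : Hyp 𝒪 p ρbar S Smin) (fl : Bool)
    (k : ℕ) (Pv : PivotPrimes k) (hex : Pv.IsExceptional p ρbar) (hPS : Pv.set ⊆ S) :
    ∃ r g : ℕ, r = 3 * k + g ∧ ∀ n : ℕ, ∃ qv : Fin r → ℕ, IsTWFamily ρbar p n S qv ∧
      TangentLE 𝒪 ρbar
        (condPvOf 𝒪 (Fermat.Agent.S59.cond 𝒪 p fl Smin) Pv (Finset.univ.image qv)) g := by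
  cases fl
  · -- strictly ordinary
    refine pvGalN_generic hGW p ρbar S Smin hyp (condSO 𝒪 p Smin) ?_ ?_ ?_ k Pv hex hPS
    · intro T A _ _ _ ρ h
      exact h.1.1
    · intro T A _ _ _ ρ h q hq hqS
      exact h.1.2.2 q hq hqS
    · intro q hq
      by_cases h : (q : ℕ) = p
      · rw [if_pos h]
        have hqp : q = pPrime p := Subtype.ext h
        rw [hqp]
        exact H57.stmt_loc_p_SO 𝒪 p ρbar S Smin hyp
      · rw [if_neg h]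
        exact (LocMin.stmt_loc_min 𝒪 p ρbar S Smin hyp q hq h).1
  · -- flat
    refine pvGalN_generic hGW p ρbar S Smin hyp (condFl 𝒪 p Smin) ?_ ?_ ?_ k Pv hex hPS
    · intro T A _ _ _ ρ h
      exact h.1.1
    · intro T A _ _ _ ρ h q hq hqS
      exact h.1.2.2 q hq hqS
    · intro q hq
      by_cases h : (q : ℕ) = p
      · rw [if_pos h]
        have hqp : q = pPrime p := Subtype.ext h
        rw [hqp]
        exact FL.H50.stmt_loc_p_Fl 𝒪 p ρbar S Smin hyp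
      · rw [if_neg h]
        exact (LocMin.stmt_loc_min 𝒪 p ρbar S Smin hyp q hq h).2

end Fermat.Agent.L.Pivot.H4

end
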