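/-
PIVOT (item 66), **PV-GAL-N for `cond 𝒪 p fl`** (helper4): `Stmt_PVGalNB` of `L/Pivot/Asm.lean`.

* `stmt_PVGalNB_of_GW   : S56.Stmt_GW → Stmt_PVGalNB`
* `stmt_PVGalNB_of_open : (the open leaves of S56, as in `S56.wiring8`) → Stmt_PVGalNB`
-/
import Fermat.Agent.L.Pivot.H4_GalNB
import Fermat.Agent.L.Pivot.Asm

set_option autoImplicit false
set_option linter.unusedSectionVars false
set_option linter.unusedVariables false

noncomputable section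

namespace Fermat.Agent.L.Pivot.H4

open Polynomial IsLocalRing Fermat.Agent.S56

theorem condPvOf_cond (𝒪 : Type) [CommRing 𝒪] (p : ℕ) (fl : Bool) (Smin : Finset ℕ) {k : ℕ}
    (Pv : PivotPrimes k) (T : Finset ℕ) :
    condPvOf 𝒪 (Fermat.Agent.S59.cond 𝒪 p fl Smin) Pv T = condPvB 𝒪 p fl Smin Pv T := rfl

/-- **PV-GAL-N for `cond 𝒪 p fl` from the Greenberg–Wiles package.** -/
theorem stmt_PVGalNB_of_GW (hGW : Stmt_GW) : Stmt_PVGalNB := by
  intro 𝒪 _ _ _ _ _ p _ fl ρbar S Smin hyp k Pv hex hPS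
  exact pvGalN_bool hGW p ρbar S Smin hyp fl k Pv hex hPS

/-- **PV-GAL-N for `cond 𝒪 p fl` from the open leaves of S56.** -/
theorem stmt_PVGalNB_of_open (hQ : S55.Top.Stmt_TopQ0) (h2 : S55.Top.Stmt_I2)
    (h3 : S55.Top.Stmt_I3) (h4 : S55.Top.Stmt_I4) (hEC : Stmt_EC) : Stmt_PVGalNB :=
  stmt_PVGalNB_of_GW
    (gw_of_core H92.stmt_fin_glob H9.stmt_fin_loc
      (gw_core_of_leaves5
        (GWC.H64.stmt_INV_of_inputs hQ S55.CFT.LOC.H5.stmt_I1 h2 h3 h4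
          (S55.Top.stmt_G1K_of h2 h4))
        (GWC.H64.stmt_PT2_of_inputs hQ S55.CFT.LOC.H5.stmt_I1 h2 h3 h4
          (S55.Top.stmt_G1K_of h2 h4))
        hEC))

end Fermat.Agent.L.Pivot.H4

end
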