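import Mathlib

/-!
# PIVOT, package PV-OLD (helper50): linear algebra

* `fixedQ_baseChange` : the property "every vector fixed by the `A i` satisfies `B v = Q v`"
  passes from `𝒪` to a finite free extension `𝒪''`.
* `plane_sq` : if `A P = P B`, `Q P = 1` and `A² = c` on the image of `P`, then `B² = c`.
* `sq_scalar_det` : a `2 × 2` matrix with `B² = c` has `det B ^ 2 = c ^ 2`.
* `not_commute_of_span` : the matrix ring `M₂(A)` is not spanned by pairwise commuting matrices.
-/

set_option autoImplicit false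

namespace Fermat.Agent.L.Pivot.H50

open Matrix

/-- "Fixed vectors are eigenvectors of `B` with eigenvalue `Q`" passes to a finite free
extension. -/
theorem fixedQ_baseChange {𝒪 𝒪'' : Type} [CommRing 𝒪] [IsDomain 𝒪] [IsPrincipalIdealRing 𝒪]
    [CommRing 𝒪''] [IsDomain 𝒪''] [Algebra 𝒪 𝒪''] [Module.Finite 𝒪 𝒪'']
    (hinj : Function.Injective (algebraMap 𝒪 𝒪'')) {r : ℕ} {ι : Type*}
    (A : ι → Matrix (Fin r) (Fin r) 𝒪) (B : Matrix (Fin r) (Fin r) 𝒪) (Q : 𝒪)
    (h : ∀ v : Fin r → 𝒪, (∀ i, (A i).mulVec v = v) → B.mulVec v = Q • v)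
    (v : Fin r → 𝒪'') (hfix : ∀ i, ((A i).map (algebraMap 𝒪 𝒪'')).mulVec v = v) :
    (B.map (algebraMap 𝒪 𝒪'')).mulVec v = algebraMap 𝒪 𝒪'' Q • v := by
  have : Module.IsTorsionFree 𝒪 𝒪'' := Module.isTorsionFree_iff_algebraMap_injective.2 hinj
  have : Module.Free 𝒪 𝒪'' := Module.free_of_finite_type_torsion_free'
  let b := Module.Free.chooseBasis 𝒪 𝒪''
  -- the coordinates of `v`
  have hcoord : ∀ (C : Matrix (Fin r) (Fin r) 𝒪) (w : Fin r → 𝒪'') (j) (m : Fin r),
      b.coord j (((C.map (algebraMap 𝒪 𝒪'')).mulVec w) m)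
        = (C.mulVec (fun n => b.coord j (w n))) m := by
    intro C w j m
    simp only [Matrix.mulVec, dotProduct, Matrix.map_apply]
    rw [map_sum]
    refine Finset.sum_congr rfl (fun n _ => ?_)
    rw [← Algebra.smul_def, map_smul, smul_eq_mul]
  have hfixj : ∀ j, ∀ i, (A i).mulVec (fun n => b.coord j (v n)) = fun n => b.coord j (v n) := by
    intro j i
    ext m
    rw [← hcoord (A i) v j m, hfix i]
  ext m
  apply b.repr.injective
  ext j
  have h1 := hcoord B v j m
  have h2 := congrFun (h _ (hfixj j)) m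
  have h3 : b.coord j ((algebraMap 𝒪 𝒪'' Q • v) m) = Q * b.coord j (v m) := by
    rw [Pi.smul_apply, smul_eq_mul, ← Algebra.smul_def, map_smul, smul_eq_mul]
  show b.coord j (((B.map (algebraMap 𝒪 𝒪'')).mulVec v) m)
    = b.coord j ((algebraMap 𝒪 𝒪'' Q • v) m)
  rw [h1, h2, h3]
  rfl

/-- If `A P = P B`, `Q P = 1` and `A * A` is the scalar `c` on the image of `P`, then
`B * B = c`. -/
theorem plane_sq {R : Type*} [CommRing R] {r : ℕ} {P : Matrix (Fin r) (Fin 2) R}
    {Q : Matrix (Fin 2) (Fin r) R} (hQP : Q * P = 1)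
    {A : Matrix (Fin r) (Fin r) R} {B : Matrix (Fin 2) (Fin 2) R} (hAP : A * P = P * B) (c : R)
    (h : ∀ w : Fin 2 → R, (A * A).mulVec (P.mulVec w) = c • P.mulVec w) :
    B * B = c • (1 : Matrix (Fin 2) (Fin 2) R) := by
  have h1 : A * A * P = P * (B * B) := by
    rw [Matrix.mul_assoc, hAP, ← Matrix.mul_assoc, hAP, Matrix.mul_assoc]
  have h2 : ∀ w : Fin 2 → R, (B * B).mulVec w = c • w := by
    intro w
    have h3 := h w
    rw [Matrix.mulVec_mulVec, h1, ← Matrix.mulVec_mulVec] at h3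
    have h4 := congrArg Q.mulVec h3
    rw [Matrix.mulVec_mulVec, hQP, Matrix.one_mulVec, Matrix.mulVec_smul, Matrix.mulVec_mulVec,
      hQP, Matrix.one_mulVec] at h4
    exact h4
  ext i j
  have h5 := congrFun (h2 (Pi.single j 1)) i
  rw [Matrix.mulVec_single_one] at h5
  simp only [Matrix.col_apply, Pi.smul_apply, smul_eq_mul] at h5
  rw [h5, Matrix.smul_apply, Matrix.one_apply, smul_eq_mul, Pi.single_apply]

/-- A `2 × 2` matrix whose square is the scalar `c` has `det ^ 2 = c ^ 2`. -/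
theorem sq_scalar_det {R : Type*} [CommRing R] {B : Matrix (Fin 2) (Fin 2) R} {c : R}
    (h : B * B = c • (1 : Matrix (Fin 2) (Fin 2) R)) : B.det ^ 2 = c ^ 2 := by
  have h1 := congrArg Matrix.det h
  rw [Matrix.det_mul, Matrix.det_smul, Matrix.det_one, mul_one, Fintype.card_fin] at h1
  rw [pow_two, h1]

/-- `M₂(A)` is not spanned by pairwise commuting matrices. -/
theorem not_commute_of_span {A : Type*} [CommRing A] [Nontrivial A] {ι : Type*} [Fintype ι]
    (X : ι → Matrix (Fin 2) (Fin 2) A) (hcomm : ∀ i j, Commute (X i) (X j))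
    (hspan : ∀ Y : Matrix (Fin 2) (Fin 2) A, ∃ c : ι → A, Y = ∑ i, c i • X i) : False := by
  have hall : ∀ Y Z : Matrix (Fin 2) (Fin 2) A, Y * Z = Z * Y := by
    intro Y Z
    obtain ⟨c, rfl⟩ := hspan Y
    obtain ⟨d, rfl⟩ := hspan Z
    rw [Finset.sum_mul, Finset.mul_sum]
    refine Finset.sum_congr rfl (fun i _ => ?_)
    rw [Finset.mul_sum, Finset.sum_mul]
    refine Finset.sum_congr rfl (fun j _ => ?_)
    rw [Matrix.smul_mul, Matrix.mul_smul, Matrix.smul_mul, Matrix.mul_smul, (hcomm i j).eq,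
      smul_comm]
  have h := hall (Matrix.single 0 1 (1 : A)) (Matrix.single 1 0 (1 : A))
  have h1 := congrFun (congrFun h 0) 0
  simp [Matrix.mul_apply, Matrix.single_apply] at h1

end Fermat.Agent.L.Pivot.H50
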