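import Mathlib
import Fermat.Agent.S59.EigenOfPoint
import Fermat.Agent.R.H99_EigenChar
import Fermat.Agent.R.H99_Newform

/-!
# PIVOT, package PV-OLD (helper50): from a `p`-adic point of the Hecke algebra to a newform

`χ : 𝕋_N^S → 𝒪` a ring homomorphism to a domain of characteristic `0` (`S` contains the primes
dividing `N`).  Then there are a newform `g` of some level `Mg ∣ N` and a ring homomorphism
`iota` from the ring of eigenvalues of `g` (away from `S`) to `𝒪` with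
`iota (a_ℓ(g)) = χ (T_ℓ)` for all `ℓ ∉ S`.

* `ker_le_of_ker_le` : two ring homomorphisms from a ring integral over `ℤ` to domains of
  characteristic `0` with `ker χ ≤ ker μ` have the same kernel.
* `exists_complex_point` : a complex eigencharacter `μ` with `ker μ = ker χ`, realised by a
  normalised eigenform.
* `exists_newform_iota` : the statement above.
-/

set_option autoImplicit false

namespace Fermat.Agent.L.Pivot.H50

open CuspForm CongruenceSubgroup ModularFormClass Polynomial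

/-- Two ring homomorphisms from a ring integral over `ℤ` to domains of characteristic `0`:
if `ker χ ≤ ker μ` then `ker μ ≤ ker χ`. -/
theorem ker_le_of_ker_le {T A B : Type*} [CommRing T] [CommRing A] [IsDomain A]
    [CommRing B] [CharZero B] (χ : T →+* A) (μ : T →+* B)
    (hint : ∀ t : T, IsIntegral ℤ t) (h : RingHom.ker χ ≤ RingHom.ker μ) :
    RingHom.ker μ ≤ RingHom.ker χ := by
  intro t ht
  rw [RingHom.mem_ker] at ht ⊢
  by_contra hb
  have hbint : IsIntegral ℤ (χ t) := (hint t).map χ.toIntAlgHom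
  set P := minpoly ℤ (χ t) with hP
  have hmonic : P.Monic := minpoly.monic hbint
  have haeval : aeval (χ t) P = 0 := minpoly.aeval ℤ (χ t)
  have h1 : χ (aeval t P) = 0 := by
    have h := Polynomial.aeval_algHom_apply χ.toIntAlgHom t P
    have h' : aeval (χ t) P = χ (aeval t P) := h
    rw [← h', haeval]
  have h2 : μ (aeval t P) = 0 := h (RingHom.mem_ker.2 h1)
  have h3 : μ (aeval t P) = ((P.coeff 0 : ℤ) : B) := by
    have h := Polynomial.aeval_algHom_apply μ.toIntAlgHom t P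
    have h' : aeval (μ t) P = μ (aeval t P) := h
    rw [← h', ht, ← Polynomial.coeff_zero_eq_aeval_zero']
    simp
  have hc0 : P.coeff 0 = 0 := by
    have : ((P.coeff 0 : ℤ) : B) = 0 := h3 ▸ h2
    exact_mod_cast this
  obtain ⟨Q, hQ⟩ := X_dvd_iff.mpr hc0
  have hQmonic : Q.Monic := by
    have := hmonic
    rw [hQ] at this
    exact (Monic.of_mul_monic_left monic_X this)
  have hQ0 : aeval (χ t) Q = 0 := by
    have h4 : χ t * aeval (χ t) Q = 0 := by
      have := haeval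
      rw [hQ, map_mul, aeval_X] at this
      exact this
    exact (mul_eq_zero.1 h4).resolve_left hb
  have hdeg := minpoly.min ℤ (χ t) hQmonic hQ0
  have hlt : Q.degree < P.degree := by
    have hQne : Q ≠ 0 := hQmonic.ne_zero
    rw [hQ, mul_comm]
    exact degree_lt_degree_mul_X hQne
  exact absurd hdeg (not_le.mpr hlt)

variable {N : ℕ} [NeZero N]

/-- A point of the Hecke algebra with values in a domain of characteristic `0` has the same
kernel as the eigencharacter of a complex eigenvector. -/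
theorem exists_complex_point (S : Set ℕ) {𝒪 : Type*} [CommRing 𝒪] [IsDomain 𝒪] [CharZero 𝒪]
    (χ : heckeAlgebra N 2 S →+* 𝒪) :
    ∃ (μ : heckeAlgebra N 2 S →+* ℂ) (w : CuspForm (Gamma0 N) 2), w ≠ 0 ∧
      (∀ T : heckeAlgebra N 2 S,
        (T : Module.End ℂ (CuspForm (Gamma0 N) 2)) w = μ T • w) ∧
      RingHom.ker μ = RingHom.ker χ := by
  classical
  have hfinT : Module.Finite ℤ (heckeAlgebra N 2 S) := Fermat.Agent.S22.result N 2 S
  have hint : ∀ t : heckeAlgebra N 2 S, IsIntegral ℤ t := fun t =>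
    Algebra.IsIntegral.isIntegral t
  have := Fermat.Agent.R.H99.finiteDimensional_cuspForm N
  obtain ⟨v, hv0, hv⟩ := Fermat.Agent.S59.exists_eigenvector_of_point S χ
  -- the subspace killed by `ker χ`
  set U : Submodule ℂ (CuspForm (Gamma0 N) 2) :=
    ⨅ t : RingHom.ker χ,
      LinearMap.ker ((t : heckeAlgebra N 2 S) : Module.End ℂ (CuspForm (Gamma0 N) 2)) with hU
  have hvU : v ∈ U := by
    rw [hU, Submodule.mem_iInf]
    intro t
    exact LinearMap.mem_ker.2 (hv t.1 t.2)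
  have hUne : U ≠ ⊥ := fun h => hv0 ((Submodule.mem_bot ℂ).mp (h ▸ hvU))
  have hcomm : ∀ T T' : heckeAlgebra N 2 S,
      Commute (T : Module.End ℂ (CuspForm (Gamma0 N) 2)) T' := by
    intro T T'
    have h := mul_comm T T'
    exact congrArg Subtype.val h
  have hinv : ∀ T : heckeAlgebra N 2 S, ∀ x ∈ U,
      (T : Module.End ℂ (CuspForm (Gamma0 N) 2)) x ∈ U := by
    intro T x hx
    rw [hU, Submodule.mem_iInf] at hx ⊢
    intro t
    rw [LinearMap.mem_ker]
    have h1 : ((t : heckeAlgebra N 2 S) : Module.End ℂ (CuspForm (Gamma0 N) 2)) x = 0 :=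
      LinearMap.mem_ker.1 (hx t)
    have h2 := (hcomm (t : heckeAlgebra N 2 S) T).eq
    have h3 : ((t : heckeAlgebra N 2 S) : Module.End ℂ (CuspForm (Gamma0 N) 2))
        ((T : Module.End ℂ (CuspForm (Gamma0 N) 2)) x)
        = (T : Module.End ℂ (CuspForm (Gamma0 N) 2))
          (((t : heckeAlgebra N 2 S) : Module.End ℂ (CuspForm (Gamma0 N) 2)) x) :=
      congrArg (fun g : Module.End ℂ (CuspForm (Gamma0 N) 2) => g x) h2
    rw [h3, h1, map_zero]
  obtain ⟨w, hwU, hw0, hw⟩ := Fermat.Agent.R.H99.exists_common_eigenvector_mem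
    (fun T : heckeAlgebra N 2 S => (T : Module.End ℂ (CuspForm (Gamma0 N) 2))) hcomm U hUne hinv
  obtain ⟨μ, hμ⟩ := Fermat.Agent.R.H99.exists_character_of_eigenvector S w hw0 hw
  have hle : RingHom.ker χ ≤ RingHom.ker μ := by
    intro t ht
    rw [RingHom.mem_ker]
    rw [hU, Submodule.mem_iInf] at hwU
    have h1 : (t : Module.End ℂ (CuspForm (Gamma0 N) 2)) w = 0 :=
      LinearMap.mem_ker.1 (hwU ⟨t, ht⟩)
    rw [hμ t] at h1
    exact (smul_eq_zero.1 h1).resolve_right hw0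
  exact ⟨μ, w, hw0, hμ, le_antisymm (ker_le_of_ker_le χ μ hint hle) hle⟩

/-- **The newform of a point.**  `χ` a point of the Hecke algebra of level `N` away from `S`
(`S` contains the primes dividing `N`) with values in a domain of characteristic `0`: there are
a newform `g` of level `Mg ∣ N` and a homomorphism `iota` from the ring of eigenvalues of `g`
to `𝒪` with `iota (a_ℓ(g)) = χ (T_ℓ)` for `ℓ ∉ S`. -/
theorem exists_newform_iota (S : Finset ℕ) (hNS : ∀ q : ℕ, q.Prime → q ∣ N → q ∈ S)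
    {𝒪 : Type*} [CommRing 𝒪] [IsDomain 𝒪] [CharZero 𝒪]
    (χ : heckeAlgebra N 2 (↑S : Set ℕ) →+* 𝒪) :
    ∃ (Mg : ℕ) (_ : NeZero Mg) (_ : Mg ∣ N) (g : CuspForm (Gamma0 Mg) 2) (hg : g.IsNewform)
      (iota : (Fermat.Agent.R.H99.eigenCharC (↑S : Set ℕ) hg.1).range →+* 𝒪),
      ∀ (ℓ : ℕ) (hℓ : ℓ.Prime) (hℓMg : ¬ ℓ ∣ Mg) (hℓS : ℓ ∉ (↑S : Set ℕ)) (hℓN : ¬ ℓ ∣ N),
        (iota.comp (Fermat.Agent.R.H99.eigenCharC (↑S : Set ℕ) hg.1).rangeRestrict)
          (heckeAlgebra.T hℓ hℓMg hℓS) = χ (heckeAlgebra.T hℓ hℓN hℓS) := by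
  classical
  obtain ⟨μ, w, hw0, hμ, hker⟩ := exists_complex_point (↑S : Set ℕ) χ
  -- a normalised eigenform with character `μ`
  obtain ⟨g₀, hg₀, hg₀μ⟩ :=
    Fermat.Agent.R.H99.exists_normalizedEigenform_of_character (↑S : Set ℕ) μ w hw0 hμ
  have hg₀0 : g₀ ≠ 0 := hg₀.ne_zero
  have ha₀ : ∀ (ℓ : ℕ) (hℓ : ℓ.Prime) (hℓN : ¬ ℓ ∣ N) (hℓS : ℓ ∉ (↑S : Set ℕ)),
      qCoeff ⇑g₀ ℓ = μ (heckeAlgebra.T hℓ hℓN hℓS) := by
    intro ℓ hℓ hℓN hℓS
    have h1 := hg₀μ (heckeAlgebra.T hℓ hℓN hℓS)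
    rw [heckeAlgebra.coe_T] at h1
    have h2 := Fermat.Agent.R.H99.heckeTLin_apply_eq_smul hg₀ hℓ hℓN
    exact smul_left_injective ℂ hg₀0 (h2.symm.trans h1)
  -- its newform
  obtain ⟨Mg, hMgN, g, hg, hga⟩ := Fermat.Agent.R.H99.exists_isNewform hg₀
  have hMg0 : Mg ≠ 0 := fun h => NeZero.ne N (Nat.eq_zero_of_zero_dvd (h ▸ hMgN))
  have : NeZero Mg := ⟨hMg0⟩
  set chig : heckeAlgebra Mg 2 (↑S : Set ℕ) →+* ℂ :=
    Fermat.Agent.R.H99.eigenCharC (↑S : Set ℕ) hg.1 with hchig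
  -- the range of `chig` is contained in the range of `μ`
  have key : ∀ (x : Module.End ℂ (CuspForm (Gamma0 Mg) 2))
      (hx : x ∈ heckeAlgebra Mg 2 (↑S : Set ℕ)), chig ⟨x, hx⟩ ∈ μ.range := by
    intro x hx
    induction hx using Algebra.adjoin_induction with
    | mem x hx =>
      rcases hx with ⟨ℓ, hℓ, hℓMg, hℓS, rfl⟩ | ⟨q, hqMg, hq, hqS, rfl⟩
      · have hℓN : ¬ ℓ ∣ N := fun h => hℓS (Finset.mem_coe.2 (hNS ℓ hℓ h))
        refine ⟨heckeAlgebra.T hℓ hℓN hℓS, ?_⟩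
        rw [← ha₀ ℓ hℓ hℓN hℓS, ← hga ℓ hℓ hℓN]
        exact (Fermat.Agent.R.H99.eigenCharC_T (↑S : Set ℕ) hg.1 hℓ hℓMg hℓS).symm
      · exact absurd (Finset.mem_coe.2 (hNS q hq (hqMg.trans hMgN))) hqS
    | algebraMap n =>
      refine ⟨(n : heckeAlgebra N 2 (↑S : Set ℕ)), ?_⟩
      have h1 : (⟨algebraMap ℤ (Module.End ℂ (CuspForm (Gamma0 Mg) 2)) n,
          Subalgebra.algebraMap_mem _ n⟩ : heckeAlgebra Mg 2 (↑S : Set ℕ))
          = (n : heckeAlgebra Mg 2 (↑S : Set ℕ)) := by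
        apply Subtype.ext
        simp
      rw [h1, map_intCast, map_intCast]
    | add x y hx hy ihx ihy =>
      have h1 : (⟨x + y, Subalgebra.add_mem _ hx hy⟩ : heckeAlgebra Mg 2 (↑S : Set ℕ))
          = ⟨x, hx⟩ + ⟨y, hy⟩ := rfl
      rw [h1, map_add]
      exact Subring.add_mem _ ihx ihy
    | mul x y hx hy ihx ihy =>
      have h1 : (⟨x * y, Subalgebra.mul_mem _ hx hy⟩ : heckeAlgebra Mg 2 (↑S : Set ℕ))
          = ⟨x, hx⟩ * ⟨y, hy⟩ := rfl
      rw [h1, map_mul]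
      exact Subring.mul_mem _ ihx ihy
  have hle : chig.range ≤ μ.range := by
    rintro _ ⟨t, rfl⟩
    exact key t.1 t.2
  -- `χ` factors through the range of `μ`
  have hkerle : RingHom.ker μ.rangeRestrict ≤ RingHom.ker χ := by
    intro t ht
    rw [← hker, RingHom.mem_ker]
    rw [RingHom.mem_ker] at ht
    exact congrArg Subtype.val ht
  set iotaμ : μ.range →+* 𝒪 :=
    RingHom.liftOfRightInverse μ.rangeRestrict (Function.surjInv μ.rangeRestrict_surjective)
      (Function.rightInverse_surjInv μ.rangeRestrict_surjective) ⟨χ, hkerle⟩ with hiotaμ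
  have hiota_spec : ∀ t : heckeAlgebra N 2 (↑S : Set ℕ), iotaμ (μ.rangeRestrict t) = χ t := by
    intro t
    rw [hiotaμ]
    exact RingHom.liftOfRightInverse_comp_apply _ _ _ ⟨χ, hkerle⟩ t
  refine ⟨Mg, inferInstance, hMgN, g, hg, iotaμ.comp (Subring.inclusion hle), ?_⟩
  intro ℓ hℓ hℓMg hℓS hℓN
  rw [RingHom.comp_apply, RingHom.comp_apply, ← hiota_spec]
  congr 1
  apply Subtype.ext
  show chig (heckeAlgebra.T hℓ hℓMg hℓS) = μ (heckeAlgebra.T hℓ hℓN hℓS)
  rw [← ha₀ ℓ hℓ hℓN hℓS, ← hga ℓ hℓ hℓN]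
  exact Fermat.Agent.R.H99.eigenCharC_T (↑S : Set ℕ) hg.1 hℓ hℓMg hℓS

end Fermat.Agent.L.Pivot.H50
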