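import Fermat.Agent.L.Pivot.Global
import Fermat.Agent.L.Pivot.H50_OldAlg
import Fermat.Agent.L.Pivot.H50_OldBridge
import Fermat.Agent.S30.H29_Assemble
import Fermat.Agent.S35.H89_Final
import Fermat.Agent.Lib.FrobDensity.Main
import Fermat.Agent.Lib.FrobExists
import Fermat.Agent.R.H91_Rigidity
import Fermat.Agent.R.H25_Carayol
import Fermat.Agent.R.H86_Point
import Fermat.Agent.R.H86_BN
import Fermat.Agent.R.H86_Defs4
import Fermat.Agent.S59.Asm.H41_Rest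

/-!
# PIVOT, package PV-OLD (helper50): the `q`-new case over a discrete valuation ring

`Stmt_RamNew` : an eigensystem `χ` of level `N = M q` (`q ∤ M`, `q ≠ p`) with values in a
complete discrete valuation ring which does NOT occur at level `M` has no unramified (at `q`)
residually absolutely irreducible Galois representation with its Frobenius characteristic
polynomials.

`ramNew_of_tatePieceStI : Stmt_TatePieceStI → Stmt_RamNew`.

Proof: newform `g` of `χ` (`exists_newform_iota`), level `Mg ∣ N`.  If `q ∤ Mg` then `Mg ∣ M`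
and `χ` occurs at level `M` (restriction of Hecke operators, helper41).  If `q ∣ Mg`: the Tate
piece `ρ_g` of `Stmt_TatePieceStI`, the structural assembly `ρ₂` (helper29/helper89), Frobenius
density + Carayol: `ρ₂ ≅ ρ ⊗ 𝒪''`, so `ρ₂` is unramified at `q` and not of the shape
`ψ ⊕ ε ψ⁻¹`; hence `ρ₂` is a subrepresentation of `ρ_g`, all of its vectors are fixed by
inertia, `ρ₂ (Frob) ^ 2 = q ^ 2`, and `det ρ₂ (Frob) = q` gives `q ^ 2 = q ^ 4`.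
-/

set_option autoImplicit false
set_option linter.style.haveILetI false
set_option linter.unusedVariables false

open Polynomial IsLocalRing CuspForm

namespace Fermat.Agent.L.Pivot.H50

open Fermat.Agent.R Fermat.Agent.S30

/-- **The `q`-new case over a discrete valuation ring.** -/
def Stmt_RamNew : Prop :=
  ∀ (p N M q : ℕ) [NeZero N] [NeZero M] (S : Finset ℕ)
    (𝒪 : Type) [CommRing 𝒪] [IsDomain 𝒪] [IsDiscreteValuationRing 𝒪]
    [IsAdicComplete (maximalIdeal 𝒪) 𝒪] [Finite (ResidueField 𝒪)] [CharZero 𝒪],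
    p.Prime → (p : 𝒪) ∈ maximalIdeal 𝒪 → q.Prime → q ≠ p → N = M * q → ¬ q ∣ M →
    p ∈ S → (∀ q' : ℕ, q'.Prime → q' ∣ N → q' ∈ S) →
    ∀ (χ : CuspForm.heckeAlgebra N 2 (↑S : Set ℕ) →+* 𝒪) (ρ : GaloisRepAdic 𝒪),
      HasFrobCharpoly χ ρ → ρ.residual.IsAbsolutelyIrreducible →
      ¬ OccursAtLevel χ M → ¬ ρ.IsUnramifiedAt q

/-- Two representations over a noetherian local ring with the same Frobenius characteristic
polynomials outside a finite set of primes, the first one residually absolutely irreducible,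
are equivalent (as `Fermat.Agent.S59.Asm.H57.isEquiv_of_frobenius`; repeated here to keep the
import closure small). -/
theorem isEquiv_of_frob {A : Type} [CommRing A] [IsLocalRing A] [IsNoetherianRing A]
    (ρ₁ ρ₂ : GaloisRepAdic A) (hirr : ρ₁.residual.IsAbsolutelyIrreducible) (S : Finset ℕ)
    (h : ∀ ℓ : ℕ, ℓ.Prime → ℓ ∉ S → ∀ B : ValuationSubring (AlgebraicClosure ℚ),
      B.LiesOverPrime ℓ → ∀ σ : GQ, B.IsFrobeniusAt σ ℓ →
        LinearMap.charpoly (ρ₁.ρ σ) = LinearMap.charpoly (ρ₂.ρ σ)) :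
    ρ₁.IsEquiv ρ₂ := by
  have hT : ∀ x : A, (∀ n : ℕ, x ∈ maximalIdeal A ^ n) → x = 0 := by
    intro x hx
    have h0 : x ∈ (⨅ i : ℕ, maximalIdeal A ^ i : Ideal A) := by
      rw [Ideal.mem_iInf]
      exact hx
    rw [Ideal.iInf_pow_eq_bot_of_isLocalRing (maximalIdeal A)
      (maximalIdeal.isMaximal A).ne_top, Ideal.mem_bot] at h0
    exact h0
  have hcp := Fermat.Agent.R.H91.charpoly_eq_of_frobenius
    Fermat.Agent.Lib.FrobDensity.stmt_FD hT ρ₁ ρ₂ S h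
  refine Fermat.Agent.R.H25.isEquiv_of_trace_eq ρ₁ ρ₂ hirr fun σ => ?_
  exact (trace_det_eq_of_charpoly_eq ρ₁.finrank_eq ρ₂.finrank_eq _ _ (hcp σ)).1

/-- The old case: if the level `Mg` of the newform of `χ` divides `M`, then `χ` occurs at
level `M`. -/
theorem occursAtLevel_of_newform {N M Mg : ℕ} [NeZero N] [NeZero M] [NeZero Mg] (S : Finset ℕ)
    (hNS : ∀ q' : ℕ, q'.Prime → q' ∣ N → q' ∈ S) (hMN : M ∣ N) (hMgM : Mg ∣ M)
    {𝒪 : Type} [CommRing 𝒪] (χ : CuspForm.heckeAlgebra N 2 (↑S : Set ℕ) →+* 𝒪)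
    (χg : CuspForm.heckeAlgebra Mg 2 (↑S : Set ℕ) →+* 𝒪)
    (hχg : ∀ (ℓ : ℕ) (hℓ : ℓ.Prime) (hℓMg : ¬ ℓ ∣ Mg) (hℓS : ℓ ∉ (↑S : Set ℕ)) (hℓN : ¬ ℓ ∣ N),
      χg (heckeAlgebra.T hℓ hℓMg hℓS) = χ (heckeAlgebra.T hℓ hℓN hℓS)) :
    OccursAtLevel χ M := by
  have hnew : ∀ q' : ℕ, q'.Prime → q' ∣ M → ¬ q' ∣ Mg → q' ∈ (↑S : Set ℕ) :=
    fun q' hq' h _ => Finset.mem_coe.2 (hNS q' hq' (h.trans hMN))
  refine ⟨χg.comp (Fermat.Agent.S59.Asm.H41.rest hMgM 2 (le_refl _) hnew), ?_⟩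
  intro ℓ hℓ hℓN hℓM hℓS
  have hℓMg : ¬ ℓ ∣ Mg := fun h => hℓM (h.trans hMgM)
  rw [RingHom.comp_apply,
    Fermat.Agent.S59.Asm.H41.rest_T hMgM 2 (le_refl _) hnew hℓ hℓM hℓS hℓMg hℓS]
  exact hχg ℓ hℓ hℓMg hℓS hℓN

/-- The new case: contradiction from an unramified representation and a Tate piece with
`Frob² = q²` on the inertia invariants. -/
theorem false_of_unramified_of_stI
    {𝒪 : Type} [CommRing 𝒪] [IsDomain 𝒪] [IsDiscreteValuationRing 𝒪]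
    [IsAdicComplete (maximalIdeal 𝒪) 𝒪] [Finite (ResidueField 𝒪)] [CharZero 𝒪]
    {p q : ℕ} (hq : q.Prime) (S : Finset ℕ) (a : ℕ → 𝒪)
    (ρ : GaloisRepAdic 𝒪) (habs : ρ.residual.IsAbsolutelyIrreducible)
    (hρ : ∀ ℓ : ℕ, ℓ.Prime → ℓ ∉ S → ∀ A : ValuationSubring (AlgebraicClosure ℚ),
      A.LiesOverPrime ℓ → ∀ σ : GQ, A.IsFrobeniusAt σ ℓ →
        LinearMap.charpoly (ρ.ρ σ) = X ^ 2 - C (a ℓ) * X + C ((ℓ : 𝒪)))
    (hunr : ρ.IsUnramifiedAt q)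
    (r : ℕ) (hr : 0 < r) (ρg : GQ →* Matrix (Fin r) (Fin r) 𝒪) (hcont : MatAdicCont ρg)
    (ε : GQ →* 𝒪ˣ) (hε1 : CharAdicCont ε) (hε2 : CharCycAt ε S) (hES : MatES ρg a S)
    (hεq : ∀ A : ValuationSubring (AlgebraicClosure ℚ), A.LiesOverPrime q →
      ∀ σ : GQ, A.IsFrobeniusAt σ q → ((ε σ : 𝒪ˣ) : 𝒪) = (q : 𝒪))
    (hStI : ∀ A : ValuationSubring (AlgebraicClosure ℚ), A.LiesOverPrime q →
      ∀ σ : GQ, A.IsFrobeniusAt σ q →
        ∀ v : Fin r → 𝒪, (∀ τ ∈ A.inertiaSubgroupIn ℚ, (ρg τ).mulVec v = v) →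
          (ρg σ).mulVec ((ρg σ).mulVec v) = (q : 𝒪) ^ 2 • v) : False := by
  classical
  obtain ⟨𝒪'', i1, i2, i3, i4, i5, i6, i7, i8, i9, hinj, ρ₂, hc, hdet, hstruct⟩ :=
    (Fermat.Agent.S30.H29.assembleS_of_FD Fermat.Agent.Lib.FrobDensity.stmt_FD)
      𝒪 S a r hr ρg ε hcont hε1 hES hε2
  have hs : Fermat.Agent.S35.H89.Struct ρg ε ρ₂ := hstruct
  -- the representation of `ρ₂`
  let ρ'' : GaloisRepAdic 𝒪'' :=
    { V := Fin 2 → 𝒪''
      finrank_eq := by simp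
      ρ := Fermat.Agent.S30.H2.matToEnd ρ₂
      isAdicContinuous := Fermat.Agent.S30.H2.matToEnd_adicContinuous ρ₂ hc }
  -- the base change of `ρ`
  let ρB : GaloisRepAdic 𝒪'' := ρ.baseChangeAlong (algebraMap 𝒪 𝒪'') i9
  have habsB : ρB.residual.IsAbsolutelyIrreducible :=
    Fermat.Agent.R.H86.residual_absIrr_baseChangeAlong _ i9 ρ habs
  have hfrob : ∀ ℓ : ℕ, ℓ.Prime → ℓ ∉ S → ∀ B : ValuationSubring (AlgebraicClosure ℚ),
      B.LiesOverPrime ℓ → ∀ σ : GQ, B.IsFrobeniusAt σ ℓ →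
        LinearMap.charpoly (ρB.ρ σ) = LinearMap.charpoly (ρ''.ρ σ) := by
    intro ℓ hℓ hℓS B hB σ hσ
    rw [Fermat.Agent.R.H86.baseChangeAlong_charpoly, hρ ℓ hℓ hℓS B hB σ hσ]
    show _ = LinearMap.charpoly (Matrix.toLin' (ρ₂ σ))
    rw [Matrix.charpoly_toLin']
    have h1 := hES ℓ hℓ hℓS B hB σ hσ
    have h2 : ((ε σ : 𝒪ˣ) : 𝒪) = (ℓ : 𝒪) := hε2 ℓ hℓ hℓS B hB σ hσ
    rw [← h2] at h1
    rw [Fermat.Agent.S35.H89.struct_quad hs hdet σ (a ℓ) h1, h2, map_natCast]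
    simp [Polynomial.map_sub, Polynomial.map_add, Polynomial.map_mul, Polynomial.map_pow]
  obtain ⟨e⟩ := isEquiv_of_frob ρB ρ'' habsB S hfrob
  -- transport of identities from `ρB` to `ρ₂`
  have htrans : ∀ σ τ : GQ, ρB.ρ σ = ρB.ρ τ → ρ₂ σ = ρ₂ τ := by
    intro σ τ h
    have h1 : ρ''.ρ σ = ρ''.ρ τ := by
      apply LinearMap.ext
      intro y
      obtain ⟨x, rfl⟩ := e.toLinearEquiv.surjective y
      rw [← e.map_apply, ← e.map_apply, h]
    have h2 : Matrix.toLin' (ρ₂ σ) = Matrix.toLin' (ρ₂ τ) := h1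
    exact Matrix.toLin'.injective h2
  have htrans' : ∀ σ τ : GQ, ρ₂ σ = ρ₂ τ → ρB.ρ σ = ρB.ρ τ := by
    intro σ τ h
    apply LinearMap.ext
    intro x
    apply e.toLinearEquiv.injective
    rw [e.map_apply, e.map_apply]
    show Matrix.toLin' (ρ₂ σ) _ = Matrix.toLin' (ρ₂ τ) _
    rw [h]
  obtain ⟨A, φ, hA, hφ⟩ := Fermat.Agent.Lib.FrobExists.exists_place_and_frobenius q hq
  -- `ρ₂` is unramified at `q`
  have hunr₂ : ∀ τ ∈ A.inertiaSubgroupIn ℚ, ρ₂ τ = 1 := by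
    intro τ hτ
    rw [← map_one ρ₂]
    apply htrans
    have h1 : ρ.ρ τ = ρ.ρ 1 := by rw [hunr A hA τ hτ, map_one]
    letI : Algebra 𝒪 𝒪'' := (algebraMap 𝒪 𝒪'').toAlgebra
    show (ρ.ρ τ).baseChange 𝒪'' = (ρ.ρ 1).baseChange 𝒪''
    rw [h1]
  rcases hs with ⟨P, Q, hQP, hP⟩ | ⟨ψ, v, hv, hψ, hρ₂⟩
  · -- `ρ₂` is a subrepresentation of the Tate piece
    have hfix : ∀ (w : Fin 2 → 𝒪'') (τ : A.inertiaSubgroupIn ℚ),
        ((ρg (τ : GQ)).map (algebraMap 𝒪 𝒪'')).mulVec (P.mulVec w) = P.mulVec w := by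
      intro w τ
      rw [Matrix.mulVec_mulVec, hP, hunr₂ _ τ.2, Matrix.mul_one]
    have hB : ∀ w : Fin 2 → 𝒪'',
        (((ρg φ).map (algebraMap 𝒪 𝒪'')) * ((ρg φ).map (algebraMap 𝒪 𝒪''))).mulVec (P.mulVec w)
          = algebraMap 𝒪 𝒪'' ((q : 𝒪) ^ 2) • P.mulVec w := by
      intro w
      have h1 := fixedQ_baseChange hinj (fun τ : A.inertiaSubgroupIn ℚ => ρg (τ : GQ))
        (ρg φ * ρg φ) ((q : 𝒪) ^ 2)
        (fun v hv => by
          rw [← Matrix.mulVec_mulVec]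
          exact hStI A hA φ hφ v (fun τ hτ => hv ⟨τ, hτ⟩))
        (P.mulVec w) (hfix w)
      rw [Matrix.map_mul] at h1
      exact h1
    have hsq := plane_sq hQP (hP φ) _ hB
    have hd := sq_scalar_det hsq
    rw [hdet φ, hεq A hA φ hφ] at hd
    simp only [map_pow, map_natCast] at hd
    have hd' : q ^ 2 = (q ^ 2) ^ 2 := by exact_mod_cast hd
    have hq2 : 2 ≤ q := hq.two_le
    have h1 : q ^ 2 * 1 = q ^ 2 * q ^ 2 := by rw [mul_one, ← pow_two]; exact hd'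
    have h2 : 1 = q ^ 2 := Nat.eq_of_mul_eq_mul_left (pow_pos hq.pos 2) h1
    have h3 : 4 ≤ q ^ 2 := by nlinarith
    omega
  · -- `ρ₂` is diagonal: impossible, `ρ` is residually absolutely irreducible
    have hcomm₂ : ∀ σ τ : GQ, ρ₂ (σ * τ) = ρ₂ (τ * σ) := by
      intro σ τ
      rw [map_mul, map_mul, hρ₂ σ, hρ₂ τ, Matrix.diagonal_mul_diagonal,
        Matrix.diagonal_mul_diagonal]
      congr 1
      funext i
      exact mul_comm _ _
    let b : Module.Basis (Fin 2) 𝒪'' ρB.V := Module.finBasisOfFinrankEq 𝒪'' ρB.V ρB.finrank_eq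
    obtain ⟨g, hg⟩ := Fermat.Agent.R.H86.exists_eq_sum_matrix ρB habsB b
    refine not_commute_of_span (fun p => LinearMap.toMatrix b b (ρB.ρ (g p))) ?_ hg
    intro i j
    show LinearMap.toMatrix b b (ρB.ρ (g i)) * LinearMap.toMatrix b b (ρB.ρ (g j))
      = LinearMap.toMatrix b b (ρB.ρ (g j)) * LinearMap.toMatrix b b (ρB.ρ (g i))
    rw [← LinearMap.toMatrix_mul, ← LinearMap.toMatrix_mul, ← map_mul, ← map_mul,
      htrans' _ _ (hcomm₂ (g i) (g j))]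

/-- **PV-OLD, point level**: the `q`-new case from the Tate piece with inertia invariants. -/
theorem ramNew_of_tatePieceStI (hT : Stmt_TatePieceStI) : Stmt_RamNew := by
  intro p N M q _ _ S 𝒪 _ _ _ _ _ _ hp hp𝒪 hq hqp hNM hqM hpS hNS χ ρ hρ habs hno hunr
  haveI : Fact p.Prime := ⟨hp⟩
  obtain ⟨Mg, iMg, hMgN, g, hg, iota, hiota⟩ := exists_newform_iota S hNS χ
  have hMN : M ∣ N := ⟨q, hNM⟩
  by_cases hqMg : q ∣ Mg
  · -- the newform is new at `q`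
    have hq2Mg : ¬ q ^ 2 ∣ Mg := by
      intro h
      apply hqM
      have h1 : q ^ 2 ∣ M * q := hNM ▸ h.trans hMgN
      rw [pow_two] at h1
      exact (Nat.mul_dvd_mul_iff_right hq.pos).1 h1
    have hMgS : ∀ q' : ℕ, q'.Prime → q' ∣ Mg → q' ∈ S :=
      fun q' hq' h => hNS q' hq' (h.trans hMgN)
    obtain ⟨r, ρg, hr, hcont, hES, hStI⟩ := hT hg p S 𝒪 hp𝒪
      (Fermat.Agent.R.H99.eigenCharC (↑S : Set ℕ) hg.1)
      (fun ℓ hℓ hℓM hℓS => Fermat.Agent.R.H99.eigenCharC_T (↑S : Set ℕ) hg.1 hℓ hℓM hℓS)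
      iota hpS hMgS
    obtain ⟨ε, hε1, hε2, hES', hεq⟩ := Fermat.Agent.S35.H89.core p S 𝒪 hp𝒪
      (iota.comp (Fermat.Agent.R.H99.eigenCharC (↑S : Set ℕ) hg.1).rangeRestrict)
      hpS hMgS r ρg hES
    refine false_of_unramified_of_stI (p := p) hq S
      (Fermat.Agent.S35.H89.aOf S
        (iota.comp (Fermat.Agent.R.H99.eigenCharC (↑S : Set ℕ) hg.1).rangeRestrict))
      ρ habs ?_ hunr r hr ρg hcont ε hε1 hε2 hES' (hεq q hq hqp) (hStI q hq hqp hqMg hq2Mg)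
    intro ℓ hℓ hℓS A hA σ hσ
    have hℓN : ¬ ℓ ∣ N := fun h => hℓS (hNS ℓ hℓ h)
    have hℓMg : ¬ ℓ ∣ Mg := fun h => hℓN (h.trans hMgN)
    have hℓS' : ℓ ∉ (↑S : Set ℕ) := fun h => hℓS (Finset.mem_coe.1 h)
    rw [hρ ℓ hℓ hℓN hℓS' A hA σ hσ, Fermat.Agent.S35.H89.aOf_eq S _ ℓ hℓ hℓMg hℓS',
      hiota ℓ hℓ hℓMg hℓS' hℓN]
  · -- the newform has level prime to `q`: the eigensystem occurs at level `M`
    have hMgM : Mg ∣ M := by
      have hcop : Nat.Coprime Mg q :=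
        Nat.Coprime.symm ((Nat.Prime.coprime_iff_not_dvd hq).2 hqMg)
      exact hcop.dvd_of_dvd_mul_right (hNM ▸ hMgN)
    exact hno (occursAtLevel_of_newform S hNS hMN hMgM χ
      (iota.comp (Fermat.Agent.R.H99.eigenCharC (↑S : Set ℕ) hg.1).rangeRestrict) hiota)

end Fermat.Agent.L.Pivot.H50
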