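/-
PIVOT (item 66), leaf **C-pt = PV-NU-POINT** (helper4):
`stmt_PVNUPoint_of : Fermat.Agent.S58.Stmt_S36 → Stmt_PVNUPoint`.

A characteristic-`0` point `χ` of the Hecke algebra of level `N = M q²` (`q ∤ M`, `q ≠ p`) which
does not occur at level `M q`: the newform `g` of `χ` has level `Mg ∣ N` with `q² ∥ Mg`
(otherwise `Mg ∣ M q` and `χ` occurs at level `M q`); Carayol's theorem (S36) gives a
representation attached to `g` which is not unipotent on inertia at `q`; it is equivalent to a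
base change of `ρ` (Frobenius density + residual absolute irreducibility).

The hypothesis `hres` of S36 (every attached representation is residually absolutely irreducible
and odd) is proved here: `S59.Datum.H57.stmt_ResIrr` and `residual_isOdd_of_frob` (Frobenius
density; an involution `c ≠ 1` inverts the `p`-th roots of unity).
-/
import Fermat.Agent.L.Pivot.Asm
import Fermat.Agent.L.Pivot.H50_OldNew
import Fermat.Agent.S58.Defs
import Fermat.Agent.S58.H99_Inv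
import Fermat.Agent.S58.H99_FrobRoot
import Fermat.Agent.S59.Datum.H57_ResIrr
import Fermat.Agent.S59.H99_DefEquiv
import Fermat.Agent.S59.Asm.Plumb2
import Fermat.Agent.Lib.FrobDensity.Main

set_option autoImplicit false
set_option linter.unusedSectionVars false
set_option linter.unusedVariables false
set_option linter.style.haveILetI false

noncomputable section

namespace Fermat.Agent.L.Pivot.H4

open Polynomial IsLocalRing CuspForm

local notation "GalQb" => AlgebraicClosure ℚ ≃ₐ[ℚ] AlgebraicClosure ℚ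

/-! ### Arithmetic of the levels -/

/-- `Mg ∣ M q²`, `q² ∤ Mg`, `q ∤ M` ⟹ `Mg ∣ M q`. -/
theorem dvd_mul_of_not_sq_dvd {M q Mg : ℕ} (hq : q.Prime) (hqM : ¬ q ∣ M)
    (h : Mg ∣ M * q ^ 2) (hsq : ¬ q ^ 2 ∣ Mg) : Mg ∣ M * q := by
  by_cases hqMg : q ∣ Mg
  · obtain ⟨m, rfl⟩ := hqMg
    have hqm : ¬ q ∣ m := by
      intro hm
      apply hsq
      rw [pow_two]
      exact Nat.mul_dvd_mul_left q hm
    have h1 : q * m ∣ q * (M * q) := by
      have e : M * q ^ 2 = q * (M * q) := by ring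
      rw [← e]
      exact h
    have h2 : m ∣ M * q := (Nat.mul_dvd_mul_iff_left hq.pos).1 h1
    have hcop : Nat.Coprime m q := Nat.Coprime.symm ((Nat.Prime.coprime_iff_not_dvd hq).2 hqm)
    have h3 : m ∣ M := hcop.dvd_of_dvd_mul_right h2
    rw [mul_comm M q]
    exact Nat.mul_dvd_mul_left q h3
  · have hcop : Nat.Coprime Mg (q ^ 2) :=
      Nat.Coprime.pow_right 2 (Nat.Coprime.symm ((Nat.Prime.coprime_iff_not_dvd hq).2 hqMg))
    exact (hcop.dvd_of_dvd_mul_right h).mul_right q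

/-- `Mg ∣ M q²`, `q² ∣ Mg`, `q ∤ M` ⟹ `v_q(Mg) = 2`. -/
theorem factorization_eq_two {M q Mg : ℕ} (hq : q.Prime) (hqM : ¬ q ∣ M) (hMg0 : Mg ≠ 0)
    (h : Mg ∣ M * q ^ 2) (hsq : q ^ 2 ∣ Mg) : Mg.factorization q = 2 := by
  have hge2 : 2 ≤ Mg.factorization q := (hq.pow_dvd_iff_le_factorization hMg0).mp hsq
  have hle2 : Mg.factorization q ≤ 2 := by
    by_contra hcon
    push Not at hcon
    have h3 : q ^ 3 ∣ Mg := (hq.pow_dvd_iff_le_factorization hMg0).mpr hcon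
    have h4 : q ^ 2 * q ∣ q ^ 2 * M := by
      have e1 : q ^ 2 * q = q ^ 3 := by ring
      have e2 : q ^ 2 * M = M * q ^ 2 := by ring
      rw [e1, e2]
      exact h3.trans h
    exact hqM ((Nat.mul_dvd_mul_iff_left (pow_pos hq.pos 2)).1 h4)
  omega

/-! ### Oddness from the determinants of Frobenius elements -/

/-- A residual representation in characteristic `p` (odd) whose Frobenius elements outside a
finite set of primes have determinant `ℓ` is odd. -/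
theorem isOdd_of_frob_det {k : Type} [Field k] (p : ℕ) (hp : p.Prime) (hp2 : p ≠ 2)
    [CharP k p] (ρbar : ResidualGaloisRep k) (S : Finset ℕ)
    (hdet : ∀ ℓ : ℕ, ℓ.Prime → ℓ ∉ S → ∀ B : ValuationSubring (AlgebraicClosure ℚ),
      B.LiesOverPrime ℓ → ∀ σ : GalQb, B.IsFrobeniusAt σ ℓ →
        LinearMap.det (ρbar.ρ σ) = (ℓ : k)) :
    ρbar.IsOdd := by
  classical
  haveI : Fact p.Prime := ⟨hp⟩
  intro c hc hc1
  obtain ⟨ζ, hζ, hζ1⟩ := Fermat.Agent.S58.H99.exists_root_ne_one hp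
  obtain ⟨L₁, hL₁, h1⟩ := ρbar.factorsThroughFiniteLevel
  have hζint : IsIntegral ℚ ζ := IsIntegral.of_pow hp.pos (by rw [hζ]; exact isIntegral_one)
  have hL₂ : FiniteDimensional ℚ ↥(IntermediateField.adjoin ℚ {ζ}) :=
    IntermediateField.adjoin.finiteDimensional hζint
  have := hL₁
  have hL : FiniteDimensional ℚ ↥(L₁ ⊔ IntermediateField.adjoin ℚ {ζ}) :=
    IntermediateField.finiteDimensional_sup L₁ _
  obtain ⟨ℓ, P, φ, j, hℓ, hℓS, hP, hφ, hj⟩ :=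
    Fermat.Agent.Lib.FrobDensity.stmt_FD (insert p S) (L₁ ⊔ IntermediateField.adjoin ℚ {ζ}) hL c
  have hℓp : p ≠ ℓ := fun h => hℓS (h ▸ Finset.mem_insert_self p S)
  have hℓS' : ℓ ∉ S := fun h => hℓS (Finset.mem_insert_of_mem h)
  -- `c` and `φ ^ j` act in the same way
  have hτ : ρbar.ρ (c⁻¹ * φ ^ j) = 1 := by
    apply h1
    intro x hx
    rw [AlgEquiv.mul_apply, hj x ((le_sup_left : L₁ ≤ _) hx)]
    exact c.symm_apply_apply x
  have hcφ : ρbar.ρ c = ρbar.ρ (φ ^ j) := by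
    have : φ ^ j = c * (c⁻¹ * φ ^ j) := by rw [mul_inv_cancel_left]
    rw [this, map_mul, hτ, mul_one]
  rw [hcφ, map_pow, map_pow, hdet ℓ hℓ hℓS' P hP φ hφ]
  -- the action on `ζ`
  have hζL : ζ ∈ L₁ ⊔ IntermediateField.adjoin ℚ {ζ} :=
    (le_sup_right : IntermediateField.adjoin ℚ {ζ} ≤ _)
      (IntermediateField.mem_adjoin_simple_self ℚ ζ)
  have e1 : (φ ^ j) ζ = ζ ^ (ℓ ^ j) :=
    Fermat.Agent.S58.H99.frobenius_pow_root P φ hℓ hp hℓp hP hφ ζ hζ j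
  have e2 : ζ * c ζ = 1 :=
    Fermat.Agent.S58.H99.involution_mul_root c hc hc1 (hp.odd_of_ne_two hp2) ζ hζ
  rw [← hj ζ hζL, e1, ← pow_succ'] at e2
  have hord : orderOf ζ = p := orderOf_eq_prime hζ hζ1
  have hdvd : p ∣ ℓ ^ j + 1 := by
    rw [← hord]
    exact orderOf_dvd_of_pow_eq_one e2
  have h0 : ((ℓ ^ j + 1 : ℕ) : k) = 0 := (CharP.cast_eq_zero_iff k p _).2 hdvd
  push_cast at h0
  exact eq_neg_of_add_eq_zero_left h0

/-- The determinant of an endomorphism of a free module of rank `2` with characteristic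
polynomial `X² - a X + d` is `d`. -/
theorem det_eq_of_charpoly {R V : Type*} [CommRing R] [Nontrivial R] [AddCommGroup V]
    [Module R V] [Module.Free R V] [Module.Finite R V] (hV : Module.finrank R V = 2)
    (f : Module.End R V) (a d : R) (h : LinearMap.charpoly f = X ^ 2 - C a * X + C d) :
    LinearMap.det f = d := by
  rw [LinearMap.det_eq_sign_charpoly_coeff, hV, h]
  simp

/-! ### The hypothesis `hres` of S36 -/

section hres

variable {𝒪 : Type} [CommRing 𝒪] [IsLocalRing 𝒪]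

/-- A representation over `O''` whose Frobenius characteristic polynomials outside `S` are the
images of those of `ρ` (residually absolutely irreducible, Frobenius determinants `ℓ`) is
residually absolutely irreducible and odd. -/
theorem residual_absIrr_odd_of_frob (p : ℕ) (hp : p.Prime) (hp2 : p ≠ 2)
    (hp𝒪 : (p : 𝒪) ∈ maximalIdeal 𝒪) (ρ : GaloisRepAdic 𝒪)
    (habs : ρ.residual.IsAbsolutelyIrreducible) (S : Finset ℕ) (a : ℕ → 𝒪)
    (hρ : ∀ ℓ : ℕ, ℓ.Prime → ℓ ∉ S → ∀ B : ValuationSubring (AlgebraicClosure ℚ),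
      B.LiesOverPrime ℓ → ∀ σ : GalQb, B.IsFrobeniusAt σ ℓ →
        LinearMap.charpoly (ρ.ρ σ) = X ^ 2 - C (a ℓ) * X + C ((ℓ : 𝒪)))
    (O'' : Type) [CommRing O''] [IsLocalRing O''] (f : 𝒪 →+* O'') [IsLocalHom f]
    (ρ₁ : GaloisRepAdic O'')
    (hρ₁ : ∀ ℓ : ℕ, ℓ.Prime → ℓ ∉ S → ∀ B : ValuationSubring (AlgebraicClosure ℚ),
      B.LiesOverPrime ℓ → ∀ σ : GalQb, B.IsFrobeniusAt σ ℓ →
        LinearMap.charpoly (ρ₁.ρ σ) = X ^ 2 - C (f (a ℓ)) * X + C ((ℓ : O''))) :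
    ρ₁.residual.IsAbsolutelyIrreducible ∧ ρ₁.residual.IsOdd := by
  have hpO'' : (p : O'') ∈ maximalIdeal O'' := by
    rw [mem_maximalIdeal, mem_nonunits_iff] at hp𝒪 ⊢
    intro hu
    apply hp𝒪
    have hu' : IsUnit (f (p : 𝒪)) := by rwa [map_natCast]
    exact (isUnit_map_iff f _).1 hu'
  haveI : CharP (ResidueField O'') p := by
    refine (CharP.charP_iff_prime_eq_zero hp).mpr ?_
    have : residue O'' (p : O'') = 0 := (residue_eq_zero_iff _).mpr hpO''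
    rwa [map_natCast] at this
  constructor
  · refine (Fermat.Agent.S59.Datum.H57.stmt_ResIrr (ResidueField 𝒪) (ResidueField O'')
      (ResidueField.map f) ρ.residual ρ₁.residual S habs ?_).1
    intro ℓ hℓ hℓS B hB σ hσ
    rw [Fermat.Agent.S59.Asm.charpoly_resid, Fermat.Agent.S59.Asm.charpoly_resid,
      hρ₁ ℓ hℓ hℓS B hB σ hσ, hρ ℓ hℓ hℓS B hB σ hσ, Polynomial.map_map]
    simp only [Polynomial.map_add, Polynomial.map_sub, Polynomial.map_mul, Polynomial.map_pow,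
      Polynomial.map_X, Polynomial.map_C, map_natCast, RingHom.comp_apply,
      ResidueField.map_residue, Polynomial.map_natCast]
  · refine isOdd_of_frob_det p hp hp2 ρ₁.residual S fun ℓ hℓ hℓS B hB σ hσ => ?_
    refine det_eq_of_charpoly ρ₁.residual.finrank_eq _ (residue O'' (f (a ℓ))) _ ?_
    rw [Fermat.Agent.S59.Asm.charpoly_resid, hρ₁ ℓ hℓ hℓS B hB σ hσ]
    simp only [Polynomial.map_add, Polynomial.map_sub, Polynomial.map_mul, Polynomial.map_pow,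
      Polynomial.map_X, Polynomial.map_C, map_natCast, Polynomial.map_natCast]

end hres

/-! ### The leaf -/

/-- **C-pt = PV-NU-POINT** from Carayol's theorem S36. -/
theorem stmt_PVNUPoint_of (hS36 : Fermat.Agent.S58.Stmt_S36) : Stmt_PVNUPoint := by
  intro p N M q _ _ S 𝒪 _ _ _ _ _ _ hp hp2 hp𝒪 hq hqp hNM hqM hpS hNS χ ρ hρ habs hno hunip
  classical
  haveI : Fact p.Prime := ⟨hp⟩
  obtain ⟨Mg, iMg, hMgN, g, hg, iota, hiota⟩ := H50.exists_newform_iota S hNS χ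
  haveI := iMg
  have hMg0 : Mg ≠ 0 := NeZero.ne Mg
  have hMgN' : Mg ∣ M * q ^ 2 := hNM ▸ hMgN
  -- the newform is new at `q²`
  have hq2Mg : q ^ 2 ∣ Mg := by
    by_contra hcon
    have hMgM : Mg ∣ M * q := dvd_mul_of_not_sq_dvd hq hqM hMgN' hcon
    have hMN : M * q ∣ N := ⟨q, by rw [hNM]; ring⟩
    exact hno (H50.occursAtLevel_of_newform S hNS hMN hMgM χ
      (iota.comp (Fermat.Agent.R.H99.eigenCharC (↑S : Set ℕ) hg.1).rangeRestrict) hiota)
  have hfac : Mg.factorization q = 2 := factorization_eq_two hq hqM hMg0 hMgN' hq2Mg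
  have hMgS : ∀ q' : ℕ, q'.Prime → q' ∣ Mg → q' ∈ S :=
    fun q' hq' h => hNS q' hq' (h.trans hMgN)
  -- the eigenvalues
  let a : ℕ → 𝒪 := fun ℓ =>
    if h : ℓ.Prime ∧ ¬ ℓ ∣ N ∧ ℓ ∉ (↑S : Set ℕ) then χ (heckeAlgebra.T h.1 h.2.1 h.2.2) else 0
  have ha : ∀ (ℓ : ℕ) (hℓ : ℓ.Prime) (hℓN : ¬ ℓ ∣ N) (hℓS : ℓ ∉ (↑S : Set ℕ)),
      a ℓ = χ (heckeAlgebra.T hℓ hℓN hℓS) := fun ℓ hℓ hℓN hℓS => dif_pos ⟨hℓ, hℓN, hℓS⟩
  have hρa : ∀ ℓ : ℕ, ℓ.Prime → ℓ ∉ S → ∀ B : ValuationSubring (AlgebraicClosure ℚ),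
      B.LiesOverPrime ℓ → ∀ σ : GalQb, B.IsFrobeniusAt σ ℓ →
        LinearMap.charpoly (ρ.ρ σ) = X ^ 2 - C (a ℓ) * X + C ((ℓ : 𝒪)) := by
    intro ℓ hℓ hℓS B hB σ hσ
    have hℓN : ¬ ℓ ∣ N := fun h => hℓS (hNS ℓ hℓ h)
    have hℓS' : ℓ ∉ (↑S : Set ℕ) := fun h => hℓS (Finset.mem_coe.1 h)
    rw [hρ ℓ hℓ hℓN hℓS' B hB σ hσ, ha ℓ hℓ hℓN hℓS']
  have hcoef : ∀ (ℓ : ℕ) (hℓ : ℓ.Prime) (hℓS : ℓ ∉ S) (hℓMg : ¬ ℓ ∣ Mg)
      (hℓS' : ℓ ∉ (↑S : Set ℕ)),
      (iota.comp (Fermat.Agent.R.H99.eigenCharC (↑S : Set ℕ) hg.1).rangeRestrict)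
        (heckeAlgebra.T hℓ hℓMg hℓS') = a ℓ := by
    intro ℓ hℓ hℓS hℓMg hℓS'
    have hℓN : ¬ ℓ ∣ N := fun h => hℓS (hNS ℓ hℓ h)
    rw [hiota ℓ hℓ hℓMg hℓS' hℓN, ha ℓ hℓ hℓN hℓS']
  -- the hypothesis `hres` of S36
  have hres : ∀ (O'' : Type) [CommRing O''] [IsDomain O''] [IsDiscreteValuationRing O'']
      [IsAdicComplete (IsLocalRing.maximalIdeal O'') O''] [Finite (IsLocalRing.ResidueField O'')]
      [CharZero O''] [Algebra 𝒪 O''] [Module.Finite 𝒪 O''] [IsLocalHom (algebraMap 𝒪 O'')],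
      Function.Injective (algebraMap 𝒪 O'') → ∀ (ρ₁ : GaloisRepAdic O''),
      (∀ (ℓ : ℕ) (hℓ : ℓ.Prime) (_hℓlam : ℓ ≠ p) (hℓM : ¬ ℓ ∣ Mg) (hℓS : ℓ ∉ (↑S : Set ℕ)),
        ∀ A : ValuationSubring (AlgebraicClosure ℚ), A.LiesOverPrime ℓ →
          ∀ σ : AlgebraicClosure ℚ ≃ₐ[ℚ] AlgebraicClosure ℚ, A.IsFrobeniusAt σ ℓ →
            LinearMap.charpoly (ρ₁.ρ σ) =
              X ^ 2 - C (algebraMap 𝒪 O''
                ((iota.comp (Fermat.Agent.R.H99.eigenCharC (↑S : Set ℕ) hg.1).rangeRestrict)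
                  (CuspForm.heckeAlgebra.T hℓ hℓM hℓS))) * X
                + C ((ℓ : O'')))
      → ρ₁.residual.IsAbsolutelyIrreducible ∧ ρ₁.residual.IsOdd := by
    intro O'' _ _ _ _ _ _ _ _ _ _ ρ₁ hρ₁
    refine residual_absIrr_odd_of_frob p hp hp2 hp𝒪 ρ habs S a hρa O'' (algebraMap 𝒪 O'') ρ₁ ?_
    intro ℓ hℓ hℓS B hB σ hσ
    have hℓp : ℓ ≠ p := fun h => hℓS (h ▸ hpS)
    have hℓMg : ¬ ℓ ∣ Mg := fun h => hℓS (hMgS ℓ hℓ h)
    have hℓS' : ℓ ∉ (↑S : Set ℕ) := fun h => hℓS (Finset.mem_coe.1 h)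
    rw [hρ₁ ℓ hℓ hℓp hℓMg hℓS' B hB σ hσ, hcoef ℓ hℓ hℓS hℓMg hℓS']
  obtain ⟨O'', j1, j2, j3, j4, j5, j6, j7, j8, j9, hinj, ρ', hfrob', hnu⟩ :=
    hS36 hg p S 𝒪 hp𝒪 hp2 (Fermat.Agent.R.H99.eigenCharC (↑S : Set ℕ) hg.1)
      (fun ℓ hℓ hℓM hℓS => Fermat.Agent.R.H99.eigenCharC_T (↑S : Set ℕ) hg.1 hℓ hℓM hℓS)
      iota hpS hMgS hres
  refine hnu q hq hqp hfac ?_
  -- `ρ'` is equivalent to the base change of `ρ`
  have habsB : (ρ.baseChangeAlong (algebraMap 𝒪 O'') j9).residual.IsAbsolutelyIrreducible :=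
    Fermat.Agent.R.H86.residual_absIrr_baseChangeAlong _ j9 ρ habs
  have he : (ρ.baseChangeAlong (algebraMap 𝒪 O'') j9).IsEquiv ρ' := by
    refine H50.isEquiv_of_frob _ ρ' habsB S fun ℓ hℓ hℓS B hB σ hσ => ?_
    have hℓMg : ¬ ℓ ∣ Mg := fun h => hℓS (hMgS ℓ hℓ h)
    have hℓS' : ℓ ∉ (↑S : Set ℕ) := fun h => hℓS (Finset.mem_coe.1 h)
    rw [Fermat.Agent.S59.Asm.charpoly_bcAlong, hρa ℓ hℓ hℓS B hB σ hσ,
      hfrob' ℓ hℓ hℓMg hℓS' B hB σ hσ, hcoef ℓ hℓ hℓS hℓMg hℓS']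
    simp only [Polynomial.map_add, Polynomial.map_sub, Polynomial.map_mul, Polynomial.map_pow,
      Polynomial.map_X, Polynomial.map_C, map_natCast, Polynomial.map_natCast]
  refine Fermat.Agent.S59.H99.isUnipotentOnInertiaAt_of_isEquiv he q ?_
  intro P hP σ hσ
  rw [Fermat.Agent.S59.Asm.charpoly_bcAlong, hunip P hP σ hσ]
  simp only [Polynomial.map_pow, Polynomial.map_sub, Polynomial.map_X, Polynomial.map_one]

end Fermat.Agent.L.Pivot.H4

end
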