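import Fermat.Agent.L.Pivot.H50_OldNew
import Fermat.Agent.R.H2_PDVR

/-!
# PIVOT, package PV-OLD (helper50): `Stmt_TatePieceStI → Stmt_PVOld`

* `pvOld_of_ramNew : Stmt_RamNew → Stmt_PVOld` : the prime `𝔱` of `T` gives a point
  `ψ : T → T ⧸ 𝔱 → 𝒪'` (normalisation, helper2); the base change of `H.ρ` along `ψ` is
  unramified at `q`, residually absolutely irreducible, with the Frobenius characteristic
  polynomials of `χ = ψ ∘ H.π`; by `Stmt_RamNew` the eigensystem `χ` occurs at level `N / q`,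
  and its reduction takes values in the residue field of `𝒪` (the Hecke algebra is generated by
  the `T_ℓ`, `ℓ ∉ S`).
* `stmt_PVOld_of : Stmt_TatePieceStI → Stmt_PVOld`.
-/

set_option autoImplicit false
set_option linter.style.haveILetI false
set_option linter.unusedVariables false

open Polynomial IsLocalRing CuspForm
open scoped TensorProduct

namespace Fermat.Agent.L.Pivot.H50

open Fermat.Agent.R Fermat.Agent.S30

/-- The base change along `ψ` of an element acting trivially modulo an ideal killed by `ψ` is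
the identity. -/
theorem baseChangeAlong_eq_one_of_sub_mem {A B : Type} [CommRing A] [IsLocalRing A]
    [CommRing B] [IsLocalRing B] (ψ : A →+* B) (hψ : IsLocalHom ψ) (ρ : GaloisRepAdic A)
    (I : Ideal A) (hI : ∀ a ∈ I, ψ a = 0) (σ : GQ)
    (h : ∀ v : ρ.V, ρ.ρ σ v - v ∈ I • (⊤ : Submodule A ρ.V)) :
    (ρ.baseChangeAlong ψ hψ).ρ σ = 1 := by
  letI : Algebra A B := ψ.toAlgebra
  show (ρ.ρ σ).baseChange B = 1
  have hkill : ∀ x ∈ I • (⊤ : Submodule A ρ.V), ∀ c : B, c ⊗ₜ[A] x = 0 := by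
    intro x hx c
    refine Submodule.smul_induction_on (p := fun x => c ⊗ₜ[A] x = (0 : B ⊗[A] ρ.V)) hx ?_ ?_
    · intro a ha w _
      rw [TensorProduct.tmul_smul, TensorProduct.smul_tmul', Algebra.smul_def]
      have : algebraMap A B a = 0 := hI a ha
      rw [this, zero_mul, TensorProduct.zero_tmul]
    · intro x y hx hy
      rw [TensorProduct.tmul_add, hx, hy, add_zero]
  refine LinearMap.ext fun w => ?_
  induction w using TensorProduct.induction_on with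
  | zero => rw [map_zero, map_zero]
  | tmul c v =>
    rw [LinearMap.baseChange_tmul, Module.End.one_apply, ← sub_eq_zero, ← TensorProduct.tmul_sub]
    exact hkill _ (h v) c
  | add x y hx hy => rw [map_add, map_add, hx, hy]

/-- A homomorphism from the Hecke algebra away from `S` (`S` contains the primes of the
level, so the algebra is generated by the `T_ℓ`, `ℓ ∉ S`) to `k'` whose values at the `T_ℓ` lie in
the image of a field `k` factors through `k`. -/
theorem exists_corestrict {M : ℕ} [NeZero M] (S : Finset ℕ)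
    (hMS : ∀ q : ℕ, q.Prime → q ∣ M → q ∈ S) {k k' : Type*} [Field k] [CommRing k']
    [Nontrivial k'] (ι : k →+* k') (θ'' : heckeAlgebra M 2 (↑S : Set ℕ) →+* k')
    (h : ∀ (ℓ : ℕ) (hℓ : ℓ.Prime) (hℓM : ¬ ℓ ∣ M) (hℓS : ℓ ∉ (↑S : Set ℕ)),
      θ'' (heckeAlgebra.T hℓ hℓM hℓS) ∈ ι.range) :
    ∃ θ' : heckeAlgebra M 2 (↑S : Set ℕ) →+* k, ∀ t, ι (θ' t) = θ'' t := by
  have key : ∀ (x : Module.End ℂ (CuspForm (CongruenceSubgroup.Gamma0 M) 2))
      (hx : x ∈ heckeAlgebra M 2 (↑S : Set ℕ)), θ'' ⟨x, hx⟩ ∈ ι.range := by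
    intro x hx
    induction hx using Algebra.adjoin_induction with
    | mem x hx =>
      rcases hx with ⟨ℓ, hℓ, hℓM, hℓS, rfl⟩ | ⟨q, hqM, hq, hqS, rfl⟩
      · exact h ℓ hℓ hℓM hℓS
      · exact absurd (Finset.mem_coe.2 (hMS q hq hqM)) hqS
    | algebraMap n =>
      refine ⟨(n : k), ?_⟩
      have h1 : (⟨algebraMap ℤ (Module.End ℂ (CuspForm (CongruenceSubgroup.Gamma0 M) 2)) n,
          Subalgebra.algebraMap_mem _ n⟩ : heckeAlgebra M 2 (↑S : Set ℕ))
          = (n : heckeAlgebra M 2 (↑S : Set ℕ)) := by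
        apply Subtype.ext
        simp
      rw [h1, map_intCast, map_intCast]
    | add x y hx hy ihx ihy =>
      have h1 : (⟨x + y, Subalgebra.add_mem _ hx hy⟩ : heckeAlgebra M 2 (↑S : Set ℕ))
          = ⟨x, hx⟩ + ⟨y, hy⟩ := rfl
      rw [h1, map_add]
      exact Subring.add_mem _ ihx ihy
    | mul x y hx hy ihx ihy =>
      have h1 : (⟨x * y, Subalgebra.mul_mem _ hx hy⟩ : heckeAlgebra M 2 (↑S : Set ℕ))
          = ⟨x, hx⟩ * ⟨y, hy⟩ := rfl
      rw [h1, map_mul]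
      exact Subring.mul_mem _ ihx ihy
  have hmem : ∀ t : heckeAlgebra M 2 (↑S : Set ℕ), θ'' t ∈ ι.range := fun t => key t.1 t.2
  choose f hf using hmem
  have hinj : Function.Injective ι := ι.injective
  refine ⟨{ toFun := f
            map_one' := hinj (by rw [hf, map_one, map_one])
            map_mul' := fun x y => hinj (by rw [hf, map_mul, map_mul, hf, hf])
            map_zero' := hinj (by rw [hf, map_zero, map_zero])
            map_add' := fun x y => hinj (by rw [hf, map_add, map_add, hf, hf]) }, hf⟩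

/-- **PV-OLD from the point-level new case.** -/
theorem pvOld_of_ramNew (hR : Stmt_RamNew) : Stmt_PVOld := by
  intro 𝒪 _ _ _ _ _ _ p _ hp2 hp𝒪 N _ S hpS hNS θ T _ _ _ _ _ _ _ _ H hdet q hq hqp hqN hq2N
    𝔱 h𝔱 hp𝔱 hunr _
  classical
  have hp : p.Prime := Fact.out
  by_contra hne
  -- the domain `T ⧸ 𝔱` is finite and faithful over `𝒪`
  haveI : 𝔱.IsPrime := h𝔱
  have hinjD : Function.Injective (algebraMap 𝒪 (T ⧸ 𝔱)) := by
    rw [injective_iff_map_eq_zero]
    intro a ha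
    by_contra ha0
    -- the kernel is a nonzero prime ideal of `𝒪`, hence the maximal ideal
    set 𝔭 : Ideal 𝒪 := RingHom.ker (algebraMap 𝒪 (T ⧸ 𝔱)) with h𝔭
    have h𝔭prime : 𝔭.IsPrime := RingHom.ker_isPrime _
    have h𝔭ne : 𝔭 ≠ ⊥ := fun h => ha0 ((Ideal.mem_bot).1 (h ▸ (RingHom.mem_ker.2 ha)))
    have h𝔭max : 𝔭.IsMaximal := h𝔭prime.isMaximal h𝔭ne
    have h𝔭eq : 𝔭 = maximalIdeal 𝒪 := IsLocalRing.eq_maximalIdeal h𝔭max
    have hpker : (p : 𝒪) ∈ 𝔭 := h𝔭eq ▸ hp𝒪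
    rw [h𝔭, RingHom.mem_ker, map_natCast] at hpker
    apply hp𝔱
    have : (Ideal.Quotient.mk 𝔱) (p : T) = 0 := by rw [map_natCast]; exact hpker
    exact Ideal.Quotient.eq_zero_iff_mem.1 this
  haveI : FaithfulSMul 𝒪 (T ⧸ 𝔱) := (faithfulSMul_iff_algebraMap_injective 𝒪 (T ⧸ 𝔱)).2 hinjD
  obtain ⟨O', iCR, iD, iDVR, iAC, iFin, iCZ, iAlg, iMF, iLH, j, hinjO', hjinj, hjO, hjmax⟩ :=
    Fermat.Agent.R.H2.exists_dvr_of_finite_domain 𝒪 (T ⧸ 𝔱)
  -- the point `ψ : T → O'`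
  set ψ : T →+* O' := j.comp (Ideal.Quotient.mk 𝔱) with hψdef
  have hψ : IsLocalHom ψ := by
    obtain ⟨𝔫, h𝔫⟩ := Ideal.exists_maximal (T ⧸ 𝔱)
    have h1 : (maximalIdeal O').comap j = 𝔫 := hjmax 𝔫 h𝔫
    have h2 : (𝔫.comap (Ideal.Quotient.mk 𝔱)).IsMaximal :=
      Ideal.comap_isMaximal_of_surjective _ Ideal.Quotient.mk_surjective
    have h3 : 𝔫.comap (Ideal.Quotient.mk 𝔱) = maximalIdeal T := IsLocalRing.eq_maximalIdeal h2
    constructor
    intro x hx
    by_contra hxu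
    have hxm : x ∈ maximalIdeal T := (IsLocalRing.mem_maximalIdeal x).2 hxu
    rw [← h3, Ideal.mem_comap, ← h1, Ideal.mem_comap] at hxm
    exact (IsLocalRing.mem_maximalIdeal _).1 hxm hx
  have hψO : ∀ a : 𝒪, ψ (algebraMap 𝒪 T a) = algebraMap 𝒪 O' a := fun a => by
    rw [hψdef, RingHom.comp_apply]
    exact hjO a
  have hψ𝔱 : ∀ a ∈ 𝔱, ψ a = 0 := fun a ha => by
    rw [hψdef, RingHom.comp_apply, Ideal.Quotient.eq_zero_iff_mem.2 ha, map_zero]
  have hpO' : (p : O') ∈ maximalIdeal O' := by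
    have h1 : (p : O') = algebraMap 𝒪 O' (p : 𝒪) := by rw [map_natCast]
    rw [h1, mem_maximalIdeal, mem_nonunits_iff]
    intro hu
    have := (isUnit_map_iff (algebraMap 𝒪 O') (p : 𝒪)).1 hu
    exact ((mem_maximalIdeal _).1 hp𝒪) this
  -- the eigensystem and the representation at the point
  set χ : heckeAlgebra N 2 (↑S : Set ℕ) →+* O' := ψ.comp H.π with hχ
  have hρ : HasFrobCharpoly χ (H.ρ.baseChangeAlong ψ hψ) :=
    Fermat.Agent.R.H86.hasFrobCharpoly_baseChangeAlong ψ hψ H.π H.ρ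
      (fun ℓ hℓ hℓN hℓS B hB σ hσ => H.charpoly_frob ℓ hℓ hℓN hℓS B hB σ hσ)
  have habs : (H.ρ.baseChangeAlong ψ hψ).residual.IsAbsolutelyIrreducible :=
    Fermat.Agent.R.H86.residual_absIrr_baseChangeAlong ψ hψ H.ρ H.residual_absIrr
  have hunr' : (H.ρ.baseChangeAlong ψ hψ).IsUnramifiedAt q := fun A hA σ hσ =>
    baseChangeAlong_eq_one_of_sub_mem ψ hψ H.ρ 𝔱 hψ𝔱 σ (hunr A hA σ hσ)
  -- the level
  have hNM : N = N / q * q := (Nat.div_mul_cancel hqN).symm
  have hqM : ¬ q ∣ N / q := by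
    rintro ⟨c, hc⟩
    apply hq2N
    refine ⟨c, ?_⟩
    rw [hNM, hc]
    ring
  refine hR p N (N / q) q S O' hp hpO' hq hqp hNM hqM hpS hNS χ _ hρ habs ?_ hunr'
  rintro ⟨χ', hχ'⟩
  apply hne
  have hMS : ∀ q' : ℕ, q'.Prime → q' ∣ N / q → q' ∈ S := fun q' hq' h =>
    hNS q' hq' (h.trans (Nat.div_dvd_of_dvd hqN))
  -- the reduction of `χ'` takes values in the residue field of `𝒪`
  obtain ⟨θ', hθ'⟩ := exists_corestrict S hMS
    (IsLocalRing.ResidueField.map (algebraMap 𝒪 O')) ((residue O').comp χ') (by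
      intro ℓ hℓ hℓM hℓS
      have hℓN : ¬ ℓ ∣ N := fun h => hℓS (Finset.mem_coe.2 (hNS ℓ hℓ h))
      refine ⟨θ (heckeAlgebra.T hℓ hℓN hℓS), ?_⟩
      rw [RingHom.comp_apply, hχ' ℓ hℓ hℓN hℓM hℓS, hχ, RingHom.comp_apply]
      obtain ⟨a, ha⟩ := IsLocalRing.residue_surjective (θ (heckeAlgebra.T hℓ hℓN hℓS))
      have h1 := H.residue_π (heckeAlgebra.T hℓ hℓN hℓS)
      rw [← ha, IsLocalRing.ResidueField.map_residue] at h1
      rw [← ha, IsLocalRing.ResidueField.map_residue, ← hψO a]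
      have h2 : H.π (heckeAlgebra.T hℓ hℓN hℓS) - algebraMap 𝒪 T a ∈ maximalIdeal T := by
        rw [← IsLocalRing.residue_eq_zero_iff, map_sub, h1, sub_self]
      have h3 : ψ (H.π (heckeAlgebra.T hℓ hℓN hℓS) - algebraMap 𝒪 T a) ∈ maximalIdeal O' := by
        rw [mem_maximalIdeal, mem_nonunits_iff]
        intro hu
        exact ((mem_maximalIdeal _).1 h2) ((isUnit_map_iff ψ _).1 hu)
      rw [map_sub, ← IsLocalRing.residue_eq_zero_iff, map_sub, sub_eq_zero] at h3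
      exact h3.symm)
  refine ⟨θ', fun ℓ hℓ hℓN hℓS hℓM => ?_⟩
  apply (IsLocalRing.ResidueField.map (algebraMap 𝒪 O')).injective
  rw [hθ', RingHom.comp_apply, hχ' ℓ hℓ hℓN hℓM hℓS, hχ, RingHom.comp_apply]
  obtain ⟨a, ha⟩ := IsLocalRing.residue_surjective (θ (heckeAlgebra.T hℓ hℓN hℓS))
  have h1 := H.residue_π (heckeAlgebra.T hℓ hℓN hℓS)
  rw [← ha, IsLocalRing.ResidueField.map_residue] at h1
  rw [← ha, IsLocalRing.ResidueField.map_residue, ← hψO a]
  have h2 : H.π (heckeAlgebra.T hℓ hℓN hℓS) - algebraMap 𝒪 T a ∈ maximalIdeal T := by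
    rw [← IsLocalRing.residue_eq_zero_iff, map_sub, h1, sub_self]
  have h3 : ψ (H.π (heckeAlgebra.T hℓ hℓN hℓS) - algebraMap 𝒪 T a) ∈ maximalIdeal O' := by
    rw [mem_maximalIdeal, mem_nonunits_iff]
    intro hu
    exact ((mem_maximalIdeal _).1 h2) ((isUnit_map_iff ψ _).1 hu)
  rw [map_sub, ← IsLocalRing.residue_eq_zero_iff, map_sub, sub_eq_zero] at h3
  exact h3

/-- **PV-OLD** from the Tate piece with inertia invariants. -/
theorem stmt_PVOld_of (hT : Stmt_TatePieceStI) : Stmt_PVOld :=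
  pvOld_of_ramNew (ramNew_of_tatePieceStI hT)

end Fermat.Agent.L.Pivot.H50
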