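import Fermat.Agent.RED.H17_FF
import Fermat.Agent.RED.H17_Red
import Fermat.Prelude.Def_AlgebraicCurve_BaseChangeGalois

/-!
# PIVOT, PV-OLD (helper50): Frobenius-fixed classes on the abelian part

`E / k` a function field over an algebraically closed field, `φb` a semilinear automorphism,
`n = p ^ j`.  If `n ∣ div ψ₁`, `n ∣ div ψ₂` and

  `ψ₁ · φb ψ₂ = b₁ hαⁿ`,   `ψ₂ · φb ψ₁ = b₂ hβⁿ`,

then the classes `y_i = [div ψ_i / n]` satisfy `y₁ + φb y₂ = 0`, `y₂ + φb y₁ = 0`, so they are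
fixed by `φb²`; if the `φb²`-fixed `p`-power torsion classes are killed by `p ^ e` (FROB-FIN) then
`ψ_i ^ (p ^ e)` are `n`-th powers.
-/

set_option autoImplicit false
set_option linter.style.haveILetI false

noncomputable section

open AlgebraicCurve

attribute [local instance] Classical.propDecidable

namespace Fermat.Agent.L.Pivot.H50

open Fermat.Agent.RED.H17

section Frob

variable {k E : Type*} [Field k] [Field E] [Algebra k E]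

/-- orders of the image under a semilinear automorphism. -/
theorem h50_ord_smul (σ : SemilinearAut k E) (z : Place k E) (ψ : E) :
    z.ord (σ • ψ) = (σ⁻¹ • z).ord ψ := by
  have := SemilinearAut.ord_smul σ (σ⁻¹ • z) ψ
  rwa [smul_inv_smul] at this

theorem h50_smul_ne_zero (σ : SemilinearAut k E) {ψ : E} (hψ : ψ ≠ 0) : σ • ψ ≠ 0 := by
  intro h0
  apply hψ
  have := congrArg (fun z => σ⁻¹ • z) h0
  simpa using this

/-- a class is zero iff a representative is principal. -/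
theorem h50_mk_eq_zero_iff (D : Divisor.degZero (K := k) (F := E)) :
    Pic0.mk D = 0 ↔ (D : Divisor k E).IsPrincipal := by
  rw [Pic0.mk, QuotientAddGroup.eq_zero_iff, AddSubgroup.mem_addSubgroupOf]
  exact Divisor.mem_principal

/-- The divisor `div ψ / n`. -/
def divDiv (hP : HasPrincipalDivisors k E) (n : ℕ) (ψ : E) : Divisor k E :=
  (dv hP ψ).mapRange (fun m : ℤ => m / (n : ℤ)) (by simp)

theorem mul_divDiv_apply (hP : HasPrincipalDivisors k E) (n : ℕ) (ψ : E)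
    (hd : ∀ z : Place k E, (n : ℤ) ∣ z.ord ψ) (z : Place k E) :
    (n : ℤ) * divDiv hP n ψ z = z.ord ψ := by
  unfold divDiv
  rw [Finsupp.mapRange_apply (hf := by simp), dv_apply]
  exact Int.mul_ediv_cancel' (hd z)

theorem degree_divDiv (hP : HasPrincipalDivisors k E) (n : ℕ) (hn : n ≠ 0) (ψ : E)
    (hd : ∀ z : Place k E, (n : ℤ) ∣ z.ord ψ) :
    Divisor.degree (divDiv hP n ψ) = 0 := by
  have h1 : (n : ℤ) • divDiv hP n ψ = dv hP ψ := by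
    ext z
    rw [Finsupp.smul_apply, smul_eq_mul, mul_divDiv_apply hP n ψ hd, dv_apply]
  have h2 := congrArg Divisor.degree h1
  rw [map_zsmul, degree_dv, smul_eq_mul] at h2
  have hn' : (n : ℤ) ≠ 0 := by exact_mod_cast hn
  exact (mul_eq_zero.mp h2).resolve_left hn'

/-- the class of `div ψ / n`. -/
def divCls (hP : HasPrincipalDivisors k E) (n : ℕ) (hn : n ≠ 0) (ψ : E)
    (hd : ∀ z : Place k E, (n : ℤ) ∣ z.ord ψ) : Divisor.degZero (K := k) (F := E) :=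
  ⟨divDiv hP n ψ, Divisor.mem_degZero.mpr (degree_divDiv hP n hn ψ hd)⟩

theorem coe_divCls (hP : HasPrincipalDivisors k E) (n : ℕ) (hn : n ≠ 0) (ψ : E)
    (hd : ∀ z : Place k E, (n : ℤ) ∣ z.ord ψ) :
    ((divCls hP n hn ψ hd : Divisor.degZero (K := k) (F := E)) : Divisor k E) = divDiv hP n ψ :=
  rfl

/-- `n [div ψ / n] = 0`. -/
theorem nsmul_mk_divCls (hP : HasPrincipalDivisors k E) (n : ℕ) (hn : n ≠ 0) {ψ : E}
    (hψ : ψ ≠ 0) (hd : ∀ z : Place k E, (n : ℤ) ∣ z.ord ψ) :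
    n • (Pic0.mk (divCls hP n hn ψ hd) : Pic0 k E) = 0 := by
  have h0 : n • (Pic0.mk (divCls hP n hn ψ hd) : Pic0 k E) = Pic0.mk (n • divCls hP n hn ψ hd) :=
    rfl
  rw [h0, h50_mk_eq_zero_iff]
  refine ⟨ψ, hψ, fun z => ?_⟩
  rw [AddSubgroup.coe_nsmul, coe_divCls, Finsupp.smul_apply, nsmul_eq_mul,
    mul_divDiv_apply hP n ψ hd]

/-- **The relation between the two classes.**  If `ψ₁ · φb ψ₂ = b hⁿ` then
`[div ψ₁ / n] + φb [div ψ₂ / n] = 0`. -/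
theorem mk_add_smul_mk_eq_zero (hP : HasPrincipalDivisors k E) (φb : SemilinearAut k E)
    (n : ℕ) (hn : n ≠ 0) {ψ₁ ψ₂ h : E} (hψ₁ : ψ₁ ≠ 0) (hψ₂ : ψ₂ ≠ 0) (hh : h ≠ 0)
    {b : k} (hb : b ≠ 0)
    (hd₁ : ∀ z : Place k E, (n : ℤ) ∣ z.ord ψ₁) (hd₂ : ∀ z : Place k E, (n : ℤ) ∣ z.ord ψ₂)
    (e₁ : ψ₁ * (φb • ψ₂) = algebraMap k E b * h ^ n) :
    (Pic0.mk (divCls hP n hn ψ₁ hd₁) : Pic0 k E) + φb • Pic0.mk (divCls hP n hn ψ₂ hd₂) = 0 := by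
  rw [SemilinearAut.pic0_smul_mk, ← Pic0.mk_add, h50_mk_eq_zero_iff]
  refine ⟨h, hh, fun z => ?_⟩
  have hnZ : (n : ℤ) ≠ 0 := by exact_mod_cast hn
  apply mul_left_cancel₀ hnZ
  have h1 : z.ord (ψ₁ * (φb • ψ₂)) = z.ord ψ₁ + (φb⁻¹ • z).ord ψ₂ := by
    rw [z.ord_mul hψ₁ (h50_smul_ne_zero φb hψ₂), h50_ord_smul]
  have h2 : z.ord (algebraMap k E b * h ^ n) = (n : ℤ) * z.ord h := by
    rw [ord_algebraMap_mul z hb, ord_pow]
  rw [AddSubgroup.coe_add, SemilinearAut.coe_degZeroSMulHom, coe_divCls, coe_divCls,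
    Finsupp.add_apply, SemilinearAut.divisor_smul_apply, mul_add,
    mul_divDiv_apply hP n ψ₁ hd₁, mul_divDiv_apply hP n ψ₂ hd₂, ← h1, e₁, h2]

/-- a power of `ψ` is an `n`-th power if a multiple of the class of `div ψ / n` vanishes. -/
theorem pow_eq_pow_of_nsmul_eq_zero [IsAlgClosed k] (HE : FFHyp k E) (n : ℕ) (hn : n ≠ 0)
    {ψ : E} (hψ : ψ ≠ 0) (hd : ∀ z : Place k E, (n : ℤ) ∣ z.ord ψ) (a : ℕ)
    (h : a • (Pic0.mk (divCls HE.principal n hn ψ hd) : Pic0 k E) = 0) :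
    ∃ w : E, w ≠ 0 ∧ ψ ^ a = w ^ n := by
  have h0 : a • (Pic0.mk (divCls HE.principal n hn ψ hd) : Pic0 k E)
      = Pic0.mk (a • divCls HE.principal n hn ψ hd) := rfl
  rw [h0, h50_mk_eq_zero_iff] at h
  obtain ⟨w, hw0, hw⟩ := h
  have hord : ∀ z : Place k E, z.ord (ψ ^ a / w ^ n) = 0 := by
    intro z
    have h1 := hw z
    rw [AddSubgroup.coe_nsmul, coe_divCls, Finsupp.smul_apply, nsmul_eq_mul] at h1
    rw [ord_div z (pow_ne_zero _ hψ) (pow_ne_zero _ hw0), ord_pow, ord_pow, ← h1,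
      ← mul_divDiv_apply HE.principal n ψ hd z]
    ring
  obtain ⟨b, hb⟩ := HE.const_of_regular (f := ψ ^ a / w ^ n) (fun z => le_of_eq (hord z).symm)
  have hb0 : b ≠ 0 := by
    rintro rfl
    rw [map_zero] at hb
    exact div_ne_zero (pow_ne_zero _ hψ) (pow_ne_zero _ hw0) hb
  obtain ⟨d, hd'⟩ := IsAlgClosed.exists_pow_nat_eq b (Nat.pos_of_ne_zero hn)
  have hd0 : d ≠ 0 := by
    rintro rfl
    rw [zero_pow hn] at hd'
    exact hb0 hd'.symm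
  refine ⟨algebraMap k E d * w, mul_ne_zero ((map_ne_zero _).mpr hd0) hw0, ?_⟩
  rw [mul_pow, ← map_pow, hd', ← hb]
  field_simp

/-- **Frobenius-fixed classes**: the conclusion for both functions. -/
theorem pow_eq_pow_of_frob [IsAlgClosed k] (HE : FFHyp k E) (φb : SemilinearAut k E) (p e : ℕ)
    (hFF : ∀ y : Pic0 k E, (φb * φb) • y = y → (∃ m : ℕ, p ^ m • y = 0) → p ^ e • y = 0)
    (j : ℕ) (hn : p ^ j ≠ 0) {ψ₁ ψ₂ hα hβ : E} (hψ₁ : ψ₁ ≠ 0) (hψ₂ : ψ₂ ≠ 0) (hα0 : hα ≠ 0)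
    (hβ0 : hβ ≠ 0) {b₁ b₂ : k} (hb₁ : b₁ ≠ 0) (hb₂ : b₂ ≠ 0)
    (hd₁ : ∀ z : Place k E, ((p ^ j : ℕ) : ℤ) ∣ z.ord ψ₁)
    (hd₂ : ∀ z : Place k E, ((p ^ j : ℕ) : ℤ) ∣ z.ord ψ₂)
    (e₁ : ψ₁ * (φb • ψ₂) = algebraMap k E b₁ * hα ^ (p ^ j))
    (e₂ : ψ₂ * (φb • ψ₁) = algebraMap k E b₂ * hβ ^ (p ^ j)) :
    (∃ w : E, w ≠ 0 ∧ ψ₁ ^ (p ^ e) = w ^ (p ^ j)) ∧
      ∃ w : E, w ≠ 0 ∧ ψ₂ ^ (p ^ e) = w ^ (p ^ j) := by
  set y₁ : Pic0 k E := Pic0.mk (divCls HE.principal (p ^ j) hn ψ₁ hd₁) with hy₁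
  set y₂ : Pic0 k E := Pic0.mk (divCls HE.principal (p ^ j) hn ψ₂ hd₂) with hy₂
  have hA : y₁ + φb • y₂ = 0 :=
    mk_add_smul_mk_eq_zero HE.principal φb (p ^ j) hn hψ₁ hψ₂ hα0 hb₁ hd₁ hd₂ e₁
  have hB : y₂ + φb • y₁ = 0 :=
    mk_add_smul_mk_eq_zero HE.principal φb (p ^ j) hn hψ₂ hψ₁ hβ0 hb₂ hd₂ hd₁ e₂
  have h1 : φb • y₁ = -y₂ := (neg_eq_of_add_eq_zero_right hB).symm
  have h2 : φb • y₂ = -y₁ := (neg_eq_of_add_eq_zero_right hA).symm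
  have hΦ₁ : (φb * φb) • y₁ = y₁ := by rw [mul_smul, h1, smul_neg, h2, neg_neg]
  have hΦ₂ : (φb * φb) • y₂ = y₂ := by rw [mul_smul, h2, smul_neg, h1, neg_neg]
  have ht₁ : p ^ j • y₁ = 0 := nsmul_mk_divCls HE.principal (p ^ j) hn hψ₁ hd₁
  have ht₂ : p ^ j • y₂ = 0 := nsmul_mk_divCls HE.principal (p ^ j) hn hψ₂ hd₂
  exact ⟨pow_eq_pow_of_nsmul_eq_zero HE (p ^ j) hn hψ₁ hd₁ (p ^ e) (hFF y₁ hΦ₁ ⟨j, ht₁⟩),
    pow_eq_pow_of_nsmul_eq_zero HE (p ^ j) hn hψ₂ hd₂ (p ^ e) (hFF y₂ hΦ₂ ⟨j, ht₂⟩)⟩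

end Frob

end Fermat.Agent.L.Pivot.H50
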