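import Fermat.Agent.L.Pivot.H50_StISlope
import Fermat.Agent.L.Pivot.H50_StIFrob
import Fermat.Agent.S35.H89_StAbs
import Fermat.Agent.S35.H89_FrobFinStmt

/-!
# PIVOT, PV-OLD (helper50): the abstract relation `τ = Q` on inertia-fixed `q`-new classes

Setting of helper89's `st_abs` (`S : SSD K F k E E`, `τ` Frobenius-like of exponent `Q`, total conservation for the two degeneracy maps), and in addition

* `I` a set of inertial automorphisms, `π` a uniformiser of the fixed field of `I`, an `I`-fixed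
  annulus coordinate of thickness `π ^ e`, `e ≠ 0`, at every node;
* `φb` acts on `k` by `a ↦ a ^ q₀`, `q₀ > 1`, and fixes a non-constant function (FROB-FIN).

`stI_abs`: there is `c` such that for every `I`-fixed `q`-new function `f` with `p ^ m ∣ div f`

  `(τ f / f ^ Q) ^ (p ^ c)` is a `p ^ m`-th power.

Proof: the slopes of `f ^ (p ^ c₁)` vanish mod `p ^ m` (`exists_slope_bound`), so the two
reductions define classes of `Pic⁰(E)[p ^ m]`, which are fixed by `φb²` by `q`-newness, hence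
killed by `p ^ e` (FROB-FIN); so the reductions of `f ^ (p ^ (c₁ + e))` are `p ^ m`-th powers and
GLUE applies.
-/

set_option autoImplicit false
set_option linter.style.haveILetI false
set_option maxHeartbeats 1000000

noncomputable section

open AlgebraicCurve

attribute [local instance] Classical.propDecidable

namespace Fermat.Agent.L.Pivot.H50

open Fermat.Agent.RED.H17 Fermat.Agent.RED Fermat.Agent.BAD Fermat.Agent.S35.H89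

/-- **The abstract relation `τ = Q` on the inertia-fixed `q`-new classes.** -/
theorem stI_abs (hG : Stmt_GlueFrobGen) (hFF : Stmt_FrobFinExp)
    {K F k E : Type} [Field K] [Field F] [Algebra K F] [Field k] [Field E] [Algebra k E]
    [IsAlgClosed K] [IsAlgClosed k]
    (S : SSD K F k E E) (H : FFHyp K F) (HE : FFHyp k E)
    (g g₁ : ℕ) (c c₁ : ℤ) (hR : IsGenus K F g c) (hRE : IsGenus k E g₁ c₁)
    (hnum : g + 1 ≤ g₁ + g₁ + S.nodes.card)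
    (τ : SemilinearAut K F) (φb : SemilinearAut k E) (τb : E →+* E)
    (Q : ℕ) (hτ : S.IsFrobLike τ τb τb Q)
    (q₀ : ℕ) (hq₀ : 1 < q₀) (hφk : ∀ a : k, SemilinearAut.baseAut φb a = a ^ q₀)
    (hφx : ∃ x : E, x ∉ Set.range (algebraMap k E) ∧ φb • x = x)
    (ρ ρ' : Place K F → Place k E) (β : Place k E → Place k E)
    (htot : ∀ (u₁ : S.c₁.V) (u₂ : S.c₂.V), S.c₁.red u₁ ≠ 0 → S.c₂.red u₂ ≠ 0 →
      (∃ a : K, (u₂ : F) = algebraMap K F a * (u₁ : F)) →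
      ∀ D : Divisor K F, (∀ P, D P = P.ord (u₁ : F)) → ∀ z : Place k E,
        Finsupp.mapDomain ρ D z = z.ord (S.c₁.red u₁) + (β z).ord (S.c₂.red u₂))
    (htot' : ∀ (u₁ : S.c₁.V) (u₂ : S.c₂.V), S.c₁.red u₁ ≠ 0 → S.c₂.red u₂ ≠ 0 →
      (∃ a : K, (u₂ : F) = algebraMap K F a * (u₁ : F)) →
      ∀ D : Divisor K F, (∀ P, D P = P.ord (u₁ : F)) → ∀ z : Place k E,
        Finsupp.mapDomain ρ' D z = z.ord (S.c₂.red u₂) + (β z).ord (S.c₁.red u₁))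
    (hβ : ∀ (z : Place k E) (ψ : E), (β z).ord ψ = z.ord (φb • ψ))
    (I : Set (SemilinearAut K F)) (hI : ∀ σ ∈ I, S.IsInertial σ)
    (π : K) (hπ0 : π ≠ 0) (hπI : ∀ σ ∈ I, SemilinearAut.baseAut σ π = π)
    (hπ : ∀ m : ℤ, S.IsCU (π ^ m) → m = 0)
    (hunr : ∀ Y : K, Y ≠ 0 → (∀ σ ∈ I, SemilinearAut.baseAut σ Y = Y) →
      ∃ m : ℤ, S.IsCU (Y / π ^ m))
    (p : ℕ) (hp : p.Prime) (hpk : (p : k) ≠ 0)
    (hcoord : ∀ s ∈ S.nodes, ∃ (e : ℕ) (t : F), e ≠ 0 ∧ S.IsAnnCoord s t (π ^ e) ∧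
      ∀ σ ∈ I, σ • t = t) :
    ∃ c' : ℕ, ∀ (m : ℕ) (f : F), f ≠ 0 →
      (∀ P : Place K F, ((p ^ m : ℕ) : ℤ) ∣ P.ord f) → (∀ σ ∈ I, σ • f = f) →
      (∃ hα : E, hα ≠ 0 ∧ ∀ D : Divisor K F, (∀ P, D P = P.ord f) →
        ∀ z : Place k E, Finsupp.mapDomain ρ D z = ((p ^ m : ℕ) : ℤ) * z.ord hα) →
      (∃ hβ' : E, hβ' ≠ 0 ∧ ∀ D : Divisor K F, (∀ P, D P = P.ord f) →
        ∀ z : Place k E, Finsupp.mapDomain ρ' D z = ((p ^ m : ℕ) : ℤ) * z.ord hβ') →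
      ∃ t : F, t ^ (p ^ m) = ((τ • f) / f ^ Q) ^ (p ^ c') := by
  -- the bound for the slopes
  obtain ⟨c₀, hc₀⟩ := exists_slope_bound S H.principal H.deg_one HE I hI π hπ0 hπI hπ hunr p hp
    hcoord
  -- the FROB-FIN exponent
  have hΦk : ∀ a : k, SemilinearAut.baseAut (φb * φb) a = a ^ (q₀ * q₀) := by
    intro a
    rw [SemilinearAut.baseAut_mul, RingAut.mul_apply, hφk, hφk, ← pow_mul]
  have hΦx : ∃ x : E, x ∉ Set.range (algebraMap k E) ∧ (φb * φb) • x = x := by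
    obtain ⟨x, hx, hfix⟩ := hφx
    exact ⟨x, hx, by rw [mul_smul, hfix, hfix]⟩
  have hQ1 : 1 < q₀ * q₀ := by nlinarith
  obtain ⟨e, he⟩ := hFF k E HE g₁ c₁ hRE (φb * φb) (q₀ * q₀) hQ1 hΦk hΦx p
  refine ⟨c₀ + e, fun m f hf hdiv hfI hnewα hnewβ => ?_⟩
  set n : ℕ := p ^ m with hn
  have hn0 : n ≠ 0 := pow_ne_zero _ hp.ne_zero
  have hnk : (n : k) ≠ 0 := by
    rw [hn, Nat.cast_pow]
    exact pow_ne_zero _ hpk
  have hnZ : (n : ℤ) ≠ 0 := by exact_mod_cast hn0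
  -- scaling of `f` for the two valuations
  obtain ⟨a₁, ha₁, hm₁, hψ₁⟩ := S.c₁.exists_scale f hf
  obtain ⟨a₂, ha₂, hm₂, hψ₂⟩ := S.c₂.exists_scale f hf
  set ψ₁ : E := S.c₁.red ⟨_, hm₁⟩ with hψ₁def
  set ψ₂ : E := S.c₂.red ⟨_, hm₂⟩ with hψ₂def
  have hA₁ : algebraMap K F a₁ ≠ 0 := fun h0 => ha₁ ((map_eq_zero (algebraMap K F)).mp h0)
  have hA₂ : algebraMap K F a₂ ≠ 0 := fun h0 => ha₂ ((map_eq_zero (algebraMap K F)).mp h0)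
  have hGU₁ : S.c₁.IsGU (algebraMap K F a₁ * f) := ⟨hm₁, by rw [S.c₁.rd_of_mem hm₁]; exact hψ₁⟩
  have hGU₂ : S.c₂.IsGU (algebraMap K F a₂ * f) := ⟨hm₂, by rw [S.c₂.rd_of_mem hm₂]; exact hψ₂⟩
  have hrd₁ : S.c₁.rd (algebraMap K F a₁ * f) = ψ₁ := S.c₁.rd_of_mem hm₁
  have hrd₂ : S.c₂.rd (algebraMap K F a₂ * f) = ψ₂ := S.c₂.rd_of_mem hm₂
  have hrel : ∃ a : K, algebraMap K F a₂ * f = algebraMap K F a * (algebraMap K F a₁ * f) := by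
    refine ⟨a₂ / a₁, ?_⟩
    rw [map_div₀]
    field_simp
  have hordu : ∀ P : Place K F, P.ord (algebraMap K F a₁ * f) = P.ord f := by
    intro P
    rw [P.ord_mul hA₁ hf, ord_algebraMap, zero_add]
  -- the slopes of `f ^ (p ^ c₀)`
  have hslope := hc₀ m f a₁ a₂ hGU₁ hGU₂ hfI hdiv
  set N₀ : ℕ := p ^ c₀ with hN₀
  have hGU₁' : S.c₁.IsGU ((algebraMap K F a₁ * f) ^ N₀) := hGU₁.pow N₀
  have hGU₂' : S.c₂.IsGU ((algebraMap K F a₂ * f) ^ N₀) := hGU₂.pow N₀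
  have hrd₁' : S.c₁.rd ((algebraMap K F a₁ * f) ^ N₀) = ψ₁ ^ N₀ := by
    rw [S.c₁.rd_pow hm₁, hrd₁]
  have hrd₂' : S.c₂.rd ((algebraMap K F a₂ * f) ^ N₀) = ψ₂ ^ N₀ := by
    rw [S.c₂.rd_pow hm₂, hrd₂]
  have hdiv' : ∀ P : Place K F, (n : ℤ) ∣ P.ord ((algebraMap K F a₁ * f) ^ N₀) := by
    intro P
    rw [ord_pow, hordu]
    exact Dvd.dvd.mul_left (hdiv P) _
  have hslope' : ∀ s ∈ S.nodes, (n : ℤ) ∣ s.1.ord (S.c₁.rd ((algebraMap K F a₁ * f) ^ N₀)) := by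
    intro s hs
    rw [hrd₁', ord_pow, ← hrd₁]
    exact hslope s hs
  have hrel' : ∃ a : K, (algebraMap K F a₂ * f) ^ N₀
      = algebraMap K F a * (algebraMap K F a₁ * f) ^ N₀ := by
    obtain ⟨a, ha⟩ := hrel
    exact ⟨a ^ N₀, by rw [ha, mul_pow, map_pow]⟩
  have hd₁ : ∀ z : Place k E, (n : ℤ) ∣ z.ord (ψ₁ ^ N₀) := by
    intro z
    rw [← hrd₁']
    exact S.dvd_ord_rd₁ H.principal hGU₁' hdiv' hslope' z
  have hd₂ : ∀ z : Place k E, (n : ℤ) ∣ z.ord (ψ₂ ^ N₀) := by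
    intro z
    rw [← hrd₂']
    exact dvd_ord_rd₂_of_slopes S H.principal hGU₁' hGU₂' hrel' hdiv' hslope' z
  -- the two norm relations (as in `st_abs`)
  obtain ⟨hα, hα0, hαD⟩ := hnewα
  obtain ⟨hβ', hβ0, hβD⟩ := hnewβ
  have hφψ₁ : φb • ψ₁ ≠ 0 := smul_ne_zero_of_ne_zero φb hψ₁
  have hφψ₂ : φb • ψ₂ ≠ 0 := smul_ne_zero_of_ne_zero φb hψ₂
  have hN₁ : ∀ z : Place k E, z.ord (ψ₁ * (φb • ψ₂) / hα ^ n) = 0 := by
    intro z
    have h1 := htot ⟨_, hm₁⟩ ⟨_, hm₂⟩ hψ₁ hψ₂ hrel (dv H.principal f)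
      (fun P => by rw [dv_apply]; exact (hordu P).symm) z
    have h2 := hαD (dv H.principal f) (fun P => dv_apply H.principal f P) z
    rw [h2, hβ] at h1
    rw [ord_div z (mul_ne_zero hψ₁ hφψ₂) (pow_ne_zero _ hα0), z.ord_mul hψ₁ hφψ₂, ord_pow]
    change (n : ℤ) * z.ord hα = z.ord ψ₁ + z.ord (φb • ψ₂) at h1
    omega
  have hN₂ : ∀ z : Place k E, z.ord (ψ₂ * (φb • ψ₁) / hβ' ^ n) = 0 := by
    intro z
    have h1 := htot' ⟨_, hm₁⟩ ⟨_, hm₂⟩ hψ₁ hψ₂ hrel (dv H.principal f)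
      (fun P => by rw [dv_apply]; exact (hordu P).symm) z
    have h2 := hβD (dv H.principal f) (fun P => dv_apply H.principal f P) z
    rw [h2, hβ] at h1
    rw [ord_div z (mul_ne_zero hψ₂ hφψ₁) (pow_ne_zero _ hβ0), z.ord_mul hψ₂ hφψ₁, ord_pow]
    change (n : ℤ) * z.ord hβ' = z.ord ψ₂ + z.ord (φb • ψ₁) at h1
    omega
  obtain ⟨b₁, hb₁0, hb₁⟩ := const_of_ord_eq_zero HE
    (div_ne_zero (mul_ne_zero hψ₁ hφψ₂) (pow_ne_zero _ hα0)) hN₁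
  obtain ⟨b₂, hb₂0, hb₂⟩ := const_of_ord_eq_zero HE
    (div_ne_zero (mul_ne_zero hψ₂ hφψ₁) (pow_ne_zero _ hβ0)) hN₂
  have e₁ : ψ₁ * (φb • ψ₂) = algebraMap k E b₁ * hα ^ n := by
    rw [← hb₁]
    field_simp
  have e₂ : ψ₂ * (φb • ψ₁) = algebraMap k E b₂ * hβ' ^ n := by
    rw [← hb₂]
    field_simp
  -- the relations for the `N₀`-th powers
  have e₁' : ψ₁ ^ N₀ * (φb • ψ₂ ^ N₀) = algebraMap k E (b₁ ^ N₀) * (hα ^ N₀) ^ n := by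
    rw [smul_pow', ← mul_pow, e₁, mul_pow, map_pow, ← pow_mul, ← pow_mul, mul_comm n N₀]
  have e₂' : ψ₂ ^ N₀ * (φb • ψ₁ ^ N₀) = algebraMap k E (b₂ ^ N₀) * (hβ' ^ N₀) ^ n := by
    rw [smul_pow', ← mul_pow, e₂, mul_pow, map_pow, ← pow_mul, ← pow_mul, mul_comm n N₀]
  -- FROB-FIN
  obtain ⟨⟨w₁, hw₁0, hw₁⟩, ⟨w₂, hw₂0, hw₂⟩⟩ := pow_eq_pow_of_frob HE φb p e he m hn0
    (pow_ne_zero N₀ hψ₁) (pow_ne_zero N₀ hψ₂) (pow_ne_zero N₀ hα0) (pow_ne_zero N₀ hβ0)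
    (pow_ne_zero N₀ hb₁0) (pow_ne_zero N₀ hb₂0) hd₁ hd₂ e₁' e₂'
  -- GLUE for `f ^ (p ^ (c₀ + e))`
  set N : ℕ := p ^ (c₀ + e) with hN
  have hNeq : N = N₀ * p ^ e := by rw [hN, hN₀, pow_add]
  have hmem₁ : algebraMap K F (a₁ ^ N) * f ^ N ∈ S.c₁.V := by
    rw [map_pow, ← mul_pow]
    exact S.c₁.V.pow_mem hm₁ N
  have hmem₂ : algebraMap K F (a₂ ^ N) * f ^ N ∈ S.c₂.V := by
    rw [map_pow, ← mul_pow]
    exact S.c₂.V.pow_mem hm₂ N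
  have hr₁ : S.c₁.rd (algebraMap K F (a₁ ^ N) * f ^ N) = w₁ ^ n := by
    rw [map_pow, ← mul_pow, S.c₁.rd_pow hm₁, hrd₁, hNeq, pow_mul, hw₁]
  have hr₂ : S.c₂.rd (algebraMap K F (a₂ ^ N) * f ^ N) = w₂ ^ n := by
    rw [map_pow, ← mul_pow, S.c₂.rd_pow hm₂, hrd₂, hNeq, pow_mul, hw₂]
  have hdivN : ∀ P : Place K F, (n : ℤ) ∣ P.ord (f ^ N) := by
    intro P
    rw [ord_pow]
    exact Dvd.dvd.mul_left (hdiv P) _
  obtain ⟨t, ht⟩ := hG K F k E E S H HE HE g g₁ g₁ c c₁ c₁ hR hRE hRE hnum n hnk τ τb τb Q hτ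
    (f ^ N) (a₁ ^ N) (a₂ ^ N) w₁ w₂ hw₁0 hw₂0 hmem₁ hr₁ hmem₂ hr₂ hdivN
  refine ⟨t, ?_⟩
  rw [ht, smul_pow', div_pow, ← pow_mul, ← pow_mul, mul_comm Q N]

end Fermat.Agent.L.Pivot.H50
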