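import Mathlib

/-!
# PIVOT, PV-OLD (helper50): the arithmetic of the slopes

`slopes_arith`: `N` a finite nonempty set, `e s` nonzero natural numbers.  There is `c` such
that for every `k` and every family of integers `m s` with
`e s * m s ≡ e s' * m s' mod p ^ k` (all `s, s' ∈ N`) and `∑ s ∈ N, m s ≡ 0 mod p ^ k`,
all `p ^ c * m s` are divisible by `p ^ k`.  (`c` is the valuation of
`(∑ s, ∏ s' ≠ s, e s') * ∏ s, e s`; "the component group is finite".)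
-/

set_option autoImplicit false

namespace Fermat.Agent.L.Pivot.H50

open Finset

theorem slopes_arith {ι : Type*} [DecidableEq ι] (N : Finset ι) (e : ι → ℕ) (p : ℕ)
    (hp : p.Prime) (he : ∀ s ∈ N, e s ≠ 0) (hN : N.Nonempty) :
    ∃ c : ℕ, ∀ (k : ℕ) (m : ι → ℤ),
      (∀ s ∈ N, ∀ s' ∈ N, ((p ^ k : ℕ) : ℤ) ∣ (e s : ℤ) * m s - (e s' : ℤ) * m s') →
      ((p ^ k : ℕ) : ℤ) ∣ ∑ s ∈ N, m s →
      ∀ s ∈ N, ((p ^ k : ℕ) : ℤ) ∣ ((p ^ c : ℕ) : ℤ) * m s := by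
  classical
  have he0 : ∀ s ∈ N, e s ≠ 0 := he
  set d : ℕ := ∑ s ∈ N, ∏ s' ∈ N.erase s, e s' with hd
  have hd0 : d ≠ 0 := by
    obtain ⟨s₀, hs₀⟩ := hN
    have hpos : 0 < ∏ s' ∈ N.erase s₀, e s' :=
      Finset.prod_pos fun s' hs' => Nat.pos_of_ne_zero (he0 s' (Finset.mem_of_mem_erase hs'))
    have hle : ∏ s' ∈ N.erase s₀, e s' ≤ d :=
      Finset.single_le_sum (f := fun s => ∏ s' ∈ N.erase s, e s') (fun _ _ => Nat.zero_le _) hs₀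
    omega
  have hE0 : ∏ s ∈ N, e s ≠ 0 := Finset.prod_ne_zero_iff.mpr he0
  have hdE0 : d * ∏ s ∈ N, e s ≠ 0 := Nat.mul_ne_zero hd0 hE0
  obtain ⟨c, d', hd', hdeq⟩ := Nat.exists_eq_pow_mul_and_not_dvd hdE0 p hp.ne_one
  refine ⟨c, fun k m hcong hsum s₀ hs₀ => ?_⟩
  set n : ℤ := ((p ^ k : ℕ) : ℤ) with hn
  set E : ℤ := ∏ s ∈ N, (e s : ℤ) with hE
  have hEs : ∀ s ∈ N, (e s : ℤ) * ∏ s' ∈ N.erase s, (e s' : ℤ) = E := fun s hs =>
    Finset.mul_prod_erase N (fun s => (e s : ℤ)) hs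
  -- the key identity
  have key : (d : ℤ) * ((e s₀ : ℤ) * m s₀) =
      ∑ s ∈ N, (∏ s' ∈ N.erase s, (e s' : ℤ)) * ((e s₀ : ℤ) * m s₀ - (e s : ℤ) * m s)
        + E * ∑ s ∈ N, m s := by
    rw [Finset.mul_sum, ← Finset.sum_add_distrib, hd]
    push_cast
    rw [Finset.sum_mul]
    refine Finset.sum_congr rfl fun s hs => ?_
    rw [← hEs s hs]
    ring
  have h1 : n ∣ (d : ℤ) * ((e s₀ : ℤ) * m s₀) := by
    rw [key]
    refine dvd_add (Finset.dvd_sum fun s hs => ?_) (Dvd.dvd.mul_left hsum _)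
    exact Dvd.dvd.mul_left (hcong s₀ hs₀ s hs) _
  -- coprimality
  have hpZ : Prime (p : ℤ) := Nat.prime_iff_prime_int.mp hp
  have hnd : ¬ (p : ℤ) ∣ (d' : ℤ) := fun h => hd' (Int.natCast_dvd_natCast.mp h)
  have hco : IsCoprime n (d' : ℤ) := by
    rw [hn]
    push_cast
    exact IsCoprime.pow_left ((Prime.coprime_iff_not_dvd hpZ).mpr hnd)
  have h2 : n ∣ (d' : ℤ) * (((p ^ c : ℕ) : ℤ) * m s₀) := by
    have e1 : (d' : ℤ) * (((p ^ c : ℕ) : ℤ) * m s₀)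
        = (∏ s' ∈ N.erase s₀, (e s' : ℤ)) * ((d : ℤ) * ((e s₀ : ℤ) * m s₀)) := by
      have h3 : ((d * ∏ s ∈ N, e s : ℕ) : ℤ) = (d : ℤ) * E := by
        rw [hE]
        push_cast
        rfl
      have h4 : ((p ^ c * d' : ℕ) : ℤ) = ((p ^ c : ℕ) : ℤ) * (d' : ℤ) := by push_cast; rfl
      have h5 : ((p ^ c : ℕ) : ℤ) * (d' : ℤ) = (d : ℤ) * E := by
        rw [← h4, ← h3, hdeq]
      calc (d' : ℤ) * (((p ^ c : ℕ) : ℤ) * m s₀)
          = (((p ^ c : ℕ) : ℤ) * (d' : ℤ)) * m s₀ := by ring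
        _ = ((d : ℤ) * E) * m s₀ := by rw [h5]
        _ = ((d : ℤ) * ((e s₀ : ℤ) * ∏ s' ∈ N.erase s₀, (e s' : ℤ))) * m s₀ := by
            rw [hEs s₀ hs₀]
        _ = _ := by ring
    rw [e1]
    exact Dvd.dvd.mul_left h1 _
  exact hco.dvd_of_dvd_mul_left h2

end Fermat.Agent.L.Pivot.H50
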