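import Fermat.Agent.L.Pivot.H50_TX
import Fermat.Agent.S35.H44_DescSt
import Fermat.Agent.S36.H61_B0
attribute [local instance 10000] SubalgebraClass.toAlgebra
attribute [local instance 10000] HahnSeries.powerSeriesAlgebra

/-!
# PIVOT, PV-OLD (helper50): the Kummer form `Stmt_StICore` of (StI) and its level descent

`Stmt_StICore M q p` (`q ∤ M` is not assumed here): for every valuation ring `A` of `ℚ̄` over `q`
and every Frobenius `σ` at `A` there is `c` such that for every `m` and every function `f ≠ 0` of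
level `M q` with

* `p ^ m ∣ div f`,
* `f` fixed by the inertia group of `A` (coefficientwise action `galF`),
* the push-forwards of `div f` along the two degeneracy maps to level `M` are `p ^ m · div g`,
  `p ^ m · div g'`,

the function `((σ² f) / f ^ (q²)) ^ (p ^ c)` is a `p ^ m`-th power in `F_{M q} · ℚ̄`.

* `torsStI_of_core : Stmt_StICore M q p → Stmt_TorsStI M q p` (Hilbert 90 descent `stmt_NUB0`);
* `stICore_descend_gen : Stmt_StICore (r * M) q p → Stmt_StICore M q p` for `r ∣ 36`, `q ∤ r`;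
* `stICore_all`, `torsStI_all`: from the thin levels
  (`6 ∣ M` for `q ≥ 5`, `4 ∣ M` for `q = 3`, `9 ∣ M` for `q = 2`).
-/

set_option autoImplicit false
set_option linter.style.haveILetI false
set_option linter.unusedSectionVars false
set_option maxHeartbeats 1000000

noncomputable section

namespace Fermat.Agent.L.Pivot.H50

open AlgebraicCurve ModularCurve Fermat.Agent.S24 Fermat.Agent.Lib.HeckeComm
  Fermat.Agent.S36.H44 Fermat.Agent.BAD Fermat.Agent.S35.H89 Fermat.Agent.S35.H44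

local notation "Kb" => AlgebraicClosure ℚ

/-- **Kummer form of (StI)** at `(M, q, p)`. -/
def Stmt_StICore (M q p : ℕ) [NeZero M] [NeZero q] : Prop :=
  ∀ A : ValuationSubring Kb, A.LiesOverPrime q → ∀ σ : GalQ, A.IsFrobeniusAt σ q →
    ∃ c : ℕ, ∀ (m : ℕ) (f : ↥(FNbar (M * q))), f ≠ 0 →
      (∀ P : Place Kb ↥(FNbar (M * q)), ((p ^ m : ℕ) : ℤ) ∣ P.ord f) →
      (∀ τ ∈ A.inertiaSubgroupIn ℚ, galF (M * q) τ • f = f) →
    ∀ (hα : HeckeAlphaBarIntegral Kb M q) (hβ : HeckeBetaBarIntegral Kb M q)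
      (D : Divisor Kb ↥(FNbar (M * q))), (∀ P, D P = P.ord f) →
      (∃ g : ↥(FNbar M), g ≠ 0 ∧ ∀ Q : Place Kb ↥(FNbar M),
        Divisor.pushforwardAlong (heckeAlphaBar Kb M q) hα D Q = (p ^ m : ℕ) * Q.ord g) →
      (∃ g : ↥(FNbar M), g ≠ 0 ∧ ∀ Q : Place Kb ↥(FNbar M),
        Divisor.pushforwardAlong (heckeBetaBar Kb M q) hβ D Q = (p ^ m : ℕ) * Q.ord g) →
      ∃ t : ↥(FNbar (M * q)), t ^ (p ^ m) =
        ((galF (M * q) (σ * σ) • f) / f ^ (q ^ 2)) ^ (p ^ c)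

/-- **`Stmt_TorsStI` from the Kummer form** (Hilbert 90 descent B0 of helper61). -/
theorem torsStI_of_core (M q p : ℕ) [NeZero M] [NeZero q] (hS : Stmt_StICore M q p) :
    Stmt_TorsStI M q p := by
  intro hq hqM hp hqp A hA σ hσ
  obtain ⟨c, hc⟩ := hS A hA σ hσ
  refine ⟨c, ?_⟩
  intro x hx hnew hI
  obtain ⟨m, hm⟩ := hx
  obtain ⟨D, h, hh0, rfl, hDh, -, hhI, -, -⟩ :=
    Fermat.Agent.S36.H61.stmt_NUB0 (M * q) (A.inertiaSubgroupIn ℚ) (p ^ m) x hm hI
  obtain ⟨hpa, hpb⟩ := (isQNew_iff M q _).mp hnew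
  have hDα := (pic0Push_mk_eq_zero_iff _ _ _ _ D).mp hpa
  have hDβ := (pic0Push_mk_eq_zero_iff _ _ _ _ D).mp hpb
  set n : ℕ := p ^ m with hn
  have hn0 : n ≠ 0 := pow_ne_zero _ hp.ne_zero
  have hnZ : (n : ℤ) ≠ 0 := by exact_mod_cast hn0
  -- the divisor of `h`
  set Df : Divisor Kb ↥(FNbar (M * q)) := (n : ℤ) • (D : Divisor Kb ↥(FNbar (M * q))) with hDf
  have hDf' : ∀ P, Df P = P.ord h := by
    intro P
    rw [← hDh P, hDf]
    simp
  have hdiv : ∀ P : Place Kb ↥(FNbar (M * q)), (n : ℤ) ∣ P.ord h :=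
    fun P => ⟨_, (hDh P).symm⟩
  have hpush : ∀ (φ : ↥(FNbar M) →ₐ[Kb] ↥(FNbar (M * q))) (hφ : φ.toRingHom.IsIntegral),
      (Divisor.pushforwardAlong φ hφ (D : Divisor Kb ↥(FNbar (M * q)))).IsPrincipal →
      ∃ g : ↥(FNbar M), g ≠ 0 ∧ ∀ Q : Place Kb ↥(FNbar M),
        Divisor.pushforwardAlong φ hφ Df Q = n * Q.ord g := by
    rintro φ hφ ⟨g, hg0, hg⟩
    refine ⟨g, hg0, fun Q => ?_⟩
    rw [hDf, map_zsmul, Finsupp.smul_apply, smul_eq_mul, hg Q]
  obtain ⟨t, ht⟩ := hc m h hh0 hdiv hhI (alpha_integral M q) (beta_integral M q) Df hDf'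
    (hpush _ _ hDα) (hpush _ _ hDβ)
  -- the class
  set τ : SemilinearAut Kb ↥(FNbar (M * q)) := galF (M * q) (σ * σ) with hτdef
  have hσ2 : ∀ y : JZero (M * q), σ • σ • y = τ • y := by
    intro y
    rw [← mul_smul]
    rfl
  have hτh0 : τ • h ≠ 0 := smul_ne_zero_of_ne_zero τ hh0
  have hR0 : (τ • h) / h ^ (q ^ 2) ≠ 0 := div_ne_zero hτh0 (pow_ne_zero _ hh0)
  have ht0 : t ≠ 0 := by
    rintro rfl
    rw [zero_pow hn0] at ht
    exact pow_ne_zero _ hR0 ht.symm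
  rw [hσ2, SemilinearAut.pic0_smul_mk, ← Fermat.Agent.S35.H89.pic0_mk_nsmul,
    ← Fermat.Agent.S35.H89.pic0_mk_sub, ← Fermat.Agent.S35.H89.pic0_mk_nsmul,
    Fermat.Agent.S35.H89.pic0_mk_eq_zero_iff]
  refine ⟨t, ht0, fun P => ?_⟩
  have hordτ : ∀ (P : Place Kb ↥(FNbar (M * q))) (y : ↥(FNbar (M * q))),
      P.ord (τ • y) = (τ⁻¹ • P).ord y := fun P y => ord_smul_eq τ P y
  have h1 : (n : ℤ) * P.ord t = (p ^ c : ℕ) * P.ord ((τ • h) / h ^ (q ^ 2)) := by
    rw [← Fermat.Agent.RED.H17.ord_pow, ← Fermat.Agent.RED.H17.ord_pow, ht]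
  rw [Fermat.Agent.RED.H17.ord_div P hτh0 (pow_ne_zero _ hh0), Fermat.Agent.RED.H17.ord_pow,
    hordτ, ← hDh, ← hDh] at h1
  apply mul_left_cancel₀ hnZ
  rw [h1]
  simp only [AddSubgroup.coe_sub, AddSubgroup.coe_nsmul,
    SemilinearAut.coe_degZeroSMulHom, Finsupp.sub_apply, Finsupp.smul_apply,
    SemilinearAut.divisor_smul_apply, nsmul_eq_mul]
  push_cast
  ring

/-- **DESC-StI**: the Kummer form of (StI) descends from level `r M q` to level `M q`
(`r ∣ 36`, `q ∤ r`). -/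
theorem stICore_descend_gen (M q p r : ℕ) [NeZero M] [NeZero q] [NeZero r] (hq : q.Prime)
    (hp : p.Prime) (hqM : ¬ q ∣ M) (hr36 : r ∣ 36) (hqr : ¬ q ∣ r)
    (h : Stmt_StICore (r * M) q p) : Stmt_StICore M q p := by
  intro A hA σ hσ
  obtain ⟨c, hc⟩ := h A hA σ hσ
  refine ⟨c, ?_⟩
  intro m f hf0 hdiv hI hαI hβI D hD hDα hDβ
  obtain ⟨g, hg0, hg⟩ := hDα
  obtain ⟨g', hg'0, hg'⟩ := hDβ
  set n : ℕ := p ^ m with hn
  have hn0 : 0 < n := pow_pos hp.pos m
  -- the function at the upper level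
  have hf'0 : inclUp M q r f ≠ 0 := fun h0 =>
    hf0 ((inclUp M q r).toRingHom.injective (by simpa using h0))
  set f' : FN (r * M * q) := inclUp M q r f with hf'
  have hdiv' : ∀ P' : Place Kb (FN (r * M * q)), (n : ℤ) ∣ P'.ord f' := by
    intro P'
    rw [hf', Place.ord_restrictAlong (inclUp M q r) (inclUp_integral M q r)]
    exact Dvd.dvd.mul_left (hdiv _) _
  have hI' : ∀ τ ∈ A.inertiaSubgroupIn ℚ, galF (r * M * q) τ • f' = f' := by
    intro τ hτ
    rw [hf', ← inclUp_galF, hI τ hτ]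
  haveI := hasPrincipalDivisors_FN (r * M * q)
  obtain ⟨D', hD', -⟩ := HasPrincipalDivisors.exists_divisor (K := Kb) f' hf'0
  have hinj : ∀ x : FN M, x ≠ 0 → inclLo M r x ≠ 0 := fun x hx h0 =>
    hx ((inclLo M r).toRingHom.injective (by simpa using h0))
  obtain ⟨t', ht'⟩ := hc m f' hf'0 hdiv' hI' (alpha_integral (r * M) q)
    (beta_integral (r * M) q) D' hD'
    ⟨inclLo M r g, hinj g hg0, fun Q' =>
      push_up M q r (heckeAlphaBar Kb M q) (heckeAlphaBar Kb (r * M) q) hαI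
        (alpha_integral (r * M) q) (norm_alpha_up M q r hq hqM hqr) n f hf0 D hD g hg D' hD' Q'⟩
    ⟨inclLo M r g', hinj g' hg'0, fun Q' =>
      push_up M q r (heckeBetaBar Kb M q) (heckeBetaBar Kb (r * M) q) hβI
        (beta_integral (r * M) q) (norm_beta_up M q r hq hqM hqr) n f hf0 D hD g' hg' D' hD' Q'⟩
  -- the right hand side at level `M q`
  set τ : SemilinearAut Kb (FN (M * q)) := galF (M * q) (σ * σ) with hτ
  set R : FN (M * q) := ((τ • f) / f ^ (q ^ 2)) ^ (p ^ c) with hR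
  have hτf0 : τ • f ≠ 0 := smul_ne_zero_of_ne_zero τ hf0
  have hdivR : ∀ P : Place Kb (FN (M * q)), (n : ℤ) ∣ P.ord R := by
    intro P
    rw [hR, Fermat.Agent.RED.H17.ord_pow, div_eq_mul_inv,
      Place.ord_mul _ hτf0 (inv_ne_zero (pow_ne_zero _ hf0)), Place.ord_inv,
      Fermat.Agent.RED.H17.ord_pow]
    have h2 : (n : ℤ) ∣ P.ord f := hdiv P
    have h3 : (n : ℤ) ∣ P.ord (τ • f) := by
      rw [hτ, Fermat.Agent.BAD.H91.ord_galF_smul]
      exact hdiv _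
    exact Dvd.dvd.mul_left (dvd_add h3 ((dvd_neg).2 (Dvd.dvd.mul_left h2 _))) _
  have hup : inclUp M q r R
      = ((galF (r * M * q) (σ * σ) • f') / f' ^ (q ^ 2)) ^ (p ^ c) := by
    rw [hR, map_pow, map_div₀, map_pow, hτ, inclUp_galF]
  have hM36 : r * M * q ∣ 36 * (M * q) := by
    obtain ⟨c, hc⟩ := hr36
    exact ⟨c, by rw [hc]; ring⟩
  refine Fermat.Agent.RED.KD.H22.stmt_KD (M * q) (r * M * q) n (dvd_up M q r) hM36 hn0 R hdivR
    ⟨(t' : LaurentSeries Kb), t'.2, ?_⟩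
  have h3 := congrArg (Subtype.val : FN (r * M * q) → LaurentSeries Kb) (ht'.trans hup.symm)
  have h4 : ((t' : FN (r * M * q)) : LaurentSeries Kb) ^ n
      = ((inclUp M q r R : FN (r * M * q)) : LaurentSeries Kb) := h3
  rw [h4, coe_inclUp]

/-- The **thin levels**: no supersingular point of `X₀(M)` in characteristic `q` has an extra
automorphism (helper60's `S43.CompEis.H60.Thin`). -/
def ThinLevel (M q : ℕ) : Prop := (5 ≤ q ∧ 6 ∣ M) ∨ (q = 3 ∧ 4 ∣ M) ∨ (q = 2 ∧ 9 ∣ M)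

/-- **The Kummer form of (StI) at every `(M, q)`, `q ∤ M`, from the thin levels.** -/
theorem stICore_all (q p : ℕ) [NeZero q] (hq : q.Prime) (hp : p.Prime)
    (h : ∀ (M : ℕ) [NeZero M], ¬ q ∣ M → ThinLevel M q → Stmt_StICore M q p)
    (M : ℕ) [NeZero M] (hqM : ¬ q ∣ M) : Stmt_StICore M q p := by
  have key : ∀ r : ℕ, r ∣ 36 → r ≠ 0 → ¬ q ∣ r → ThinLevel (r * M) q → Stmt_StICore M q p := by
    intro r hr36 hr0 hqr hthin
    haveI : NeZero r := ⟨hr0⟩
    refine stICore_descend_gen M q p r hq hp hqM hr36 hqr (h (r * M) ?_ hthin)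
    intro hd
    rcases (Nat.Prime.dvd_mul hq).mp hd with h1 | h1
    · exact hqr h1
    · exact hqM h1
  by_cases h5 : 5 ≤ q
  · refine key 6 (by norm_num) (by norm_num) ?_ (Or.inl ⟨h5, dvd_mul_right 6 M⟩)
    intro hd
    have := Nat.le_of_dvd (by norm_num) hd
    have h6 : q = 5 ∨ q = 6 := by omega
    rcases h6 with h6 | h6
    · rw [h6] at hd
      norm_num at hd
    · rw [h6] at hq
      exact absurd hq (by norm_num)
  have hq2 : 2 ≤ q := hq.two_le
  have h23 : q = 2 ∨ q = 3 ∨ q = 4 := by omega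
  rcases h23 with h23 | h23 | h23
  · refine key 9 (by norm_num) (by norm_num) ?_ (Or.inr (Or.inr ⟨h23, dvd_mul_right 9 M⟩))
    rw [h23]
    norm_num
  · refine key 4 (by norm_num) (by norm_num) ?_ (Or.inr (Or.inl ⟨h23, dvd_mul_right 4 M⟩))
    rw [h23]
    norm_num
  · rw [h23] at hq
    exact absurd hq (by norm_num)

/-- **`Stmt_TorsStI` at every level from the Kummer form at the thin levels.** -/
theorem torsStI_all
    (h : ∀ (M q p : ℕ) [NeZero M] [NeZero q], q.Prime → ¬ q ∣ M → p.Prime → q ≠ p →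
      ThinLevel M q → Stmt_StICore M q p)
    (M q p : ℕ) [NeZero M] [NeZero q] : Stmt_TorsStI M q p := by
  intro hq hqM hp hqp
  exact torsStI_of_core M q p
    (stICore_all q p hq hp (fun M' _ hqM' ht => h M' q p hq hqM' hp hqp ht) M hqM)
    hq hqM hp hqp

end Fermat.Agent.L.Pivot.H50
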