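import Fermat.Agent.L.Pivot.H50_StIInst
import Fermat.Agent.BADP.H11_Arith0Mod
import Fermat.Agent.L.Pivot.H50_Old

/-!
# PIVOT, PV-OLD (helper50): `Stmt_TatePieceStI` and `Stmt_PVOld`, unconditionally

* `isModDatum_theS` : helper21's modular datum `theS` is a modular datum (helper93's
  `BADP.IsModDatum`) at every tame `(M, q)` (also `q = 2, 3`);
* `stmt_K0Tame` : ARITH-0 for `theS` (helper11's `BADP.H11.isK0Lift_mod`);
* `stmt_TatePieceStI : L.Pivot.Stmt_TatePieceStI`;
* `stmt_PVOld : L.Pivot.Stmt_PVOld`.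
-/

set_option autoImplicit false
set_option linter.style.haveILetI false
set_option linter.unusedSectionVars false
set_option synthInstance.maxHeartbeats 400000
set_option maxHeartbeats 1000000

noncomputable section

open HahnSeries IntermediateField AlgebraicCurve ModularCurve
open Fermat.Agent.S28.H73 Fermat.Agent.RED.H73 Fermat.Agent.RED Fermat.Agent.S24
open Fermat.Agent.BAD.H88 Fermat.Agent.BAD

namespace Fermat.Agent.L.Pivot.H50

open Fermat.Agent.BADP

/-- helper21's modular datum is a modular datum, at every tame `(M, q)`. -/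
theorem isModDatum_theS (A : ValuationSubring Kbar) (q M : ℕ) (a b : ℤ)
    (hab : a * q + b * M = 1) (hq : q.Prime) [NeZero M] [NeZero (M * q)] [NeZero q]
    (hA : A.LiesOverPrime q) (hqM : ¬ q ∣ M) (ht : H91.TameAt M q) :
    IsModDatum A q M a b hab hq (H21.theS A q M a b hab hq hA hqM ht) where
  mem₁ := fun _ => Iff.rfl
  red₁ := fun _ _ => rfl
  mem₂ := fun _ => Iff.rfl
  red₂ := fun _ _ _ => rfl
  ff := H21.ffL q M
  ff₁ := H21.ff1 A q M a b hab hq hA hqM ht
  genus := H21.modS_genus A q M a b hab hq hA hqM ht (H21.totModAt A q M a b hab hq hA hqM ht)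
  inertial := fun _ hσ =>
    H21.modS_inertial A q M a b hab hq hA hqM ht (H21.totModAt A q M a b hab hq hA hqM ht) hσ

/-- **ARITH-0 for the modular datum at every tame `(M, q)`** (helper11). -/
theorem stmt_K0Tame (M q : ℕ) [NeZero M] [NeZero q] : Stmt_K0Tame M q := by
  intro A a b hab hq _ hA hqM ht
  exact Fermat.Agent.BADP.H11.isK0Lift_mod hA (isModDatum_theS A q M a b hab hq hA hqM ht) _
    (fun τ hτ => hτ)

/-- **(StI)**: the Tate piece with inertia invariants, unconditionally. -/
theorem stmt_TatePieceStI : Fermat.Agent.L.Pivot.Stmt_TatePieceStI :=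
  tatePieceStI_of_k0 fun M q _ _ _ _ _ => stmt_K0Tame M q

/-- **PV-OLD**, unconditionally. -/
theorem stmt_PVOld : Fermat.Agent.L.Pivot.Stmt_PVOld :=
  stmt_PVOld_of stmt_TatePieceStI

end Fermat.Agent.L.Pivot.H50
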