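import Fermat.Agent.L.Pivot.H50_StIMod
import Fermat.Agent.S35.H89_ModStAll
import Fermat.Agent.BADP.H21_CoordK0
import Fermat.Agent.BAD.H73_NormFrF1
attribute [local instance 10000] SubalgebraClass.toAlgebra
attribute [local instance 10000] HahnSeries.powerSeriesAlgebra

/-!
# PIVOT, PV-OLD (helper50): the modular datum for (StI)

`q ∤ M` tame, `A` over `q`, `S = BADP.H21.theS ..` (helper21) THE modular semistable Deuring
datum (`= (S35.H89.modTot ..).toSSD ..`, helper89, helper91).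

* `phiSemiMod_baseAut` : `φ̄` acts on the constants by `a ↦ a ^ q`;
* `phiSemiMod_fixed_nonconst` : `φ̄` fixes the non-constant function `j~`;
* `Stmt_K0Tame M q` : **ARITH-0** (helper93's `IsK0Lift`) for `theS` at `(M, q)`, the only
  hypothesis left;
* `modStI_body`, `modStI_of_k0 : Stmt_K0Tame M q → Stmt_ModStI M q p` for tame `(M, q)`;
* `tatePieceStI_of_k0 : (∀ thin (M, q), Stmt_K0Tame M q) → L.Pivot.Stmt_TatePieceStI`.
-/

set_option autoImplicit false
set_option linter.style.haveILetI false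
set_option linter.unusedSectionVars false
set_option synthInstance.maxHeartbeats 400000
set_option maxHeartbeats 1000000

noncomputable section

open HahnSeries IntermediateField AlgebraicCurve ModularCurve
open Fermat.Agent.S28.H73 Fermat.Agent.RED.H73 Fermat.Agent.RED Fermat.Agent.S24
open Fermat.Agent.BAD.H88 Fermat.Agent.BAD

namespace Fermat.Agent.L.Pivot.H50

open Fermat.Agent.S35.H89 Fermat.Agent.BADP

section Frob

variable (A : ValuationSubring Kbar) (q M : ℕ) (a b : ℤ) (hab : a * q + b * M = 1)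
  (hq : q.Prime) [NeZero M] [NeZero (M * q)] (hA : A.LiesOverPrime q)

/-- `φ̄` acts on the constants by `a ↦ a ^ q`. -/
theorem phiSemiMod_baseAut (x : kV A) :
    SemilinearAut.baseAut (phiSemiMod A q M a b hab hq hA) x = x ^ q := by
  haveI : Fact q.Prime := ⟨hq⟩
  haveI := BAD.H82.charP_kV A hq hA
  haveI := BAD.H73.perfectRing_kV A q
  show frobeniusEquiv (kV A) q x = x ^ q
  exact frobeniusEquiv_apply (kV A) q x

/-- `φ̄` fixes the non-constant function `j~`. -/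
theorem phiSemiMod_fixed_nonconst :
    ∃ x : F1 A q M, x ∉ Set.range (algebraMap (kV A) (F1 A q M)) ∧
      phiSemiMod A q M a b hab hq hA • x = x := by
  have hD := H82.redField_eq_fullC q M a b hab hq A hA
  refine ⟨⟨jqModC (kV A), BAD.H73.jqModC_mem_F1 A q M M hD⟩, ?_, ?_⟩
  · rintro ⟨c, hc⟩
    have h1 : algebraMap (kV A) (LaurentSeries (kV A)) c = jqModC (kV A) :=
      congrArg Subtype.val hc
    exact transcendental_jqModC (kV A) (h1 ▸ isAlgebraic_algebraMap c)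
  · rw [phiSemiMod_smul]
    apply Subtype.ext
    haveI : Fact q.Prime := ⟨hq⟩
    haveI := BAD.H82.charP_kV A hq hA
    haveI := BAD.H73.perfectRing_kV A q
    show BAD.H73.frobL (kV A) q (jqModC (kV A)) = jqModC (kV A)
    rw [BAD.H73.frobL_eq_coeffMap]
    exact coeffMap_jqModC' _

end Frob

section Body

variable (A : ValuationSubring Kbar) (q M : ℕ) (a b : ℤ) (hab : a * q + b * M = 1)
  (hq : q.Prime) [NeZero M] [NeZero (M * q)] [NeZero q] (hA : A.LiesOverPrime q)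
  (hqM : ¬ q ∣ M) (ht : H91.TameAt M q)

/-- The body of `Stmt_ModStI M q p` at `A`, `σ`, for `q ∤ M` tame, from ARITH-0. -/
theorem modStI_body
    (hK0 : IsK0Lift (H21.theS A q M a b hab hq hA hqM ht) (H21.inertiaSet A (M * q)))
    (σ : GalQ) (hσ : A.IsFrobeniusAt σ q) :
    ∃ (E : Type) (_ : Field E) (_ : Algebra (kV A) E)
      (S : SSD Kbar ↥(FNbar (M * q)) (kV A) E E)
      (_ : RED.H17.FFHyp Kbar ↥(FNbar (M * q))) (_ : RED.H17.FFHyp (kV A) E)
      (g g₁ : ℕ) (c c₁ : ℤ) (φb : SemilinearAut (kV A) E) (τb : E →+* E)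
      (ρ ρ' : Place Kbar ↥(FNbar (M * q)) → Place (kV A) E)
      (β : Place (kV A) E → Place (kV A) E),
      RED.H17.IsGenus Kbar ↥(FNbar (M * q)) g c ∧ RED.H17.IsGenus (kV A) E g₁ c₁ ∧
      g + 1 ≤ g₁ + g₁ + S.nodes.card ∧
      S.IsFrobLike (galF (M * q) (σ * σ)) τb τb (q ^ 2) ∧
      (∀ (u₁ : S.c₁.V) (u₂ : S.c₂.V), S.c₁.red u₁ ≠ 0 → S.c₂.red u₂ ≠ 0 →
        (∃ a : Kbar, (u₂ : ↥(FNbar (M * q))) =
          algebraMap Kbar ↥(FNbar (M * q)) a * (u₁ : ↥(FNbar (M * q)))) →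
        ∀ D : Divisor Kbar ↥(FNbar (M * q)),
          (∀ P, D P = P.ord (u₁ : ↥(FNbar (M * q)))) → ∀ z : Place (kV A) E,
          Finsupp.mapDomain ρ D z = z.ord (S.c₁.red u₁) + (β z).ord (S.c₂.red u₂)) ∧
      (∀ (u₁ : S.c₁.V) (u₂ : S.c₂.V), S.c₁.red u₁ ≠ 0 → S.c₂.red u₂ ≠ 0 →
        (∃ a : Kbar, (u₂ : ↥(FNbar (M * q))) =
          algebraMap Kbar ↥(FNbar (M * q)) a * (u₁ : ↥(FNbar (M * q)))) →
        ∀ D : Divisor Kbar ↥(FNbar (M * q)),
          (∀ P, D P = P.ord (u₁ : ↥(FNbar (M * q)))) → ∀ z : Place (kV A) E,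
          Finsupp.mapDomain ρ' D z = z.ord (S.c₂.red u₂) + (β z).ord (S.c₁.red u₁)) ∧
      (∀ (z : Place (kV A) E) (ψ : E), (β z).ord ψ = z.ord (φb • ψ)) ∧
      (∀ (hα : HeckeAlphaBarIntegral Kbar M q) (D : Divisor Kbar ↥(FNbar (M * q))),
        (Divisor.pushforwardAlong (heckeAlphaBar Kbar M q) hα D).IsPrincipal →
        ∃ h : E, h ≠ 0 ∧ ∀ z : Place (kV A) E, Finsupp.mapDomain ρ D z = z.ord h) ∧
      (∀ (hβ : HeckeBetaBarIntegral Kbar M q) (D : Divisor Kbar ↥(FNbar (M * q))),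
        (Divisor.pushforwardAlong (heckeBetaBar Kbar M q) hβ D).IsPrincipal →
        ∃ h : E, h ≠ 0 ∧ ∀ z : Place (kV A) E, Finsupp.mapDomain ρ' D z = z.ord h) ∧
      (∀ a : kV A, SemilinearAut.baseAut φb a = a ^ q) ∧
      (∃ x : E, x ∉ Set.range (algebraMap (kV A) E) ∧ φb • x = x) ∧
      (∀ f : ↥(FNbar (M * q)), f ∈ gaussV A (M * q) → f ∈ S.c₁.V) ∧
      (∀ (f : ↥(gaussV A (M * q))) (hf : (f : ↥(FNbar (M * q))) ∈ S.c₁.V),
        gaussRes A (M * q) f = 1 → S.c₁.red ⟨(f : ↥(FNbar (M * q))), hf⟩ = 1) ∧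
      (∀ τ ∈ A.inertiaSubgroupIn ℚ, S.IsInertial (galF (M * q) τ)) ∧
      ∀ s ∈ S.nodes, ∃ (e : ℕ) (t : ↥(FNbar (M * q))), e ≠ 0 ∧
        S.IsAnnCoord s t ((q : Kbar) ^ e) ∧
        ∀ τ ∈ A.inertiaSubgroupIn ℚ, galF (M * q) τ • t = t := by
  haveI : IsAlgClosed (kV A) := isAlgClosed_kV A
  have hRed := Fermat.Agent.S35.H44.stmt_FrobRed
  have hRho := Fermat.Agent.S35.H52.stmt_FrobRho
  have hFix := Fermat.Agent.S35.H30.sigmaFix_of hRho
  have H := H21.ffL q M
  have H₁ := H21.ff1 A q M a b hab hq hA hqM ht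
  have hne := H21.exists_node A q M a b hab hq hA hqM ht (H21.totModAt A q M a b hab hq hA hqM ht)
  obtain ⟨g, g₁, c, c₁, hg, hg₁, hnum⟩ :=
    H21.modS_genus A q M a b hab hq hA hqM ht (H21.totModAt A q M a b hab hq hA hqM ht)
  refine ⟨F1 A q M, inferInstance, inferInstance, H21.theS A q M a b hab hq hA hqM ht, H, H₁,
    g, g₁, c, c₁, phiSemiMod A q M a b hab hq hA, tauMod A q M a b hab hq hA,
    H91.rhoF1 a b hab hq hA hqM ht,
    fun P => H91.rhoF1 a b hab hq hA hqM ht (wq q M a b hab hq • P),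
    betaMod A q M a b hab hq hA, hg, hg₁, hnum, ?_, ?_, ?_, ?_, ?_, ?_, ?_, ?_, ?_, ?_, ?_, ?_⟩
  · exact (modTotFrob A q M a b hab hq hA hRed hRho hqM ht hFix σ hσ).isFrobLike
      H.principal H.deg_one H₁.principal H₁.deg_one hne
  · exact (modTot A q M a b hab hq hA hqM ht).toSSD_tot H.principal H.deg_one H₁.principal
      H₁.deg_one H₁.deg_one hne
  · exact (modTot A q M a b hab hq hA hqM ht).toSSD_mirror H.principal H.deg_one H₁.principal
      H₁.deg_one H₁.deg_one hne (wq q M a b hab hq) (fun P => wq q M a b hab hq • P)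
      (wq_wq q M a b hab hq) (fun c x => by rw [map_mul, AlgEquiv.commutes])
      (fun P f => by
        have h := Place.ord_smul (wq q M a b hab hq) P (wq q M a b hab hq f)
        rw [wq_wq] at h
        exact h)
      (fun x => Iff.rfl) (fun x h₂ h₁ => rfl)
  · intro z ψ
    exact BAD.H73.betaF1_ord A q M hq hA M (H82.redField_eq_fullC q M a b hab hq A hA) z ψ
  · intro hα D hD
    exact cons_alpha A q M a b hab hq hA hqM ht hα D hD
  · intro hβ D hD
    exact cons_beta A q M a b hab hq hA hqM ht hβ D hD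
  · exact phiSemiMod_baseAut A q M a b hab hq hA
  · exact phiSemiMod_fixed_nonconst A q M a b hab hq hA
  · intro f hf
    exact hf
  · intro f hf h1
    exact h1
  · intro τ hτ
    exact H21.modS_inertial A q M a b hab hq hA hqM ht (H21.totModAt A q M a b hab hq hA hqM ht)
      hτ
  · intro s hs
    obtain ⟨n, t, hn, -, hcoord, hfix⟩ := H21.coord_theS A q M a b hab hq hA hqM ht hK0 hs
    exact ⟨n, t, hn.ne', hcoord, hfix⟩

end Body

/-- **ARITH-0 at `(M, q)`** (helper93's `IsK0Lift` for helper21's modular datum `theS`): the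
`K₀`-rational part of a function which is integral for both valuations. -/
def Stmt_K0Tame (M q : ℕ) [NeZero M] [NeZero q] : Prop :=
  ∀ (A : ValuationSubring Kbar) (a b : ℤ) (hab : a * q + b * M = 1) (hq : q.Prime)
    [NeZero (M * q)] (hA : A.LiesOverPrime q) (hqM : ¬ q ∣ M) (ht : H91.TameAt M q),
    IsK0Lift (H21.theS A q M a b hab hq hA hqM ht) (H21.inertiaSet A (M * q))

/-- **The modular side of (StI) at all tame `(M, q)`**, from ARITH-0. -/
theorem modStI_of_k0 (M q p : ℕ) [NeZero M] [NeZero q] (hq : q.Prime) (hqM : ¬ q ∣ M)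
    (ht : H91.TameAt M q) (hK0 : Stmt_K0Tame M q) : Stmt_ModStI M q p := by
  intro A hA σ hσ
  haveI hMq : NeZero (M * q) := ⟨Nat.mul_ne_zero (NeZero.ne M) (NeZero.ne q)⟩
  obtain ⟨a, b, hab⟩ : ∃ a b : ℤ, a * q + b * M = 1 := by
    have hcop : Nat.Coprime q M := (Nat.Prime.coprime_iff_not_dvd hq).2 hqM
    obtain ⟨a, b, h⟩ := Nat.isCoprime_iff_coprime.2 hcop
    exact ⟨a, b, h⟩
  exact modStI_body A q M a b hab hq hA hqM ht (hK0 A a b hab hq hA hqM ht) σ hσ

/-- A thin level is tame. -/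
theorem tameAt_of_thinLevel {M q : ℕ} (h : ThinLevel M q) : H91.TameAt M q := by
  rcases h with ⟨h5, -⟩ | ⟨h3, h4⟩ | ⟨h2, h9⟩
  · exact Or.inl h5
  · exact Or.inr (Or.inl ⟨h3, dvd_trans (by norm_num) h4⟩)
  · exact Or.inr (Or.inr ⟨h2, dvd_trans (by norm_num) h9⟩)

/-- **`Stmt_TatePieceStI` from ARITH-0 at the thin levels.** -/
theorem tatePieceStI_of_k0
    (hK0 : ∀ (M q : ℕ) [NeZero M] [NeZero q], q.Prime → ¬ q ∣ M → ThinLevel M q →
      Stmt_K0Tame M q) :
    Fermat.Agent.L.Pivot.Stmt_TatePieceStI :=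
  tatePieceStI_of_modStI fun M q p _ _ hq hqM _ _ hthin =>
    modStI_of_k0 M q p hq hqM (tameAt_of_thinLevel hthin) (hK0 M q hq hqM hthin)

end Fermat.Agent.L.Pivot.H50
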