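import Fermat.Agent.L.Pivot.H50_StIAbs
import Fermat.Agent.L.Pivot.H50_StICore
import Fermat.Agent.S35.H89_StCore
import Fermat.Agent.S15.Desc.H63_FixWire
import Fermat.Agent.L.H28_FrobFin
import Fermat.Agent.BAD.Glue

/-!
# PIVOT, PV-OLD (helper50): the modular interface `Stmt_ModStI` and `Stmt_StICore` from it

`Stmt_ModStI M q p` = what the modular side (item 65, BAD_q) has to provide for (StI), for every
valuation ring `A` of `ℚ̄` over `q ∤ M` and every Frobenius element `σ` at `A`: ONE semistable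
Deuring datum `S` for `F = F_{Mq} · ℚ̄` with

* the clauses of helper89's `S35.H89.Stmt_ModSt M q` (both residue fields `E`, `σ²` Frobenius-like
  of exponent `q²`, total conservation for the two degeneracy maps, conservation at level `M`);
* the clauses of helper91's `BAD.Stmt_ModSSD` (first component = Gauss valuation, inertia acts
  inertially);
* the last clause of helper60's `S43.CompEis.H60.Stmt_CE_Coord`: an inertia-fixed annulus
  coordinate of thickness `q ^ e`, `e ≠ 0`, at every node;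
* the input of FROB-FIN: `φb` acts on the constants by `a ↦ a ^ q` and fixes a non-constant
  function.

`stICore_of_modStI : Stmt_ModStI M q p → Stmt_StICore M q p` (GLUE, FROB-FIN, `stmt_UnrFix` are
plugged in), and

`tatePieceStI_of_modStI : (∀ thin (M, q), q ≠ p, Stmt_ModStI M q p) → L.Pivot.Stmt_TatePieceStI`.
-/

set_option autoImplicit false
set_option linter.style.haveILetI false
set_option maxHeartbeats 1000000

noncomputable section

open AlgebraicCurve ModularCurve Fermat.Agent.S28.H73 Fermat.Agent.RED.H73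

attribute [local instance] Classical.propDecidable

namespace Fermat.Agent.L.Pivot.H50

open Fermat.Agent.RED.H17 Fermat.Agent.RED Fermat.Agent.BAD Fermat.Agent.S35.H89

local notation "Kb" => AlgebraicClosure ℚ

/-- **The modular side of (StI)** at `(M, q, p)`. -/
def Stmt_ModStI (M q p : ℕ) [NeZero M] [NeZero q] : Prop :=
  ∀ A : ValuationSubring Kb, A.LiesOverPrime q →
    ∀ σ : GalQ, A.IsFrobeniusAt σ q →
    ∃ (E : Type) (_ : Field E) (_ : Algebra (kV A) E)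
      (S : SSD Kb ↥(FNbar (M * q)) (kV A) E E)
      (_ : FFHyp Kb ↥(FNbar (M * q))) (_ : FFHyp (kV A) E)
      (g g₁ : ℕ) (c c₁ : ℤ) (φb : SemilinearAut (kV A) E) (τb : E →+* E)
      (ρ ρ' : Place Kb ↥(FNbar (M * q)) → Place (kV A) E)
      (β : Place (kV A) E → Place (kV A) E),
      IsGenus Kb ↥(FNbar (M * q)) g c ∧ IsGenus (kV A) E g₁ c₁ ∧
      g + 1 ≤ g₁ + g₁ + S.nodes.card ∧
      S.IsFrobLike (galF (M * q) (σ * σ)) τb τb (q ^ 2) ∧
      (∀ (u₁ : S.c₁.V) (u₂ : S.c₂.V), S.c₁.red u₁ ≠ 0 → S.c₂.red u₂ ≠ 0 →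
        (∃ a : Kb, (u₂ : ↥(FNbar (M * q))) =
          algebraMap Kb ↥(FNbar (M * q)) a * (u₁ : ↥(FNbar (M * q)))) →
        ∀ D : Divisor Kb ↥(FNbar (M * q)),
          (∀ P, D P = P.ord (u₁ : ↥(FNbar (M * q)))) → ∀ z : Place (kV A) E,
          Finsupp.mapDomain ρ D z = z.ord (S.c₁.red u₁) + (β z).ord (S.c₂.red u₂)) ∧
      (∀ (u₁ : S.c₁.V) (u₂ : S.c₂.V), S.c₁.red u₁ ≠ 0 → S.c₂.red u₂ ≠ 0 →
        (∃ a : Kb, (u₂ : ↥(FNbar (M * q))) =
          algebraMap Kb ↥(FNbar (M * q)) a * (u₁ : ↥(FNbar (M * q)))) →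
        ∀ D : Divisor Kb ↥(FNbar (M * q)),
          (∀ P, D P = P.ord (u₁ : ↥(FNbar (M * q)))) → ∀ z : Place (kV A) E,
          Finsupp.mapDomain ρ' D z = z.ord (S.c₂.red u₂) + (β z).ord (S.c₁.red u₁)) ∧
      (∀ (z : Place (kV A) E) (ψ : E), (β z).ord ψ = z.ord (φb • ψ)) ∧
      (∀ (hα : HeckeAlphaBarIntegral Kb M q) (D : Divisor Kb ↥(FNbar (M * q))),
        (Divisor.pushforwardAlong (heckeAlphaBar Kb M q) hα D).IsPrincipal →
        ∃ h : E, h ≠ 0 ∧ ∀ z : Place (kV A) E, Finsupp.mapDomain ρ D z = z.ord h) ∧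
      (∀ (hβ : HeckeBetaBarIntegral Kb M q) (D : Divisor Kb ↥(FNbar (M * q))),
        (Divisor.pushforwardAlong (heckeBetaBar Kb M q) hβ D).IsPrincipal →
        ∃ h : E, h ≠ 0 ∧ ∀ z : Place (kV A) E, Finsupp.mapDomain ρ' D z = z.ord h) ∧
      (∀ a : kV A, SemilinearAut.baseAut φb a = a ^ q) ∧
      (∃ x : E, x ∉ Set.range (algebraMap (kV A) E) ∧ φb • x = x) ∧
      (∀ f : ↥(FNbar (M * q)), f ∈ gaussV A (M * q) → f ∈ S.c₁.V) ∧
      (∀ (f : ↥(gaussV A (M * q))) (hf : (f : ↥(FNbar (M * q))) ∈ S.c₁.V),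
        gaussRes A (M * q) f = 1 → S.c₁.red ⟨(f : ↥(FNbar (M * q))), hf⟩ = 1) ∧
      (∀ τ ∈ A.inertiaSubgroupIn ℚ, S.IsInertial (galF (M * q) τ)) ∧
      ∀ s ∈ S.nodes, ∃ (e : ℕ) (t : ↥(FNbar (M * q))), e ≠ 0 ∧
        S.IsAnnCoord s t ((q : Kb) ^ e) ∧
        ∀ τ ∈ A.inertiaSubgroupIn ℚ, galF (M * q) τ • t = t

/-- **The Kummer form of (StI) from the modular datum.** -/
theorem stICore_of_modStI (M q p : ℕ) [NeZero M] [NeZero q] (hq : q.Prime) (hp : p.Prime)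
    (hqp : q ≠ p) (hS : Stmt_ModStI M q p) : Stmt_StICore M q p := by
  intro A hA σ hσ
  obtain ⟨E, iE, iA, S, H, HE, g, g₁, c, c₁, φb, τb, ρ, ρ', β, hR, hRE, hnum, hτ, htot,
    htot', hβ, hcα, hcβ, hφk, hφx, hV, hred, hin, hcoord⟩ := hS A hA σ hσ
  haveI : IsAlgClosed (kV A) := isAlgClosed_kV A
  have hqp' : ¬ q ∣ p := fun h => hqp ((Nat.prime_dvd_prime_iff_eq hq hp).mp h)
  have hpk : ((p : ℕ) : kV A) ≠ 0 := H91.natCast_kV_ne_zero A hq hA hqp'
  -- constants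
  have hqval : A.valuation (q : Kb) < 1 := hA
  have hq0 : (q : Kb) ≠ 0 := Nat.cast_ne_zero.mpr hq.ne_zero
  have hqA : (q : Kb) ∈ A := (A.valuation_le_one_iff _).mp hqval.le
  have hqinv : (q : Kb)⁻¹ ∉ A :=
    ((ValuationSubring.mem_nonunits_iff_or A).mp hA).resolve_left hq0
  -- the set of inertial automorphisms
  obtain ⟨I, hIdef⟩ : ∃ I : Set (SemilinearAut Kb ↥(FNbar (M * q))),
      I = {τ | ∃ σ' ∈ A.inertiaSubgroupIn ℚ, τ = galF (M * q) σ'} := ⟨_, rfl⟩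
  have hImem : ∀ σ' ∈ A.inertiaSubgroupIn ℚ, galF (M * q) σ' ∈ I := by
    intro σ' hσ'
    rw [hIdef]
    exact ⟨σ', hσ', rfl⟩
  have hI : ∀ τ ∈ I, S.IsInertial τ := by
    intro τ hτ'
    rw [hIdef] at hτ'
    obtain ⟨σ', hσ', rfl⟩ := hτ'
    exact hin σ' hσ'
  have hbase : ∀ σ' : GalQ, ∀ y : Kb, SemilinearAut.baseAut (galF (M * q) σ') y = σ' y := by
    intro σ' y
    rw [baseAut_arithmeticGalois]
    rfl
  have hπI : ∀ τ ∈ I, SemilinearAut.baseAut τ (q : Kb) = (q : Kb) := by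
    intro τ hτ'
    rw [hIdef] at hτ'
    obtain ⟨σ', -, rfl⟩ := hτ'
    rw [hbase]
    exact map_natCast σ' q
  have hπ : ∀ m : ℤ, S.IsCU ((q : Kb) ^ m) → m = 0 :=
    fun m hm => Fermat.Agent.S15.Desc.H63.zpow_isCU_imp S hV hred hqA hqinv m hm
  have hunr : ∀ Y : Kb, Y ≠ 0 → (∀ τ ∈ I, SemilinearAut.baseAut τ Y = Y) →
      ∃ m : ℤ, S.IsCU (Y / (q : Kb) ^ m) := by
    intro Y hY0 hYI
    have hfix : ∀ σ' ∈ A.inertiaSubgroupIn ℚ, σ' Y = Y := by
      intro σ' hσ'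
      have := hYI _ (hImem σ' hσ')
      rwa [hbase] at this
    obtain ⟨m, hm⟩ := Fermat.Agent.R.H6.stmt_UnrFix q hq A hA Y hY0 hfix
    refine ⟨m, ?_⟩
    have hqm0 : (q : Kb) ^ m ≠ 0 := zpow_ne_zero _ hq0
    have hv1 : A.valuation (Y / (q : Kb) ^ m) = 1 := by
      rw [map_div₀, map_zpow₀, hm]
      exact div_self (zpow_ne_zero _ ((map_ne_zero _).mpr hq0))
    have hv2 : A.valuation (Y / (q : Kb) ^ m)⁻¹ = 1 := by
      rw [map_inv₀, hv1, inv_one]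
    exact Fermat.Agent.S15.Desc.H63.isCU_of_unit S hV ((A.valuation_le_one_iff _).mp hv1.le)
      ((A.valuation_le_one_iff _).mp hv2.le) (div_ne_zero hY0 hqm0)
  have hcoord' : ∀ s ∈ S.nodes, ∃ (e : ℕ) (t : ↥(FNbar (M * q))), e ≠ 0 ∧
      S.IsAnnCoord s t ((q : Kb) ^ e) ∧ ∀ τ ∈ I, τ • t = t := by
    intro s hs
    obtain ⟨e, t, he, ht, htI⟩ := hcoord s hs
    refine ⟨e, t, he, ht, fun τ hτ' => ?_⟩
    rw [hIdef] at hτ'
    obtain ⟨σ', hσ', rfl⟩ := hτ'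
    exact htI σ' hσ'
  -- the abstract theorem
  obtain ⟨c', hc'⟩ := stI_abs
    (glueFrobGen_of Fermat.Agent.BAD.stmt_Moving Fermat.Agent.BAD.H28.stmt_GoodLift
      Fermat.Agent.BAD.H28.stmt_TIss)
    Fermat.Agent.L.H28.stmt_FrobFinExp S H HE g g₁ c c₁ hR hRE hnum
    (galF (M * q) (σ * σ)) φb τb (q ^ 2) hτ q hq.one_lt hφk hφx ρ ρ' β htot htot' hβ
    I hI (q : Kb) hq0 hπI hπ hunr p hp hpk hcoord'
  refine ⟨c', ?_⟩
  intro m f hf0 hdiv hfI hαI hβI D hD hDα hDβ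
  set n : ℕ := p ^ m with hn
  have hn0 : n ≠ 0 := pow_ne_zero _ hp.ne_zero
  have hnZ : (n : ℤ) ≠ 0 := by exact_mod_cast hn0
  -- the divisor `D / n`
  have hDn : ∀ P, (n : ℤ) ∣ D P := fun P => by rw [hD P]; exact hdiv P
  have hDeq : (n : ℤ) • divBy n D = D := nsmul_divBy n D hDn
  have hnew' : ∀ (φ : ↥(FNbar M) →ₐ[Kb] ↥(FNbar (M * q)))
      (hφ : φ.toRingHom.IsIntegral)
      (r : Place Kb ↥(FNbar (M * q)) → Place (kV A) E),
      ((Divisor.pushforwardAlong φ hφ (divBy n D)).IsPrincipal →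
        ∃ h : E, h ≠ 0 ∧ ∀ z : Place (kV A) E,
          Finsupp.mapDomain r (divBy n D) z = z.ord h) →
      (∃ g : ↥(FNbar M), g ≠ 0 ∧ ∀ Q : Place Kb ↥(FNbar M),
        Divisor.pushforwardAlong φ hφ D Q = n * Q.ord g) →
      ∃ h : E, h ≠ 0 ∧ ∀ D' : Divisor Kb ↥(FNbar (M * q)),
        (∀ P, D' P = P.ord f) → ∀ z : Place (kV A) E,
          Finsupp.mapDomain r D' z = (n : ℤ) * z.ord h := by
    rintro φ hφ r hc ⟨g, hg0, hg⟩
    have hprin : (Divisor.pushforwardAlong φ hφ (divBy n D)).IsPrincipal := by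
      refine ⟨g, hg0, fun Q => ?_⟩
      have h1 := hg Q
      rw [← hDeq, map_zsmul, Finsupp.smul_apply, smul_eq_mul] at h1
      exact mul_left_cancel₀ hnZ h1
    obtain ⟨h, hh0, hh⟩ := hc hprin
    refine ⟨h, hh0, fun D' hD' z => ?_⟩
    have e : D' = (n : ℤ) • divBy n D := by
      rw [hDeq]
      ext P
      rw [hD' P, hD P]
    rw [e, Finsupp.mapDomain_smul, Finsupp.smul_apply, hh z, smul_eq_mul]
  exact hc' m f hf0 hdiv (fun τ hτ' => by
      rw [hIdef] at hτ'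
      obtain ⟨σ', hσ', rfl⟩ := hτ'
      exact hfI σ' hσ')
    (hnew' _ hαI ρ (hcα hαI _) hDα) (hnew' _ hβI ρ' (hcβ hβI _) hDβ)

/-- **`Stmt_TatePieceStI` from the modular datum at the thin levels.** -/
theorem tatePieceStI_of_modStI
    (h : ∀ (M q p : ℕ) [NeZero M] [NeZero q], q.Prime → ¬ q ∣ M → p.Prime → q ≠ p →
      ThinLevel M q → Stmt_ModStI M q p) :
    Fermat.Agent.L.Pivot.Stmt_TatePieceStI :=
  tatePieceStI_final fun M q p _ _ =>
    torsStI_all (fun M' q' p' _ _ hq' hqM' hp' hqp' ht =>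
      stICore_of_modStI M' q' p' hq' hp' hqp' (h M' q' p' hq' hqM' hp' hqp' ht)) M q p

end Fermat.Agent.L.Pivot.H50
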