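import Fermat.Agent.L.Pivot.H50_StIArith
import Fermat.Agent.S15.Desc.H63_FixAbs

/-!
# PIVOT, PV-OLD (helper50): inertia-fixed Kummer functions have bounded slopes

`S : SSD K F k F₁ F₂` a semistable Deuring datum, `I` a set of inertial automorphisms, `π ∈ K` a
uniformiser of the fixed field of `I`, at every node an `I`-fixed annulus coordinate of thickness
`π ^ e`, `e ≠ 0`.

* `dvd_sum_slopes` : for a Gauss unit `u` with `n ∣ div u` the sum of the slopes
  `ord_{s.1} (rd₁ u)` over the nodes is divisible by `n` (the degree of `div (rd₁ u)` is `0`).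
* `exists_slope_bound` : there is `c` such that for every `I`-fixed `f` with `p ^ k ∣ div f` all
  slopes of `f ^ (p ^ c)` are divisible by `p ^ k`
  (helper63's `slope_congr` = helper28's NODE-RAD, and `slopes_arith`).
* `dvd_ord_rd₂_of_slopes` : the mirror of helper28's `SSD.dvd_ord_rd₁` on the second component.
-/

set_option autoImplicit false
set_option linter.style.haveILetI false

noncomputable section

open AlgebraicCurve

attribute [local instance] Classical.propDecidable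

namespace Fermat.Agent.L.Pivot.H50

open Fermat.Agent.BAD Fermat.Agent.RED.H17 Fermat.Agent.RED

section Abs

variable {K F k F₁ F₂ : Type*} [Field K] [Field F] [Algebra K F] [Field k] [Field F₁]
  [Algebra k F₁] [Field F₂] [Algebra k F₂] (S : SSD K F k F₁ F₂)

/-- **Sum-zero**: the sum of the slopes of a Gauss unit `u` with `n ∣ div u` is divisible by
`n`. -/
theorem dvd_sum_slopes (hP : HasPrincipalDivisors K F) (H₁ : FFHyp k F₁) {n : ℕ} {u : F}
    (hu : S.c₁.IsGU u) (hdiv : ∀ P : Place K F, (n : ℤ) ∣ P.ord u) :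
    (n : ℤ) ∣ ∑ s ∈ S.nodes, s.1.ord (S.c₁.rd u) := by
  set D : Divisor k F₁ := dv H₁.principal (S.c₁.rd u) with hD
  have hDv : ∀ Q : Place k F₁, D Q = Q.ord (S.c₁.rd u) := fun Q => dv_apply _ _ Q
  set B : Finset (Place k F₁) := S.nodes.image Prod.fst with hB
  -- the sum over the nodes is the sum over the branches
  have h1 : ∑ s ∈ S.nodes, s.1.ord (S.c₁.rd u) = ∑ Q ∈ B, D Q := by
    rw [hB, Finset.sum_image]
    · exact Finset.sum_congr rfl fun s _ => (hDv s.1).symm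
    · intro s hs s' hs' h
      exact S.inj₁ s hs s' hs' h
  -- the degree is zero
  have hdeg0 := degree_dv H₁.principal (S.c₁.rd u)
  rw [degree_eq_sum H₁.deg_one, Finsupp.sum] at hdeg0
  have h2 : ∑ Q ∈ D.support ∪ B, D Q = 0 := by
    rw [← hdeg0]
    symm
    refine Finset.sum_subset Finset.subset_union_left fun Q _ hQ => ?_
    exact Finsupp.notMem_support_iff.mp hQ
  have h3 : ∑ Q ∈ D.support ∪ B, D Q = ∑ Q ∈ B, D Q + ∑ Q ∈ (D.support ∪ B) \ B, D Q := by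
    rw [add_comm]
    exact (Finset.sum_sdiff Finset.subset_union_right).symm
  have h4 : (n : ℤ) ∣ ∑ Q ∈ (D.support ∪ B) \ B, D Q := by
    refine Finset.dvd_sum fun Q hQ => ?_
    have hQB : Q ∉ B := (Finset.mem_sdiff.mp hQ).2
    have hQg : Q ∈ S.c₁.good := by
      rw [S.good₁]
      intro s hs hsQ
      exact hQB (Finset.mem_image.mpr ⟨s, hs, hsQ⟩)
    rw [hDv, S.c₁.ord_rd_eq_sum hP hu Q hQg]
    refine Finset.dvd_sum fun P _ => ?_
    split_ifs
    · exact hdiv P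
    · exact dvd_zero _
  rw [h1]
  have h5 : ∑ Q ∈ B, D Q = - ∑ Q ∈ (D.support ∪ B) \ B, D Q := by
    rw [h3] at h2
    linarith
  rw [h5]
  exact (dvd_neg).mpr h4

/-- **Bounded slopes of inertia-fixed Kummer functions.** -/
theorem exists_slope_bound (hP : HasPrincipalDivisors K F) (hdeg : ∀ v : Place K F, v.deg = 1)
    (H₁ : FFHyp k F₁)
    (I : Set (SemilinearAut K F)) (hI : ∀ σ ∈ I, S.IsInertial σ)
    (π : K) (hπ0 : π ≠ 0) (hπI : ∀ σ ∈ I, SemilinearAut.baseAut σ π = π)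
    (hπ : ∀ m : ℤ, S.IsCU (π ^ m) → m = 0)
    (hunr : ∀ Y : K, Y ≠ 0 → (∀ σ ∈ I, SemilinearAut.baseAut σ Y = Y) →
      ∃ m : ℤ, S.IsCU (Y / π ^ m))
    (p : ℕ) (hp : p.Prime)
    (hcoord : ∀ s ∈ S.nodes, ∃ (e : ℕ) (t : F), e ≠ 0 ∧ S.IsAnnCoord s t (π ^ e) ∧
      ∀ σ ∈ I, σ • t = t) :
    ∃ c : ℕ, ∀ (j : ℕ) (f : F) (c₁ c₂ : K), S.c₁.IsGU (algebraMap K F c₁ * f) →
      S.c₂.IsGU (algebraMap K F c₂ * f) → (∀ σ ∈ I, σ • f = f) →
      (∀ P : Place K F, ((p ^ j : ℕ) : ℤ) ∣ P.ord f) →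
      ∀ s ∈ S.nodes, ((p ^ j : ℕ) : ℤ) ∣
        ((p ^ c : ℕ) : ℤ) * s.1.ord (S.c₁.rd (algebraMap K F c₁ * f)) := by
  choose! e t he using hcoord
  obtain ⟨c, hc⟩ := slopes_arith S.nodes e p hp (fun s hs => (he s hs).1) S.nodes_nonempty
  refine ⟨c, fun j f c₁ c₂ h₁ h₂ hfI hdiv => ?_⟩
  have hc₁ : c₁ ≠ 0 := by
    rintro rfl
    exact h₁.ne_zero (by rw [map_zero, zero_mul])
  refine hc j (fun s => s.1.ord (S.c₁.rd (algebraMap K F c₁ * f))) ?_ ?_
  · intro s hs s' hs'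
    exact Fermat.Agent.S15.Desc.H63.slope_congr S hP hdeg I hI π hπ0 hπI hπ hunr (p ^ j) hs hs'
      (he s hs).2.1 (he s' hs').2.1 (he s hs).2.2 (he s' hs').2.2 h₁ h₂ hfI hdiv
  · refine dvd_sum_slopes S hP H₁ h₁ fun P => ?_
    rw [ord_algebraMap_mul P hc₁]
    exact hdiv P

/-- The mirror of `SSD.dvd_ord_rd₁` on the second component: all orders of `rd₂ u₂` are divisible
by `n` if `n ∣ div u₁` and the slopes of `u₁` are divisible by `n`. -/
theorem dvd_ord_rd₂_of_slopes (hP : HasPrincipalDivisors K F) {n : ℕ} {u₁ u₂ : F}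
    (h₁ : S.c₁.IsGU u₁) (h₂ : S.c₂.IsGU u₂) (hc : ∃ c : K, u₂ = algebraMap K F c * u₁)
    (hdiv : ∀ P : Place K F, (n : ℤ) ∣ P.ord u₁)
    (hslope : ∀ s ∈ S.nodes, (n : ℤ) ∣ s.1.ord (S.c₁.rd u₁)) (Q : Place k F₂) :
    (n : ℤ) ∣ Q.ord (S.c₂.rd u₂) := by
  have hdiv₂ : ∀ P : Place K F, (n : ℤ) ∣ P.ord u₂ := by
    intro P
    obtain ⟨c, rfl⟩ := hc
    have hc0 : c ≠ 0 := by
      rintro rfl
      exact h₂.ne_zero (by rw [map_zero, zero_mul])
    rw [ord_algebraMap_mul P hc0]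
    exact hdiv P
  by_cases hQ : Q ∈ S.c₂.good
  · rw [S.c₂.ord_rd_eq_sum hP h₂ Q hQ]
    refine Finset.dvd_sum fun P _ => ?_
    split_ifs
    · exact hdiv₂ P
    · exact dvd_zero _
  · rw [S.good₂] at hQ
    push Not at hQ
    obtain ⟨s, hs, rfl⟩ := hQ
    have hsum := S.sum_node hP hs h₁ h₂ hc
    have h3 : (n : ℤ) ∣ ∑ P ∈ (dv hP u₁).support,
        if S.c₁.r P = some s.1 then P.ord u₁ else 0 := by
      refine Finset.dvd_sum fun P _ => ?_
      split_ifs
      · exact hdiv P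
      · exact dvd_zero _
    rw [← hsum] at h3
    exact (dvd_add_right (hslope s hs)).mp h3

end Abs

end Fermat.Agent.L.Pivot.H50
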