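import Fermat.Agent.GTor.H81_TXFinal
import Fermat.Agent.L.Pivot.Global

/-!
# PIVOT, PV-OLD: the Tate piece with inertia invariants from a torsion-level statement (helper50)

* `Stmt_TorsStI M q p` **(StI)**: level `M q`, `q ∤ M`, `p ≠ q`: for every valuation ring `A` over
  `q` and every Frobenius element `σ` at `A` there is `c` such that `p ^ c` kills
  `(σ² - q²) x` for every `q`-new `x ∈ J₀(M q)[p^∞]` fixed by the inertia group of `A`.
  ("The inertia invariants of the `q`-new part are the toric part, up to a finite group, and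
  Frobenius² is `q²` on the toric part.")
* `piece_StI` : (StI) on a piece of the Tate limit.
* `tatePieceStI_of`, `tatePieceStI_final :
    (∀ M q p, Stmt_TorsStI M q p) → L.Pivot.Stmt_TatePieceStI`.

The wiring is helper81's T-X (`GTor/H81_StNU.lean`, `GTor/H81_TX.lean`) with the clause (StI).
-/

set_option autoImplicit false
set_option linter.unusedSectionVars false

noncomputable section

namespace Fermat.Agent.L.Pivot.H50

open AlgebraicCurve ModularCurve Fermat.Agent.GTor Fermat.Agent.GTor.H58T1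
open Fermat.Agent.Betti.H76 Fermat.Agent.S35.H89 Fermat.Agent.GTor.H81

/-- **(StI)**: at a prime `q ∤ M`, `p` prime, `q ≠ p`: up to a bounded power of `p`, every
Frobenius element `σ` at `A` satisfies `σ² = q²` on the `q`-new `p`-power torsion points of
`J₀(M q)` which are fixed by the inertia group of `A`. -/
def Stmt_TorsStI (M q p : ℕ) [NeZero M] [NeZero q] : Prop :=
  q.Prime → ¬ q ∣ M → p.Prime → q ≠ p →
    ∀ A : ValuationSubring (AlgebraicClosure ℚ), A.LiesOverPrime q →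
      ∀ σ : AlgebraicClosure ℚ ≃ₐ[ℚ] AlgebraicClosure ℚ, A.IsFrobeniusAt σ q →
        ∃ c : ℕ, ∀ x : JZero (M * q), (∃ n : ℕ, p ^ n • x = 0) → IsQNew M q x →
          (∀ τ ∈ A.inertiaSubgroupIn ℚ, τ • x = x) →
          p ^ c • (σ • σ • x - q ^ 2 • x) = 0

section Abs

variable {R A : Type} [CommRing R] [AddCommGroup A] {r : ℕ}

/-- abstract form of the (StI) computation in coordinates. -/
theorem mulVec_StI_abs (θ : A ≃+ (Fin r → R)) (ρ W : Matrix (Fin r) (Fin r) R) (G Wf : A → A)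
    (hG : ∀ y, θ (G y) = ρ.mulVec (θ y)) (hW : ∀ x, θ (Wf x) = W.mulVec (θ x))
    (a c : ℕ) (x : A)
    (hz : a • (G (G (Wf x)) - c • Wf x) = 0) :
    (((a : ℕ) : Matrix (Fin r) (Fin r) R) *
      (ρ * ρ - ((c : ℕ) : Matrix (Fin r) (Fin r) R)) * W).mulVec (θ x) = 0 := by
  have e2 : (ρ * ρ).mulVec (θ (Wf x)) = θ (G (G (Wf x))) := by
    rw [hG, hG]
    simp only [Matrix.mulVec_mulVec]
  have h0 := congrArg θ hz
  rw [map_zero, map_nsmul, map_sub, map_nsmul, ← e2] at h0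
  rw [← Matrix.mulVec_mulVec, ← hW, ← Matrix.mulVec_mulVec, Matrix.sub_mulVec,
    Matrix.natCast_mulVec, Matrix.natCast_mulVec, Nat.cast_smul_eq_nsmul,
    Nat.cast_smul_eq_nsmul]
  exact h0

end Abs

section Level

variable {M q p : ℕ} [NeZero M] [NeZero q] [Fact p.Prime] {S : Set ℕ}
  {C : TateCoords (M * q) p S}

/-- **(StI) at level `k`**, in coordinates. -/
theorem rho_StI (hY : Stmt_Y1 M q) (hS : ∀ l : ℕ, l.Prime → l ∣ M * q → l ∈ S) {c : ℕ}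
    {A : ValuationSubring (AlgebraicClosure ℚ)} {σ : GQ}
    (h : ∀ x : JZero (M * q), (∃ n : ℕ, p ^ n • x = 0) → IsQNew M q x →
      (∀ τ ∈ A.inertiaSubgroupIn ℚ, τ • x = x) → p ^ c • (σ • σ • x - q ^ 2 • x) = 0)
    {w : FreeAlgebra ℤ (Gen S)} (hw : wordSH M S w = 0) (k : ℕ)
    (v : Fin C.r → ZMod (p ^ k))
    (hv : ∀ τ : A.inertiaSubgroupIn ℚ, (C.ρ k (τ : GQ) - 1).mulVec v = 0) :
    (((p ^ c : ℕ) : Matrix (Fin C.r) (Fin C.r) (ZMod (p ^ k))) *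
      (C.ρ k σ * C.ρ k σ - ((q ^ 2 : ℕ) : Matrix (Fin C.r) (Fin C.r) (ZMod (p ^ k)))) *
      Mc (ZMod (p ^ k)) C.M (wordSH (M * q) S w)).mulVec v = 0 := by
  have hpp : p.Prime := Fact.out
  obtain ⟨x, rfl⟩ := (C.θ k).surjective v
  -- `x` is fixed by inertia
  have hfix : ∀ τ ∈ A.inertiaSubgroupIn ℚ, τ • (x : JZero (M * q)) = (x : JZero (M * q)) := by
    intro τ hτ
    have h1 := hv ⟨τ, hτ⟩
    have h2 : C.mat k (TateCoords.galEnd k τ - 1) = C.ρ k τ - 1 := by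
      rw [map_sub, map_one, C.mat_gal]
    rw [← h2, C.mat_mulVec] at h1
    have h3 : (TateCoords.galEnd k τ - 1 : AddMonoid.End (Jtor (M * q) (p ^ k))) x = 0 :=
      (C.θ k).injective (h1.trans (map_zero _).symm)
    have h4 := congrArg (fun y : Jtor (M * q) (p ^ k) => (y : JZero (M * q))) h3
    have h5 : τ • (x : JZero (M * q)) - (x : JZero (M * q)) = 0 := h4
    exact sub_eq_zero.1 h5
  refine mulVec_StI_abs (C.θ k) (C.ρ k σ) (Mc (ZMod (p ^ k)) C.M (wordSH (M * q) S w))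
    (fun y => JZero.torsionGaloisRep (M * q) (p ^ k) σ y)
    (fun x => resTor (M * q) (p ^ k) (wordJ (M * q) S w) x)
    (fun y => C.gal k σ y) (fun x => ?_) (p ^ c) (q ^ 2) x ?_
  · rw [← C.mat_word hS k w, C.mat_mulVec]
  · have key := h (wordJ (M * q) S w (x : JZero (M * q)))
      (word_torsion w (pow_nsmul_coe' k x))
      (isQNew_word hpp hY hS hw (x : JZero (M * q)) (pow_nsmul_coe' k x))
      (fun τ hτ => by rw [wordJ_gal, hfix τ hτ])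
    exact Subtype.ext key

end Level

/-! ## The piece -/

section Piece

variable {M q p : ℕ} [NeZero M] [NeZero q] [Fact p.Prime] {S : Set ℕ}
  {C : TateCoords (M * q) p S}
variable {𝒪 : Type} [CommRing 𝒪] [IsLocalRing 𝒪]
  [IsAdicComplete (IsLocalRing.maximalIdeal 𝒪) 𝒪]
  {hp : (p : 𝒪) ∈ IsLocalRing.maximalIdeal 𝒪} (L : TateLimit C 𝒪 hp)
variable [IsDomain 𝒪] (Pc : SubPiece L.ρL)

/-- **(StI) on the piece.** -/
theorem piece_StI (hY : Stmt_Y1 M q) (hS : ∀ l : ℕ, l.Prime → l ∣ M * q → l ∈ S) {c : ℕ}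
    {A : ValuationSubring (AlgebraicClosure ℚ)} {σ : GQ}
    (h : ∀ x : JZero (M * q), (∃ n : ℕ, p ^ n • x = 0) → IsQNew M q x →
      (∀ τ ∈ A.inertiaSubgroupIn ℚ, τ • x = x) → p ^ c • (σ • σ • x - q ^ 2 • x) = 0)
    {w : FreeAlgebra ℤ (Gen S)} (hw : wordSH M S w = 0) (a : 𝒪)
    (ha : Mc 𝒪 C.M (wordSH (M * q) S w) * Pc.P = a • Pc.P) (ha0 : a ≠ 0)
    (hp0 : (p : 𝒪) ≠ 0) (v : Fin Pc.d → 𝒪)
    (hv : ∀ τ ∈ A.inertiaSubgroupIn ℚ, (Pc.rep τ).mulVec v = v) :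
    (Pc.rep σ).mulVec ((Pc.rep σ).mulVec v) = (q : 𝒪) ^ 2 • v := by
  have hpp : p.Prime := Fact.out
  -- the vector on the big module
  have hu₀ : ∀ τ ∈ A.inertiaSubgroupIn ℚ, (L.ρL τ - 1).mulVec (Pc.P.mulVec v) = 0 := by
    intro τ hτ
    rw [Matrix.sub_mulVec, Matrix.one_mulVec, (Pc.rel_rep τ).mulVec v, hv τ hτ, sub_self]
  have hkey : (((p ^ c : ℕ) : Matrix (Fin C.r) (Fin C.r) 𝒪) *
      (L.ρL σ * L.ρL σ - ((q ^ 2 : ℕ) : Matrix (Fin C.r) (Fin C.r) 𝒪)) *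
      Mc 𝒪 C.M (wordSH (M * q) S w)).mulVec (Pc.P.mulVec v) = 0 := by
    generalize Pc.P.mulVec v = u₀ at hu₀ ⊢
    funext i
    apply eq_of_forall_piK (IsLocalRing.maximalIdeal 𝒪)
    intro k
    have : NeZero (p ^ k) := ⟨pow_ne_zero k hpp.ne_zero⟩
    have hk := mulVec_eq_zero_of_family (p ^ k)
      (fun τ : ↥(A.inertiaSubgroupIn ℚ) => C.ρ k (τ : GQ) - 1)
      (((p ^ c : ℕ) : Matrix (Fin C.r) (Fin C.r) (ZMod (p ^ k))) *
        (C.ρ k σ * C.ρ k σ - ((q ^ 2 : ℕ) : Matrix (Fin C.r) (Fin C.r) (ZMod (p ^ k)))) *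
        Mc (ZMod (p ^ k)) C.M (wordSH (M * q) S w))
      (fun v hv => rho_StI hY hS h hw k v hv)
      (cK (IsLocalRing.maximalIdeal 𝒪) p hp k)
      ((piK (IsLocalRing.maximalIdeal 𝒪) k) ∘ u₀) ?_
    · have e : (((p ^ c : ℕ) : Matrix (Fin C.r) (Fin C.r) (ZMod (p ^ k))) *
          (C.ρ k σ * C.ρ k σ - ((q ^ 2 : ℕ) : Matrix (Fin C.r) (Fin C.r) (ZMod (p ^ k)))) *
          Mc (ZMod (p ^ k)) C.M (wordSH (M * q) S w)).map
            (cK (IsLocalRing.maximalIdeal 𝒪) p hp k) =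
          (((p ^ c : ℕ) : Matrix (Fin C.r) (Fin C.r) 𝒪) *
            (L.ρL σ * L.ρL σ - ((q ^ 2 : ℕ) : Matrix (Fin C.r) (Fin C.r) 𝒪)) *
            Mc 𝒪 C.M (wordSH (M * q) S w)).map (piK (IsLocalRing.maximalIdeal 𝒪) k) :=
        ((((compat_natCast (hp := hp) (p ^ c)).mul
          (((L.spec σ).mul (L.spec σ)).sub (compat_natCast (q ^ 2)))).mul
          (compat_Mc C.M _)) k).symm
      rw [e] at hk
      have h1 := congrFun hk i
      rw [← RingHom.map_mulVec] at h1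
      rw [h1]
      simp
    · intro τ
      have e : (C.ρ k (τ : GQ) - 1).map (cK (IsLocalRing.maximalIdeal 𝒪) p hp k) =
          (L.ρL (τ : GQ) - 1).map (piK (IsLocalRing.maximalIdeal 𝒪) k) :=
        (((L.spec (τ : GQ)).sub compat_one) k).symm
      show ((C.ρ k (τ : GQ) - 1).map (cK (IsLocalRing.maximalIdeal 𝒪) p hp k)).mulVec _ = 0
      rw [e]
      funext i
      rw [← RingHom.map_mulVec, hu₀ τ τ.2]
      simp
  -- transport to the piece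
  have hrel : Pc.Rel (((p ^ c : ℕ) : Matrix (Fin C.r) (Fin C.r) 𝒪) *
      (L.ρL σ * L.ρL σ - ((q ^ 2 : ℕ) : Matrix (Fin C.r) (Fin C.r) 𝒪)) *
      Mc 𝒪 C.M (wordSH (M * q) S w))
      ((((p ^ c : ℕ) : 𝒪) • (1 : Matrix (Fin Pc.d) (Fin Pc.d) 𝒪)) *
        (Pc.rep σ * Pc.rep σ - ((q ^ 2 : ℕ) : 𝒪) • (1 : Matrix (Fin Pc.d) (Fin Pc.d) 𝒪)) *
        (a • (1 : Matrix (Fin Pc.d) (Fin Pc.d) 𝒪))) := by
    rw [← natCast_smul_one 𝒪 (p ^ c), ← natCast_smul_one 𝒪 (q ^ 2)]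
    exact ((Pc.rel_one.smul ((p ^ c : ℕ) : 𝒪)).mul
      (((Pc.rel_rep σ).mul (Pc.rel_rep σ)).sub (Pc.rel_one.smul ((q ^ 2 : ℕ) : 𝒪)))).mul
      (SubPiece.rel_of_eig ha)
  have h2 := hrel.mulVec v
  rw [hkey] at h2
  have h3 : ((((p ^ c : ℕ) : 𝒪) • (1 : Matrix (Fin Pc.d) (Fin Pc.d) 𝒪)) *
        (Pc.rep σ * Pc.rep σ - ((q ^ 2 : ℕ) : 𝒪) • (1 : Matrix (Fin Pc.d) (Fin Pc.d) 𝒪)) *
        (a • (1 : Matrix (Fin Pc.d) (Fin Pc.d) 𝒪))).mulVec v = 0 := by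
    apply SubPiece.P_mulVec_injective (Pc := Pc)
    show Pc.P.mulVec _ = Pc.P.mulVec 0
    rw [← h2, Matrix.mulVec_zero]
  have hpc : ((p ^ c : ℕ) : 𝒪) ≠ 0 := by
    rw [Nat.cast_pow]
    exact pow_ne_zero c hp0
  have h4 : ((p ^ c : ℕ) : 𝒪) • a •
      ((Pc.rep σ).mulVec ((Pc.rep σ).mulVec v) - (q : 𝒪) ^ 2 • v) = 0 := by
    rw [← h3]
    simp only [Matrix.smul_mul, Matrix.one_mul, Matrix.mul_smul, Matrix.mul_one,
      Matrix.smul_mulVec, Matrix.sub_mulVec, Matrix.mulVec_mulVec, Matrix.one_mulVec,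
      Nat.cast_pow]
    rw [smul_comm]
  have h5 : (Pc.rep σ).mulVec ((Pc.rep σ).mulVec v) - (q : 𝒪) ^ 2 • v = 0 := by
    funext i
    have h6 := congrFun h4 i
    simp only [Pi.smul_apply, smul_eq_mul, Pi.zero_apply] at h6
    exact (mul_eq_zero.1 ((mul_eq_zero.1 h6).resolve_left hpc)).resolve_left ha0
  exact sub_eq_zero.1 h5

end Piece

section Clauses

variable {M q p : ℕ} [NeZero M] [NeZero q] [Fact p.Prime]

/-- **the clause (StI)** at level `M * q`. -/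
theorem stI_clause (hSt : Stmt_TorsStI M q p) (hY : Stmt_Y1 M q)
    (hS30 : Fermat.Agent.R.Stmt_S30)
    {g : CuspForm (CongruenceSubgroup.Gamma0 (M * q)) 2} (hg : g.IsNewform) (S : Finset ℕ)
    (hS : ∀ l : ℕ, l.Prime → l ∣ M * q → l ∈ S)
    (O' : Type) [CommRing O'] [IsDomain O'] [IsDiscreteValuationRing O']
    [IsAdicComplete (IsLocalRing.maximalIdeal O') O'] [CharZero O']
    (hpO' : (p : O') ∈ IsLocalRing.maximalIdeal O')
    (chig : CuspForm.heckeAlgebra (M * q) 2 (↑S : Set ℕ) →+* ℂ)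
    (hchig : ∀ (ℓ : ℕ) (hℓ : ℓ.Prime) (hℓM : ¬ ℓ ∣ M * q) (hℓS : ℓ ∉ (↑S : Set ℕ)),
      chig (CuspForm.heckeAlgebra.T hℓ hℓM hℓS) = ModularFormClass.qCoeff g ℓ)
    (iota : chig.range →+* O')
    {C : TateCoords (M * q) p (↑S : Set ℕ)} (L : TateLimit C O' hpO') (Pc : SubPiece L.ρL)
    (hPc : ∀ t, Mc O' C.M t * Pc.P = (iota.comp chig.rangeRestrict) t • Pc.P)
    (hq : q.Prime) (hqp : q ≠ p) (hqM : ¬ q ∣ M)
    (A : ValuationSubring (AlgebraicClosure ℚ)) (hA : A.LiesOverPrime q) (σ : GQ)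
    (hσ : A.IsFrobeniusAt σ q) (v : Fin Pc.d → O')
    (hv : ∀ τ ∈ A.inertiaSubgroupIn ℚ, (Pc.rep τ).mulVec v = v) :
    (Pc.rep σ).mulVec ((Pc.rep σ).mulVec v) = (q : O') ^ 2 • v := by
  have hpp : p.Prime := Fact.out
  obtain ⟨c, hc⟩ := hSt hq hqM hpp hqp A hA σ hσ
  obtain ⟨w, hw0, hw1⟩ := exists_oldKiller hS30 hq.ne_one hg S chig hchig
  have hS' : ∀ l : ℕ, l.Prime → l ∣ M * q → l ∈ (↑S : Set ℕ) := fun l hl h =>
    Finset.mem_coe.2 (hS l hl h)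
  have ha0 := iota_comp_ne_zero chig iota _ hw1
  have hp0 : (p : O') ≠ 0 := Nat.cast_ne_zero.2 hpp.ne_zero
  exact piece_StI L Pc hY hS' hc hw0 _ (hPc _) ha0 hp0 v hv

end Clauses

/-- **T-StI**: the Tate piece with inertia invariants of PV-OLD. -/
theorem tatePieceStI_of
    (hSt : ∀ (M q p : ℕ) [NeZero M] [NeZero q], Stmt_TorsStI M q p)
    (hY : ∀ (M q : ℕ) [NeZero M] [NeZero q], Stmt_Y1 M q)
    (hS30 : Fermat.Agent.R.Stmt_S30)
    (hRed : ∀ (N : ℕ) [NeZero N] (p : ℕ), p.Prime → AllRed N p) :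
    Fermat.Agent.L.Pivot.Stmt_TatePieceStI := by
  intro M _ g hg lam hlam S O' _ _ _ _ _ _ hlamO' chig hchig iota hlamS hMS
  have hpp : lam.Prime := hlam.out
  obtain ⟨C⟩ := tateCoords M lam (↑S : Set ℕ) hpp
    (fun q hq hqM => Finset.mem_coe.2 (hMS q hq hqM))
  obtain ⟨L⟩ := exists_tateLimit C O' hlamO'
  obtain ⟨Pc, hPc⟩ := exists_piece_eig L (iota.comp chig.rangeRestrict)
  refine ⟨Pc.d, Pc.rep, Pc.pos, L.cont_piece Pc, ?_, ?_⟩
  · intro ℓ hℓ hℓN hℓS A hA σ hσ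
    have hℓp : ℓ ≠ lam := by
      rintro rfl
      exact hℓS (Finset.mem_coe.2 hlamS)
    exact piece_ES L Pc (torsES_of_red hpp (hRed M lam hpp)) hℓ hℓN hℓp hℓS _ (hPc _) A hA σ hσ
  · intro q hq hqlam hqM hq2 A hA σ hσ v hv
    obtain ⟨M₀, hM⟩ : ∃ M₀, M = M₀ * q := ⟨M / q, (Nat.div_mul_cancel hqM).symm⟩
    subst hM
    have : NeZero q := ⟨hq.ne_zero⟩
    have : NeZero M₀ := ⟨fun h => NeZero.ne (M₀ * q) (by rw [h, zero_mul])⟩
    have hqM₀ : ¬ q ∣ M₀ := fun h => hq2 (by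
      rw [pow_two]
      exact Nat.mul_dvd_mul h (dvd_refl q))
    exact stI_clause (hSt M₀ q lam) (hY M₀ q) hS30 hg S hMS O' hlamO' chig hchig iota L Pc
      hPc hq hqlam hqM₀ A hA σ hσ v hv

/-- **T-StI**, final form. -/
theorem tatePieceStI_final
    (hSt : ∀ (M q p : ℕ) [NeZero M] [NeZero q], Stmt_TorsStI M q p) :
    Fermat.Agent.L.Pivot.Stmt_TatePieceStI :=
  tatePieceStI_of hSt (fun M q _ _ => Fermat.Agent.S36.H44.stmt_Y1 M q)
    Fermat.Agent.R.H33.stmt_S30 (fun N _ p _ => Fermat.Agent.R.H33.allRed N p)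

end Fermat.Agent.L.Pivot.H50
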