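/-
PIVOT (item 66), package PV-LOC, leaf DIM (helper52): `dim 𝒪⟦s₁, …, s_r⟧ ≥ r + 1`.
Statement `Stmt_PVLoc_dimS` of `L/Pivot/Defs.lean`.  Mathlib only.
-/
import Fermat.Agent.L.Pivot.Defs

set_option autoImplicit false

namespace Fermat.Agent.L.Pivot.H52

/-- `dim R⟦X₁, …, X_r⟧ ≥ dim R + r` for any commutative ring `R`. -/
theorem ringKrullDim_add_le_mvPowerSeries (R : Type*) [CommRing R] (r : ℕ) :
    ringKrullDim R + (r : WithBot ℕ∞) ≤ ringKrullDim (MvPowerSeries (Fin r) R) := by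
  induction r with
  | zero =>
    rw [Nat.cast_zero, add_zero]
    exact (ringKrullDim_eq_of_ringEquiv
      (MvPowerSeries.isEmptyEquiv (σ := Fin 0) (R := R)).toRingEquiv).ge
  | succ n ih =>
    rw [ringKrullDim_eq_of_ringEquiv (MvPowerSeries.finSuccEquiv R n).toRingEquiv]
    refine le_trans ?_ ringKrullDim_succ_le_ringKrullDim_powerseries
    rw [Nat.cast_add, Nat.cast_one, ← add_assoc]
    gcongr

/-- **PV-LOC-DIM.** -/
theorem stmt_PVLoc_dimS : Stmt_PVLoc_dimS := by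
  intro 𝒪 _ _ _ r
  have h := ringKrullDim_add_le_mvPowerSeries 𝒪 r
  rw [IsDiscreteValuationRing.ringKrullDim_eq_one] at h
  refine le_trans ?_ h
  rw [add_comm]
  norm_cast

end Fermat.Agent.L.Pivot.H52
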