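/-
PIVOT (item 66), package PV-LOC, toolkit (helper52): ideals of a power series ring defined by
conditions on the coefficients of the monomials avoiding a set of variables.
`coeffIdeal S I = {F : coeff μ F ∈ I for all monomials μ not involving the variables in S}`
`           = (X s : s ∈ S) + I·R⟦X⟧`  (`S` finite, `I` principal), prime when `I` is prime.
Mathlib only.
-/
import Mathlib

set_option autoImplicit false

namespace Fermat.Agent.L.Pivot.H52

open MvPowerSeries Finsupp

variable {σ : Type*} {R : Type*} [CommRing R]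

/-- The series all of whose coefficients at monomials avoiding `S` lie in `I`. -/
def coeffIdeal (S : Set σ) (I : Ideal R) : Ideal (MvPowerSeries σ R) where
  carrier := {F | ∀ μ : σ →₀ ℕ, (∀ s ∈ S, μ s = 0) → coeff μ F ∈ I}
  add_mem' := by
    intro F G hF hG μ hμ
    rw [map_add]
    exact I.add_mem (hF μ hμ) (hG μ hμ)
  zero_mem' := by
    intro μ _
    rw [map_zero]
    exact I.zero_mem
  smul_mem' := by
    classical
    intro G F hF μ hμ
    rw [smul_eq_mul, coeff_mul]
    refine I.sum_mem fun p hp => ?_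
    refine I.mul_mem_left _ (hF p.2 fun s hs => ?_)
    have h1 : p.1 + p.2 = μ := Finset.HasAntidiagonal.mem_antidiagonal.1 hp
    have h2 : p.1 s + p.2 s = 0 := by rw [← Finsupp.add_apply, h1, hμ s hs]
    omega

theorem mem_coeffIdeal {S : Set σ} {I : Ideal R} {F : MvPowerSeries σ R} :
    F ∈ coeffIdeal S I ↔ ∀ μ : σ →₀ ℕ, (∀ s ∈ S, μ s = 0) → coeff μ F ∈ I := Iff.rfl

theorem X_mem_coeffIdeal {S : Set σ} (I : Ideal R) {s : σ} (hs : s ∈ S) :
    (X s : MvPowerSeries σ R) ∈ coeffIdeal S I := by
  classical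
  intro μ hμ
  rw [coeff_X, if_neg]
  · exact I.zero_mem
  · intro h
    have := hμ s hs
    rw [h, Finsupp.single_eq_same] at this
    exact one_ne_zero this

theorem C_mem_coeffIdeal (S : Set σ) {I : Ideal R} {a : R} (ha : a ∈ I) :
    (C a : MvPowerSeries σ R) ∈ coeffIdeal S I := by
  classical
  intro μ _
  rw [coeff_C]
  split_ifs
  · exact ha
  · exact I.zero_mem

/-- A series with vanishing coefficients at all monomials avoiding the finite set `S` lies in
the ideal generated by the variables in `S`. -/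
theorem mem_span_X_of_coeff_eq_zero [DecidableEq σ] (S : Finset σ) (F : MvPowerSeries σ R)
    (h : ∀ μ : σ →₀ ℕ, (∀ s ∈ S, μ s = 0) → coeff μ F = 0) :
    F ∈ Ideal.span ((fun s => (X s : MvPowerSeries σ R)) '' (S : Set σ)) := by
  induction S using Finset.induction_on generalizing F with
  | empty =>
    have : F = 0 := by
      ext μ
      rw [h μ (by simp), map_zero]
    rw [this]
    exact Ideal.zero_mem _
  | insert s₀ S hs₀ ih =>
    let F₁ : MvPowerSeries σ R := fun μ => if μ s₀ = 0 then 0 else coeff μ F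
    have hF₁ : ∀ μ, coeff μ F₁ = if μ s₀ = 0 then 0 else coeff μ F := fun μ => rfl
    have h1 : (X s₀ : MvPowerSeries σ R) ∣ F₁ :=
      X_dvd_iff.2 fun m hm => by rw [hF₁, if_pos hm]
    have h2 : F - F₁ ∈ Ideal.span ((fun s => (X s : MvPowerSeries σ R)) '' (S : Set σ)) := by
      refine ih (F - F₁) fun μ hμ => ?_
      rw [map_sub, hF₁]
      split_ifs with h0
      · rw [sub_zero]
        refine h μ fun s hs => ?_
        rcases Finset.mem_insert.1 hs with rfl | hs
        · exact h0
        · exact hμ s hs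
      · exact sub_self _
    have h3 : F = (F - F₁) + F₁ := by ring
    rw [h3]
    refine Ideal.add_mem _ (Ideal.span_mono (Set.image_mono ?_) h2) ?_
    · intro s hs
      exact Finset.mem_insert_of_mem hs
    · obtain ⟨G, hG⟩ := h1
      rw [hG]
      exact Ideal.mul_mem_right _ _
        (Ideal.subset_span ⟨s₀, Finset.mem_insert_self s₀ S, rfl⟩)

/-- `coeffIdeal S (ϖ) = (X s : s ∈ S) + (ϖ)`. -/
theorem coeffIdeal_span_singleton [DecidableEq σ] (S : Finset σ) (ϖ : R) :
    coeffIdeal (S : Set σ) (Ideal.span {ϖ}) =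
      Ideal.span ((fun s => (X s : MvPowerSeries σ R)) '' (S : Set σ)) ⊔
        Ideal.span {(C ϖ : MvPowerSeries σ R)} := by
  apply le_antisymm
  · intro F hF
    -- the part of `F` avoiding `S` is divisible by `ϖ`
    have hc : ∀ μ : σ →₀ ℕ, ∃ c : R, (∀ s ∈ S, μ s = 0) → coeff μ F = ϖ * c := by
      intro μ
      by_cases hμ : ∀ s ∈ S, μ s = 0
      · obtain ⟨c, hc⟩ := Ideal.mem_span_singleton'.1 (hF μ hμ)
        exact ⟨c, fun _ => by rw [← hc, mul_comm]⟩
      · exact ⟨0, fun h => absurd h hμ⟩
    choose c hc using hc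
    let G : MvPowerSeries σ R := fun μ => c μ
    have hG : ∀ μ, coeff μ G = c μ := fun μ => rfl
    have h1 : F - C ϖ * G ∈ Ideal.span ((fun s => (X s : MvPowerSeries σ R)) '' (S : Set σ)) := by
      refine mem_span_X_of_coeff_eq_zero S _ fun μ hμ => ?_
      rw [map_sub, coeff_C_mul, hG, hc μ hμ, sub_self]
    have h2 : F = (F - C ϖ * G) + C ϖ * G := by ring
    rw [h2]
    exact Ideal.add_mem _ (Ideal.mem_sup_left h1)
      (Ideal.mem_sup_right (Ideal.mul_mem_right _ _ (Ideal.subset_span rfl)))
  · refine sup_le (Ideal.span_le.2 ?_) (Ideal.span_le.2 ?_)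
    · rintro _ ⟨s, hs, rfl⟩
      exact X_mem_coeffIdeal _ hs
    · rintro _ rfl
      exact C_mem_coeffIdeal _ (Ideal.subset_span rfl)

/-- The ring homomorphism with kernel `coeffIdeal S I`: reduce the coefficients modulo `I` and
kill the variables in `S`. -/
noncomputable def killHom (S : Set σ) (I : Ideal R) :
    MvPowerSeries σ R →+* MvPowerSeries {n : σ // n ∉ S} (R ⧸ I) :=
  ((killCompl (R := R ⧸ I) (Function.Embedding.subtype fun n : σ => n ∉ S)) :
      MvPowerSeries σ (R ⧸ I) →+* MvPowerSeries {n : σ // n ∉ S} (R ⧸ I)).comp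
    (MvPowerSeries.map (Ideal.Quotient.mk I))

theorem coeff_killHom (S : Set σ) (I : Ideal R) (F : MvPowerSeries σ R)
    (x : {n : σ // n ∉ S} →₀ ℕ) :
    coeff x (killHom S I F) =
      Ideal.Quotient.mk I (coeff (embDomain (Function.Embedding.subtype fun n : σ => n ∉ S) x) F) := by
  rw [killHom, RingHom.comp_apply]
  erw [coeff_killCompl]

theorem ker_killHom (S : Set σ) (I : Ideal R) :
    RingHom.ker (killHom S I) = coeffIdeal S I := by
  ext F
  rw [RingHom.mem_ker, mem_coeffIdeal]
  constructor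
  · intro h μ hμ
    have hμ' : μ ∈ Set.range (embDomain (Function.Embedding.subtype fun n : σ => n ∉ S)) := by
      rw [mem_range_embDomain_iff]
      intro n hn
      refine ⟨⟨n, fun hnS => ?_⟩, rfl⟩
      have h1 : μ n ≠ 0 := Finsupp.mem_support_iff.1 hn
      exact h1 (hμ n hnS)
    obtain ⟨x, rfl⟩ := hμ'
    have h2 := congrArg (coeff x) h
    rw [coeff_killHom, map_zero] at h2
    exact Ideal.Quotient.eq_zero_iff_mem.1 h2
  · intro h
    ext x
    rw [coeff_killHom, map_zero]
    refine Ideal.Quotient.eq_zero_iff_mem.2 (h _ fun s hs => ?_)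
    by_contra hne
    have h1 : s ∈ (embDomain (Function.Embedding.subtype fun n : σ => n ∉ S) x).support :=
      Finsupp.mem_support_iff.2 hne
    rw [Finsupp.support_embDomain, Finset.mem_map] at h1
    obtain ⟨t, -, ht⟩ := h1
    have ht' : (t : σ) = s := ht
    rw [← ht'] at hs
    exact t.2 hs

/-- `coeffIdeal S I` is prime when `I` is prime. -/
theorem coeffIdeal_isPrime (S : Set σ) (I : Ideal R) [I.IsPrime] : (coeffIdeal S I).IsPrime := by
  rw [← ker_killHom]
  have : IsDomain (MvPowerSeries {n : σ // n ∉ S} (R ⧸ I)) := NoZeroDivisors.to_isDomain _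
  exact RingHom.ker_isPrime _

end Fermat.Agent.L.Pivot.H52
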