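/-
PIVOT (item 66), package PV-LOC, leaf MAT (helper52): the unipotent dichotomy at the pivot prime.
Plan: NOTES/plan/L_PIVOT.md §3 (A3); statement `Stmt_PVLoc_mat` of `L/Pivot/Defs.lean`.
Pure algebra (polynomial identities), Mathlib only.

* `eigen_identity`, `eigen_smul_eq_zero` (any commutative ring): if `Φ X = q X Φ` then
  `(q - 1) · det Φ · e · X = 0`, `e = q (tr Φ)² - (q + 1)² det Φ`
  (`X` is an eigenvector of `Ad Φ` for the eigenvalue `q`; the eigenvalues of `Ad Φ` are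
  `1, 1, α/β, β/α`).
* `e_mul_sq_left`, `e_mul_sq_right` (any commutative ring): for `X = (a y; z -a)` with
  `a² + y z = 0` and `Φ X = q X Φ`:  `e · y² = 0` and `e · z² = 0`.
* `stmt_PVLoc_mat : Stmt_PVLoc_mat` (domains).
-/
import Fermat.Agent.L.Pivot.Defs

set_option autoImplicit false

namespace Fermat.Agent.L.Pivot.H52

open Matrix

section identity

variable {R : Type*} [CommRing R]

/-- The eigenvector identity: with `H = Φ X - q X Φ`, the matrix `(q - 1) det Φ · e · X` is an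
explicit combination of `H`. -/
theorem eigen_identity (X Φ : Matrix (Fin 2) (Fin 2) R) (q : R) :
    ((q - 1) * Φ.det * (q * Φ.trace ^ 2 - (q + 1) ^ 2 * Φ.det)) • X =
      ((1 + q) * Φ.det - q * Φ.trace ^ 2) •
          (Φ.adjugate * (Φ * X - q • (X * Φ)) - q • ((Φ * X - q • (X * Φ)) * Φ)) +
        (q * Φ.trace) •
          ((Φ.adjugate * (Φ * X - q • (X * Φ)) - q • ((Φ * X - q • (X * Φ)) * Φ)) * Φ) := by
  ext i j
  fin_cases i <;> fin_cases j <;>
  · simp only [Matrix.mul_apply, Fin.sum_univ_two, Matrix.det_fin_two, Matrix.trace_fin_two,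
      Matrix.adjugate_fin_two, Matrix.smul_apply, Matrix.add_apply, Matrix.sub_apply, smul_eq_mul,
      Matrix.of_apply, Matrix.cons_val', Matrix.cons_val_zero, Matrix.cons_val_one, Fin.zero_eta,
      Fin.mk_one, Matrix.cons_val_fin_one]
    ring

/-- If `Φ X = q X Φ` then `(q - 1) det Φ · e · X = 0`. -/
theorem eigen_smul_eq_zero (X Φ : Matrix (Fin 2) (Fin 2) R) (q : R)
    (h : Φ * X = q • (X * Φ)) :
    ((q - 1) * Φ.det * (q * Φ.trace ^ 2 - (q + 1) ^ 2 * Φ.det)) • X = 0 := by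
  rw [eigen_identity, h, sub_self, mul_zero, zero_mul, smul_zero, sub_self, zero_mul, smul_zero,
    smul_zero, add_zero]

/-- `e · y² = 0` for `X = (a y; z -a)`, `a² + y z = 0`, `Φ X = q X Φ` (entries `(0,1)`, `(1,1)`). -/
theorem e_mul_sq_left (a y z f11 f12 f21 f22 q : R)
    (hN : a ^ 2 + y * z = 0)
    (h12 : (f11 * y + f12 * (-a)) - q * (a * f12 + y * f22) = 0)
    (h22 : (f21 * y + f22 * (-a)) - q * (z * f12 + (-a) * f22) = 0) :
    (q * (f11 + f22) ^ 2 - (q + 1) ^ 2 * (f11 * f22 - f12 * f21)) * y ^ 2 = 0 := by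
  linear_combination
    (q * (2 * (q + 1) * (a * f12 + y * f22) + ((f11 * y + f12 * (-a)) - q * (a * f12 + y * f22)))
      - (q + 1) ^ 2 * f22 * y) * h12
    + ((q + 1) ^ 2 * f12 * y) * h22 + ((q + 1) ^ 2 * q * f12 ^ 2) * hN

/-- `e · z² = 0` for `X = (a y; z -a)`, `a² + y z = 0`, `Φ X = q X Φ` (entries `(1,0)`, `(0,0)`). -/
theorem e_mul_sq_right (a y z f11 f12 f21 f22 q : R)
    (hN : a ^ 2 + y * z = 0)
    (h21 : (f21 * a + f22 * z) - q * (z * f11 + (-a) * f21) = 0)
    (h11 : (f11 * a + f12 * z) - q * (a * f11 + y * f21) = 0) :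
    (q * (f11 + f22) ^ 2 - (q + 1) ^ 2 * (f11 * f22 - f12 * f21)) * z ^ 2 = 0 := by
  linear_combination
    (q * (2 * (q + 1) * (-a * f21 + z * f11) + ((f21 * a + f22 * z) - q * (z * f11 + (-a) * f21)))
      - (q + 1) ^ 2 * f11 * z) * h21
    + ((q + 1) ^ 2 * f21 * z) * h11 + ((q + 1) ^ 2 * q * f21 ^ 2) * hN

end identity

/-- **PV-LOC-MAT.** -/
theorem stmt_PVLoc_mat : Stmt_PVLoc_mat := by
  intro D _ _ q Sg Ph hsq htr hcomm
  set X : Matrix (Fin 2) (Fin 2) D := Sg - 1 with hX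
  -- `X` is traceless
  have htrX : X 0 0 + X 1 1 = 0 := by
    have h1 : X.trace = 0 := by
      rw [hX, Matrix.trace_sub, htr, Matrix.trace_one, Fintype.card_fin]
      norm_num
    rwa [Matrix.trace_fin_two] at h1
  have h11' : X 1 1 = -X 0 0 := by linear_combination htrX
  -- the entries of the relations
  have hN : X 0 0 ^ 2 + X 0 1 * X 1 0 = 0 := by
    have h := congrFun (congrFun hsq 0) 0
    rw [Matrix.mul_apply, Fin.sum_univ_two, Matrix.zero_apply] at h
    linear_combination h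
  have hent : ∀ i j, Ph i 0 * X 0 j + Ph i 1 * X 1 j - q * (X i 0 * Ph 0 j + X i 1 * Ph 1 j) = 0 := by
    intro i j
    have h := congrFun (congrFun hcomm i) j
    rw [Matrix.mul_apply, Fin.sum_univ_two, Matrix.smul_apply, Matrix.mul_apply,
      Fin.sum_univ_two, smul_eq_mul] at h
    linear_combination h
  have he : q * Ph.trace ^ 2 - (q + 1) ^ 2 * Ph.det =
      q * (Ph 0 0 + Ph 1 1) ^ 2 - (q + 1) ^ 2 * (Ph 0 0 * Ph 1 1 - Ph 0 1 * Ph 1 0) := by
    rw [Matrix.trace_fin_two, Matrix.det_fin_two]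
  rw [he]
  set e : D := q * (Ph 0 0 + Ph 1 1) ^ 2 - (q + 1) ^ 2 * (Ph 0 0 * Ph 1 1 - Ph 0 1 * Ph 1 0)
    with hedef
  have hy : e * X 0 1 ^ 2 = 0 := by
    refine e_mul_sq_left (X 0 0) (X 0 1) (X 1 0) (Ph 0 0) (Ph 0 1) (Ph 1 0) (Ph 1 1) q hN ?_ ?_
    · have h := hent 0 1
      rw [h11'] at h
      linear_combination h
    · have h := hent 1 1
      rw [h11'] at h
      linear_combination h
  have hz : e * X 1 0 ^ 2 = 0 := by
    refine e_mul_sq_right (X 0 0) (X 0 1) (X 1 0) (Ph 0 0) (Ph 0 1) (Ph 1 0) (Ph 1 1) q hN ?_ ?_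
    · have h := hent 1 0
      rw [h11'] at h
      linear_combination h
    · have h := hent 0 0
      linear_combination h
  by_cases he0 : e = 0
  · rw [he0, zero_smul]
  · have hy0 : X 0 1 = 0 := by
      rcases mul_eq_zero.1 hy with h | h
      · exact absurd h he0
      · exact pow_eq_zero_iff (two_ne_zero) |>.1 h
    have hz0 : X 1 0 = 0 := by
      rcases mul_eq_zero.1 hz with h | h
      · exact absurd h he0
      · exact pow_eq_zero_iff (two_ne_zero) |>.1 h
    have ha0 : X 0 0 = 0 := by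
      rw [hy0, zero_mul, add_zero] at hN
      exact pow_eq_zero_iff (two_ne_zero) |>.1 hN
    have hX0 : X = 0 := by
      ext i j
      fin_cases i <;> fin_cases j
      · exact ha0
      · exact hy0
      · exact hz0
      · show X 1 1 = 0
        rw [h11', ha0, neg_zero]
    rw [hX0, smul_zero]

end Fermat.Agent.L.Pivot.H52
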