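/-
PIVOT (item 66), PV-LOC-TYPE, toolkit (helper52): uniqueness of algebra homomorphisms out of a
power series ring in finitely many variables into a separated ring.

`(U)`: two `𝒪`-algebra homs `φ ψ : 𝒪⟦X_i⟧ → E` that agree on the variables and send them into an
ideal `J` with `⋂ Jⁿ = 0` are equal.  Direct proof from `f = C f₀ + Σ X_i g_i`.
-/
import Fermat.Agent.L.Pivot.H52_LocKill

set_option autoImplicit false

namespace Fermat.Agent.L.Pivot.H52

open MvPowerSeries

section Uniq

variable {σ : Type*} [Finite σ] {𝒪 : Type*} [CommRing 𝒪] {E : Type*} [CommRing E] [Algebra 𝒪 E]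

/-- `f - C (constantCoeff f)` lies in the ideal generated by the variables. -/
theorem sub_C_constantCoeff_mem_span_X (f : MvPowerSeries σ 𝒪) :
    f - C (constantCoeff f) ∈ Ideal.span (Set.range fun s => (X s : MvPowerSeries σ 𝒪)) := by
  classical
  have := Fintype.ofFinite σ
  have h := mem_span_X_of_coeff_eq_zero (Finset.univ : Finset σ) (f - C (constantCoeff f))
    (fun μ hμ => by
      have h0 : μ = 0 := by
        ext s
        simpa using hμ s (Finset.mem_univ s)
      subst h0
      simp)
  simpa using h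

/-- Key estimate for `(U)`. -/
theorem algHom_sub_mem_pow (J : Ideal E) (φ ψ : MvPowerSeries σ 𝒪 →ₐ[𝒪] E)
    (hX : ∀ i, φ (X i) = ψ (X i)) (hm : ∀ i, ψ (X i) ∈ J) (N : ℕ) (f : MvPowerSeries σ 𝒪) :
    φ f - ψ f ∈ J ^ N := by
  induction N generalizing f with
  | zero => simp
  | succ N ih =>
    have hC : ∀ c : 𝒪, φ (C c) = ψ (C c) := by
      intro c
      have h1 : (C c : MvPowerSeries σ 𝒪) = algebraMap 𝒪 _ c := rfl
      rw [h1, AlgHom.commutes, AlgHom.commutes]
    have key : ∀ h ∈ Ideal.span (Set.range fun s => (X s : MvPowerSeries σ 𝒪)),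
        φ h - ψ h ∈ J ^ (N + 1) ∧ ψ h ∈ J := by
      intro h hh
      induction hh using Submodule.span_induction with
      | mem x hx =>
        obtain ⟨i, rfl⟩ := hx
        refine ⟨?_, hm i⟩
        simp only [hX i, sub_self]
        exact Ideal.zero_mem _
      | zero => simp
      | add x y _ _ hx hy =>
        refine ⟨?_, ?_⟩
        · have : φ (x + y) - ψ (x + y) = (φ x - ψ x) + (φ y - ψ y) := by
            simp only [map_add]; ring
          rw [this]
          exact Ideal.add_mem _ hx.1 hy.1
        · rw [map_add]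
          exact Ideal.add_mem _ hx.2 hy.2
      | smul a x _ hx =>
        refine ⟨?_, ?_⟩
        · have : φ (a • x) - ψ (a • x) = φ a * (φ x - ψ x) + (φ a - ψ a) * ψ x := by
            simp only [smul_eq_mul, map_mul]; ring
          rw [this]
          refine Ideal.add_mem _ (Ideal.mul_mem_left _ _ hx.1) ?_
          rw [pow_succ]
          exact Ideal.mul_mem_mul (ih a) hx.2
        · rw [smul_eq_mul, map_mul]
          exact Ideal.mul_mem_left _ _ hx.2
    have h1 := (key _ (sub_C_constantCoeff_mem_span_X f)).1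
    have h2 : φ (f - C (constantCoeff f)) - ψ (f - C (constantCoeff f)) = φ f - ψ f := by
      simp only [map_sub, hC]; ring
    rwa [h2] at h1

/-- **(U)**: algebra homs out of a power series ring in finitely many variables into a ring
separated for `J` are determined by the images of the variables (if these lie in `J`). -/
theorem algHom_ext_of_X (J : Ideal E) (hJ : ∀ x : E, (∀ n, x ∈ J ^ n) → x = 0)
    (φ ψ : MvPowerSeries σ 𝒪 →ₐ[𝒪] E)
    (hX : ∀ i, φ (X i) = ψ (X i)) (hm : ∀ i, ψ (X i) ∈ J) : φ = ψ := by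
  ext f
  have := hJ (φ f - ψ f) (fun n => algHom_sub_mem_pow J φ ψ hX hm n f)
  exact sub_eq_zero.1 this

/-- `(U)` for rings that are `J`-adically Hausdorff. -/
theorem algHom_ext_of_X' (J : Ideal E) [IsHausdorff J E]
    (φ ψ : MvPowerSeries σ 𝒪 →ₐ[𝒪] E)
    (hX : ∀ i, φ (X i) = ψ (X i)) (hm : ∀ i, ψ (X i) ∈ J) : φ = ψ := by
  refine algHom_ext_of_X J (fun x hx => ?_) φ ψ hX hm
  refine IsHausdorff.haus ‹_› x fun n => ?_
  rw [SModEq.zero]
  simpa using hx n

end Uniq

end Fermat.Agent.L.Pivot.H52
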