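/-
PIVOT (item 66), PV-LOC-TYPE, leaf TypePrime (helper52), part 1:
translations of power series rings over complete local rings and anisotropy of
`δ² − 4yz` in `A⟦y⟧⟦z⟧` (it is not a square in the fraction field) when `δ ∈ 𝔪_A ∖ 0`.
-/
import Fermat.Agent.L.Pivot.H52_TPUniq
import Fermat.Agent.S56.H50_Gen

set_option autoImplicit false
set_option linter.style.haveILetI false
set_option linter.unusedSectionVars false

namespace Fermat.Agent.L.Pivot.H52

open IsLocalRing

/-! ### Evaluation and translation in one variable -/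

section Transl

variable {B : Type} [CommRing B]

/-- Evaluation of one-variable power series at an element of the maximal ideal of a complete
local ring. -/
theorem exists_eval_ps {R : Type} [CommRing R] [IsLocalRing R] [Algebra B R]
    [IsAdicComplete (maximalIdeal R) R] (x : R) (hx : x ∈ maximalIdeal R) :
    ∃ γ : PowerSeries B →ₐ[B] R, γ PowerSeries.X = x := by
  obtain ⟨γ, hγ⟩ := Fermat.Agent.S56.H50.exists_eval (𝒪 := B) (R := R) 1 (fun _ => x)
    (fun _ => hx)
  let e : Unit ≃ Fin 1 := Equiv.ofUnique Unit (Fin 1)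
  refine ⟨γ.comp (MvPowerSeries.rename (R := B) (⇑e)), ?_⟩
  have h1 : (PowerSeries.X : PowerSeries B) = MvPowerSeries.X () := rfl
  rw [h1, AlgHom.comp_apply, MvPowerSeries.rename_X]
  exact hγ _

variable [IsLocalRing B] [IsNoetherianRing B] [IsAdicComplete (maximalIdeal B) B]

theorem X_add_C_mem_maximalIdeal {c : B} (hc : c ∈ maximalIdeal B) :
    (PowerSeries.X + PowerSeries.C c : PowerSeries B) ∈ maximalIdeal (PowerSeries B) := by
  rw [mem_maximalIdeal, mem_nonunits_iff, PowerSeries.isUnit_iff_constantCoeff]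
  simpa using hc

/-- The translation `X ↦ X + c` (`c ∈ 𝔪`) of `B⟦X⟧` is an injective `B`-algebra endomorphism. -/
theorem exists_transl {c : B} (hc : c ∈ maximalIdeal B) :
    ∃ T : PowerSeries B →+* PowerSeries B,
      T PowerSeries.X = PowerSeries.X + PowerSeries.C c ∧ (∀ b : B, T (PowerSeries.C b) =
        PowerSeries.C b) ∧ Function.Injective T := by
  haveI : IsAdicComplete (maximalIdeal (PowerSeries B)) (PowerSeries B) :=
    Fermat.Agent.S53.Limit.isAdicComplete_powerSeries B
  obtain ⟨T, hT⟩ := exists_eval_ps (B := B) (R := PowerSeries B) _ (X_add_C_mem_maximalIdeal hc)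
  have hc' : -c ∈ maximalIdeal B := neg_mem hc
  obtain ⟨T', hT'⟩ := exists_eval_ps (B := B) (R := PowerSeries B) _
    (X_add_C_mem_maximalIdeal hc')
  have hC : ∀ b : B, T' (PowerSeries.C b) = PowerSeries.C b := by
    intro b
    have h1 : (PowerSeries.C b : PowerSeries B) = algebraMap B _ b := rfl
    rw [h1, AlgHom.commutes]
  have hC0 : ∀ b : B, T (PowerSeries.C b) = PowerSeries.C b := by
    intro b
    have h1 : (PowerSeries.C b : PowerSeries B) = algebraMap B _ b := rfl
    rw [h1, AlgHom.commutes]
  refine ⟨T.toRingHom, hT, hC0, ?_⟩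
  have hX0 : (PowerSeries.X : PowerSeries B) ∈ maximalIdeal (PowerSeries B) := by
    have := X_add_C_mem_maximalIdeal (B := B) (c := 0) (Ideal.zero_mem _)
    simpa using this
  have hcomp : T'.comp T = AlgHom.id B (PowerSeries B) := by
    refine algHom_ext_of_X' (σ := Unit) (𝒪 := B) (E := PowerSeries B)
      (maximalIdeal (PowerSeries B)) (T'.comp T) (AlgHom.id B (PowerSeries B)) ?_ ?_
    · intro i
      have h1 : (MvPowerSeries.X i : MvPowerSeries Unit B) = (PowerSeries.X : PowerSeries B) := rfl
      rw [h1]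
      simp only [AlgHom.comp_apply, hT, map_add, hT', hC, AlgHom.id_apply, map_neg]
      ring
    · intro i
      exact hX0
  intro a b hab
  have hab' : T a = T b := hab
  have := congrArg T' hab'
  have h2 : ∀ x, T' (T x) = x := fun x => by
    have := congrArg (fun φ : PowerSeries B →ₐ[B] PowerSeries B => φ x) hcomp
    simpa using this
  rwa [h2, h2] at this

end Transl

/-! ### Anisotropic elements -/

section Aniso

/-- `u` is *anisotropic*: it is not a square in the fraction field. -/
def Aniso {B : Type*} [CommRing B] (u : B) : Prop := ∀ p q : B, p ^ 2 = q ^ 2 * u → q = 0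

theorem Aniso.ne_zero {B : Type*} [CommRing B] [Nontrivial B] {u : B} (h : Aniso u) : u ≠ 0 := by
  rintro rfl
  exact one_ne_zero (h 0 1 (by simp))

theorem Aniso.of_injective {B B' : Type*} [CommRing B] [CommRing B'] (T : B →+* B')
    (hT : Function.Injective T) {u : B} (h : Aniso (T u)) : Aniso u := by
  intro p q hpq
  have := h (T p) (T q) (by rw [← map_pow, ← map_pow, ← map_mul, hpq])
  exact hT (by rw [this, map_zero])

variable {B : Type*} [CommRing B] [IsDomain B]

theorem aniso_C_mul_X {c : B} (hc : c ≠ 0) :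
    Aniso (PowerSeries.C c * PowerSeries.X : PowerSeries B) := by
  intro p q hpq
  by_contra hq
  have hu : (PowerSeries.C c * PowerSeries.X : PowerSeries B) ≠ 0 := by
    intro h
    have := congrArg (PowerSeries.coeff 1) h
    simp at this
    exact hc this
  have hp : p ≠ 0 := by
    rintro rfl
    have : q ^ 2 * (PowerSeries.C c * PowerSeries.X : PowerSeries B) = 0 := by
      rw [← hpq]; simp
    rcases mul_eq_zero.1 this with h | h
    · exact hq (pow_eq_zero_iff (two_ne_zero) |>.1 h)
    · exact hu h
  have h1 := congrArg PowerSeries.order hpq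
  rw [PowerSeries.order_mul, PowerSeries.order_pow, PowerSeries.order_pow, PowerSeries.order_mul,
    PowerSeries.order_X] at h1
  have hCc : (PowerSeries.C c : PowerSeries B).order = 0 := by
    rw [← PowerSeries.monomial_zero_eq_C_apply, PowerSeries.order_monomial_of_ne_zero _ _ hc]
    rfl
  rw [hCc, zero_add] at h1
  rw [← PowerSeries.coe_toNat_order hp, ← PowerSeries.coe_toNat_order hq] at h1
  have h2 : (2 * p.order.toNat : ℕ) = 2 * q.order.toNat + 1 := by
    have : ((2 * p.order.toNat : ℕ) : ℕ∞) = ((2 * q.order.toNat + 1 : ℕ) : ℕ∞) := by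
      push_cast
      simpa [two_nsmul, two_mul] using h1
    exact_mod_cast this
  omega

theorem aniso_of_constantCoeff {u : PowerSeries B} (h : Aniso (PowerSeries.constantCoeff u)) :
    Aniso u := by
  intro p q hpq
  have h0 : PowerSeries.constantCoeff u ≠ 0 := h.ne_zero
  have hord : u.order = 0 := by
    have := PowerSeries.order_le (φ := u) 0 (by simpa using h0)
    simpa using this
  have h1 := congrArg PowerSeries.divXPowOrder hpq
  rw [PowerSeries.divXPowOrder_mul, PowerSeries.divXPowOrder_pow,
    PowerSeries.divXPowOrder_pow] at h1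
  have h2 := congrArg PowerSeries.constantCoeff h1
  rw [map_mul, map_pow, map_pow] at h2
  have h3 : PowerSeries.constantCoeff (PowerSeries.divXPowOrder u) =
      PowerSeries.constantCoeff u := by
    rw [PowerSeries.constantCoeff_divXPowOrder, hord]
    simp
  rw [h3] at h2
  have h4 := h _ _ h2
  exact PowerSeries.constantCoeff_divXPowOrder_eq_zero_iff.1 h4

end Aniso

/-! ### The discriminant `δ² − 4yz` -/

section Disc

variable {A : Type} [CommRing A] [IsDomain A] [IsLocalRing A] [IsNoetherianRing A]
  [IsAdicComplete (maximalIdeal A) A]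

/-- **ANISO**: for `δ ∈ 𝔪_A ∖ 0` and `2` a unit, `δ² − 4yz` is anisotropic in `A⟦y⟧⟦z⟧`
(`y = C X` the inner variable, `z = X` the outer one). -/
theorem aniso_disc (hu : IsUnit (2 : A)) {δ : A} (hδ0 : δ ≠ 0) (hδm : δ ∈ maximalIdeal A) :
    Aniso (PowerSeries.C (PowerSeries.C (δ ^ 2)) -
      4 * PowerSeries.C (PowerSeries.X : PowerSeries A) * PowerSeries.X :
      PowerSeries (PowerSeries A)) := by
  obtain ⟨h2, hh2⟩ := hu.exists_right_inv
  -- `ε = δ / 2`
  set ε : A := δ * h2 with hε
  have hε2 : 2 * ε = δ := by rw [hε]; linear_combination δ * hh2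
  have hεm : ε ∈ maximalIdeal A := Ideal.mul_mem_right _ _ hδm
  haveI : IsAdicComplete (maximalIdeal (PowerSeries A)) (PowerSeries A) :=
    Fermat.Agent.S53.Limit.isAdicComplete_powerSeries A
  have hεm' : (PowerSeries.C ε : PowerSeries A) ∈ maximalIdeal (PowerSeries A) := by
    rw [mem_maximalIdeal, mem_nonunits_iff, PowerSeries.isUnit_iff_constantCoeff]
    simpa using hεm
  obtain ⟨Tz, hTz, hTzC, hTzi⟩ := exists_transl (B := PowerSeries A) hεm'
  obtain ⟨Ty, hTy, hTyC, hTyi⟩ := exists_transl (B := A) hεm
  refine Aniso.of_injective Tz hTzi ?_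
  apply aniso_of_constantCoeff
  have h4 : Tz (4 : PowerSeries (PowerSeries A)) = 4 := map_ofNat _ 4
  have hcc : PowerSeries.constantCoeff (Tz (PowerSeries.C (PowerSeries.C (δ ^ 2)) -
      4 * PowerSeries.C (PowerSeries.X : PowerSeries A) * PowerSeries.X)) =
      PowerSeries.C (δ ^ 2) - 4 * PowerSeries.X * PowerSeries.C ε := by
    simp only [map_sub, map_mul, hTzC, hTz, h4, map_add,
      PowerSeries.constantCoeff_C, PowerSeries.constantCoeff_X, zero_add]
    have : PowerSeries.constantCoeff (4 : PowerSeries (PowerSeries A)) = 4 := map_ofNat _ 4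
    rw [this]
  rw [hcc]
  refine Aniso.of_injective Ty hTyi ?_
  have h4' : Ty (4 : PowerSeries A) = 4 := map_ofNat _ 4
  have hval : Ty (PowerSeries.C (δ ^ 2) - 4 * PowerSeries.X * PowerSeries.C ε) =
      PowerSeries.C (-(2 * δ)) * PowerSeries.X := by
    simp only [map_sub, map_mul, hTyC, hTy, h4']
    have e1 : (PowerSeries.C (δ ^ 2) : PowerSeries A) =
        4 * PowerSeries.C ε * PowerSeries.C ε := by
      have : δ ^ 2 = 4 * ε * ε := by rw [← hε2]; ring
      rw [this, map_mul, map_mul]
      congr 2
    have e2 : (PowerSeries.C (-(2 * δ)) : PowerSeries A) = -(4 * PowerSeries.C ε) := by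
      have : -(2 * δ) = -(4 * ε) := by rw [← hε2]; ring
      rw [this, map_neg, map_mul]
      congr 2
    rw [e1, e2]
    ring
  rw [hval]
  apply aniso_C_mul_X
  intro h
  have h5 : 2 * δ = 0 := by simpa using h
  rcases mul_eq_zero.1 h5 with h6 | h6
  · exact hu.ne_zero h6
  · exact hδ0 h6

end Disc

end Fermat.Agent.L.Pivot.H52
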