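/-
PIVOT (item 66), PV-LOC-TYPE, leaf TypePrime (helper52), part 2 (QPRIME):
for a domain `B` complete for an ideal `I`, `D ∈ I` anisotropic, the ideal `(X² − D)` of `B⟦X⟧`
is prime and meets `B` trivially.  (Weierstrass: `B⟦X⟧/(X² − D) ≃ B[X]/(X² − D)`.)
-/
import Fermat.Agent.L.Pivot.H52_TPAniso

set_option autoImplicit false
set_option linter.style.haveILetI false
set_option linter.unusedSectionVars false

namespace Fermat.Agent.L.Pivot.H52

open Polynomial

section PolySide

variable {B : Type*} [CommRing B] [IsDomain B]

/-- The polynomial `X² − D`. -/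
noncomputable def quadPoly (D : B) : B[X] := X ^ 2 - C D

theorem quadPoly_monic (D : B) : (quadPoly D).Monic := monic_X_pow_sub_C D two_ne_zero

theorem quadPoly_natDegree (D : B) : (quadPoly D).natDegree = 2 := natDegree_X_pow_sub_C

theorem quadPoly_irreducible_map {D : B} (ha : Aniso D) :
    Irreducible ((quadPoly D).map (algebraMap B (FractionRing B))) := by
  have h1 : (quadPoly D).map (algebraMap B (FractionRing B)) =
      X ^ 2 - C (algebraMap B (FractionRing B) D) := by
    simp [quadPoly]
  rw [h1]
  refine X_pow_sub_C_irreducible_of_prime Nat.prime_two fun r hr => ?_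
  obtain ⟨p, q, hq, rfl⟩ := IsFractionRing.div_surjective (A := B) r
  have hq0 : algebraMap B (FractionRing B) q ≠ 0 := by
    intro h
    have : q = 0 := (IsFractionRing.injective B (FractionRing B)) (by rw [h, map_zero])
    exact (nonZeroDivisors.ne_zero hq) this
  have h2 : algebraMap B (FractionRing B) (p ^ 2) = algebraMap B (FractionRing B) (q ^ 2 * D) := by
    rw [map_mul, map_pow, map_pow, ← hr]
    field_simp
  have h3 := IsFractionRing.injective B (FractionRing B) h2
  exact (nonZeroDivisors.ne_zero hq) (ha p q h3)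

theorem quadPoly_dvd_of_map_dvd (D : B) (f : B[X])
    (h : (quadPoly D).map (algebraMap B (FractionRing B)) ∣ f.map (algebraMap B (FractionRing B))) :
    quadPoly D ∣ f := by
  have hm := quadPoly_monic D
  rw [← modByMonic_eq_zero_iff_dvd hm]
  have h1 : (f %ₘ quadPoly D).map (algebraMap B (FractionRing B)) = 0 := by
    rw [map_modByMonic _ hm, modByMonic_eq_zero_iff_dvd (hm.map _)]
    exact h
  exact (Polynomial.map_injective _ (IsFractionRing.injective B (FractionRing B)))
    (by rw [h1, Polynomial.map_zero])

theorem span_quadPoly_isPrime {D : B} (ha : Aniso D) :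
    (Ideal.span {quadPoly D}).IsPrime := by
  have hirr := quadPoly_irreducible_map ha
  have hp : (Ideal.span {(quadPoly D).map (algebraMap B (FractionRing B))}).IsPrime :=
    (Ideal.span_singleton_prime hirr.ne_zero).2 hirr.prime
  have he : Ideal.span {quadPoly D} =
      Ideal.comap (mapRingHom (algebraMap B (FractionRing B)))
        (Ideal.span {(quadPoly D).map (algebraMap B (FractionRing B))}) := by
    ext f
    rw [Ideal.mem_comap, Ideal.mem_span_singleton, Ideal.mem_span_singleton, coe_mapRingHom]
    constructor
    · intro h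
      exact Polynomial.map_dvd _ h
    · exact quadPoly_dvd_of_map_dvd D f
  rw [he]
  exact Ideal.comap_isPrime _ _

theorem C_mem_span_quadPoly {D : B} {b : B} (h : C b ∈ Ideal.span {quadPoly D}) : b = 0 := by
  rw [Ideal.mem_span_singleton] at h
  by_contra hb
  have h1 := natDegree_le_of_dvd h (by simpa using hb)
  rw [quadPoly_natDegree, natDegree_C] at h1
  omega

end PolySide

section SeriesSide

variable {B : Type*} [CommRing B] [IsDomain B] (I : Ideal B) [IsAdicComplete I B]

theorem quadPoly_isDistinguishedAt {D : B} (hD : D ∈ I) : (quadPoly D).IsDistinguishedAt I := by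
  refine ⟨⟨fun {n} hn => ?_⟩, quadPoly_monic D⟩
  rw [quadPoly_natDegree] at hn
  rw [quadPoly, coeff_sub, coeff_X_pow, coeff_C]
  interval_cases n
  · simpa using hD
  · simp

theorem coe_quadPoly (D : B) :
    ((quadPoly D : B[X]) : PowerSeries B) = PowerSeries.X ^ 2 - PowerSeries.C D := by
  simp [quadPoly]

/-- **QPRIME**. -/
theorem qprime {D : B} (hD : D ∈ I) (ha : Aniso D) :
    (Ideal.span {(PowerSeries.X ^ 2 - PowerSeries.C D : PowerSeries B)}).IsPrime ∧
    ∀ b : B, PowerSeries.C b ∈
      Ideal.span {(PowerSeries.X ^ 2 - PowerSeries.C D : PowerSeries B)} → b = 0 := by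
  have H := quadPoly_isDistinguishedAt I hD
  let e := H.algEquivQuotient
  rw [← coe_quadPoly]
  haveI := span_quadPoly_isPrime ha
  constructor
  · rw [← Ideal.Quotient.isDomain_iff_prime]
    exact e.symm.toMulEquiv.isDomain _
  · intro b hb
    have h1 : Ideal.Quotient.mk (Ideal.span {((quadPoly D : B[X]) : PowerSeries B)})
        (PowerSeries.C b) = 0 := Ideal.Quotient.eq_zero_iff_mem.2 hb
    have h2 : e (algebraMap B _ b) = 0 := by
      rw [AlgEquiv.commutes]
      exact h1
    have h3 : algebraMap B (B[X] ⧸ Ideal.span {quadPoly D}) b = 0 := by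
      have := e.injective (h2.trans (map_zero e).symm)
      exact this
    have h4 : C b ∈ Ideal.span {quadPoly D} := Ideal.Quotient.eq_zero_iff_mem.1 h3
    exact C_mem_span_quadPoly h4

end SeriesSide

end Fermat.Agent.L.Pivot.H52
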