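/-
PIVOT (item 66), PV-LOC-TYPE, leaf TypePrime (helper52), part 3 (tower lemmas):
kernels of `PowerSeries.map`, quotients of complete local rings, the maps
`R_{n+1} = 𝒪⟦X_0..X_n⟧ → (R_n/I)⟦X⟧`.
-/
import Fermat.Agent.L.Pivot.H52_TPQPrime

set_option autoImplicit false
set_option linter.style.haveILetI false
set_option linter.unusedSectionVars false

namespace Fermat.Agent.L.Pivot.H52

open IsLocalRing

/-! ### Kernel of `PowerSeries.map` -/

section KerMap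

variable {R A : Type*} [CommRing R] [CommRing A]

theorem ker_powerSeries_map (Φ : R →+* A) (hfg : (RingHom.ker Φ).FG) :
    RingHom.ker (PowerSeries.map Φ) = (RingHom.ker Φ).map (PowerSeries.C (R := R)) := by
  classical
  apply le_antisymm
  · intro f hf
    obtain ⟨s, hs⟩ := hfg
    have hcoef : ∀ n, PowerSeries.coeff n f ∈ Ideal.span (s : Set R) := by
      intro n
      rw [hs, RingHom.mem_ker]
      have := congrArg (PowerSeries.coeff n) ((RingHom.mem_ker).1 hf)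
      simpa using this
    have hex : ∀ n, ∃ c : R → R, ∑ i ∈ s, c i * i = PowerSeries.coeff n f := by
      intro n
      obtain ⟨c, -, hc⟩ := Submodule.mem_span_finset.1 (hcoef n)
      exact ⟨c, by simpa [smul_eq_mul] using hc⟩
    choose c hc using hex
    have hf' : f = ∑ i ∈ s, PowerSeries.mk (fun n => c n i) * PowerSeries.C i := by
      ext n
      rw [map_sum]
      simp only [PowerSeries.coeff_mul_C, PowerSeries.coeff_mk]
      exact (hc n).symm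
    rw [hf']
    refine Ideal.sum_mem _ fun i hi => Ideal.mul_mem_left _ _ (Ideal.mem_map_of_mem _ ?_)
    rw [← hs]
    exact Ideal.subset_span hi
  · rw [Ideal.map_le_iff_le_comap]
    intro x hx
    rw [Ideal.mem_comap, RingHom.mem_ker, PowerSeries.map_C]
    rw [RingHom.mem_ker] at hx
    rw [hx, map_zero]

end KerMap

/-! ### Quotients of complete noetherian local rings -/

section Quot

variable {R : Type} [CommRing R] [IsLocalRing R] [IsNoetherianRing R]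
  [IsAdicComplete (maximalIdeal R) R]

theorem isLocalRing_quotient (I : Ideal R) (hI : I ≠ ⊤) : IsLocalRing (R ⧸ I) := by
  haveI : Nontrivial (R ⧸ I) := Ideal.Quotient.nontrivial_iff.2 hI
  exact IsLocalRing.of_surjective' (Ideal.Quotient.mk I) Ideal.Quotient.mk_surjective

theorem isLocalHom_quotient_mk (I : Ideal R) (hI : I ≠ ⊤) : IsLocalHom (Ideal.Quotient.mk I) := by
  apply isLocalHom_of_le_jacobson_bot
  rw [IsLocalRing.jacobson_eq_maximalIdeal ⊥ bot_ne_top]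
  exact IsLocalRing.le_maximalIdeal hI

theorem isAdicComplete_quotient (I : Ideal R) (hI : I ≠ ⊤) :
    letI := isLocalRing_quotient I hI
    IsAdicComplete (maximalIdeal (R ⧸ I)) (R ⧸ I) := by
  letI := isLocalRing_quotient I hI
  haveI : IsLocalHom (algebraMap R (R ⧸ I)) := isLocalHom_quotient_mk I hI
  exact IsLocalRing.isAdicComplete_of_module_finite (𝒪 := R) (T := R ⧸ I)

theorem mk_mem_maximalIdeal (I : Ideal R) (hI : I ≠ ⊤) {x : R} (hx : x ∈ maximalIdeal R) :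
    letI := isLocalRing_quotient I hI
    Ideal.Quotient.mk I x ∈ maximalIdeal (R ⧸ I) := by
  letI := isLocalRing_quotient I hI
  rw [mem_maximalIdeal, mem_nonunits_iff] at hx ⊢
  intro h
  haveI := isLocalHom_quotient_mk I hI
  exact hx (isUnit_of_map_unit (Ideal.Quotient.mk I) x h)

end Quot

/-! ### The tower `R_n = 𝒪⟦X_0, …, X_{n-1}⟧` -/

section Tower

variable (𝒪 : Type) [CommRing 𝒪]

/-- `R_n = 𝒪⟦X_0, …, X_{n-1}⟧`. -/
abbrev Rn (n : ℕ) : Type := MvPowerSeries (Fin n) 𝒪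

/-- `R_{n+1} ≃ R_n⟦X⟧` as a ring homomorphism. -/
noncomputable def fseHom (n : ℕ) : Rn 𝒪 (n + 1) →+* PowerSeries (Rn 𝒪 n) :=
  ((MvPowerSeries.finSuccEquiv 𝒪 n).toRingEquiv : Rn 𝒪 (n + 1) →+* PowerSeries (Rn 𝒪 n))

/-- The inclusion `R_n → R_{n+1}`, `X_i ↦ X_{i+1}`. -/
noncomputable def shift (n : ℕ) : Rn 𝒪 n →+* Rn 𝒪 (n + 1) :=
  ((MvPowerSeries.finSuccEquiv 𝒪 n).symm.toRingEquiv :
    PowerSeries (Rn 𝒪 n) →+* Rn 𝒪 (n + 1)).comp PowerSeries.C

variable {𝒪}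

theorem fseHom_apply (n : ℕ) (f : Rn 𝒪 (n + 1)) :
    fseHom 𝒪 n f = MvPowerSeries.finSuccEquiv 𝒪 n f := rfl

theorem fseHom_bijective (n : ℕ) : Function.Bijective (fseHom 𝒪 n) :=
  (MvPowerSeries.finSuccEquiv 𝒪 n).toRingEquiv.bijective

theorem fseHom_shift (n : ℕ) (f : Rn 𝒪 n) : fseHom 𝒪 n (shift 𝒪 n f) = PowerSeries.C f := by
  change MvPowerSeries.finSuccEquiv 𝒪 n ((MvPowerSeries.finSuccEquiv 𝒪 n).symm (PowerSeries.C f)) = _
  exact AlgEquiv.apply_symm_apply _ _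

theorem shift_X (n : ℕ) (i : Fin n) :
    shift 𝒪 n (MvPowerSeries.X i) = MvPowerSeries.X i.succ := by
  apply (fseHom_bijective n).1
  rw [fseHom_shift, fseHom_apply, MvPowerSeries.finSuccEquiv_X_succ]

theorem shift_C (n : ℕ) (a : 𝒪) :
    shift 𝒪 n (MvPowerSeries.C a) = MvPowerSeries.C a := by
  apply (fseHom_bijective n).1
  rw [fseHom_shift, fseHom_apply, MvPowerSeries.finSuccEquiv_C]

theorem fseHom_X_zero (n : ℕ) :
    fseHom 𝒪 n (MvPowerSeries.X 0) = PowerSeries.X := by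
  rw [fseHom_apply, MvPowerSeries.finSuccEquiv_X_zero]

/-- The map `R_{n+1} → E⟦X⟧` induced by `Φ : R_n → E`. -/
noncomputable def lift1 {n : ℕ} {E : Type*} [CommRing E] (Φ : Rn 𝒪 n →+* E) :
    Rn 𝒪 (n + 1) →+* PowerSeries E :=
  (PowerSeries.map Φ).comp (fseHom 𝒪 n)

section Lift1

variable {n : ℕ} {E : Type*} [CommRing E] (Φ : Rn 𝒪 n →+* E)

theorem lift1_apply (f : Rn 𝒪 (n + 1)) : lift1 Φ f = PowerSeries.map Φ (fseHom 𝒪 n f) := rfl

theorem lift1_shift (f : Rn 𝒪 n) : lift1 Φ (shift 𝒪 n f) = PowerSeries.C (Φ f) := by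
  rw [lift1_apply, fseHom_shift, PowerSeries.map_C]

theorem lift1_X_zero : lift1 Φ (MvPowerSeries.X 0) = PowerSeries.X := by
  rw [lift1_apply, fseHom_X_zero, PowerSeries.map_X]

theorem lift1_X_succ (i : Fin n) :
    lift1 Φ (MvPowerSeries.X i.succ) = PowerSeries.C (Φ (MvPowerSeries.X i)) := by
  rw [← shift_X, lift1_shift]

theorem lift1_C (a : 𝒪) :
    lift1 Φ (MvPowerSeries.C a) = PowerSeries.C (Φ (MvPowerSeries.C a)) := by
  rw [← shift_C, lift1_shift]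

theorem lift1_surjective (hΦ : Function.Surjective Φ) : Function.Surjective (lift1 Φ) :=
  (PowerSeries.map_surjective Φ hΦ).comp (fseHom_bijective n).2

theorem ker_lift1 (hfg : (RingHom.ker Φ).FG) :
    RingHom.ker (lift1 Φ) = (RingHom.ker Φ).map (shift 𝒪 n) := by
  ext x
  rw [RingHom.mem_ker, lift1_apply, ← RingHom.mem_ker, ker_powerSeries_map Φ hfg]
  constructor
  · intro h
    have h1 : x = ((MvPowerSeries.finSuccEquiv 𝒪 n).symm.toRingEquiv :
        PowerSeries (Rn 𝒪 n) →+* Rn 𝒪 (n + 1)) (fseHom 𝒪 n x) := by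
      change x = (MvPowerSeries.finSuccEquiv 𝒪 n).symm (MvPowerSeries.finSuccEquiv 𝒪 n x)
      exact (AlgEquiv.symm_apply_apply _ _).symm
    rw [h1]
    have h2 := Ideal.mem_map_of_mem ((MvPowerSeries.finSuccEquiv 𝒪 n).symm.toRingEquiv :
        PowerSeries (Rn 𝒪 n) →+* Rn 𝒪 (n + 1)) h
    rw [Ideal.map_map] at h2
    exact h2
  · intro h
    have h2 := Ideal.mem_map_of_mem (fseHom 𝒪 n) h
    rw [Ideal.map_map] at h2
    have h3 : (fseHom 𝒪 n).comp (shift 𝒪 n) = PowerSeries.C := by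
      ext f : 1
      exact fseHom_shift n f
    rwa [h3] at h2

end Lift1

variable (𝒪)

/-- `S` generates a prime ideal of `R_n` that meets `𝒪` trivially. -/
def Good (n : ℕ) (S : Set (Rn 𝒪 n)) : Prop :=
  (Ideal.span S).IsPrime ∧ ∀ a : 𝒪, MvPowerSeries.C a ∈ Ideal.span S → a = 0

variable {𝒪}

theorem ker_fg [IsNoetherianRing 𝒪] {n : ℕ} {E : Type*} [CommRing E] (Φ : Rn 𝒪 n →+* E) :
    (RingHom.ker Φ).FG :=
  (isNoetherianRing_iff_ideal_fg _).1 inferInstance _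

/-- Adding a free variable. -/
theorem good_free_step [IsNoetherianRing 𝒪] {n : ℕ} {S : Set (Rn 𝒪 n)} (hS : Good 𝒪 n S) :
    Good 𝒪 (n + 1) (shift 𝒪 n '' S) := by
  obtain ⟨hp, h0⟩ := hS
  haveI := hp
  let Φ₀ : Rn 𝒪 n →+* Rn 𝒪 n ⧸ Ideal.span S := Ideal.Quotient.mk _
  have hk0 : RingHom.ker Φ₀ = Ideal.span S := Ideal.mk_ker
  have hk1 : RingHom.ker (lift1 Φ₀) = Ideal.span (shift 𝒪 n '' S) := by
    rw [ker_lift1 Φ₀ (ker_fg Φ₀), hk0, Ideal.map_span]
  rw [Good, ← hk1]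
  refine ⟨RingHom.ker_isPrime _, fun a ha => ?_⟩
  rw [RingHom.mem_ker, lift1_C] at ha
  have h1 : Φ₀ (MvPowerSeries.C a) = 0 := by
    have := congrArg PowerSeries.constantCoeff ha
    simpa using this
  exact h0 a (by rw [← hk0]; exact h1)

end Tower

/-! ### Adjoining a quadric `m² + 4yz = δ²` -/

section QuadStep

variable {𝒪 : Type} [CommRing 𝒪]

/-- The quadric `X_{p 2}² + 4 X_{p 0} X_{p 1} − d²`. -/
noncomputable def towerGen {n : ℕ} (p : Fin 3 → Fin n) (d : 𝒪) : Rn 𝒪 n :=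
  MvPowerSeries.X (p 2) ^ 2 + 4 * MvPowerSeries.X (p 0) * MvPowerSeries.X (p 1) -
    MvPowerSeries.C (d ^ 2)

/-- The positions of a new block: `y ↦ 2`, `z ↦ 1`, `m ↦ 0`. -/
def pos0 (n : ℕ) (t : Fin 3) : Fin (n + 3) := ⟨2 - t.1, by omega⟩

theorem shift_towerGen {n : ℕ} (p : Fin 3 → Fin n) (d : 𝒪) :
    shift 𝒪 n (towerGen p d) = towerGen (fun t => (p t).succ) d := by
  have h4 : shift 𝒪 n (4 : Rn 𝒪 n) = 4 := map_ofNat _ 4
  simp only [towerGen, map_sub, map_add, map_mul, map_pow, shift_X, shift_C, h4]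

variable [IsDomain 𝒪] [IsLocalRing 𝒪] [IsNoetherianRing 𝒪] [IsAdicComplete (maximalIdeal 𝒪) 𝒪]

theorem C_mem_maximalIdeal_Rn (n : ℕ) {a : 𝒪} (ha : a ∈ maximalIdeal 𝒪) :
    (MvPowerSeries.C a : Rn 𝒪 n) ∈ maximalIdeal (Rn 𝒪 n) := by
  rw [mem_maximalIdeal, mem_nonunits_iff, MvPowerSeries.isUnit_iff_constantCoeff]
  simpa using ha

/-- Adjoining a quadric: three new variables `m = X_0`, `z = X_1`, `y = X_2` and the relation
`m² + 4yz = δ²`. -/
theorem good_quad_step {n : ℕ} {S : Set (Rn 𝒪 n)} (hS : Good 𝒪 n S) (hu : IsUnit (2 : 𝒪))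
    {δ : 𝒪} (hδ0 : δ ≠ 0) (hδm : δ ∈ maximalIdeal 𝒪) :
    Good 𝒪 (n + 3) (shift 𝒪 (n + 2) '' (shift 𝒪 (n + 1) '' (shift 𝒪 n '' S)) ∪
      {towerGen (pos0 n) δ}) := by
  obtain ⟨hp, h0⟩ := hS
  haveI := hp
  haveI : IsAdicComplete (maximalIdeal (Rn 𝒪 n)) (Rn 𝒪 n) :=
    Fermat.Agent.S53.Limit.isAdicComplete_mvPowerSeries_fin 𝒪 n
  have hne : Ideal.span S ≠ ⊤ := hp.ne_top
  letI : IsLocalRing (Rn 𝒪 n ⧸ Ideal.span S) := isLocalRing_quotient _ hne
  haveI : IsAdicComplete (maximalIdeal (Rn 𝒪 n ⧸ Ideal.span S)) (Rn 𝒪 n ⧸ Ideal.span S) :=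
    isAdicComplete_quotient _ hne
  let Φ₀ : Rn 𝒪 n →+* Rn 𝒪 n ⧸ Ideal.span S := Ideal.Quotient.mk _
  have hδ'0 : Φ₀ (MvPowerSeries.C δ) ≠ 0 :=
    fun h => hδ0 (h0 δ (Ideal.Quotient.eq_zero_iff_mem.1 h))
  have hδ'm : Φ₀ (MvPowerSeries.C δ) ∈ maximalIdeal (Rn 𝒪 n ⧸ Ideal.span S) :=
    mk_mem_maximalIdeal _ hne (C_mem_maximalIdeal_Rn n hδm)
  have hu' : IsUnit (2 : Rn 𝒪 n ⧸ Ideal.span S) := by
    have := hu.map (Φ₀.comp (MvPowerSeries.C (σ := Fin n) (R := 𝒪)))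
    rwa [map_ofNat] at this
  have han := aniso_disc hu' hδ'0 hδ'm
  haveI c1 : IsAdicComplete (maximalIdeal (PowerSeries (Rn 𝒪 n ⧸ Ideal.span S)))
      (PowerSeries (Rn 𝒪 n ⧸ Ideal.span S)) :=
    Fermat.Agent.S53.Limit.isAdicComplete_powerSeries _
  haveI c2 : IsAdicComplete (maximalIdeal (PowerSeries (PowerSeries (Rn 𝒪 n ⧸ Ideal.span S))))
      (PowerSeries (PowerSeries (Rn 𝒪 n ⧸ Ideal.span S))) :=
    Fermat.Agent.S53.Limit.isAdicComplete_powerSeries _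
  have hDm : (PowerSeries.C (PowerSeries.C (Φ₀ (MvPowerSeries.C δ) ^ 2)) -
      4 * PowerSeries.C (PowerSeries.X : PowerSeries (Rn 𝒪 n ⧸ Ideal.span S)) * PowerSeries.X :
      PowerSeries (PowerSeries (Rn 𝒪 n ⧸ Ideal.span S))) ∈
      maximalIdeal (PowerSeries (PowerSeries (Rn 𝒪 n ⧸ Ideal.span S))) := by
    rw [mem_maximalIdeal, mem_nonunits_iff, PowerSeries.isUnit_iff_constantCoeff,
      PowerSeries.isUnit_iff_constantCoeff]
    have h1 : PowerSeries.constantCoeff (PowerSeries.constantCoeff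
        (PowerSeries.C (PowerSeries.C (Φ₀ (MvPowerSeries.C δ) ^ 2)) -
      4 * PowerSeries.C (PowerSeries.X : PowerSeries (Rn 𝒪 n ⧸ Ideal.span S)) * PowerSeries.X :
      PowerSeries (PowerSeries (Rn 𝒪 n ⧸ Ideal.span S)))) = Φ₀ (MvPowerSeries.C δ) ^ 2 := by
      simp
    rw [h1]
    have h2 := Ideal.pow_mem_of_mem _ hδ'm 2 (by norm_num)
    rwa [mem_maximalIdeal, mem_nonunits_iff] at h2
  obtain ⟨hq1, hq2⟩ := qprime (maximalIdeal (PowerSeries (PowerSeries (Rn 𝒪 n ⧸ Ideal.span S))))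
    hDm han
  have hG : lift1 (lift1 (lift1 Φ₀)) (towerGen (pos0 n) δ) =
      PowerSeries.X ^ 2 - PowerSeries.C
        (PowerSeries.C (PowerSeries.C (Φ₀ (MvPowerSeries.C δ) ^ 2)) -
          4 * PowerSeries.C (PowerSeries.X : PowerSeries (Rn 𝒪 n ⧸ Ideal.span S)) *
            PowerSeries.X) := by
    have e2 : pos0 n 2 = 0 := rfl
    have e0 : pos0 n 0 = ((0 : Fin (n + 1)).succ).succ := rfl
    have e1 : pos0 n 1 = (0 : Fin (n + 2)).succ := rfl
    have h4 : lift1 (lift1 (lift1 Φ₀)) (4 : Rn 𝒪 (n + 3)) = 4 := map_ofNat _ 4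
    have h4' : (PowerSeries.C (4 : PowerSeries (PowerSeries (Rn 𝒪 n ⧸ Ideal.span S)))) = 4 :=
      map_ofNat _ 4
    rw [towerGen, e2, e0, e1]
    simp only [map_sub, map_add, map_mul, map_pow, h4, h4', lift1_X_zero, lift1_X_succ, lift1_C]
    ring
  have hk3 : RingHom.ker (lift1 (lift1 (lift1 Φ₀))) =
      Ideal.span (shift 𝒪 (n + 2) '' (shift 𝒪 (n + 1) '' (shift 𝒪 n '' S))) := by
    rw [ker_lift1 _ (ker_fg _), ker_lift1 _ (ker_fg _), ker_lift1 _ (ker_fg _), Ideal.mk_ker,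
      Ideal.map_span, Ideal.map_span, Ideal.map_span]
  have hsurj : Function.Surjective (lift1 (lift1 (lift1 Φ₀))) :=
    lift1_surjective _ (lift1_surjective _ (lift1_surjective _ Ideal.Quotient.mk_surjective))
  have hI3 : Ideal.span (shift 𝒪 (n + 2) '' (shift 𝒪 (n + 1) '' (shift 𝒪 n '' S)) ∪
      {towerGen (pos0 n) δ}) = Ideal.comap (lift1 (lift1 (lift1 Φ₀)))
        (Ideal.span {PowerSeries.X ^ 2 - PowerSeries.C
        (PowerSeries.C (PowerSeries.C (Φ₀ (MvPowerSeries.C δ) ^ 2)) -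
          4 * PowerSeries.C (PowerSeries.X : PowerSeries (Rn 𝒪 n ⧸ Ideal.span S)) *
            PowerSeries.X)}) := by
    have hcomap : Ideal.comap (lift1 (lift1 (lift1 Φ₀)))
        (Ideal.span {lift1 (lift1 (lift1 Φ₀)) (towerGen (pos0 n) δ)}) =
        RingHom.ker (lift1 (lift1 (lift1 Φ₀))) ⊔ Ideal.span {towerGen (pos0 n) δ} := by
      have h1 : Ideal.span {lift1 (lift1 (lift1 Φ₀)) (towerGen (pos0 n) δ)} =
          Ideal.map (lift1 (lift1 (lift1 Φ₀))) (Ideal.span {towerGen (pos0 n) δ}) := by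
        rw [Ideal.map_span, Set.image_singleton]
      rw [h1, Ideal.comap_map_of_surjective _ hsurj, sup_comm]
      rfl
    rw [Ideal.span_union, ← hk3, ← hG, hcomap]
  rw [Good, hI3]
  refine ⟨Ideal.comap_isPrime _ _, fun a ha => ?_⟩
  rw [Ideal.mem_comap, lift1_C, lift1_C, lift1_C] at ha
  have h1 := hq2 _ ha
  have h2 : Φ₀ (MvPowerSeries.C a) = 0 := by
    have := congrArg PowerSeries.constantCoeff (congrArg PowerSeries.constantCoeff h1)
    simpa using this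
  exact h0 a (Ideal.Quotient.eq_zero_iff_mem.1 h2)

end QuadStep

end Fermat.Agent.L.Pivot.H52
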