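/-
PIVOT (item 66), PV-LOC-TYPE, leaf TypePrime (helper52), part 4:
`(F_1, …, F_k)`, `F_j = m_j² + 4 y_j z_j − δ_j²`, is a prime ideal of a power series ring over a
complete noetherian local domain (`2` a unit, `δ_j ∈ 𝔪 ∖ 0`), for any positions of the variables.
Main result: `stmt_TypePrime : Stmt_TypePrime`.
-/
import Fermat.Agent.L.Pivot.H52_TPTower
import Fermat.Agent.L.Pivot.LocDefs

set_option autoImplicit false
set_option linter.style.haveILetI false
set_option linter.unusedSectionVars false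

namespace Fermat.Agent.L.Pivot.H52

open IsLocalRing

/-- Two injective families in a finite type differ by a permutation. -/
theorem exists_perm_extend {ι α : Type*} [Finite α] {u u' : ι → α}
    (hu : Function.Injective u) (hu' : Function.Injective u') :
    ∃ e : Equiv.Perm α, ∀ i, e (u i) = u' i := by
  classical
  let e₀ : {x // x ∈ Set.range u} ≃ {x // x ∈ Set.range u'} :=
    (Equiv.ofInjective u hu).symm.trans (Equiv.ofInjective u' hu')
  refine ⟨e₀.extendSubtype, fun i => ?_⟩
  rw [Equiv.extendSubtype_apply_of_mem e₀ (u i) ⟨i, rfl⟩]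
  simp [e₀]

section Rename

variable {𝒪 : Type} [CommRing 𝒪]

theorem renameEquiv_X' {n : ℕ} (e : Fin n ≃ Fin n) (i : Fin n) :
    MvPowerSeries.renameEquiv 𝒪 e (MvPowerSeries.X i) = MvPowerSeries.X (e i) := by
  change MvPowerSeries.rename (⇑e) (MvPowerSeries.X i) = _
  exact MvPowerSeries.rename_X _ i

theorem renameEquiv_C' {n : ℕ} (e : Fin n ≃ Fin n) (a : 𝒪) :
    MvPowerSeries.renameEquiv 𝒪 e (MvPowerSeries.C a : Rn 𝒪 n) = MvPowerSeries.C a := by
  change MvPowerSeries.rename (⇑e) (MvPowerSeries.C a) = _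
  exact MvPowerSeries.rename_C _ a

theorem rename_towerGen {n : ℕ} (e : Fin n ≃ Fin n) (p : Fin 3 → Fin n) (d : 𝒪) :
    MvPowerSeries.renameEquiv 𝒪 e (towerGen p d) = towerGen (fun t => e (p t)) d := by
  have h4 : MvPowerSeries.renameEquiv 𝒪 e (4 : Rn 𝒪 n) = 4 := map_ofNat _ 4
  simp only [towerGen, map_sub, map_add, map_mul, map_pow, h4, renameEquiv_X', renameEquiv_C']

theorem good_of_rename {n : ℕ} (e : Fin n ≃ Fin n) {S : Set (Rn 𝒪 n)}
    (h : Good 𝒪 n ((MvPowerSeries.renameEquiv 𝒪 e) '' S)) : Good 𝒪 n S := by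
  obtain ⟨hp, h0⟩ := h
  have hbij : Function.Bijective
      ((MvPowerSeries.renameEquiv 𝒪 e : Rn 𝒪 n ≃ₐ[𝒪] Rn 𝒪 n) : Rn 𝒪 n →+* Rn 𝒪 n) :=
    (MvPowerSeries.renameEquiv 𝒪 e).bijective
  have hmap : Ideal.map
      ((MvPowerSeries.renameEquiv 𝒪 e : Rn 𝒪 n ≃ₐ[𝒪] Rn 𝒪 n) : Rn 𝒪 n →+* Rn 𝒪 n)
      (Ideal.span S) = Ideal.span ((MvPowerSeries.renameEquiv 𝒪 e) '' S) := by
    rw [Ideal.map_span]
    rfl
  have hcomap : Ideal.span S = Ideal.comap
      ((MvPowerSeries.renameEquiv 𝒪 e : Rn 𝒪 n ≃ₐ[𝒪] Rn 𝒪 n) : Rn 𝒪 n →+* Rn 𝒪 n)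
      (Ideal.span ((MvPowerSeries.renameEquiv 𝒪 e) '' S)) := by
    rw [← hmap, Ideal.comap_map_of_bijective _ hbij]
  refine ⟨?_, fun a ha => ?_⟩
  · rw [hcomap]
    haveI := hp
    exact Ideal.comap_isPrime _ _
  · apply h0 a
    rw [hcomap, Ideal.mem_comap] at ha
    have h1 : ((MvPowerSeries.renameEquiv 𝒪 e : Rn 𝒪 n ≃ₐ[𝒪] Rn 𝒪 n) : Rn 𝒪 n →+* Rn 𝒪 n)
        (MvPowerSeries.C a) = MvPowerSeries.C a := by
      exact renameEquiv_C' e a
    rwa [h1] at ha

end Rename

section Main

variable {𝒪 : Type} [CommRing 𝒪] [IsDomain 𝒪] [IsLocalRing 𝒪] [IsNoetherianRing 𝒪]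
  [IsAdicComplete (maximalIdeal 𝒪) 𝒪]

theorem pos0_injective (n : ℕ) : Function.Injective (pos0 n) := by
  intro t t' h
  have h1 := congrArg Fin.val h
  simp only [pos0] at h1
  ext
  have := t.2
  have := t'.2
  omega

/-- **The quadric tower**: for pairwise distinct positions `pos j t` (`t = 0, 1, 2` for
`y_j, z_j, m_j`), the quadrics `m_j² + 4 y_j z_j − δ_j²` generate a prime ideal meeting `𝒪`
trivially. -/
theorem good_range_towerGen (hu : IsUnit (2 : 𝒪)) :
    ∀ (j n : ℕ) (pos : Fin j → Fin 3 → Fin n) (δ : Fin j → 𝒪),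
      Function.Injective (fun x : Fin j × Fin 3 => pos x.1 x.2) →
      (∀ i, δ i ≠ 0) → (∀ i, δ i ∈ maximalIdeal 𝒪) →
      Good 𝒪 n (Set.range fun i => towerGen (pos i) (δ i)) := by
  intro j
  induction j with
  | zero =>
    intro n pos δ _ _ _
    have h1 : (Set.range fun i : Fin 0 => towerGen (pos i) (δ i)) = ∅ := Set.range_eq_empty _
    rw [h1, Good, Ideal.span_empty]
    refine ⟨Ideal.isPrime_bot, fun a ha => ?_⟩
    rw [Ideal.mem_bot] at ha
    exact MvPowerSeries.C_injective (by rw [ha, map_zero])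
  | succ j ih =>
    intro n pos δ hinj hδ0 hδm
    have hinj0 : Function.Injective (pos 0) := fun t t' h => by
      have := hinj (a₁ := (0, t)) (a₂ := (0, t')) h
      exact (Prod.mk.inj this).2
    have h3 : 3 ≤ n := by
      have := Fintype.card_le_of_injective _ hinj0
      simpa using this
    obtain ⟨n', rfl⟩ : ∃ n', n = n' + 3 := ⟨n - 3, by omega⟩
    obtain ⟨e, he⟩ := exists_perm_extend hinj0 (pos0_injective n')
    -- the other blocks avoid the positions `0, 1, 2` after renaming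
    have hge : ∀ (i : Fin j) (t : Fin 3), 3 ≤ (e (pos i.succ t)).1 := by
      intro i t
      by_contra hlt
      have hlt' : (e (pos i.succ t)).1 < 3 := by omega
      have h1 : e (pos i.succ t) = pos0 n' ⟨2 - (e (pos i.succ t)).1, by omega⟩ := by
        apply Fin.ext
        simp only [pos0]
        omega
      rw [← he] at h1
      have h2 := hinj (a₁ := (i.succ, t)) (a₂ := (0, _)) (e.injective h1)
      exact Fin.succ_ne_zero i (Prod.mk.inj h2).1
    let pos' : Fin j → Fin 3 → Fin n' := fun i t =>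
      ⟨(e (pos i.succ t)).1 - 3, by have := (e (pos i.succ t)).2; have := hge i t; omega⟩
    have hpos' : ∀ i t, ((pos' i t).succ.succ.succ : Fin (n' + 3)) = e (pos i.succ t) := by
      intro i t
      apply Fin.ext
      have := hge i t
      simp only [pos', Fin.val_succ]
      omega
    have hinj' : Function.Injective (fun x : Fin j × Fin 3 => pos' x.1 x.2) := by
      rintro ⟨i, t⟩ ⟨i', t'⟩ h
      have h1 : e (pos i.succ t) = e (pos i'.succ t') := by
        rw [← hpos', ← hpos']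
        exact congrArg (fun x : Fin n' => x.succ.succ.succ) h
      have h2 := hinj (a₁ := (i.succ, t)) (a₂ := (i'.succ, t')) (e.injective h1)
      have h3 := Prod.mk.inj h2
      exact Prod.ext (Fin.succ_injective _ h3.1) h3.2
    have hih := ih n' pos' (fun i => δ i.succ) hinj' (fun i => hδ0 _) (fun i => hδm _)
    have hq := good_quad_step hih hu (hδ0 0) (hδm 0)
    apply good_of_rename e
    have hset : (MvPowerSeries.renameEquiv 𝒪 e) ''
        (Set.range fun i => towerGen (pos i) (δ i)) =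
        shift 𝒪 (n' + 2) '' (shift 𝒪 (n' + 1) '' (shift 𝒪 n' ''
          (Set.range fun i => towerGen (pos' i) (δ i.succ)))) ∪ {towerGen (pos0 n') (δ 0)} := by
      have hold : ∀ i : Fin j, shift 𝒪 (n' + 2) (shift 𝒪 (n' + 1) (shift 𝒪 n'
          (towerGen (pos' i) (δ i.succ)))) =
          MvPowerSeries.renameEquiv 𝒪 e (towerGen (pos i.succ) (δ i.succ)) := by
        intro i
        rw [shift_towerGen, shift_towerGen, shift_towerGen, rename_towerGen]
        congr 1
        funext t
        exact hpos' i t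
      have hnew : towerGen (pos0 n') (δ 0) =
          MvPowerSeries.renameEquiv 𝒪 e (towerGen (pos 0) (δ 0)) := by
        rw [rename_towerGen]
        congr 1
        funext t
        exact (he t).symm
      ext x
      simp only [Set.mem_image, Set.mem_range, Set.mem_union, Set.mem_singleton_iff,
        exists_exists_eq_and]
      constructor
      · rintro ⟨i, rfl⟩
        refine Fin.cases ?_ (fun i' => ?_) i
        · right
          exact hnew.symm
        · left
          exact ⟨i', hold i'⟩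
      · rintro (⟨i, rfl⟩ | rfl)
        · exact ⟨i.succ, (hold i).symm⟩
        · exact ⟨0, hnew.symm⟩
    rw [hset]
    exact hq

end Main

/-! ### The leaf `Stmt_TypePrime` -/

section Leaf

theorem cIdx'_injective3 (k g : ℕ) :
    Function.Injective (fun x : Fin k × Fin 3 =>
      cIdx' k g x.1 ⟨x.2.1, by have := x.2.2; omega⟩) := by
  rintro ⟨j, t⟩ ⟨j', t'⟩ h
  have h1 := congrArg Fin.val h
  simp only [cIdx'] at h1
  have := t.2
  have := t'.2
  have hj : j.1 = j'.1 := by omega
  have ht : t.1 = t'.1 := by omega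
  exact Prod.ext (Fin.ext hj) (Fin.ext ht)

theorem typeF_eq_towerGen {𝒪 : Type} [CommRing 𝒪] {k : ℕ} (g : ℕ) (δ : Fin k → 𝒪) (j : Fin k) :
    typeF (g := g) δ j =
      towerGen (fun t : Fin 3 => cIdx' k g j ⟨t.1, by have := t.2; omega⟩) (δ j) := rfl

/-- **TYPE-PRIME**. -/
theorem stmt_TypePrime : Stmt_TypePrime := by
  intro 𝒪 _ _ _ _ k g δ hu hδ0 hδm
  have h := good_range_towerGen (𝒪 := 𝒪) hu k (4 * k + g)
    (fun j t => cIdx' k g j ⟨t.1, by have := t.2; omega⟩) δ (cIdx'_injective3 k g) hδ0 hδm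
  exact h.1

end Leaf

end Fermat.Agent.L.Pivot.H52
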