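/-
PIVOT (item 66), package PV-LOC, leaf UNR (helper52): `𝔮 = (ϖ, y_j, z_j, m_j)` is prime and
`e_j ∉ 𝔮`.  Statement `Stmt_PVLoc_unr` of `L/Pivot/Defs.lean`.  Mathlib only.
-/
import Fermat.Agent.L.Pivot.Defs
import Fermat.Agent.L.Pivot.H52_LocKill

set_option autoImplicit false

namespace Fermat.Agent.L.Pivot.H52

open MvPowerSeries IsLocalRing Finsupp

variable {𝒪 : Type} [CommRing 𝒪] (k g : ℕ)

/-- The indices of the coordinates `y_j, z_j, m_j` of `Σ_j - 1`. -/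
noncomputable def sigmaIdx : Finset (Fin (6 * k + g)) :=
  Finset.univ.image fun x : Fin k × Fin 3 => cIdx k g x.1 (Fin.castLE (by norm_num) x.2)

theorem mem_sigmaIdx {n : Fin (6 * k + g)} :
    n ∈ sigmaIdx k g ↔ ∃ x : Fin k × Fin 3, cIdx k g x.1 (Fin.castLE (by norm_num) x.2) = n := by
  rw [sigmaIdx, Finset.mem_image]
  simp

theorem cIdx_val (j : Fin k) (i : Fin 6) : (cIdx k g j i).1 = 6 * j.1 + i.1 := rfl

theorem cIdx_injective : Function.Injective fun x : Fin k × Fin 6 => cIdx k g x.1 x.2 := by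
  rintro ⟨j, i⟩ ⟨j', i'⟩ h
  have h1 : 6 * j.1 + i.1 = 6 * j'.1 + i'.1 := congrArg Fin.val h
  have hi := i.2
  have hi' := i'.2
  have hj : j.1 = j'.1 := by omega
  have hii : i.1 = i'.1 := by omega
  exact Prod.ext (Fin.ext hj) (Fin.ext hii)

theorem cIdx_notMem_sigmaIdx (j : Fin k) (i : Fin 6) (hi : 3 ≤ i.1) :
    cIdx k g j i ∉ sigmaIdx k g := by
  rw [mem_sigmaIdx]
  rintro ⟨⟨j', i'⟩, h⟩
  have h1 : 6 * j'.1 + i'.1 = 6 * j.1 + i.1 := congrArg Fin.val h
  have := i'.2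
  have := i.2
  omega

theorem idealX_eq :
    idealX 𝒪 k g =
      Ideal.span ((fun s => (X s : MvPowerSeries (Fin (6 * k + g)) 𝒪)) '' (sigmaIdx k g : Set _)) := by
  rw [idealX]
  congr 1
  ext F
  constructor
  · rintro ⟨x, rfl⟩
    exact ⟨_, (mem_sigmaIdx k g).2 ⟨x, rfl⟩, rfl⟩
  · rintro ⟨s, hs, rfl⟩
    obtain ⟨x, rfl⟩ := (mem_sigmaIdx k g).1 hs
    exact ⟨x, rfl⟩

theorem idealQ_eq (ϖ : 𝒪) :
    idealQ k g ϖ = coeffIdeal (sigmaIdx k g : Set (Fin (6 * k + g))) (Ideal.span {ϖ}) := by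
  classical
  rw [coeffIdeal_span_singleton, idealQ, idealX_eq]

/-- **PV-LOC-UNR.** -/
theorem stmt_PVLoc_unr : Stmt_PVLoc_unr := by
  classical
  intro 𝒪 _ _ _ _ k g ϖ q₀ _ hϖ hq₀
  have hprime : (Ideal.span {ϖ} : Ideal 𝒪).IsPrime := by
    rw [← hϖ]
    exact (maximalIdeal.isMaximal 𝒪).isPrime
  refine ⟨?_, fun j => ?_⟩
  · rw [idealQ_eq]
    exact coeffIdeal_isPrime _ _
  · rw [idealQ_eq, mem_coeffIdeal]
    intro h
    -- the coefficient of `s_j ^ 2`
    have h5 : cIdx k g j 5 ∉ sigmaIdx k g := cIdx_notMem_sigmaIdx k g j 5 (by decide)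
    have hμ : ∀ s ∈ (sigmaIdx k g : Set (Fin (6 * k + g))),
        (Finsupp.single (cIdx k g j 5) 2 : Fin (6 * k + g) →₀ ℕ) s = 0 := by
      intro s hs
      rw [Finsupp.single_apply, if_neg]
      rintro rfl
      exact h5 hs
    have h1 := h _ hμ
    have hne34 : cIdx k g j 3 ≠ cIdx k g j 5 := by
      intro h'
      have := congrArg Fin.val h'
      simp [cIdx_val] at this
    have hcoeff : coeff (Finsupp.single (cIdx k g j 5) 2) (eElt g q₀ j) = q₀ j := by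
      rw [eElt, coeff_C_mul, map_sub, Q2, map_add, cs, cv, cw, coeff_X_pow, if_pos rfl,
        coeff_C, if_neg, sub_zero]
      · have h2 : coeff (Finsupp.single (cIdx k g j 5) 2)
            (4 * (X (cIdx k g j 3) : MvPowerSeries (Fin (6 * k + g)) 𝒪) * X (cIdx k g j 4)) = 0 := by
          have h3 : (X (cIdx k g j 3) : MvPowerSeries (Fin (6 * k + g)) 𝒪) ∣
              4 * X (cIdx k g j 3) * X (cIdx k g j 4) :=
            ⟨4 * X (cIdx k g j 4), by ring⟩
          refine X_dvd_iff.1 h3 _ ?_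
          rw [Finsupp.single_apply, if_neg hne34.symm]
        rw [h2, add_zero, mul_one]
      · intro h'
        have := congrArg (fun f : Fin (6 * k + g) →₀ ℕ => f (cIdx k g j 5)) h'
        simp at this
    rw [hcoeff, ← hϖ] at h1
    -- `q₀ j` is a unit
    have h2 : (1 : 𝒪) ∈ maximalIdeal 𝒪 := by
      have := (maximalIdeal 𝒪).sub_mem h1 (hq₀ j)
      rwa [sub_sub_cancel] at this
    exact (Ideal.ne_top_iff_one _).1 (maximalIdeal.isMaximal 𝒪).ne_top h2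

end Fermat.Agent.L.Pivot.H52
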