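/-
PIVOT (item 66), PV-LOC-TYPE, leaf TypeLeQ (helper52): `typeIdeal δ ≤ (ϖ, y_j, z_j, m_j)`.

Test point `θ₀ : P → D₀ = 𝒪⟦a_j, b_j, μ_j, x⟧`,
`(y, z, m)_j ↦ δ_j ρ_j⁻¹ (a_j, b_j, 1)`, `(v, w, s)_j ↦ μ_j (a_j, b_j, 1)`, `ρ_j² = 1 + 4 a_j b_j`.
It is a type point, so it kills `typeIdeal` (TYPE-KILL, helper76); modulo `ϖ` it is the
monomial substitution `v ↦ μ a, w ↦ μ b, s ↦ μ`, which is injective on coefficients.
-/
import Fermat.Agent.L.Pivot.H76_TypeKill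
import Fermat.Agent.L.Pivot.H52_LocUnr
import Fermat.Agent.L.Pivot.H52_TPTower

set_option autoImplicit false
set_option linter.style.haveILetI false
set_option linter.unusedSectionVars false

namespace Fermat.Agent.L.Pivot.H52

open MvPowerSeries IsLocalRing

/-! ### The target ring -/

/-- The variables `a_j, b_j, μ_j, x_a` of the target ring. -/
abbrev TV (k g : ℕ) : Type := Fin k ⊕ (Fin k ⊕ (Fin k ⊕ Fin g))

section Target

variable (𝒪 : Type) [CommRing 𝒪] (k g : ℕ)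

/-- The target ring `D₀ = 𝒪⟦a_j, b_j, μ_j, x⟧`. -/
abbrev D0 : Type := MvPowerSeries (TV k g) 𝒪

variable {k}

/-- `a_j`. -/
noncomputable def tA (j : Fin k) : D0 𝒪 k g := X (Sum.inl j)
/-- `b_j`. -/
noncomputable def tB (j : Fin k) : D0 𝒪 k g := X (Sum.inr (Sum.inl j))
/-- `μ_j`. -/
noncomputable def tM (j : Fin k) : D0 𝒪 k g := X (Sum.inr (Sum.inr (Sum.inl j)))
variable (k)

/-- `x_a`. -/
noncomputable def tX (a : Fin g) : D0 𝒪 k g := X (Sum.inr (Sum.inr (Sum.inr a)))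

theorem isAdicComplete_D0 [IsLocalRing 𝒪] [IsNoetherianRing 𝒪]
    [IsAdicComplete (maximalIdeal 𝒪) 𝒪] :
    IsAdicComplete (maximalIdeal (D0 𝒪 k g)) (D0 𝒪 k g) := by
  have e : TV k g ≃ Fin (Fintype.card (TV k g)) := Fintype.equivFin _
  haveI := Fermat.Agent.S53.Limit.isAdicComplete_mvPowerSeries_fin 𝒪 (Fintype.card (TV k g))
  exact Fermat.Agent.S53.Limit.isAdicComplete_of_ringEquiv
    (MvPowerSeries.renameEquiv 𝒪 e).symm.toRingEquiv

variable {𝒪 k g}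

theorem mem_maximalIdeal_D0 [IsLocalRing 𝒪] (F : D0 𝒪 k g) :
    F ∈ maximalIdeal (D0 𝒪 k g) ↔ constantCoeff F ∈ maximalIdeal 𝒪 :=
  Fermat.Agent.L.Pivot.H76.mem_maximalIdeal_mvPowerSeries F

/-- A square root of `1 + 4 a_j b_j` (Hensel). -/
theorem exists_sqrt [IsLocalRing 𝒪] [IsNoetherianRing 𝒪] [IsAdicComplete (maximalIdeal 𝒪) 𝒪]
    (hu : IsUnit (2 : 𝒪)) (j : Fin k) :
    ∃ ρ u : D0 𝒪 k g, ρ ^ 2 = 1 + 4 * tA 𝒪 g j * tB 𝒪 g j ∧ ρ * u = 1 := by
  haveI := isAdicComplete_D0 𝒪 k g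
  have hH : HenselianRing (D0 𝒪 k g) (maximalIdeal (D0 𝒪 k g)) := inferInstance
  let c : D0 𝒪 k g := 1 + 4 * tA 𝒪 g j * tB 𝒪 g j
  have hmon : (Polynomial.X ^ 2 - Polynomial.C c : Polynomial (D0 𝒪 k g)).Monic :=
    Polynomial.monic_X_pow_sub_C c two_ne_zero
  have h1 : (Polynomial.X ^ 2 - Polynomial.C c : Polynomial (D0 𝒪 k g)).eval 1 ∈
      maximalIdeal (D0 𝒪 k g) := by
    rw [mem_maximalIdeal_D0]
    simp [c, tA, tB]
  have h2 : IsUnit (Ideal.Quotient.mk (maximalIdeal (D0 𝒪 k g))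
      ((Polynomial.X ^ 2 - Polynomial.C c : Polynomial (D0 𝒪 k g)).derivative.eval 1)) := by
    have h3 : (Polynomial.X ^ 2 - Polynomial.C c : Polynomial (D0 𝒪 k g)).derivative.eval 1 =
        2 := by
      simp
      norm_num
    rw [h3]
    have h4 : IsUnit (2 : D0 𝒪 k g) := by
      have := hu.map (C : 𝒪 →+* D0 𝒪 k g)
      rwa [map_ofNat] at this
    exact h4.map _
  obtain ⟨ρ, hρ, hρ1⟩ := hH.is_henselian _ hmon 1 h1 h2
  have hρ2 : ρ ^ 2 = c := by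
    have := hρ
    simp only [Polynomial.IsRoot, Polynomial.eval_sub, Polynomial.eval_pow, Polynomial.eval_X,
      Polynomial.eval_C] at this
    exact sub_eq_zero.1 this
  have hunit : IsUnit ρ := by
    by_contra hnu
    have h5 : ρ ∈ maximalIdeal (D0 𝒪 k g) := by
      rwa [mem_maximalIdeal, mem_nonunits_iff]
    have h6 : (1 : D0 𝒪 k g) ∈ maximalIdeal (D0 𝒪 k g) := by
      have := (maximalIdeal (D0 𝒪 k g)).sub_mem h5 hρ1
      rwa [sub_sub_cancel] at this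
    exact (Ideal.ne_top_iff_one _).1 (maximalIdeal.isMaximal _).ne_top h6
  obtain ⟨u, hu'⟩ := hunit.exists_right_inv
  exact ⟨ρ, u, hρ2, hu'⟩

end Target

/-! ### The test point -/

section TestPoint

variable {𝒪 : Type} [CommRing 𝒪] {k g : ℕ}

/-- The images of the variables under the test point. -/
noncomputable def imgT (δ : Fin k → 𝒪) (u : Fin k → D0 𝒪 k g) :
    Fin (6 * k + g) → D0 𝒪 k g :=
  Fermat.Agent.L.Pivot.H76.mk6 k g (fun j t =>
    if t = 0 then C (δ j) * u j * tA 𝒪 g j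
    else if t = 1 then C (δ j) * u j * tB 𝒪 g j
    else if t = 2 then C (δ j) * u j
    else if t = 3 then tM 𝒪 g j * tA 𝒪 g j
    else if t = 4 then tM 𝒪 g j * tB 𝒪 g j
    else tM 𝒪 g j) (fun a => tX 𝒪 k g a)

theorem imgT_0 (δ : Fin k → 𝒪) (u : Fin k → D0 𝒪 k g) (j : Fin k) :
    imgT δ u (cIdx k g j 0) = C (δ j) * u j * tA 𝒪 g j := by
  simp [imgT]
theorem imgT_1 (δ : Fin k → 𝒪) (u : Fin k → D0 𝒪 k g) (j : Fin k) :
    imgT δ u (cIdx k g j 1) = C (δ j) * u j * tB 𝒪 g j := by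
  simp [imgT]
theorem imgT_2 (δ : Fin k → 𝒪) (u : Fin k → D0 𝒪 k g) (j : Fin k) :
    imgT δ u (cIdx k g j 2) = C (δ j) * u j := by
  simp [imgT]
theorem imgT_3 (δ : Fin k → 𝒪) (u : Fin k → D0 𝒪 k g) (j : Fin k) :
    imgT δ u (cIdx k g j 3) = tM 𝒪 g j * tA 𝒪 g j := by
  simp [imgT]
theorem imgT_4 (δ : Fin k → 𝒪) (u : Fin k → D0 𝒪 k g) (j : Fin k) :
    imgT δ u (cIdx k g j 4) = tM 𝒪 g j * tB 𝒪 g j := by
  simp [imgT]
theorem imgT_5 (δ : Fin k → 𝒪) (u : Fin k → D0 𝒪 k g) (j : Fin k) :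
    imgT δ u (cIdx k g j 5) = tM 𝒪 g j := by
  simp [imgT]
theorem imgT_x (δ : Fin k → 𝒪) (u : Fin k → D0 𝒪 k g) (a : Fin g) :
    imgT δ u (xIdx k g a) = tX 𝒪 k g a := by
  simp [imgT]

theorem imgT_mem [IsLocalRing 𝒪] (δ : Fin k → 𝒪) (hδm : ∀ j, δ j ∈ maximalIdeal 𝒪)
    (u : Fin k → D0 𝒪 k g) (i : Fin (6 * k + g)) :
    imgT δ u i ∈ maximalIdeal (D0 𝒪 k g) := by
  rw [mem_maximalIdeal_D0]
  rcases Fermat.Agent.L.Pivot.H76.idx_cases i with ⟨j, t, rfl⟩ | ⟨a, rfl⟩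
  · rcases Fermat.Agent.L.Pivot.H76.fin6_cases t with rfl | rfl | rfl | rfl | rfl | rfl
    · rw [imgT_0]; simp [tA]
    · rw [imgT_1]; simp [tB]
    · rw [imgT_2, map_mul, constantCoeff_C]
      exact Ideal.mul_mem_right _ _ (hδm j)
    · rw [imgT_3]; simp [tA]
    · rw [imgT_4]; simp [tB]
    · rw [imgT_5]; simp [tM]
  · rw [imgT_x]; simp [tX]

variable [IsDomain 𝒪] [IsLocalRing 𝒪] [IsNoetherianRing 𝒪] [IsAdicComplete (maximalIdeal 𝒪) 𝒪]

/-- The test point exists and kills `typeIdeal`. -/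
theorem exists_testPoint (hkill : Stmt_TypeKill) (hu : IsUnit (2 : 𝒪)) (δ : Fin k → 𝒪)
    (hδ0 : ∀ j, δ j ≠ 0) (hδm : ∀ j, δ j ∈ maximalIdeal 𝒪) :
    ∃ (u : Fin k → D0 𝒪 k g) (θ : PRing 𝒪 k g →ₐ[𝒪] D0 𝒪 k g),
      (∀ i, θ (X i) = imgT δ u i) ∧ typeIdeal g δ ≤ RingHom.ker (θ : PRing 𝒪 k g →+* D0 𝒪 k g) := by
  haveI := isAdicComplete_D0 𝒪 k g
  choose ρ u hρ hρu using fun j => exists_sqrt (𝒪 := 𝒪) (g := g) hu j
  obtain ⟨θ, hθ⟩ := Fermat.Agent.S56.H50.exists_eval (𝒪 := 𝒪) (R := D0 𝒪 k g) (6 * k + g)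
    (imgT δ u) (imgT_mem δ hδm u)
  refine ⟨u, θ, hθ, ?_⟩
  haveI : IsDomain (D0 𝒪 k g) := NoZeroDivisors.to_isDomain _
  refine hkill 𝒪 k g δ hδ0 (D0 𝒪 k g) θ ?_ ?_ ?_
  · exact MvPowerSeries.C_injective
  · intro i
    rw [hθ]
    exact imgT_mem δ hδm u i
  · intro j
    have hC : algebraMap 𝒪 (D0 𝒪 k g) (δ j ^ 2) = C (δ j) ^ 2 := by
      rw [← map_pow]; rfl
    have h4 : θ (4 : PRing 𝒪 k g) = 4 := map_ofNat _ 4
    refine ⟨?_, ?_, ?_, ?_⟩
    · rw [hC]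
      simp only [Q1, cy, cz, cm, map_add, map_mul, map_pow, h4, hθ, imgT_0, imgT_1, imgT_2]
      linear_combination (C (δ j) ^ 2 * (ρ j * u j + 1)) * hρu j -
        (C (δ j) ^ 2 * u j ^ 2) * hρ j
    · simp only [minor1, cy, cz, cv, cw, map_sub, map_mul, hθ, imgT_0, imgT_1, imgT_3, imgT_4]
      ring
    · simp only [minor2, cy, cm, cv, cs, map_sub, map_mul, hθ, imgT_0, imgT_2, imgT_3, imgT_5]
      ring
    · simp only [minor3, cz, cm, cw, cs, map_sub, map_mul, hθ, imgT_1, imgT_2, imgT_4, imgT_5]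
      ring

end TestPoint

/-! ### The monomial substitution `v ↦ μ a, w ↦ μ b, s ↦ μ` -/

section Mono

variable (𝒪 : Type) [CommRing 𝒪] (k g : ℕ)

/-- The images of the variables under the monomial substitution. -/
noncomputable def img0 : Fin (6 * k + g) → D0 𝒪 k g :=
  Fermat.Agent.L.Pivot.H76.mk6 k g (fun j t =>
    if t = 3 then tM 𝒪 g j * tA 𝒪 g j
    else if t = 4 then tM 𝒪 g j * tB 𝒪 g j
    else if t = 5 then tM 𝒪 g j
    else 0) (fun a => tX 𝒪 k g a)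

variable {𝒪 k g}

theorem img0_sigma (j : Fin k) (t : Fin 6) (ht : t.1 < 3) : img0 𝒪 k g (cIdx k g j t) = 0 := by
  rcases Fermat.Agent.L.Pivot.H76.fin6_cases t with rfl | rfl | rfl | rfl | rfl | rfl <;>
    simp [img0] at ht ⊢
theorem img0_3 (j : Fin k) : img0 𝒪 k g (cIdx k g j 3) = tM 𝒪 g j * tA 𝒪 g j := by
  simp [img0]
theorem img0_4 (j : Fin k) : img0 𝒪 k g (cIdx k g j 4) = tM 𝒪 g j * tB 𝒪 g j := by
  simp [img0]
theorem img0_5 (j : Fin k) : img0 𝒪 k g (cIdx k g j 5) = tM 𝒪 g j := by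
  simp [img0]
theorem img0_x (a : Fin g) : img0 𝒪 k g (xIdx k g a) = tX 𝒪 k g a := by
  simp [img0]

theorem cIdx_eq_iff (j j' : Fin k) (t t' : Fin 6) :
    cIdx k g j t = cIdx k g j' t' ↔ j = j' ∧ t = t' := by
  constructor
  · intro h
    have := cIdx_injective k g (a₁ := (j, t)) (a₂ := (j', t')) h
    exact ⟨(Prod.mk.inj this).1, (Prod.mk.inj this).2⟩
  · rintro ⟨rfl, rfl⟩
    rfl

theorem cIdx_ne_xIdx (j : Fin k) (t : Fin 6) (a : Fin g) : cIdx k g j t ≠ xIdx k g a := by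
  intro h
  have h1 := congrArg Fin.val h
  simp only [cIdx, xIdx] at h1
  have := j.2
  have := t.2
  omega

theorem xIdx_eq_iff (a a' : Fin g) : xIdx k g a = xIdx k g a' ↔ a = a' := by
  constructor
  · intro h
    have h1 := congrArg Fin.val h
    simp only [xIdx] at h1
    exact Fin.ext (by omega)
  · rintro rfl
    rfl

theorem mem_sigmaIdx_cIdx (j : Fin k) (t : Fin 6) : cIdx k g j t ∈ sigmaIdx k g ↔ t.1 < 3 := by
  constructor
  · intro h
    by_contra hlt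
    exact cIdx_notMem_sigmaIdx k g j t (by omega) h
  · intro h
    rw [mem_sigmaIdx]
    exact ⟨(j, ⟨t.1, h⟩), rfl⟩

theorem xIdx_notMem_sigmaIdx (a : Fin g) : xIdx k g a ∉ sigmaIdx k g := by
  rw [mem_sigmaIdx]
  rintro ⟨⟨j, t⟩, h⟩
  exact cIdx_ne_xIdx _ _ _ h

/-- The exponent of the image of a monomial. -/
noncomputable def LM (d : Fin (6 * k + g) →₀ ℕ) : TV k g →₀ ℕ :=
  Finsupp.equivFunOnFinite.symm (fun t => match t with
    | Sum.inl j => d (cIdx k g j 3)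
    | Sum.inr (Sum.inl j) => d (cIdx k g j 4)
    | Sum.inr (Sum.inr (Sum.inl j)) => d (cIdx k g j 3) + d (cIdx k g j 4) + d (cIdx k g j 5)
    | Sum.inr (Sum.inr (Sum.inr a)) => d (xIdx k g a))

@[simp] theorem LM_a (d : Fin (6 * k + g) →₀ ℕ) (j : Fin k) :
    LM d (Sum.inl j) = d (cIdx k g j 3) := rfl
@[simp] theorem LM_b (d : Fin (6 * k + g) →₀ ℕ) (j : Fin k) :
    LM d (Sum.inr (Sum.inl j)) = d (cIdx k g j 4) := rfl
@[simp] theorem LM_m (d : Fin (6 * k + g) →₀ ℕ) (j : Fin k) :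
    LM d (Sum.inr (Sum.inr (Sum.inl j))) =
      d (cIdx k g j 3) + d (cIdx k g j 4) + d (cIdx k g j 5) := rfl
@[simp] theorem LM_x (d : Fin (6 * k + g) →₀ ℕ) (a : Fin g) :
    LM d (Sum.inr (Sum.inr (Sum.inr a))) = d (xIdx k g a) := rfl

theorem LM_zero : LM (0 : Fin (6 * k + g) →₀ ℕ) = 0 := by
  ext t
  rcases t with j | j | j | a <;> simp

theorem LM_add (d d' : Fin (6 * k + g) →₀ ℕ) : LM (d + d') = LM d + LM d' := by
  ext t
  rcases t with j | j | j | a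
  · simp
  · simp
  · simp; ring
  · simp

/-- `d` does not involve the variables `y_j, z_j, m_j`. -/
def Avoid (d : Fin (6 * k + g) →₀ ℕ) : Prop :=
  ∀ s ∈ (sigmaIdx k g : Set (Fin (6 * k + g))), d s = 0

theorem LM_injOn {d ν : Fin (6 * k + g) →₀ ℕ} (hd : Avoid d) (hν : Avoid ν)
    (h : LM d = LM ν) : d = ν := by
  ext s
  rcases Fermat.Agent.L.Pivot.H76.idx_cases s with ⟨j, t, rfl⟩ | ⟨a, rfl⟩
  · have ha := DFunLike.congr_fun h (Sum.inl j)
    have hb := DFunLike.congr_fun h (Sum.inr (Sum.inl j))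
    have hm := DFunLike.congr_fun h (Sum.inr (Sum.inr (Sum.inl j)))
    simp only [LM_a, LM_b, LM_m] at ha hb hm
    by_cases ht : t.1 < 3
    · rw [hd _ ((mem_sigmaIdx_cIdx j t).2 ht), hν _ ((mem_sigmaIdx_cIdx j t).2 ht)]
    · rcases Fermat.Agent.L.Pivot.H76.fin6_cases t with rfl | rfl | rfl | rfl | rfl | rfl
      · exact absurd (by decide) ht
      · exact absurd (by decide) ht
      · exact absurd (by decide) ht
      · exact ha
      · exact hb
      · omega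
  · have hx := DFunLike.congr_fun h (Sum.inr (Sum.inr (Sum.inr a)))
    simpa using hx

theorem prod_img0_of_avoid (d : Fin (6 * k + g) →₀ ℕ) (hd : Avoid d) :
    (d.prod fun s n => img0 𝒪 k g s ^ n) = monomial (LM d) 1 := by
  classical
  induction d using Finsupp.induction_linear with
  | zero =>
    rw [Finsupp.prod_zero_index, LM_zero]
    rfl
  | add d d' h h' =>
    have hd1 : Avoid d := fun s hs => by
      have := hd s hs
      rw [Finsupp.add_apply] at this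
      omega
    have hd2 : Avoid d' := fun s hs => by
      have := hd s hs
      rw [Finsupp.add_apply] at this
      omega
    rw [Finsupp.prod_add_index' (fun _ => pow_zero _) (fun _ _ _ => pow_add _ _ _), h hd1, h' hd2,
      monomial_mul_monomial, LM_add, mul_one]
  | single s n =>
    rw [Finsupp.prod_single_index (h := fun s n => img0 𝒪 k g s ^ n) (pow_zero _)]
    by_cases hn : n = 0
    · subst hn
      rw [pow_zero, Finsupp.single_zero, LM_zero]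
      rfl
    have hs : s ∉ sigmaIdx k g := by
      intro hs
      have := hd s hs
      rw [Finsupp.single_eq_same] at this
      exact hn this
    rcases Fermat.Agent.L.Pivot.H76.idx_cases s with ⟨j, t, rfl⟩ | ⟨a, rfl⟩
    · have ht : ¬ t.1 < 3 := fun ht => hs ((mem_sigmaIdx_cIdx j t).2 ht)
      rcases Fermat.Agent.L.Pivot.H76.fin6_cases t with rfl | rfl | rfl | rfl | rfl | rfl
      · exact absurd (by decide) ht
      · exact absurd (by decide) ht
      · exact absurd (by decide) ht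
      · have hL : LM (Finsupp.single (cIdx k g j 3) n) =
            Finsupp.single (Sum.inr (Sum.inr (Sum.inl j))) n + Finsupp.single (Sum.inl j) n := by
          ext t
          rcases t with j' | j' | j' | a <;>
            simp [Finsupp.single_apply, cIdx_eq_iff, cIdx_ne_xIdx]
        rw [img0_3, hL, ← mul_one (1 : 𝒪), ← monomial_mul_monomial, ← X_pow_eq, ← X_pow_eq,
          mul_pow]
        rfl
      · have hL : LM (Finsupp.single (cIdx k g j 4) n) =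
            Finsupp.single (Sum.inr (Sum.inr (Sum.inl j))) n +
              Finsupp.single (Sum.inr (Sum.inl j)) n := by
          ext t
          rcases t with j' | j' | j' | a <;>
            simp [Finsupp.single_apply, cIdx_eq_iff, cIdx_ne_xIdx]
        rw [img0_4, hL, ← mul_one (1 : 𝒪), ← monomial_mul_monomial, ← X_pow_eq, ← X_pow_eq,
          mul_pow]
        rfl
      · have hL : LM (Finsupp.single (cIdx k g j 5) n) =
            Finsupp.single (Sum.inr (Sum.inr (Sum.inl j))) n := by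
          ext t
          rcases t with j' | j' | j' | a <;>
            simp [Finsupp.single_apply, cIdx_eq_iff, cIdx_ne_xIdx]
        rw [img0_5, hL, ← X_pow_eq]
        rfl
    · have hL : LM (Finsupp.single (xIdx k g a) n) =
          Finsupp.single (Sum.inr (Sum.inr (Sum.inr a))) n := by
        ext t
        rcases t with j' | j' | j' | a' <;>
          simp [Finsupp.single_apply, xIdx_eq_iff, (cIdx_ne_xIdx _ _ _).symm]
      rw [img0_x, hL, ← X_pow_eq]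
      rfl

theorem prod_img0_of_not_avoid (d : Fin (6 * k + g) →₀ ℕ) (hd : ¬ Avoid d) :
    (d.prod fun s n => img0 𝒪 k g s ^ n) = 0 := by
  rw [Avoid] at hd
  push Not at hd
  obtain ⟨s, hs, hds⟩ := hd
  rw [Finsupp.prod]
  apply Finset.prod_eq_zero (i := s) (Finsupp.mem_support_iff.2 hds)
  obtain ⟨⟨j, t⟩, rfl⟩ := (mem_sigmaIdx k g).1 hs
  rw [img0_sigma j _ (by simp), zero_pow hds]

theorem constantCoeff_img0 (s : Fin (6 * k + g)) : constantCoeff (img0 𝒪 k g s) = 0 := by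
  rcases Fermat.Agent.L.Pivot.H76.idx_cases s with ⟨j, t, rfl⟩ | ⟨a, rfl⟩
  · rcases Fermat.Agent.L.Pivot.H76.fin6_cases t with rfl | rfl | rfl | rfl | rfl | rfl
    · rw [img0_sigma j _ (by decide), map_zero]
    · rw [img0_sigma j _ (by decide), map_zero]
    · rw [img0_sigma j _ (by decide), map_zero]
    · rw [img0_3]; simp [tA]
    · rw [img0_4]; simp [tB]
    · rw [img0_5]; simp [tM]
  · rw [img0_x]; simp [tX]

theorem hasSubst_img0 : HasSubst (img0 𝒪 k g) :=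
  hasSubst_of_constantCoeff_zero constantCoeff_img0

/-- The coefficients of `f` at the monomials avoiding `y, z, m` are coefficients of the image of
`f` under the monomial substitution. -/
theorem coeff_subst_img0 (f : PRing 𝒪 k g) (ν : Fin (6 * k + g) →₀ ℕ) (hν : Avoid ν) :
    coeff (LM ν) (subst (img0 𝒪 k g) f) = coeff ν f := by
  rw [coeff_subst hasSubst_img0, finsum_eq_single _ ν]
  · rw [prod_img0_of_avoid ν hν, coeff_monomial_same, smul_eq_mul, mul_one]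
  · intro d hd
    by_cases hav : Avoid d
    · rw [prod_img0_of_avoid d hav, coeff_monomial, if_neg, smul_zero]
      intro h
      exact hd (LM_injOn hav hν h.symm)
    · rw [prod_img0_of_not_avoid d hav, map_zero, smul_zero]

end Mono

/-! ### The leaf `Stmt_TypeLeQ` -/

section Leaf

variable {𝒪 : Type} [CommRing 𝒪] [IsDomain 𝒪] [IsLocalRing 𝒪] [IsNoetherianRing 𝒪]
  [IsAdicComplete (maximalIdeal 𝒪) 𝒪] {k g : ℕ}

theorem imgT_sub_img0_mem (ϖ : 𝒪) (hϖ : maximalIdeal 𝒪 = Ideal.span {ϖ}) (δ : Fin k → 𝒪)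
    (hδm : ∀ j, δ j ∈ maximalIdeal 𝒪) (u : Fin k → D0 𝒪 k g) (i : Fin (6 * k + g)) :
    imgT δ u i - img0 𝒪 k g i ∈ Ideal.span {(C ϖ : D0 𝒪 k g)} := by
  have hC : ∀ j, (C (δ j) : D0 𝒪 k g) ∈ Ideal.span {(C ϖ : D0 𝒪 k g)} := by
    intro j
    have := hδm j
    rw [hϖ, Ideal.mem_span_singleton'] at this
    obtain ⟨a, ha⟩ := this
    rw [← ha, map_mul]
    exact Ideal.mul_mem_left _ _ (Ideal.subset_span rfl)
  rcases Fermat.Agent.L.Pivot.H76.idx_cases i with ⟨j, t, rfl⟩ | ⟨a, rfl⟩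
  · rcases Fermat.Agent.L.Pivot.H76.fin6_cases t with rfl | rfl | rfl | rfl | rfl | rfl
    · rw [imgT_0, img0_sigma j _ (by decide), sub_zero, mul_assoc]
      exact Ideal.mul_mem_right _ _ (hC j)
    · rw [imgT_1, img0_sigma j _ (by decide), sub_zero, mul_assoc]
      exact Ideal.mul_mem_right _ _ (hC j)
    · rw [imgT_2, img0_sigma j _ (by decide), sub_zero]
      exact Ideal.mul_mem_right _ _ (hC j)
    · rw [imgT_3, img0_3, sub_self]; exact Ideal.zero_mem _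
    · rw [imgT_4, img0_4, sub_self]; exact Ideal.zero_mem _
    · rw [imgT_5, img0_5, sub_self]; exact Ideal.zero_mem _
  · rw [imgT_x, img0_x, sub_self]; exact Ideal.zero_mem _

theorem img0_mem (i : Fin (6 * k + g)) : img0 𝒪 k g i ∈ maximalIdeal (D0 𝒪 k g) := by
  rw [mem_maximalIdeal_D0, constantCoeff_img0]
  exact Ideal.zero_mem _

/-- `typeIdeal ≤ idealQ`, from TYPE-KILL. -/
theorem typeIdeal_le_idealQ (hkill : Stmt_TypeKill) (hu : IsUnit (2 : 𝒪)) (ϖ : 𝒪)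
    (hϖ : maximalIdeal 𝒪 = Ideal.span {ϖ}) (δ : Fin k → 𝒪)
    (hδ0 : ∀ j, δ j ≠ 0) (hδm : ∀ j, δ j ∈ maximalIdeal 𝒪) :
    typeIdeal g δ ≤ idealQ k g ϖ := by
  haveI := isAdicComplete_D0 𝒪 k g
  obtain ⟨u, θ, hθ, hker⟩ := exists_testPoint (g := g) hkill hu δ hδ0 hδm
  -- the quotient `E = D₀ / (ϖ)`
  have hϖm : (C ϖ : D0 𝒪 k g) ∈ maximalIdeal (D0 𝒪 k g) := by
    rw [mem_maximalIdeal_D0, constantCoeff_C, hϖ]
    exact Ideal.subset_span rfl
  have hne : Ideal.span {(C ϖ : D0 𝒪 k g)} ≠ ⊤ := by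
    intro h
    rw [Ideal.span_singleton_eq_top] at h
    exact hϖm h
  letI : IsLocalRing (D0 𝒪 k g ⧸ Ideal.span {(C ϖ : D0 𝒪 k g)}) := isLocalRing_quotient _ hne
  haveI : IsAdicComplete (maximalIdeal (D0 𝒪 k g ⧸ Ideal.span {(C ϖ : D0 𝒪 k g)}))
      (D0 𝒪 k g ⧸ Ideal.span {(C ϖ : D0 𝒪 k g)}) := isAdicComplete_quotient _ hne
  let mk := Ideal.Quotient.mkₐ 𝒪 (Ideal.span {(C ϖ : D0 𝒪 k g)})
  have hcomp : mk.comp θ = mk.comp (substAlgHom (R := 𝒪) (hasSubst_img0 (𝒪 := 𝒪) (k := k) (g := g))) := by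
    refine algHom_ext_of_X' (maximalIdeal (D0 𝒪 k g ⧸ Ideal.span {(C ϖ : D0 𝒪 k g)})) _ _ ?_ ?_
    · intro i
      rw [AlgHom.comp_apply, AlgHom.comp_apply, hθ, substAlgHom_X]
      exact (Ideal.Quotient.mk_eq_mk_iff_sub_mem _ _).2 (imgT_sub_img0_mem ϖ hϖ δ hδm u i)
    · intro i
      rw [AlgHom.comp_apply, substAlgHom_X]
      exact mk_mem_maximalIdeal _ hne (img0_mem i)
  intro f hf
  have h1 : θ f = 0 := hker hf
  have h2 : mk (substAlgHom (R := 𝒪) (hasSubst_img0 (𝒪 := 𝒪) (k := k) (g := g)) f) = 0 := by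
    have := congrArg (fun φ : PRing 𝒪 k g →ₐ[𝒪] _ => φ f) hcomp
    simp only [AlgHom.comp_apply] at this
    rw [← this, h1, map_zero]
  have h3 : subst (img0 𝒪 k g) f ∈ Ideal.span {(C ϖ : D0 𝒪 k g)} := by
    rw [substAlgHom_apply] at h2
    exact Ideal.Quotient.eq_zero_iff_mem.1 h2
  obtain ⟨h, hh⟩ := Ideal.mem_span_singleton'.1 h3
  rw [idealQ_eq, mem_coeffIdeal]
  intro ν hν
  rw [← coeff_subst_img0 f ν hν, ← hh, coeff_mul_C]
  exact Ideal.mul_mem_left _ _ (Ideal.subset_span rfl)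

/-- **TYPE-LEQ** from TYPE-KILL. -/
theorem stmt_TypeLeQ_of_kill (hkill : Stmt_TypeKill) : Stmt_TypeLeQ := by
  intro 𝒪 _ _ _ _ k g ϖ δ hu hϖ hδ0 hδm
  exact typeIdeal_le_idealQ hkill hu ϖ hϖ δ hδ0 hδm

/-- **TYPE-LEQ**. -/
theorem stmt_TypeLeQ : Stmt_TypeLeQ :=
  stmt_TypeLeQ_of_kill Fermat.Agent.L.Pivot.H76.stmt_TypeKill

end Leaf

end Fermat.Agent.L.Pivot.H52
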