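/-
PIVOT (item 66), package PV-LOC: the statement `Stmt_PVLoc_type` from its four leaves
(TypePrime: helper52, TypeDim: helper1, TypeKill: helper76, TypeLeQ: helper52).
-/
import Fermat.Agent.L.Pivot.H52_TPMain
import Fermat.Agent.L.Pivot.H52_TypeLeQ
import Fermat.Agent.L.Pivot.H01_TypeDim

set_option autoImplicit false

namespace Fermat.Agent.L.Pivot.H52

/-- **PV-LOC-TYPE.** -/
theorem stmt_PVLoc_type : Stmt_PVLoc_type :=
  stmt_PVLoc_type_of stmt_TypePrime Fermat.Agent.L.Pivot.H01.stmt_TypeDim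
    Fermat.Agent.L.Pivot.H76.stmt_TypeKill stmt_TypeLeQ

end Fermat.Agent.L.Pivot.H52
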