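import Fermat.Agent.L.Pivot.H59_TameGen
import Fermat.Agent.S59.TWGal.G1
import Fermat.Agent.S59.TWGal.H01_MatUnip

/-!
# PIVOT, package PV-TAME (helper59), part T1: the adic form of the tame relation

`A` noetherian local with `p ∈ 𝔪`, `ρ : GaloisRepAdic A` with `ρ(I_P) ≡ 1 mod 𝔪`, `q ≠ p`, and
`τ₀ ∈ I_P` a uniform tame generator (`exists_uniform_tame_generator`).  Then
* `ρ(φ) ρ(τ₀) = ρ(τ₀) ^ q ρ(φ)` (exactly), and
* for EVERY ideal `J` of `A`: `ρ(τ₀) ≡ 1 mod J` implies `ρ(σ) ≡ 1 mod J` for all `σ ∈ I_P`.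
-/

set_option autoImplicit false
set_option linter.style.haveILetI false

namespace Fermat.Agent.L.Pivot.H59

open Fermat.Agent.S59.TWGal IsLocalRing

/-- Krull: an ideal of a noetherian local ring is closed. -/
theorem mem_of_forall_mem_sup_pow {A : Type} [CommRing A] [IsLocalRing A] [IsNoetherianRing A]
    (J : Ideal A) (x : A) (h : ∀ N : ℕ, x ∈ J ⊔ maximalIdeal A ^ N) : x ∈ J := by
  have hkr := Ideal.iInf_pow_smul_eq_bot_of_isLocalRing (M := A ⧸ J) (maximalIdeal A)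
    (maximalIdeal.isMaximal A).ne_top
  have hx : (Ideal.Quotient.mk J x : A ⧸ J) ∈
      (⨅ i : ℕ, maximalIdeal A ^ i • ⊤ : Submodule A (A ⧸ J)) := by
    rw [Submodule.mem_iInf]
    intro N
    obtain ⟨a, ha, b, hb, rfl⟩ := Submodule.mem_sup.1 (h N)
    have e : Ideal.Quotient.mk J (a + b) = b • (1 : A ⧸ J) := by
      rw [map_add, Ideal.Quotient.eq_zero_iff_mem.2 ha, zero_add, Algebra.smul_def, mul_one]
      rfl
    rw [e]
    exact Submodule.smul_mem_smul hb Submodule.mem_top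
  rw [hkr, Submodule.mem_bot] at hx
  exact Ideal.Quotient.eq_zero_iff_mem.1 hx

section mat

variable {A : Type} [CommRing A] {V : Type} [AddCommGroup V] [Module A V]
  (b : Module.Basis (Fin 2) A V)

/-- If the matrix of `f - 1` has entries in `J` then `f v - v ∈ J • ⊤` for all `v`. -/
theorem sub_mem_smul_top_of_mat (J : Ideal A) (f : Module.End A V)
    (h : ∀ i j, (mat b f - 1) i j ∈ J) (v : V) : f v - v ∈ J • (⊤ : Submodule A V) := by
  have hb : ∀ j, f (b j) - b j ∈ J • (⊤ : Submodule A V) := by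
    intro j
    have e : mat b f - 1 = mat b (f - 1) := by rw [mat, mat, map_sub, map_one]
    have h1 : f (b j) - b j = (f - 1) (b j) := rfl
    rw [h1, apply_eq_of_mat b (f - 1) j, ← e]
    exact add_mem (Submodule.smul_mem_smul (h 0 j) Submodule.mem_top)
      (Submodule.smul_mem_smul (h 1 j) Submodule.mem_top)
  have h2 : f v - v = ∑ j, b.repr v j • (f (b j) - b j) := by
    conv_lhs => rw [← b.sum_repr v]
    rw [map_sum, ← Finset.sum_sub_distrib]
    refine Finset.sum_congr rfl fun j _ => ?_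
    rw [map_smul, smul_sub]
  rw [h2]
  exact Submodule.sum_mem _ fun j _ => Submodule.smul_mem _ _ (hb j)

/-- Entries of `X ^ j - 1` lie in `J` if those of `X - 1` do. -/
theorem pow_sub_one_mem (J : Ideal A) (X : Matrix (Fin 2) (Fin 2) A)
    (h : ∀ i j, (X - 1) i j ∈ J) (n : ℕ) : ∀ i j, (X ^ n - 1) i j ∈ J := by
  have h1 : red J X = 1 := (red_eq_one_iff J X).2 h
  rw [← red_eq_one_iff, map_pow, h1, one_pow]

end mat

/-- **T1 (adic form of the tame relation).** -/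
theorem tame_adic (A : Type) [CommRing A] [IsLocalRing A] [IsNoetherianRing A]
    (p : ℕ) (hp : p.Prime) (hpA : (p : A) ∈ maximalIdeal A) (ρ : GaloisRepAdic A)
    (q : ℕ) (hq : q.Prime) (hqp : q ≠ p) (P : ValuationSubring Qb)
    (hI : ∀ σ ∈ P.inertiaSubgroupIn ℚ, ∀ v : ρ.V,
      ρ.ρ σ v - v ∈ maximalIdeal A • (⊤ : Submodule A ρ.V))
    (φ : GQ) (hφD : φ ∈ P.decompositionSubgroup ℚ)
    (τ₀ : GQ) (hτ₀ : τ₀ ∈ P.inertiaSubgroupIn ℚ)
    (hτ : ∀ F : IntermediateField ℚ Qb, FiniteDimensional ℚ F → TameAt P φ q F τ₀) :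
    ρ.ρ φ * ρ.ρ τ₀ = ρ.ρ τ₀ ^ q * ρ.ρ φ ∧
    ∀ J : Ideal A, (∀ v : ρ.V, ρ.ρ τ₀ v - v ∈ J • (⊤ : Submodule A ρ.V)) →
      ∀ σ ∈ P.inertiaSubgroupIn ℚ, ∀ v : ρ.V, ρ.ρ σ v - v ∈ J • (⊤ : Submodule A ρ.V) := by
  classical
  have hMU := H01.stmt_MatUnip
  have hcop : ∀ e : ℕ, (q ^ e).Coprime p :=
    fun e => Nat.Coprime.pow_left e ((Nat.coprime_primes hq hp).2 hqp)
  let b : Module.Basis (Fin 2) A ρ.V := Module.finBasisOfFinrankEq A ρ.V ρ.finrank_eq
  let μ : GQ →* Matrix (Fin 2) (Fin 2) A :=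
    ((LinearMap.toMatrixAlgEquiv b : Module.End A ρ.V ≃ₐ[A] _) : Module.End A ρ.V →* _).comp ρ.ρ
  have hμ : ∀ g, μ g = mat b (ρ.ρ g) := fun _ => rfl
  have hnormal : ∀ {τ σ : GQ}, τ ∈ P.decompositionSubgroup ℚ → σ ∈ P.inertiaSubgroupIn ℚ →
      τ * σ * τ⁻¹ ∈ P.inertiaSubgroupIn ℚ := by
    intro τ σ hτ hσ
    obtain ⟨s, hs, rfl⟩ := hσ
    refine ⟨⟨τ, hτ⟩ * s * ⟨τ, hτ⟩⁻¹, ?_, rfl⟩
    have hn : (P.inertiaSubgroup ℚ).Normal := by
      unfold ValuationSubring.inertiaSubgroup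
      infer_instance
    exact hn.conj_mem s hs ⟨τ, hτ⟩
  -- the finite levels
  have hlevel : ∀ N : ℕ, ∃ L : IntermediateField ℚ Qb, FiniteDimensional ℚ L ∧
      (∀ u ∈ L.fixingSubgroup, red (maximalIdeal A ^ N) (μ u) = 1) := by
    intro N
    obtain ⟨L, hL, hcont⟩ := ρ.isAdicContinuous N
    refine ⟨L, hL, fun u hu => ?_⟩
    rw [red_eq_one_iff]
    exact mat_sub_one_mem b _ _
      (hcont u (fun x hx => (IntermediateField.mem_fixingSubgroup_iff L u).1 hu x hx))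
  have hwild : ∀ (N : ℕ) (L : IntermediateField ℚ Qb),
      (∀ u ∈ L.fixingSubgroup, red (maximalIdeal A ^ N) (μ u) = 1) →
      ∀ w ∈ P.inertiaSubgroupIn ℚ, ∀ e : ℕ, w ^ (q ^ e) ∈ L.fixingSubgroup →
        red (maximalIdeal A ^ N) (μ w) = 1 := by
    intro N L hfix w hw e hwe
    rw [red_eq_one_iff]
    refine hMU A (maximalIdeal A) p (q ^ e) N hpA (hcop e) (μ w) ?_ ?_
    · exact mat_sub_one_mem b _ _ (hI w hw)
    · rw [← map_pow, ← red_eq_one_iff]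
      exact hfix _ hwe
  have hkrull : ∀ x : A, (∀ N : ℕ, x ∈ maximalIdeal A ^ N) → x = 0 := by
    intro x hx
    have h := Ideal.iInf_pow_eq_bot_of_isLocalRing (maximalIdeal A)
      (maximalIdeal.isMaximal A).ne_top
    have hmem : x ∈ ⨅ i : ℕ, maximalIdeal A ^ i := by
      rw [Ideal.mem_iInf]; exact hx
    rw [h] at hmem
    exact (Submodule.mem_bot A).1 hmem
  refine ⟨?_, ?_⟩
  · -- the relation
    have hw₀ : (τ₀ ^ q)⁻¹ * (φ * τ₀ * φ⁻¹) ∈ P.inertiaSubgroupIn ℚ :=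
      mul_mem (inv_mem (pow_mem hτ₀ q)) (hnormal hφD hτ₀)
    have hrel : ∀ N : ℕ, red (maximalIdeal A ^ N) (μ φ * μ τ₀ - μ τ₀ ^ q * μ φ) = 0 := by
      intro N
      obtain ⟨L, hL, hfix⟩ := hlevel N
      obtain ⟨e₀, hconj⟩ := (hτ L hL).2
      have h1 := hwild N L hfix _ hw₀ e₀ hconj
      have key : ∀ W : GQ, red (maximalIdeal A ^ N) (μ W) = 1 → φ * τ₀ = τ₀ ^ q * W * φ →
          red (maximalIdeal A ^ N) (μ φ * μ τ₀ - μ τ₀ ^ q * μ φ) = 0 := by
        intro W hW h2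
        have h3 : μ φ * μ τ₀ = μ τ₀ ^ q * μ W * μ φ := by
          rw [← map_mul, h2, map_mul, map_mul, map_pow]
        rw [h3, map_sub, map_mul, map_mul, map_mul, hW, mul_one, sub_self]
      exact key _ h1 (by group)
    have hmat : μ φ * μ τ₀ = μ τ₀ ^ q * μ φ := by
      rw [← sub_eq_zero]
      ext i j
      rw [Matrix.zero_apply]
      refine hkrull _ fun N => ?_
      rw [← red_apply_eq_zero_iff, hrel N, Matrix.zero_apply]
    have hinj : Function.Injective (LinearMap.toMatrixAlgEquiv b : Module.End A ρ.V ≃ₐ[A] _) :=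
      (LinearMap.toMatrixAlgEquiv b).injective
    apply hinj
    rw [map_mul, map_mul, map_pow]
    exact hmat
  · -- inertia is generated by `τ₀`
    intro J hJ σ hσ v
    have hτJ : ∀ i j, (μ τ₀ - 1) i j ∈ J := mat_sub_one_mem b J _ hJ
    refine sub_mem_smul_top_of_mat b J (ρ.ρ σ) (fun i j => ?_) v
    refine mem_of_forall_mem_sup_pow J _ fun N => ?_
    obtain ⟨L, hL, hfix⟩ := hlevel N
    obtain ⟨j', e, hje⟩ := (hτ L hL).1 σ hσ
    have h1 := hwild N L hfix _ (mul_mem (inv_mem (pow_mem hτ₀ j')) hσ) e hje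
    have key : ∀ W : GQ, red (maximalIdeal A ^ N) (μ W) = 1 → σ = τ₀ ^ j' * W →
        red (maximalIdeal A ^ N) (μ σ - μ τ₀ ^ j') = 0 := by
      intro W hW h2
      have h3 : μ σ = μ τ₀ ^ j' * μ W := by rw [h2, map_mul, map_pow]
      rw [h3, map_sub, map_mul, hW, mul_one, sub_self]
    have h3 : red (maximalIdeal A ^ N) (μ σ - μ τ₀ ^ j') = 0 := key _ h1 (by group)
    have h4 : (μ σ - μ τ₀ ^ j') i j ∈ maximalIdeal A ^ N := by
      rw [← red_apply_eq_zero_iff, h3, Matrix.zero_apply]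
    have h5 : (μ τ₀ ^ j' - 1) i j ∈ J := pow_sub_one_mem J _ hτJ j' i j
    have h6 : (mat b (ρ.ρ σ) - 1) i j = (μ τ₀ ^ j' - 1) i j + (μ σ - μ τ₀ ^ j') i j := by
      rw [← hμ, Matrix.sub_apply, Matrix.sub_apply, Matrix.sub_apply]
      ring
    rw [h6]
    exact Submodule.add_mem_sup h5 h4

end Fermat.Agent.L.Pivot.H59
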