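import Fermat.Agent.L.Pivot.Global2
import Fermat.Agent.L.Pivot.H59_TameAdic
import Fermat.Agent.Lib.InertiaConj

/-!
# PIVOT, package PV-TAME (helper59): `Stmt_PVTame1`

If `ρ(τ) ≡ 1 mod J` for a uniform generator `τ` of the tame inertia at ONE place `P` over `q`,
then `ρ ≡ 1 mod J` on the inertia groups of ALL places over `q` (`ρ` residually unramified at
`q ≠ p`).
-/

set_option autoImplicit false
set_option linter.style.haveILetI false

namespace Fermat.Agent.L.Pivot.H59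

open IsLocalRing Fermat.Agent.S59.TWGal TensorProduct

/-- If the reduction of `f` modulo `𝔪` is the identity then `f v - v ∈ 𝔪 V`. -/
theorem sub_mem_of_baseChange_eq_one {A : Type} [CommRing A] [IsLocalRing A] {V : Type}
    [AddCommGroup V] [Module A V] (b : Module.Basis (Fin 2) A V) (f : Module.End A V)
    (h : f.baseChange (ResidueField A) = 1) (v : V) :
    f v - v ∈ maximalIdeal A • (⊤ : Submodule A V) := by
  have h1 : (1 : ResidueField A) ⊗ₜ[A] (f v - v) = 0 := by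
    have h2 := congrArg (fun g : Module.End (ResidueField A) (ResidueField A ⊗[A] V) =>
      g ((1 : ResidueField A) ⊗ₜ[A] v)) h
    simp only [LinearMap.baseChange_tmul, Module.End.one_apply] at h2
    rw [TensorProduct.tmul_sub, h2, sub_self]
  have h3 : ∀ i, b.repr (f v - v) i ∈ maximalIdeal A := by
    intro i
    have h4 := congrArg (fun w => (b.baseChange (ResidueField A)).repr w i) h1
    simp only [Module.Basis.baseChange_repr_tmul, map_zero, Finsupp.zero_apply] at h4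
    rw [Algebra.smul_def, mul_one, ResidueField.algebraMap_eq] at h4
    exact (residue_eq_zero_iff _).1 h4
  rw [← b.sum_repr (f v - v)]
  exact Submodule.sum_mem _ fun i _ => Submodule.smul_mem_smul (h3 i) Submodule.mem_top

/-- The `J`-clause of `tame_adic` from the cyclicity clause alone. -/
theorem tame_adic_gen (A : Type) [CommRing A] [IsLocalRing A] [IsNoetherianRing A]
    (p : ℕ) (hp : p.Prime) (hpA : (p : A) ∈ maximalIdeal A) (ρ : GaloisRepAdic A)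
    (q : ℕ) (hq : q.Prime) (hqp : q ≠ p) (P : ValuationSubring Qb)
    (hI : ∀ σ ∈ P.inertiaSubgroupIn ℚ, ∀ v : ρ.V,
      ρ.ρ σ v - v ∈ maximalIdeal A • (⊤ : Submodule A ρ.V))
    (τ₀ : GQ) (hτ₀ : τ₀ ∈ P.inertiaSubgroupIn ℚ)
    (hτ : ∀ F : IntermediateField ℚ Qb, FiniteDimensional ℚ F →
      ∀ σ ∈ P.inertiaSubgroupIn ℚ, ∃ j e : ℕ, ((τ₀ ^ j)⁻¹ * σ) ^ (q ^ e) ∈ F.fixingSubgroup)
    (J : Ideal A) (hJ : ∀ v : ρ.V, ρ.ρ τ₀ v - v ∈ J • (⊤ : Submodule A ρ.V))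
    (σ : GQ) (hσ : σ ∈ P.inertiaSubgroupIn ℚ) (v : ρ.V) :
    ρ.ρ σ v - v ∈ J • (⊤ : Submodule A ρ.V) := by
  classical
  have hMU := H01.stmt_MatUnip
  have hcop : ∀ e : ℕ, (q ^ e).Coprime p :=
    fun e => Nat.Coprime.pow_left e ((Nat.coprime_primes hq hp).2 hqp)
  let b : Module.Basis (Fin 2) A ρ.V := Module.finBasisOfFinrankEq A ρ.V ρ.finrank_eq
  let μ : GQ →* Matrix (Fin 2) (Fin 2) A :=
    ((LinearMap.toMatrixAlgEquiv b : Module.End A ρ.V ≃ₐ[A] _) : Module.End A ρ.V →* _).comp ρ.ρ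
  have hμ : ∀ g, μ g = mat b (ρ.ρ g) := fun _ => rfl
  have hτJ : ∀ i j, (μ τ₀ - 1) i j ∈ J := mat_sub_one_mem b J _ hJ
  refine sub_mem_smul_top_of_mat b J (ρ.ρ σ) (fun i j => ?_) v
  refine mem_of_forall_mem_sup_pow J _ fun N => ?_
  obtain ⟨L, hL, hcont⟩ := ρ.isAdicContinuous N
  have hfix : ∀ u ∈ L.fixingSubgroup, red (maximalIdeal A ^ N) (μ u) = 1 := by
    intro u hu
    rw [red_eq_one_iff]
    exact mat_sub_one_mem b _ _
      (hcont u (fun x hx => (IntermediateField.mem_fixingSubgroup_iff L u).1 hu x hx))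
  obtain ⟨j', e, hje⟩ := hτ L hL σ hσ
  have hw : (τ₀ ^ j')⁻¹ * σ ∈ P.inertiaSubgroupIn ℚ := mul_mem (inv_mem (pow_mem hτ₀ j')) hσ
  have h1 : red (maximalIdeal A ^ N) (μ ((τ₀ ^ j')⁻¹ * σ)) = 1 := by
    rw [red_eq_one_iff]
    refine hMU A (maximalIdeal A) p (q ^ e) N hpA (hcop e) (μ ((τ₀ ^ j')⁻¹ * σ)) ?_ ?_
    · exact mat_sub_one_mem b _ _ (hI _ hw)
    · rw [← map_pow, ← red_eq_one_iff]
      exact hfix _ hje
  have key : ∀ W : GQ, red (maximalIdeal A ^ N) (μ W) = 1 → σ = τ₀ ^ j' * W →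
      red (maximalIdeal A ^ N) (μ σ - μ τ₀ ^ j') = 0 := by
    intro W hW h2
    have h3 : μ σ = μ τ₀ ^ j' * μ W := by rw [h2, map_mul, map_pow]
    rw [h3, map_sub, map_mul, hW, mul_one, sub_self]
  have h3 : red (maximalIdeal A ^ N) (μ σ - μ τ₀ ^ j') = 0 := key _ h1 (by group)
  have h4 : (μ σ - μ τ₀ ^ j') i j ∈ maximalIdeal A ^ N := by
    rw [← red_apply_eq_zero_iff, h3, Matrix.zero_apply]
  have h5 : (μ τ₀ ^ j' - 1) i j ∈ J := pow_sub_one_mem J _ hτJ j' i j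
  have h6 : (mat b (ρ.ρ σ) - 1) i j = (μ τ₀ ^ j' - 1) i j + (μ σ - μ τ₀ ^ j') i j := by
    rw [← hμ, Matrix.sub_apply, Matrix.sub_apply, Matrix.sub_apply]
    ring
  rw [h6]
  exact Submodule.add_mem_sup h5 h4

/-- **`Stmt_PVTame1`.** -/
theorem stmt_PVTame1 : Stmt_PVTame1 := by
  intro A _ _ _ _ p _ hpA ρ q hq hqp hunr P hP τ hτ J hJ A' hA' σ hσ v
  have hp : p.Prime := Fact.out
  let b : Module.Basis (Fin 2) A ρ.V := Module.finBasisOfFinrankEq A ρ.V ρ.finrank_eq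
  have hI : ∀ σ ∈ P.inertiaSubgroupIn ℚ, ∀ v : ρ.V,
      ρ.ρ σ v - v ∈ maximalIdeal A • (⊤ : Submodule A ρ.V) := by
    intro s hs w
    exact sub_mem_of_baseChange_eq_one b (ρ.ρ s) (hunr P hP s hs) w
  have hgen : ∀ F : IntermediateField ℚ Qb, FiniteDimensional ℚ F →
      ∀ σ ∈ P.inertiaSubgroupIn ℚ, ∃ j e : ℕ,
        ((τ ^ j)⁻¹ * σ) ^ (q ^ e) ∈ F.fixingSubgroup := by
    intro F hF s hs
    obtain ⟨i, e, h⟩ := hτ.2 F hF s hs
    exact ⟨i, e, (IntermediateField.mem_fixingSubgroup_iff F _).2 h⟩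
  have hP1 : ∀ s ∈ P.inertiaSubgroupIn ℚ, ∀ w : ρ.V,
      ρ.ρ s w - w ∈ J • (⊤ : Submodule A ρ.V) := fun s hs w =>
    tame_adic_gen A p hp hpA ρ q hq hqp P hI τ hτ.1 hgen J hJ s hs w
  -- conjugate places
  obtain ⟨g, hg⟩ := Fermat.Agent.Lib.InertiaConj.exists_conj_mem_inertia q hq P A' hP hA'
  have hs := (hg σ).1 hσ
  have h1 := hP1 _ hs (ρ.ρ g⁻¹ v)
  have h2 : ρ.ρ σ v - v = ρ.ρ g (ρ.ρ (g⁻¹ * σ * g) (ρ.ρ g⁻¹ v) - ρ.ρ g⁻¹ v) := by
    rw [map_sub]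
    have e1 : ∀ (a c : GQ) (w : ρ.V), ρ.ρ a (ρ.ρ c w) = ρ.ρ (a * c) w := by
      intro a c w
      rw [map_mul]
      rfl
    rw [e1, e1, e1]
    have e2 : g * (g⁻¹ * σ * g) * g⁻¹ = σ := by group
    rw [e2, mul_inv_cancel, map_one]
    rfl
  rw [h2]
  -- `J V` is stable under `A`-linear maps
  have hstab : ∀ (f : Module.End A ρ.V) (w : ρ.V), w ∈ J • (⊤ : Submodule A ρ.V) →
      f w ∈ J • (⊤ : Submodule A ρ.V) := by
    intro f w hw
    refine Submodule.smul_induction_on hw ?_ ?_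
    · intro a ha x _
      rw [map_smul]
      exact Submodule.smul_mem_smul ha Submodule.mem_top
    · intro x y hx hy
      rw [map_add]
      exact add_mem hx hy
  exact hstab _ _ h1

end Fermat.Agent.L.Pivot.H59
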