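import Fermat.Agent.S59.TWGal.H01_MatUnip

/-!
# PIVOT, package PV-TAME (helper59), part T2: the matrix form

`D` a noetherian local domain with `p ∈ 𝔪` (`p` odd), `q = 1 + p ^ n * m'` with `p ∤ m'`,
`n ≥ 1`, `ζ₀ ∈ D` a primitive `p ^ n`-th root of unity, `Σ, Φ ∈ M₂(D)` with `det Σ = 1`,
`Σ ≡ 1 mod 𝔪`, `Φ` invertible and `Φ Σ = Σ ^ q Φ`.  Then `tr Σ = ζ + ζ⁻¹` for some `ζ = ζ₀ ^ i`;
if `ζ ≠ 1` then `Σ` and `Φ` commute; if `ζ = 1` then `(Σ - 1)² = 0` and
`Φ (Σ - 1) = q (Σ - 1) Φ`.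
-/

set_option autoImplicit false
set_option linter.style.haveILetI false

namespace Fermat.Agent.L.Pivot.H59

open Matrix IsLocalRing Fermat.Agent.S59.TWGal

section CH

variable {R : Type*} [CommRing R]

/-- Cayley–Hamilton for `2 × 2` matrices of determinant `1`. -/
theorem mul_self_of_det_one (Y : Matrix (Fin 2) (Fin 2) R) (h : Y.det = 1) :
    Y * Y = Y.trace • Y - 1 := by
  rw [Matrix.det_fin_two] at h
  ext i j
  fin_cases i <;> fin_cases j <;>
    simp only [Matrix.mul_apply, Fin.sum_univ_two, Matrix.trace_fin_two, Matrix.sub_apply,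
      Matrix.smul_apply, smul_eq_mul, Matrix.one_apply_eq, Fin.zero_eta, Fin.mk_one,
      Fin.isValue, ne_eq, zero_ne_one, one_ne_zero, not_false_eq_true, Matrix.one_apply_ne,
      sub_zero]
  · linear_combination (-1 : R) * h
  · ring
  · ring
  · linear_combination (-1 : R) * h

theorem det_pow_of_det_one (Y : Matrix (Fin 2) (Fin 2) R) (h : Y.det = 1) (m : ℕ) :
    (Y ^ m).det = 1 := by
  rw [Matrix.det_pow, h, one_pow]

/-- The powers of a `2 × 2` matrix of determinant `1` in terms of "eigenvalues" `z, z'`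
(`z + z' = tr Y`, `z z' = 1`). -/
theorem smul_pow_of_roots (Y : Matrix (Fin 2) (Fin 2) R) (h : Y.det = 1) (z z' : R)
    (hz : z + z' = Y.trace) (hzz : z * z' = 1) (m : ℕ) :
    (z - z') • Y ^ m = (z ^ m - z' ^ m) • Y - (z ^ m * z' - z' ^ m * z) • (1 : Matrix _ _ R) := by
  induction m with
  | zero =>
    rw [pow_zero, pow_zero, pow_zero, sub_self, zero_smul, zero_sub, one_mul, one_mul,
      ← neg_smul, neg_sub]
  | succ m ih =>
    have hCH := mul_self_of_det_one Y h
    have e1 : (z - z') • Y ^ (m + 1) = ((z - z') • Y ^ m) * Y := by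
      rw [pow_succ, Matrix.smul_mul]
    rw [e1, ih, Matrix.sub_mul, Matrix.smul_mul, Matrix.smul_mul, Matrix.one_mul, hCH, ← hz]
    have e2 : z ^ (m + 1) * z' = z ^ m := by rw [pow_succ, mul_assoc, hzz, mul_one]
    have e3 : z' ^ (m + 1) * z = z' ^ m := by
      rw [pow_succ, mul_assoc, mul_comm z' z, hzz, mul_one]
    rw [e2, e3]
    ext i j
    simp only [Matrix.sub_apply, Matrix.smul_apply, smul_eq_mul, Matrix.one_apply]
    split_ifs <;> ring

/-- The traces of the powers of a `2 × 2` matrix of determinant `1`. -/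
theorem trace_pow_of_roots (Y : Matrix (Fin 2) (Fin 2) R) (h : Y.det = 1) (z z' : R)
    (hz : z + z' = Y.trace) (hzz : z * z' = 1) (m : ℕ) :
    (Y ^ m).trace = z ^ m + z' ^ m := by
  have hCH := mul_self_of_det_one Y h
  have key : ∀ m : ℕ, (Y ^ m).trace = z ^ m + z' ^ m ∧
      (Y ^ (m + 1)).trace = z ^ (m + 1) + z' ^ (m + 1) := by
    intro m
    induction m with
    | zero =>
      refine ⟨?_, ?_⟩
      · rw [pow_zero, pow_zero, pow_zero, Matrix.trace_one, Fintype.card_fin]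
        norm_num
      · rw [zero_add, pow_one, pow_one, pow_one, hz]
    | succ m ih =>
      refine ⟨ih.2, ?_⟩
      have e1 : Y ^ (m + 1 + 1) = Y.trace • Y ^ (m + 1) - Y ^ m := by
        rw [pow_succ, pow_succ, mul_assoc, hCH, Matrix.mul_sub, Matrix.mul_smul, Matrix.mul_one,
          ← pow_succ]
      rw [e1, Matrix.trace_sub, Matrix.trace_smul, ih.1, ih.2, smul_eq_mul, ← hz]
      have e2 : z ^ (m + 1) * z' = z ^ m := by rw [pow_succ, mul_assoc, hzz, mul_one]
      have e3 : z' ^ (m + 1) * z = z' ^ m := by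
        rw [pow_succ, mul_assoc, mul_comm z' z, hzz, mul_one]
      linear_combination e2 + e3
  exact (key m).1

/-- Unipotent case: `Y ^ m = 1 + m (Y - 1)` if `(Y - 1)² = 0`. -/
theorem pow_of_sq_zero (Y : Matrix (Fin 2) (Fin 2) R) (h : (Y - 1) * (Y - 1) = 0) (m : ℕ) :
    Y ^ m = 1 + (m : R) • (Y - 1) := by
  obtain ⟨N, hN⟩ : ∃ N, N = Y - 1 := ⟨_, rfl⟩
  have hY : Y = 1 + N := by rw [hN, add_sub_cancel]
  rw [← hN] at h ⊢
  rw [hY]
  clear hN hY
  induction m with
  | zero => rw [pow_zero, Nat.cast_zero, zero_smul, add_zero]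
  | succ m ih =>
    rw [pow_succ, ih]
    simp only [add_mul, mul_add, one_mul, mul_one, smul_mul_assoc, h, smul_zero, add_zero]
    rw [Nat.cast_succ, add_smul, one_smul]
    abel

/-- Entries of `X ^ n - 1` lie in `J` if those of `X - 1` do. -/
theorem pow_sub_one_mem_ideal (J : Ideal R) (X : Matrix (Fin 2) (Fin 2) R)
    (h : ∀ i j, (X - 1) i j ∈ J) (n : ℕ) : ∀ i j, (X ^ n - 1) i j ∈ J := by
  induction n with
  | zero =>
    intro i j
    rw [pow_zero, sub_self, Matrix.zero_apply]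
    exact J.zero_mem
  | succ n ih =>
    intro i j
    have e : X ^ (n + 1) - 1 = X ^ n * (X - 1) + (X ^ n - 1) := by
      rw [pow_succ, Matrix.mul_sub, Matrix.mul_one]
      abel
    rw [e, Matrix.add_apply, Matrix.mul_apply]
    exact J.add_mem (J.sum_mem fun k _ => J.mul_mem_left _ (h k j)) (ih i j)

end CH

section main

variable {D : Type} [CommRing D] [IsLocalRing D] [IsNoetherianRing D]

/-- `1 + M₂(𝔪)` has no prime-to-`p` torsion. -/
theorem eq_one_of_pow_eq_one (p : ℕ) (hpD : (p : D) ∈ maximalIdeal D) (M : ℕ)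
    (hM : M.Coprime p) (Y : Matrix (Fin 2) (Fin 2) D)
    (hY : ∀ i j, (Y - 1) i j ∈ maximalIdeal D) (hYM : Y ^ M = 1) : Y = 1 := by
  have hMU := H01.stmt_MatUnip
  have hkrull : ∀ x : D, (∀ N : ℕ, x ∈ maximalIdeal D ^ N) → x = 0 := by
    intro x hx
    have h := Ideal.iInf_pow_eq_bot_of_isLocalRing (maximalIdeal D)
      (maximalIdeal.isMaximal D).ne_top
    have hmem : x ∈ ⨅ i : ℕ, maximalIdeal D ^ i := by
      rw [Ideal.mem_iInf]; exact hx
    rw [h] at hmem
    exact (Submodule.mem_bot D).1 hmem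
  rw [← sub_eq_zero]
  ext i j
  rw [Matrix.zero_apply]
  refine hkrull _ fun N => hMU D (maximalIdeal D) p M N hpD hM Y hY (fun i j => ?_) i j
  rw [hYM, sub_self, Matrix.zero_apply]
  exact zero_mem _

variable [IsDomain D]

/-- **T2 (matrix form of the types at a pivot prime).** -/
theorem tame_types (p q n m' : ℕ) (hp : p.Prime) (hp2 : p ≠ 2)
    (hpD : (p : D) ∈ maximalIdeal D) (hn : n ≠ 0) (hq : q = 1 + p ^ n * m') (hm' : ¬ p ∣ m')
    (ζ₀ : D) (hζ₀ : IsPrimitiveRoot ζ₀ (p ^ n))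
    (Sg Ph Ph' : Matrix (Fin 2) (Fin 2) D) (hdet : Sg.det = 1)
    (hSg : ∀ i j, (Sg - 1) i j ∈ maximalIdeal D)
    (hPh : Ph * Ph' = 1) (hrel : Ph * Sg = Sg ^ q * Ph) :
    ∃ i < p ^ n, Sg.trace = ζ₀ ^ i + ζ₀ ^ (p ^ n - i) ∧
      (i ≠ 0 → Sg * Ph = Ph * Sg) ∧
      (i = 0 → (Sg - 1) * (Sg - 1) = 0 ∧ Ph * (Sg - 1) = (q : D) • ((Sg - 1) * Ph)) := by
  classical
  haveI : NeZero (p ^ n) := ⟨pow_ne_zero n hp.ne_zero⟩
  have hPh' : Ph' * Ph = 1 := mul_eq_one_comm.1 hPh
  have hCH := mul_self_of_det_one Sg hdet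
  -- the algebraic closure
  let K := FractionRing D
  let Ω := AlgebraicClosure K
  let ι : D →+* Ω := (algebraMap K Ω).comp (algebraMap D K)
  have hι : Function.Injective ι :=
    (algebraMap K Ω).injective.comp (IsFractionRing.injective D K)
  -- an eigenvalue
  obtain ⟨l, hl⟩ : ∃ l : Ω, l ^ 2 - ι Sg.trace * l + 1 = 0 := by
    have hdeg : (Polynomial.C (1 : Ω) * Polynomial.X ^ 2 + Polynomial.C (-ι Sg.trace) *
        Polynomial.X + Polynomial.C 1).degree ≠ 0 := by
      rw [Polynomial.degree_quadratic one_ne_zero]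
      norm_num
    obtain ⟨l, hl⟩ := IsAlgClosed.exists_root _ hdeg
    refine ⟨l, ?_⟩
    simp only [Polynomial.IsRoot, Polynomial.eval_add, Polynomial.eval_mul, Polynomial.eval_C,
      Polynomial.eval_pow, Polynomial.eval_X] at hl
    linear_combination hl
  obtain ⟨l', hl'⟩ : ∃ l' : Ω, l' = ι Sg.trace - l := ⟨_, rfl⟩
  have hsum : l + l' = ι Sg.trace := by rw [hl']; ring
  have hprod : l * l' = 1 := by rw [hl']; linear_combination -hl
  have hl0 : l ≠ 0 := left_ne_zero_of_mul_eq_one hprod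
  -- the matrix over `Ω`
  have hdetΩ : ∀ m : ℕ, ((ι.mapMatrix Sg) ^ m).det = 1 := by
    intro m
    rw [Matrix.det_pow, ← RingHom.map_det, hdet, map_one, one_pow]
  have htrΩ : ∀ Z : Matrix (Fin 2) (Fin 2) D, (ι.mapMatrix Z).trace = ι Z.trace := by
    intro Z
    rw [RingHom.mapMatrix_apply, ← AddMonoidHom.map_trace]
  have hpowtr : ∀ m : ℕ, ι (Sg ^ m).trace = l ^ m + l' ^ m := by
    intro m
    have h1 := trace_pow_of_roots (ι.mapMatrix Sg) (by simpa using hdetΩ 1) l l'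
      (by rw [hsum, htrΩ]) hprod m
    rw [← map_pow, htrΩ] at h1
    exact h1
  -- `tr Σ^q = tr Σ`
  have htrq : (Sg ^ q).trace = Sg.trace := by
    have e : Sg ^ q = Ph * Sg * Ph' := by
      rw [hrel, Matrix.mul_assoc, hPh, Matrix.mul_one]
    rw [e, Matrix.trace_mul_cycle, hPh', Matrix.one_mul]
  have heq : l ^ q + l' ^ q = l + l' := by
    rw [← hpowtr q, htrq, hsum]
  -- `l ^ (q - 1) = 1` or `l ^ (q + 1) = 1`
  obtain ⟨a, ha⟩ : ∃ a : Ω, a = l ^ (p ^ n * m') := ⟨_, rfl⟩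
  obtain ⟨a', ha'⟩ : ∃ a' : Ω, a' = l' ^ (p ^ n * m') := ⟨_, rfl⟩
  have haa : a * a' = 1 := by rw [ha, ha', ← mul_pow, hprod, one_pow]
  have hlq : l ^ q = l * a := by rw [hq, pow_add, pow_one, ha]
  have hlq' : l' ^ q = l' * a' := by rw [hq, pow_add, pow_one, ha']
  have hfac : (a - 1) * (l * a - l') = 0 := by
    rw [hlq, hlq'] at heq
    linear_combination a * heq - l' * haa
  -- `μ ^ M = 1` with `M` prime to `p`
  obtain ⟨μ, hμ⟩ : ∃ μ : Ω, μ = l ^ (p ^ n) := ⟨_, rfl⟩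
  obtain ⟨μ', hμ'⟩ : ∃ μ' : Ω, μ' = l' ^ (p ^ n) := ⟨_, rfl⟩
  have hμμ : μ * μ' = 1 := by rw [hμ, hμ', ← mul_pow, hprod, one_pow]
  have hpn : p ∣ p ^ n := dvd_pow_self p hn
  obtain ⟨M, hMp, hμM⟩ : ∃ M : ℕ, M.Coprime p ∧ μ ^ M = 1 := by
    rcases mul_eq_zero.1 hfac with h | h
    · refine ⟨m', ((Nat.Prime.coprime_iff_not_dvd hp).2 hm').symm, ?_⟩
      rw [hμ, ← pow_mul, ← ha]
      exact sub_eq_zero.1 h
    · refine ⟨p ^ n * m' + 2, ?_, ?_⟩
      · refine ((Nat.Prime.coprime_iff_not_dvd hp).2 fun hdvd => ?_).symm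
        have h2 : p ∣ 2 := (Nat.dvd_add_right (Dvd.dvd.mul_right hpn m')).1 hdvd
        exact hp2 ((Nat.prime_dvd_prime_iff_eq hp Nat.prime_two).1 h2)
      · have h1 : l ^ (p ^ n * m' + 2) = 1 := by
          rw [pow_add, ← ha, pow_two]
          linear_combination l * h + hprod
        rw [hμ, ← pow_mul, mul_comm, pow_mul, h1, one_pow]
  -- `Y = Σ ^ (p ^ n)`
  have hYdet : (Sg ^ (p ^ n)).det = 1 := det_pow_of_det_one Sg hdet _
  have hY : ∀ i j, (Sg ^ (p ^ n) - 1) i j ∈ maximalIdeal D :=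
    pow_sub_one_mem_ideal _ Sg hSg _
  have hYtr : ι (Sg ^ (p ^ n)).trace = μ + μ' := by rw [hpowtr, hμ, hμ']
  have hone : (1 : D) ∉ maximalIdeal D := fun h =>
    (maximalIdeal.isMaximal D).ne_top ((Ideal.eq_top_iff_one _).2 h)
  -- `μ = 1`
  have hμ1 : μ = 1 := by
    by_cases hμe : μ = μ'
    · have h1 : (μ - 1) * (μ + 1) = 0 := by
        rw [← hμe] at hμμ
        linear_combination hμμ
      rcases mul_eq_zero.1 h1 with h | h
      · exact sub_eq_zero.1 h
      · exfalso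
        have h2 : μ = -1 := eq_neg_of_add_eq_zero_left h
        have h3 : ι ((Sg ^ (p ^ n)).trace + 2) = 0 := by
          rw [map_add, hYtr, ← hμe, h2]
          simp only [map_ofNat]
          norm_num
        have h4 : (Sg ^ (p ^ n)).trace + 2 = 0 := hι (by rw [h3, map_zero])
        have h5 : (Sg ^ (p ^ n)).trace - 2 ∈ maximalIdeal D := by
          have e : (Sg ^ (p ^ n)).trace - 2 =
              (Sg ^ (p ^ n) - 1) 0 0 + (Sg ^ (p ^ n) - 1) 1 1 := by
            rw [Matrix.trace_fin_two, Matrix.sub_apply, Matrix.sub_apply, Matrix.one_apply_eq,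
              Matrix.one_apply_eq]
            ring
          rw [e]
          exact add_mem (hY 0 0) (hY 1 1)
        have h6 : (4 : D) ∈ maximalIdeal D := by
          have e : (4 : D) = ((Sg ^ (p ^ n)).trace + 2) - ((Sg ^ (p ^ n)).trace - 2) := by ring
          rw [e, h4, zero_sub]
          exact neg_mem h5
        have hcop : Nat.Coprime 4 p := by
          have h22 : Nat.Coprime 2 p :=
            (Nat.coprime_primes Nat.prime_two hp).2 (Ne.symm hp2)
          exact Nat.Coprime.pow_left 2 h22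
        have hbez : ((4 : ℤ) : D) * ((Nat.gcdA 4 p : ℤ) : D) +
            ((p : ℤ) : D) * ((Nat.gcdB 4 p : ℤ) : D) = 1 := by
          have := Nat.gcd_eq_gcd_ab 4 p
          rw [hcop.gcd_eq_one] at this
          have h7 := congrArg (fun z : ℤ => (z : D)) this
          simp only [Int.cast_add, Int.cast_mul, Nat.cast_one, Int.cast_one, Int.cast_natCast,
            Nat.cast_ofNat, Int.cast_ofNat] at h7
          simp only [Int.cast_ofNat, Int.cast_natCast]
          exact h7.symm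
        apply hone
        rw [← hbez]
        refine add_mem (Ideal.mul_mem_right _ _ ?_) (Ideal.mul_mem_right _ _ ?_)
        · simpa using h6
        · simpa using hpD
    · -- distinct eigenvalues: `Y ^ M = 1`
      have h1 := smul_pow_of_roots (ι.mapMatrix (Sg ^ (p ^ n)))
        (by rw [← RingHom.map_det, hYdet, map_one]) μ μ' (by rw [htrΩ, hYtr]) hμμ M
      have hμ'M : μ' ^ M = 1 := by
        have : μ ^ M * μ' ^ M = 1 := by rw [← mul_pow, hμμ, one_pow]
        rw [hμM, one_mul] at this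
        exact this
      rw [hμM, hμ'M, sub_self, zero_smul, zero_sub, one_mul, one_mul, ← neg_smul, neg_sub] at h1
      have h2 : (ι.mapMatrix (Sg ^ (p ^ n))) ^ M = 1 := by
        ext i j
        have h3 := congrFun (congrFun h1 i) j
        rw [Matrix.smul_apply, Matrix.smul_apply, smul_eq_mul, smul_eq_mul] at h3
        exact mul_left_cancel₀ (sub_ne_zero.2 hμe) h3
      have h3 : (Sg ^ (p ^ n)) ^ M = 1 := by
        have hinj : Function.Injective (ι.mapMatrix : Matrix (Fin 2) (Fin 2) D →+* _) := by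
          intro X Y hXY
          ext i j
          have := congrFun (congrFun hXY i) j
          rw [RingHom.mapMatrix_apply, RingHom.mapMatrix_apply, Matrix.map_apply,
            Matrix.map_apply] at this
          exact hι this
        apply hinj
        rw [map_pow, h2, map_one]
      have h4 : Sg ^ (p ^ n) = 1 := eq_one_of_pow_eq_one p hpD M hMp _ hY h3
      have h5 : μ + μ' = 2 := by
        rw [← hYtr, h4, Matrix.trace_one, Fintype.card_fin]
        simp only [Nat.cast_ofNat, map_ofNat]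
      have h6 : (μ - 1) * (μ - 1) = 0 := by linear_combination (-1 : Ω) * hμμ + μ * h5
      exact sub_eq_zero.1 (mul_self_eq_zero.1 h6)
  -- `l` is a power of `ζ₀`
  have hζΩ : IsPrimitiveRoot (ι ζ₀) (p ^ n) := hζ₀.map_of_injective hι
  obtain ⟨i, hi, hli⟩ := hζΩ.eq_pow_of_pow_eq_one (by rw [← hμ, hμ1] : l ^ (p ^ n) = 1)
  have hl'i : l' = ι ζ₀ ^ (p ^ n - i) := by
    have h1 : l * ι ζ₀ ^ (p ^ n - i) = 1 := by
      rw [← hli, ← pow_add, Nat.add_sub_cancel' hi.le, hζΩ.pow_eq_one]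
    exact mul_left_cancel₀ hl0 (by rw [hprod, h1])
  have htr : Sg.trace = ζ₀ ^ i + ζ₀ ^ (p ^ n - i) := by
    apply hι
    rw [← hsum, ← hli, hl'i, map_add, map_pow, map_pow]
  obtain ⟨z, hz⟩ : ∃ z : D, z = ζ₀ ^ i := ⟨_, rfl⟩
  obtain ⟨z', hz'⟩ : ∃ z' : D, z' = ζ₀ ^ (p ^ n - i) := ⟨_, rfl⟩
  have hzz : z * z' = 1 := by
    rw [hz, hz', ← pow_add, Nat.add_sub_cancel' hi.le, hζ₀.pow_eq_one]
  have hzsum : z + z' = Sg.trace := by rw [htr, hz, hz']
  refine ⟨i, hi, htr, fun hi0 => ?_, fun hi0 => ?_⟩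
  · -- the ramified types
    have hz1 : z ≠ 1 := by rw [hz]; exact hζ₀.pow_ne_one_of_pos_of_lt hi0 hi
    have hzpn : z ^ (p ^ n) = 1 := by rw [hz, ← pow_mul, mul_comm, pow_mul, hζ₀.pow_eq_one, one_pow]
    have hz'pn : z' ^ (p ^ n) = 1 := by
      rw [hz', ← pow_mul, mul_comm, pow_mul, hζ₀.pow_eq_one, one_pow]
    have hne : z ≠ z' := by
      intro h
      have h2 : z ^ 2 = 1 := by rw [pow_two]; nth_rewrite 2 [h]; exact hzz
      have hg : z ^ (Nat.gcd 2 (p ^ n)) = 1 := pow_gcd_eq_one.2 ⟨h2, hzpn⟩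
      have hcop : Nat.Coprime 2 (p ^ n) :=
        Nat.Coprime.pow_right n ((Nat.coprime_primes Nat.prime_two hp).2 (Ne.symm hp2))
      rw [hcop.gcd_eq_one, pow_one] at hg
      exact hz1 hg
    have hzq : z ^ q = z := by rw [hq, pow_add, pow_one, pow_mul, hzpn, one_pow, mul_one]
    have hz'q : z' ^ q = z' := by rw [hq, pow_add, pow_one, pow_mul, hz'pn, one_pow, mul_one]
    have h1 := smul_pow_of_roots Sg hdet z z' hzsum hzz q
    rw [hzq, hz'q, mul_comm z' z, sub_self, zero_smul, sub_zero] at h1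
    have h2 : Sg ^ q = Sg := by
      ext a b
      have h3 := congrFun (congrFun h1 a) b
      rw [Matrix.smul_apply, Matrix.smul_apply, smul_eq_mul, smul_eq_mul] at h3
      exact mul_left_cancel₀ (sub_ne_zero.2 hne) h3
    rw [hrel, h2]
  · -- the unipotent type
    have ht2 : Sg.trace = 2 := by
      rw [htr, hi0, pow_zero, Nat.sub_zero, hζ₀.pow_eq_one]
      norm_num
    have hsq : (Sg - 1) * (Sg - 1) = 0 := by
      rw [Matrix.sub_mul, Matrix.mul_sub, Matrix.mul_sub, Matrix.mul_one, Matrix.one_mul,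
        Matrix.one_mul, hCH, ht2, two_smul]
      abel
    refine ⟨hsq, ?_⟩
    have h1 := pow_of_sq_zero Sg hsq q
    rw [Matrix.mul_sub, Matrix.mul_one, hrel, h1, Matrix.add_mul, Matrix.one_mul,
      Matrix.smul_mul, add_sub_cancel_left]

end main

end Fermat.Agent.L.Pivot.H59
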