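import Fermat.Agent.L.Pivot.Defs
import Fermat.Agent.L.Pivot.H52_LocMat
import Fermat.Agent.L.Pivot.H59_TameMat

/-!
# PIVOT, package PV-TAME (helper59), part T3: the dictionary matrices ↔ points of `P`

A point `θ : P → D` has COORDINATES `(Σ_j, Φ_j)` (with signs `ε_j`) if it sends
`y, z, m` to the traceless part of `Σ_j` and `v, w, s` to `ε_j` times the traceless part of `Φ_j`.
Then
* `θ Q1 = (tr Σ)² − 4 det Σ`, `θ Q2 = (tr Φ)² − 4 det Φ`, and the minors are the entries of the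
  commutator: `isTypePoint_of_coord`;
* unipotent points kill `idealUnip`: `idealUnip_le_ker_of_coord`;
* with `tame_types`: `exists_type_of_tame`.
-/

set_option autoImplicit false
set_option linter.style.haveILetI false

namespace Fermat.Agent.L.Pivot.H59

open MvPowerSeries IsLocalRing Matrix

variable {𝒪 : Type} [CommRing 𝒪] {k : ℕ} {g : ℕ} {D : Type} [CommRing D] [Algebra 𝒪 D]

/-- The point `θ` of `P` has the coordinates `(Σ, Φ)` at the `j`-th pivot prime (sign `ε`). -/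
structure IsCoordOf (θ : PRing 𝒪 k g →ₐ[𝒪] D) (j : Fin k) (ε : D)
    (Sg Ph : Matrix (Fin 2) (Fin 2) D) : Prop where
  hy : θ (cy 𝒪 g j) = Sg 0 1
  hz : θ (cz 𝒪 g j) = Sg 1 0
  hm : θ (cm 𝒪 g j) = Sg 0 0 - Sg 1 1
  hv : θ (cv 𝒪 g j) = ε * Ph 0 1
  hw : θ (cw 𝒪 g j) = ε * Ph 1 0
  hs : θ (cs 𝒪 g j) = ε * (Ph 0 0 - Ph 1 1)

namespace IsCoordOf

variable {θ : PRing 𝒪 k g →ₐ[𝒪] D} {j : Fin k} {ε : D} {Sg Ph : Matrix (Fin 2) (Fin 2) D}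

theorem map_Q1 (h : IsCoordOf θ j ε Sg Ph) :
    θ (Q1 𝒪 g j) = Sg.trace ^ 2 - 4 * Sg.det := by
  have h4 : θ (4 : PRing 𝒪 k g) = 4 := map_ofNat _ 4
  rw [Q1, map_add, map_mul, map_mul, map_pow, h4, h.hy, h.hz, h.hm, Matrix.trace_fin_two,
    Matrix.det_fin_two]
  ring

theorem map_Q2 (h : IsCoordOf θ j ε Sg Ph) (hε : ε ^ 2 = 1) :
    θ (Q2 𝒪 g j) = Ph.trace ^ 2 - 4 * Ph.det := by
  have h4 : θ (4 : PRing 𝒪 k g) = 4 := map_ofNat _ 4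
  rw [Q2, map_add, map_mul, map_mul, map_pow, h4, h.hv, h.hw, h.hs, Matrix.trace_fin_two,
    Matrix.det_fin_two]
  linear_combination ((Ph 0 0 - Ph 1 1) ^ 2 + 4 * Ph 0 1 * Ph 1 0) * hε

theorem map_minor1 (h : IsCoordOf θ j ε Sg Ph) (hc : Sg * Ph = Ph * Sg) :
    θ (minor1 𝒪 g j) = 0 := by
  have h00 := congrFun (congrFun hc 0) 0
  rw [Matrix.mul_apply, Matrix.mul_apply, Fin.sum_univ_two, Fin.sum_univ_two] at h00
  rw [minor1, map_sub, map_mul, map_mul, h.hy, h.hz, h.hv, h.hw]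
  linear_combination ε * h00

theorem map_minor2 (h : IsCoordOf θ j ε Sg Ph) (hc : Sg * Ph = Ph * Sg) :
    θ (minor2 𝒪 g j) = 0 := by
  have h01 := congrFun (congrFun hc 0) 1
  rw [Matrix.mul_apply, Matrix.mul_apply, Fin.sum_univ_two, Fin.sum_univ_two] at h01
  rw [minor2, map_sub, map_mul, map_mul, h.hy, h.hm, h.hv, h.hs]
  linear_combination (-ε) * h01

theorem map_minor3 (h : IsCoordOf θ j ε Sg Ph) (hc : Sg * Ph = Ph * Sg) :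
    θ (minor3 𝒪 g j) = 0 := by
  have h10 := congrFun (congrFun hc 1) 0
  rw [Matrix.mul_apply, Matrix.mul_apply, Fin.sum_univ_two, Fin.sum_univ_two] at h10
  rw [minor3, map_sub, map_mul, map_mul, h.hz, h.hm, h.hw, h.hs]
  linear_combination ε * h10

theorem map_sigmaCoord_eq_zero (h : IsCoordOf θ j ε Sg Ph) (e : D)
    (he : e • (Sg - 1) = 0) (c : Fin 3) :
    e * θ (sigmaCoord 𝒪 g (j, c)) = 0 := by
  have h00 := congrFun (congrFun he 0) 0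
  have h01 := congrFun (congrFun he 0) 1
  have h10 := congrFun (congrFun he 1) 0
  have h11 := congrFun (congrFun he 1) 1
  simp only [Matrix.smul_apply, Matrix.sub_apply, smul_eq_mul, Matrix.zero_apply,
    Matrix.one_apply_eq, Matrix.one_apply_ne, ne_eq, zero_ne_one, one_ne_zero,
    not_false_eq_true, sub_zero, Fin.isValue] at h00 h01 h10 h11
  fin_cases c
  · have e1 : sigmaCoord 𝒪 g (j, (0 : Fin 3)) = cy 𝒪 g j := rfl
    show e * θ (sigmaCoord 𝒪 g (j, (0 : Fin 3))) = 0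
    rw [e1, h.hy]
    exact h01
  · have e1 : sigmaCoord 𝒪 g (j, (1 : Fin 3)) = cz 𝒪 g j := rfl
    show e * θ (sigmaCoord 𝒪 g (j, (1 : Fin 3))) = 0
    rw [e1, h.hz]
    exact h10
  · have e1 : sigmaCoord 𝒪 g (j, (2 : Fin 3)) = cm 𝒪 g j := rfl
    show e * θ (sigmaCoord 𝒪 g (j, (2 : Fin 3))) = 0
    rw [e1, h.hm]
    linear_combination h00 - h11

end IsCoordOf

/-- **Dictionary, ramified types.**  A point whose coordinates `(Σ_j, Φ_j)` commute, with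
`det Σ_j = 1` and `(tr Σ_j)² − 4 = δ_j²`, is a point of type `δ`. -/
theorem isTypePoint_of_coord (δ : Fin k → 𝒪) (θ : PRing 𝒪 k g →ₐ[𝒪] D) (ε : Fin k → D)
    (Sg Ph : Fin k → Matrix (Fin 2) (Fin 2) D)
    (hc : ∀ j, IsCoordOf θ j (ε j) (Sg j) (Ph j)) (hdet : ∀ j, (Sg j).det = 1)
    (htr : ∀ j, (Sg j).trace ^ 2 - 4 = algebraMap 𝒪 D (δ j ^ 2))
    (hcomm : ∀ j, Sg j * Ph j = Ph j * Sg j) : IsTypePoint g δ θ := by
  intro j
  refine ⟨?_, (hc j).map_minor1 (hcomm j), (hc j).map_minor2 (hcomm j),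
    (hc j).map_minor3 (hcomm j)⟩
  rw [(hc j).map_Q1, hdet j, mul_one, htr j]

/-- **Dictionary, unipotent type.**  A point whose coordinates are of unipotent type
(`(Σ − 1)² = 0`, `tr Σ = 2`, `Φ (Σ − 1) = q (Σ − 1) Φ`, `det Φ = q`) kills `idealUnip`. -/
theorem idealUnip_le_ker_of_coord [IsDomain D] (q₀ : Fin k → 𝒪) (θ : PRing 𝒪 k g →ₐ[𝒪] D)
    (ε : Fin k → D) (Sg Ph : Fin k → Matrix (Fin 2) (Fin 2) D)
    (hc : ∀ j, IsCoordOf θ j (ε j) (Sg j) (Ph j)) (hε : ∀ j, ε j ^ 2 = 1)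
    (hdetPh : ∀ j, (Ph j).det = algebraMap 𝒪 D (q₀ j))
    (hsq : ∀ j, (Sg j - 1) * (Sg j - 1) = 0) (htr : ∀ j, (Sg j).trace = 2)
    (hrel : ∀ j, Ph j * (Sg j - 1) = algebraMap 𝒪 D (q₀ j) • ((Sg j - 1) * Ph j)) :
    idealUnip g q₀ ≤ RingHom.ker (θ : PRing 𝒪 k g →+* D) := by
  rw [idealUnip, Ideal.span_le]
  rintro _ ⟨x, rfl⟩
  obtain ⟨j, c⟩ := x
  rw [SetLike.mem_coe, RingHom.mem_ker]
  show θ (eElt g q₀ j * sigmaCoord 𝒪 g (j, c)) = 0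
  rw [map_mul]
  have hmat := H52.stmt_PVLoc_mat D (algebraMap 𝒪 D (q₀ j)) (Sg j) (Ph j) (hsq j) (htr j)
    (hrel j)
  have hC : ∀ a : 𝒪, θ (C a : PRing 𝒪 k g) = algebraMap 𝒪 D a := by
    intro a
    have h2 : (C a : PRing 𝒪 k g) = algebraMap 𝒪 _ a := rfl
    rw [h2, AlgHom.commutes]
  have he : θ (eElt g q₀ j) = algebraMap 𝒪 D (q₀ j) * (Ph j).trace ^ 2 -
      (algebraMap 𝒪 D (q₀ j) + 1) ^ 2 * (Ph j).det := by
    rw [eElt, map_mul, map_sub, hC, hC, (hc j).map_Q2 (hε j), hdetPh j, map_pow, map_sub,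
      map_one]
    ring
  rw [he]
  exact (hc j).map_sigmaCoord_eq_zero _ hmat c

/-- **PV-TAME, final form.**  `D` a noetherian local domain over `𝒪` with `p ∈ 𝔪_D`; at every
pivot prime `q_j = 1 + p ^ n_j m'_j` (`p ∤ m'_j`, `n_j ≥ 1`) let `ζ₀_j ∈ 𝒪` be a primitive
`p ^ n_j`-th root of unity.  If the point `θ` of `P` has coordinates `(Σ_j, Φ_j)` with
`det Σ_j = 1`, `Σ_j ≡ 1 mod 𝔪_D`, `Φ_j` invertible, `Φ_j Σ_j = Σ_j ^ q_j Φ_j`, then there are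
exponents `i_j < p ^ n_j` with `tr Σ_j = ζ_j + ζ_j⁻¹`, `ζ_j = ζ₀_j ^ i_j`; if all `i_j ≠ 0` then
`θ` is a point of type `δ_j = ζ_j − ζ_j⁻¹`; if `i_j = 0` then `Σ_j` is unipotent with
`Φ_j (Σ_j − 1) = q_j (Σ_j − 1) Φ_j`. -/
theorem exists_type_of_tame [IsDomain D] [IsLocalRing D] [IsNoetherianRing D]
    (hinj : Function.Injective (algebraMap 𝒪 D))
    (p : ℕ) (hp : p.Prime) (hp2 : p ≠ 2) (hpD : (p : D) ∈ maximalIdeal D)
    (q n m' : Fin k → ℕ) (hn : ∀ j, n j ≠ 0) (hq : ∀ j, q j = 1 + p ^ n j * m' j)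
    (hm' : ∀ j, ¬ p ∣ m' j) (ζ₀ : Fin k → 𝒪) (hζ₀ : ∀ j, IsPrimitiveRoot (ζ₀ j) (p ^ n j))
    (θ : PRing 𝒪 k g →ₐ[𝒪] D) (ε : Fin k → D)
    (Sg Ph Ph' : Fin k → Matrix (Fin 2) (Fin 2) D)
    (hc : ∀ j, IsCoordOf θ j (ε j) (Sg j) (Ph j)) (hdet : ∀ j, (Sg j).det = 1)
    (hSg : ∀ j, ∀ a b, (Sg j - 1) a b ∈ maximalIdeal D)
    (hPh : ∀ j, Ph j * Ph' j = 1) (hrel : ∀ j, Ph j * Sg j = Sg j ^ q j * Ph j) :
    ∃ i : Fin k → ℕ, (∀ j, i j < p ^ n j) ∧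
      (∀ j, (Sg j).trace = algebraMap 𝒪 D (ζ₀ j ^ i j + ζ₀ j ^ (p ^ n j - i j))) ∧
      ((∀ j, i j ≠ 0) →
        IsTypePoint g (fun j => ζ₀ j ^ i j - ζ₀ j ^ (p ^ n j - i j)) θ) ∧
      (∀ j, i j = 0 → (Sg j - 1) * (Sg j - 1) = 0 ∧ (Sg j).trace = 2 ∧
        Ph j * (Sg j - 1) = (q j : D) • ((Sg j - 1) * Ph j)) := by
  classical
  have key : ∀ j, ∃ i < p ^ n j,
      (Sg j).trace = algebraMap 𝒪 D (ζ₀ j) ^ i + algebraMap 𝒪 D (ζ₀ j) ^ (p ^ n j - i) ∧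
      (i ≠ 0 → Sg j * Ph j = Ph j * Sg j) ∧
      (i = 0 → (Sg j - 1) * (Sg j - 1) = 0 ∧
        Ph j * (Sg j - 1) = (q j : D) • ((Sg j - 1) * Ph j)) := fun j =>
    tame_types p (q j) (n j) (m' j) hp hp2 hpD (hn j) (hq j) (hm' j) (algebraMap 𝒪 D (ζ₀ j))
      ((hζ₀ j).map_of_injective hinj) (Sg j) (Ph j) (Ph' j) (hdet j) (hSg j) (hPh j) (hrel j)
  choose i hi htr hram hunip using key
  have htr' : ∀ j, (Sg j).trace = algebraMap 𝒪 D (ζ₀ j ^ i j + ζ₀ j ^ (p ^ n j - i j)) := by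
    intro j
    rw [htr j, map_add, map_pow, map_pow]
  refine ⟨i, hi, htr', fun hi0 => ?_, fun j hj => ?_⟩
  · refine isTypePoint_of_coord _ θ ε Sg Ph hc hdet (fun j => ?_) (fun j => hram j (hi0 j))
    have hzz : algebraMap 𝒪 D (ζ₀ j) ^ i j * algebraMap 𝒪 D (ζ₀ j) ^ (p ^ n j - i j) = 1 := by
      rw [← pow_add, Nat.add_sub_cancel' (hi j).le, ← map_pow, (hζ₀ j).pow_eq_one, map_one]
    rw [htr j, map_pow, map_sub, map_pow, map_pow]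
    linear_combination (4 : D) * hzz
  · obtain ⟨h1, h2⟩ := hunip j hj
    refine ⟨h1, ?_, h2⟩
    rw [htr j, hj, pow_zero, Nat.sub_zero, ← map_pow, (hζ₀ j).pow_eq_one, map_one]
    norm_num

end Fermat.Agent.L.Pivot.H59
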