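import Fermat.Agent.S59.TWGal.H59_Tame
import Mathlib.FieldTheory.Galois.Profinite

/-!
# PIVOT, package PV-TAME (helper59), part T0: a UNIFORM tame generator

`S59.TWGal.stmt_TAME` gives, for every finite extension `F` of `ℚ`, an element `τ₀` of the inertia
group `I_P` generating the image of `I_P` in `Gal(F/ℚ)` modulo elements of `q`-power order, with
`φ τ₀ φ⁻¹ = τ₀ ^ q` modulo such elements.  Here ONE `τ₀` is produced that works for all `F`
(compactness of `G_ℚ`, closedness of `I_P`).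
-/

set_option autoImplicit false
set_option linter.style.haveILetI false

namespace Fermat.Agent.L.Pivot.H59

open Fermat.Agent.S59.TWGal
open scoped Pointwise

/-! ### Krull topology: conditions on one value are clopen -/

/-- The level sets of the evaluation at `x` are open in the Krull topology. -/
theorem isOpen_setOf_apply_eq (x y : Qb) : IsOpen {σ : GQ | σ x = y} := by
  have := Fermat.Agent.Lib.InertiaLift.qbar_isAlgebraic'
  by_cases h : ∃ σ₀ : GQ, σ₀ x = y
  · obtain ⟨σ₀, rfl⟩ := h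
    have h1 : {σ : GQ | σ x = σ₀ x} = σ₀ • (MulAction.stabilizer GQ x : Set GQ) := by
      ext σ
      rw [Set.mem_smul_set_iff_inv_smul_mem, Set.mem_ofPred_eq, SetLike.mem_coe,
        MulAction.mem_stabilizer_iff, smul_eq_mul]
      constructor
      · intro hσ
        change (σ₀⁻¹ * σ) x = x
        rw [AlgEquiv.mul_apply, hσ]
        change (σ₀⁻¹ * σ₀) x = x
        rw [inv_mul_cancel]
        rfl
      · intro hσ
        have h2 : (σ₀⁻¹ * σ) x = x := hσ
        have h3 : σ₀ ((σ₀⁻¹ * σ) x) = σ x := by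
          change (σ₀ * (σ₀⁻¹ * σ)) x = σ x
          rw [mul_inv_cancel_left]
        rw [← h3, h2]
    rw [h1]
    exact (stabilizer_isOpen_of_isIntegral x).smul σ₀
  · have h1 : {σ : GQ | σ x = y} = ∅ := by
      ext σ
      simp only [Set.mem_ofPred_eq, Set.mem_empty_iff_false, iff_false]
      exact fun hσ => h ⟨σ, hσ⟩
    rw [h1]
    exact isOpen_empty

/-- Conditions on a single value are open in the Krull topology. -/
theorem isOpen_setOf_apply_mem (x : Qb) (S : Set Qb) : IsOpen {σ : GQ | σ x ∈ S} := by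
  have h1 : {σ : GQ | σ x ∈ S} = ⋃ y ∈ S, {σ : GQ | σ x = y} := by
    ext σ
    simp only [Set.mem_ofPred_eq, Set.mem_iUnion, exists_prop, exists_eq_right']
  rw [h1]
  exact isOpen_biUnion fun y _ => isOpen_setOf_apply_eq x y

/-- Conditions on a single value are closed in the Krull topology. -/
theorem isClosed_setOf_apply_mem (x : Qb) (S : Set Qb) : IsClosed {σ : GQ | σ x ∈ S} := by
  refine ⟨?_⟩
  have h1 : {σ : GQ | σ x ∈ S}ᶜ = {σ : GQ | σ x ∈ Sᶜ} := by
    ext σ
    simp only [Set.mem_compl_iff, Set.mem_ofPred_eq]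
  rw [h1]
  exact isOpen_setOf_apply_mem x _

/-- The inertia group of a valuation subring of `ℚ̄` is closed in the Krull topology. -/
theorem isClosed_inertiaSubgroupIn (P : ValuationSubring Qb) :
    IsClosed (P.inertiaSubgroupIn ℚ : Set GQ) := by
  classical
  have h1 : (P.inertiaSubgroupIn ℚ : Set GQ) =
      (⋂ a : Qb, {σ : GQ | σ a ∈ (if a ∈ P then (P : Set Qb) else (P : Set Qb)ᶜ)}) ∩
      ⋂ a : Qb, {σ : GQ | σ a ∈ (if a ∈ P then {y : Qb | P.valuation (y - a) < 1}
        else Set.univ)} := by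
    ext σ
    rw [SetLike.mem_coe, Fermat.Agent.Lib.InertiaBridge.mem_inertiaSubgroupIn_iff_forall,
      Fermat.Agent.Lib.InertiaBridge.mem_decompositionSubgroup_iff_forall]
    simp only [Set.mem_inter_iff, Set.mem_iInter, Set.mem_ofPred_eq]
    constructor
    · rintro ⟨hd, hi⟩
      refine ⟨fun a => ?_, fun a => ?_⟩
      · by_cases ha : a ∈ P
        · rw [if_pos ha]; exact (hd a).2 ha
        · rw [if_neg ha]; exact fun h => ha ((hd a).1 h)
      · by_cases ha : a ∈ P
        · rw [if_pos ha]; exact hi a ha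
        · rw [if_neg ha]; exact Set.mem_univ _
    · rintro ⟨hd, hi⟩
      refine ⟨fun a => ?_, fun a ha => ?_⟩
      · have := hd a
        by_cases ha : a ∈ P
        · rw [if_pos ha] at this; exact ⟨fun _ => ha, fun _ => this⟩
        · rw [if_neg ha] at this; exact ⟨fun h => absurd h this, fun h => absurd h ha⟩
      · have := hi a
        rw [if_pos ha] at this
        exact this
  rw [h1]
  exact (isClosed_iInter fun a => isClosed_setOf_apply_mem a _).inter
    (isClosed_iInter fun a => isClosed_setOf_apply_mem a _)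

/-! ### The tame condition at finite level -/

/-- `τ₀` is a tame generator at the level `F`: modulo the subgroup fixing `F`, every element of
the inertia group is a power of `τ₀` up to an element of `q`-power order, and
`φ τ₀ φ⁻¹ = τ₀ ^ q` up to an element of `q`-power order. -/
def TameAt (P : ValuationSubring Qb) (φ : GQ) (q : ℕ) (F : IntermediateField ℚ Qb)
    (τ₀ : GQ) : Prop :=
  (∀ σ ∈ P.inertiaSubgroupIn ℚ, ∃ j e : ℕ,
      ((τ₀ ^ j)⁻¹ * σ) ^ (q ^ e) ∈ F.fixingSubgroup) ∧
    ∃ e : ℕ, ((τ₀ ^ q)⁻¹ * (φ * τ₀ * φ⁻¹)) ^ (q ^ e) ∈ F.fixingSubgroup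

theorem TameAt.mono {P : ValuationSubring Qb} {φ : GQ} {q : ℕ}
    {F F' : IntermediateField ℚ Qb} (h : F ≤ F') {τ₀ : GQ} (hτ : TameAt P φ q F' τ₀) :
    TameAt P φ q F τ₀ := by
  have hle := IntermediateField.fixingSubgroup_antitone h
  refine ⟨fun σ hσ => ?_, ?_⟩
  · obtain ⟨j, e, hje⟩ := hτ.1 σ hσ
    exact ⟨j, e, hle hje⟩
  · obtain ⟨e, he⟩ := hτ.2
    exact ⟨e, hle he⟩

/-- For `F` normal, the tame condition at the level `F` only depends on the restriction of `τ₀`
to `F`. -/
theorem tameAt_iff_of_normal (P : ValuationSubring Qb) (φ : GQ) (q : ℕ)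
    (F : IntermediateField ℚ Qb) [hn : Normal ℚ F] (τ₀ : GQ) :
    TameAt P φ q F τ₀ ↔
      ((∀ σ ∈ P.inertiaSubgroupIn ℚ, ∃ j e : ℕ,
        ((AlgEquiv.restrictNormalHom F τ₀ ^ j)⁻¹ * AlgEquiv.restrictNormalHom F σ) ^ (q ^ e)
          = 1) ∧
      ∃ e : ℕ, ((AlgEquiv.restrictNormalHom F τ₀ ^ q)⁻¹ *
        (AlgEquiv.restrictNormalHom F φ * AlgEquiv.restrictNormalHom F τ₀ *
          (AlgEquiv.restrictNormalHom F φ)⁻¹)) ^ (q ^ e) = 1) := by
  have hker : ∀ g : GQ, g ∈ F.fixingSubgroup ↔ AlgEquiv.restrictNormalHom F g = 1 := by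
    intro g
    rw [← @IntermediateField.restrictNormalHom_ker ℚ Qb _ _ _ F hn, MonoidHom.mem_ker]
    exact Iff.rfl
  unfold TameAt
  simp only [hker, map_pow, map_mul, map_inv]

/-- The set of tame generators at a normal level is closed. -/
theorem isClosed_setOf_tameAt (P : ValuationSubring Qb) (φ : GQ) (q : ℕ)
    (F : IntermediateField ℚ Qb) [FiniteDimensional ℚ F] [hn : Normal ℚ F] :
    IsClosed {τ₀ : GQ | TameAt P φ q F τ₀} := by
  have hcont := @InfiniteGalois.restrictNormalHom_continuous ℚ Qb _ _ _ F hn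
  let T : Set (F ≃ₐ[ℚ] F) := {t | (∀ σ ∈ P.inertiaSubgroupIn ℚ, ∃ j e : ℕ,
        ((t ^ j)⁻¹ * AlgEquiv.restrictNormalHom F σ) ^ (q ^ e) = 1) ∧
      ∃ e : ℕ, ((t ^ q)⁻¹ * (AlgEquiv.restrictNormalHom F φ * t *
          (AlgEquiv.restrictNormalHom F φ)⁻¹)) ^ (q ^ e) = 1}
  have h1 : {τ₀ : GQ | TameAt P φ q F τ₀} = (AlgEquiv.restrictNormalHom F) ⁻¹' T := by
    ext τ₀
    rw [Set.mem_ofPred_eq, tameAt_iff_of_normal]
    rfl
  rw [h1]
  exact (isClosed_discrete T).preimage hcont

/-! ### The uniform generator -/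

/-- **T0 (uniform tame generator).**  There is ONE element `τ₀` of the inertia group at `P`
which is a tame generator at every finite level. -/
theorem exists_uniform_tame_generator (q : ℕ) (hq : q.Prime) (P : ValuationSubring Qb)
    (hP : P.LiesOverPrime q) (φ : GQ) (hφ : P.IsFrobeniusAt φ q) :
    ∃ τ₀ ∈ P.inertiaSubgroupIn ℚ, ∀ F : IntermediateField ℚ Qb, FiniteDimensional ℚ F →
      TameAt P φ q F τ₀ := by
  classical
  haveI : IsGalois ℚ Qb := Fermat.Agent.Lib.InertiaLift.qbar_isGalois'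
  let ι := {F : IntermediateField ℚ Qb // FiniteDimensional ℚ F}
  let t : ι → Set GQ := fun F =>
    {τ₀ | TameAt P φ q (IntermediateField.normalClosure ℚ F.1 Qb) τ₀}
  have hclosed : ∀ F : ι, IsClosed (t F) := by
    intro F
    haveI := F.2
    haveI : Normal ℚ (IntermediateField.normalClosure ℚ F.1 Qb) := normalClosure.normal ℚ F.1 Qb
    exact isClosed_setOf_tameAt P φ q _
  have hfin : ∀ u : Finset ι,
      ((P.inertiaSubgroupIn ℚ : Set GQ) ∩ ⋂ F ∈ u, t F).Nonempty := by
    intro u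
    let G : IntermediateField ℚ Qb := ⨆ F ∈ u, (F : ι).1
    haveI hG : FiniteDimensional ℚ G :=
      IntermediateField.finiteDimensional_iSup_of_finset' (fun F _ => F.2)
    have hGn : FiniteDimensional ℚ (IntermediateField.normalClosure ℚ G Qb) := inferInstance
    obtain ⟨τ₀, hτ₀, h1, h2, -⟩ :=
      Fermat.Agent.S59.TWGal.H59.stmt_TAME q hq P hP φ hφ (IntermediateField.normalClosure ℚ G Qb) hGn
    refine ⟨τ₀, hτ₀, ?_⟩
    simp only [Set.mem_iInter]
    intro F hF
    have hle : F.1 ≤ G := le_iSup_of_le F (le_iSup (fun _ => F.1) hF)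
    exact TameAt.mono (IntermediateField.normalClosure_mono _ _ hle) ⟨h1, h2⟩
  obtain ⟨τ₀, hτ₀, hτ⟩ :=
    (isClosed_inertiaSubgroupIn P).isCompact.inter_iInter_nonempty t hclosed hfin
  refine ⟨τ₀, hτ₀, fun F hF => ?_⟩
  have h := Set.mem_iInter.1 hτ ⟨F, hF⟩
  exact TameAt.mono F.le_normalClosure h

end Fermat.Agent.L.Pivot.H59
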