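import Fermat.Agent.L.Pivot.Global
import Fermat.Agent.L.Pivot.H59_TameAdic
import Fermat.Agent.L.Pivot.H59_TameDict
import Fermat.Agent.Lib.FrobExists
import Fermat.Agent.R.H89_FrobCyc

/-!
# PIVOT, package PV-TAME (helper59): bridge to the global interfaces of `L/Pivot/Global.lean`

* `exists_pivotPrimes` : every injective family of primes carries a `PivotPrimes` structure
  (places, Frobenius lifts, uniform tame generators).
* `det_eq_one_of_mem_inertia`, `det_frob_eq` : cyclotomic determinant at a prime `q ≠ p`.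
* `pivot_matrices` : the matrices `Σ_j = ρ(τ_j)`, `Φ_j = ρ(frob_j)` of a deformation satisfy the
  hypotheses of `tame_types`.
* `types_of_point` : every point `x : R → D` of a ring `R` carrying a deformation `ρ` with a
  coordinate homomorphism `γ : P → R` has a type: exponents `i_j`; if all `i_j ≠ 0` then `x ∘ γ`
  is a point of type `δ`, if all `i_j = 0` then `x ∘ γ` kills `idealUnip`.
-/

set_option autoImplicit false
set_option linter.style.haveILetI false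

namespace Fermat.Agent.L.Pivot.H59

open IsLocalRing Matrix Fermat.Agent.S59.TWGal

/-! ### `PivotPrimes` exist -/

theorem PivotPrimes.tameAt {k : ℕ} (Pv : PivotPrimes k) (j : Fin k)
    (F : IntermediateField ℚ (AlgebraicClosure ℚ)) (hF : FiniteDimensional ℚ F) :
    TameAt (Pv.P j) (Pv.frob j) (Pv.q j) F (Pv.τ j) := by
  refine ⟨fun σ hσ => ?_, ?_⟩
  · obtain ⟨i, e, h⟩ := (Pv.τ_gen j).2 F hF σ hσ
    exact ⟨i, e, (IntermediateField.mem_fixingSubgroup_iff F _).2 h⟩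
  · obtain ⟨e, h⟩ := Pv.τ_frob j F hF
    exact ⟨e, (IntermediateField.mem_fixingSubgroup_iff F _).2 h⟩

/-- Every injective family of primes carries a `PivotPrimes` structure. -/
theorem exists_pivotPrimes (k : ℕ) (q : Fin k → ℕ) (hinj : Function.Injective q)
    (hq : ∀ j, (q j).Prime) : ∃ Pv : PivotPrimes k, Pv.q = q := by
  classical
  have h1 : ∀ j, ∃ (A : ValuationSubring (AlgebraicClosure ℚ))
      (σ : AlgebraicClosure ℚ ≃ₐ[ℚ] AlgebraicClosure ℚ),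
      A.LiesOverPrime (q j) ∧ A.IsFrobeniusAt σ (q j) :=
    fun j => Fermat.Agent.Lib.FrobExists.exists_place_and_frobenius (q j) (hq j)
  choose P frob hP hfrob using h1
  have h2 : ∀ j, ∃ τ₀ ∈ (P j).inertiaSubgroupIn ℚ,
      ∀ F : IntermediateField ℚ Qb, FiniteDimensional ℚ F → TameAt (P j) (frob j) (q j) F τ₀ :=
    fun j => exists_uniform_tame_generator (q j) (hq j) (P j) (hP j) (frob j) (hfrob j)
  choose τ hτ hτF using h2
  refine ⟨{ q := q, q_inj := hinj, q_prime := hq, P := P, P_over := hP, frob := frob,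
            frob_spec := hfrob, τ := τ, τ_gen := fun j => ⟨hτ j, fun F hF σ hσ => ?_⟩,
            τ_frob := fun j F hF => ?_ }, rfl⟩
  · obtain ⟨i, e, h⟩ := (hτF j F hF).1 σ hσ
    exact ⟨i, e, (IntermediateField.mem_fixingSubgroup_iff F _).1 h⟩
  · obtain ⟨e, h⟩ := (hτF j F hF).2
    exact ⟨e, (IntermediateField.mem_fixingSubgroup_iff F _).1 h⟩

/-! ### The determinant at `q ≠ p` -/

section det

variable {A : Type} [CommRing A] [IsLocalRing A] [IsNoetherianRing A]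

/-- Krull: an element divisible by all powers of `p ∈ 𝔪` vanishes. -/
theorem eq_zero_of_forall_mem_span_pow (p : ℕ) (hpA : (p : A) ∈ maximalIdeal A) (x : A)
    (h : ∀ n : ℕ, x ∈ Ideal.span {((p ^ n : ℕ) : A)}) : x = 0 := by
  have hk := Ideal.iInf_pow_eq_bot_of_isLocalRing (maximalIdeal A)
    (maximalIdeal.isMaximal A).ne_top
  have hmem : x ∈ ⨅ i : ℕ, maximalIdeal A ^ i := by
    rw [Ideal.mem_iInf]
    intro n
    obtain ⟨c, hc⟩ := Ideal.mem_span_singleton.1 (h n)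
    rw [hc, Nat.cast_pow]
    exact Ideal.mul_mem_right _ _ (Ideal.pow_mem_pow hpA n)
  rw [hk] at hmem
  exact (Submodule.mem_bot A).1 hmem

/-- Cyclotomic determinant: inertia at `q ≠ p` has determinant `1`. -/
theorem det_eq_one_of_mem_inertia (p : ℕ) (hp : p.Prime) (ρ : GaloisRepAdic A)
    (hdet : ρ.DetIsCyclotomic p) (q : ℕ) (hq : q.Prime) (hqp : q ≠ p)
    (P : ValuationSubring (AlgebraicClosure ℚ)) (hP : P.LiesOverPrime q)
    (σ : AlgebraicClosure ℚ ≃ₐ[ℚ] AlgebraicClosure ℚ) (hσ : σ ∈ P.inertiaSubgroupIn ℚ) :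
    LinearMap.det (ρ.ρ σ) = 1 := by
  rw [← sub_eq_zero]
  refine eq_zero_of_forall_mem_span_pow p hdet.1 _ fun n => ?_
  have h := hdet.2 n σ 1 (fun μ hμ => by
    rw [pow_one]
    exact Fermat.Agent.R.H89.inertia_fixes_rootsOfUnity q P hP σ hσ (p ^ n)
      (Nat.Coprime.pow_left n ((Nat.coprime_primes hp hq).2 (Ne.symm hqp))) μ hμ)
  rwa [Nat.cast_one] at h

/-- Cyclotomic determinant: a Frobenius at `q ≠ p` has determinant `q`. -/
theorem det_frob_eq (p : ℕ) (hp : p.Prime) (ρ : GaloisRepAdic A)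
    (hdet : ρ.DetIsCyclotomic p) (q : ℕ) (hq : q.Prime) (hqp : q ≠ p)
    (P : ValuationSubring (AlgebraicClosure ℚ)) (hP : P.LiesOverPrime q)
    (σ : AlgebraicClosure ℚ ≃ₐ[ℚ] AlgebraicClosure ℚ) (hσ : P.IsFrobeniusAt σ q) :
    LinearMap.det (ρ.ρ σ) = (q : A) := by
  rw [← sub_eq_zero]
  refine eq_zero_of_forall_mem_span_pow p hdet.1 _ fun n => ?_
  exact hdet.2 n σ q (fun μ hμ =>
    Fermat.Agent.R.H89.stmt_FrobCyc q hq P hP σ hσ (p ^ n)
      (Nat.Coprime.pow_left n ((Nat.coprime_primes hp hq).2 (Ne.symm hqp))) μ hμ)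

end det

/-! ### The matrices of a deformation at the pivot primes -/

section matrices

variable {R : Type} [CommRing R] [IsLocalRing R] [IsNoetherianRing R]

/-- The matrices `Σ = ρ(τ_j)`, `Φ = ρ(frob_j)`, `Φ' = ρ(frob_j⁻¹)` of a deformation `ρ` (with
cyclotomic determinant, residually unramified at `q_j`) in a basis `b`. -/
theorem pivot_matrices (p : ℕ) (hp : p.Prime) (ρ : GaloisRepAdic R)
    (hdet : ρ.DetIsCyclotomic p) {k : ℕ} (Pv : PivotPrimes k) (j : Fin k)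
    (hqp : Pv.q j ≠ p)
    (hI : ∀ σ ∈ (Pv.P j).inertiaSubgroupIn ℚ, ∀ v : ρ.V,
      ρ.ρ σ v - v ∈ maximalIdeal R • (⊤ : Submodule R ρ.V))
    (b : Module.Basis (Fin 2) R ρ.V) :
    (LinearMap.toMatrix b b (ρ.ρ (Pv.τ j))).det = 1 ∧
    (LinearMap.toMatrix b b (ρ.ρ (Pv.frob j))).det = (Pv.q j : R) ∧
    (∀ a c, (LinearMap.toMatrix b b (ρ.ρ (Pv.τ j)) - 1) a c ∈ maximalIdeal R) ∧
    LinearMap.toMatrix b b (ρ.ρ (Pv.frob j)) * LinearMap.toMatrix b b (ρ.ρ (Pv.frob j)⁻¹) = 1 ∧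
    LinearMap.toMatrix b b (ρ.ρ (Pv.frob j)) * LinearMap.toMatrix b b (ρ.ρ (Pv.τ j)) =
      LinearMap.toMatrix b b (ρ.ρ (Pv.τ j)) ^ Pv.q j * LinearMap.toMatrix b b (ρ.ρ (Pv.frob j)) ∧
    ∀ J : Ideal R, (∀ a c, (LinearMap.toMatrix b b (ρ.ρ (Pv.τ j)) - 1) a c ∈ J) →
      ∀ σ ∈ (Pv.P j).inertiaSubgroupIn ℚ, ∀ a c,
        (LinearMap.toMatrix b b (ρ.ρ σ) - 1) a c ∈ J := by
  have hτ := (Pv.τ_gen j).1
  have hfrobD : Pv.frob j ∈ (Pv.P j).decompositionSubgroup ℚ :=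
    (Pv.frob_spec j).mem_decompositionSubgroup
  have hadic := tame_adic R p hp hdet.1 ρ (Pv.q j) (Pv.q_prime j) hqp (Pv.P j) hI (Pv.frob j)
    hfrobD (Pv.τ j) hτ (fun F hF => PivotPrimes.tameAt Pv j F hF)
  have hmat : ∀ f : Module.End R ρ.V, LinearMap.toMatrix b b f = mat b f := fun _ => rfl
  refine ⟨?_, ?_, ?_, ?_, ?_, ?_⟩
  · rw [LinearMap.det_toMatrix]
    exact det_eq_one_of_mem_inertia p hp ρ hdet (Pv.q j) (Pv.q_prime j) hqp (Pv.P j)
      (Pv.P_over j) _ hτ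
  · rw [LinearMap.det_toMatrix]
    exact det_frob_eq p hp ρ hdet (Pv.q j) (Pv.q_prime j) hqp (Pv.P j) (Pv.P_over j) _
      (Pv.frob_spec j)
  · intro a c
    rw [hmat]
    exact mat_sub_one_mem b _ _ (hI _ hτ) a c
  · rw [← LinearMap.toMatrix_mul, ← map_mul, mul_inv_cancel, map_one, LinearMap.toMatrix_one]
  · have h1 := congrArg (fun f : Module.End R ρ.V => mat b f) hadic.1
    simp only [map_mul, map_pow] at h1
    exact h1
  · intro J hJ σ hσ a c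
    rw [hmat]
    refine mat_sub_one_mem b J _ (hadic.2 J ?_ σ hσ) a c
    intro v
    refine sub_mem_smul_top_of_mat b J _ ?_ v
    intro a c
    rw [← hmat]
    exact hJ a c

end matrices

/-! ### The type of a point -/

/-- `IsCoordHom` in terms of `IsCoordOf` (sign `ε = 1`), after a homomorphism `x`. -/
theorem isCoordOf_of_isCoordHom {𝒪 : Type} [CommRing 𝒪] {k g : ℕ} {R : Type} [CommRing R]
    [Algebra 𝒪 R] {D : Type} [CommRing D] [Algebra 𝒪 D] (γ : PRing 𝒪 k g →ₐ[𝒪] R)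
    (Mσ Mφ : Fin k → Matrix (Fin 2) (Fin 2) R) (hγ : IsCoordHom γ Mσ Mφ) (x : R →ₐ[𝒪] D)
    (j : Fin k) :
    IsCoordOf (x.comp γ) j 1 ((x : R →+* D).mapMatrix (Mσ j))
      ((x : R →+* D).mapMatrix (Mφ j)) := by
  obtain ⟨h1, h2, h3, h4, h5, h6⟩ := hγ j
  refine ⟨?_, ?_, ?_, ?_, ?_, ?_⟩
  · rw [AlgHom.comp_apply, h1]; rfl
  · rw [AlgHom.comp_apply, h2]; rfl
  · rw [AlgHom.comp_apply, h3, map_sub]; rfl
  · rw [AlgHom.comp_apply, h4, one_mul]; rfl
  · rw [AlgHom.comp_apply, h5, one_mul]; rfl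
  · rw [AlgHom.comp_apply, h6, one_mul, map_sub]; rfl

/-- **PV-TAME, global form.**  `R` a noetherian local `𝒪`-algebra carrying a deformation `ρ` with
cyclotomic determinant, residually unramified at the pivot primes `q_j = 1 + p ^ n_j m'_j`;
`γ : P → R` a coordinate homomorphism for `(ρ(τ_j), ρ(frob_j))` in a basis `b`;
`x : R → D` a point with values in a noetherian local domain `D ⊇ 𝒪`, `x(𝔪_R) ⊆ 𝔪_D`.
Then there are exponents `i_j < p ^ n_j` such that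
* `tr x(ρ(τ_j)) = ζ_j + ζ_j⁻¹`, `ζ_j = ζ₀_j ^ i_j`;
* if all `i_j ≠ 0`: `x ∘ γ` is a point of type `δ_j = ζ_j − ζ_j⁻¹`;
* if all `i_j = 0`: `x ∘ γ` kills `idealUnip g q`;
* `i_j = 0` iff `x(ρ(σ)) = 1 + nilpotent of square 0` for the generator. -/
theorem types_of_point {𝒪 : Type} [CommRing 𝒪] (p : ℕ) (hp : p.Prime) (hp2 : p ≠ 2)
    {k : ℕ} (g : ℕ) (Pv : PivotPrimes k) (n m' : Fin k → ℕ) (hn : ∀ j, n j ≠ 0)
    (hq : ∀ j, Pv.q j = 1 + p ^ n j * m' j) (hm' : ∀ j, ¬ p ∣ m' j)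
    (ζ₀ : Fin k → 𝒪) (hζ₀ : ∀ j, IsPrimitiveRoot (ζ₀ j) (p ^ n j))
    (R : Type) [CommRing R] [IsLocalRing R] [IsNoetherianRing R] [Algebra 𝒪 R]
    (ρ : GaloisRepAdic R) (hdet : ρ.DetIsCyclotomic p)
    (hI : ∀ j, ∀ σ ∈ (Pv.P j).inertiaSubgroupIn ℚ, ∀ v : ρ.V,
      ρ.ρ σ v - v ∈ maximalIdeal R • (⊤ : Submodule R ρ.V))
    (b : Module.Basis (Fin 2) R ρ.V) (γ : PRing 𝒪 k g →ₐ[𝒪] R)
    (hγ : IsCoordHom γ (fun j => LinearMap.toMatrix b b (ρ.ρ (Pv.τ j)))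
      (fun j => LinearMap.toMatrix b b (ρ.ρ (Pv.frob j))))
    (D : Type) [CommRing D] [IsDomain D] [IsLocalRing D] [IsNoetherianRing D] [Algebra 𝒪 D]
    (hinj : Function.Injective (algebraMap 𝒪 D)) (x : R →ₐ[𝒪] D)
    (hx : ∀ a ∈ maximalIdeal R, x a ∈ maximalIdeal D) :
    ∃ i : Fin k → ℕ, (∀ j, i j < p ^ n j) ∧
      (∀ j, ((x : R →+* D).mapMatrix (LinearMap.toMatrix b b (ρ.ρ (Pv.τ j)))).trace =
        algebraMap 𝒪 D (ζ₀ j ^ i j + ζ₀ j ^ (p ^ n j - i j))) ∧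
      ((∀ j, i j ≠ 0) →
        IsTypePoint g (fun j => ζ₀ j ^ i j - ζ₀ j ^ (p ^ n j - i j)) (x.comp γ)) ∧
      ((∀ j, i j = 0) →
        idealUnip g (fun j => (Pv.q j : 𝒪)) ≤
          RingHom.ker ((x.comp γ : PRing 𝒪 k g →ₐ[𝒪] D) : PRing 𝒪 k g →+* D)) := by
  classical
  have hqp : ∀ j, Pv.q j ≠ p := by
    intro j h
    have h1 : p ∣ p ^ n j * m' j := Dvd.dvd.mul_right (dvd_pow_self p (hn j)) _
    have h2 : p ∣ 1 := by
      have h3 : p ∣ 1 + p ^ n j * m' j := by rw [← hq j, h]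
      exact (Nat.dvd_add_left h1).1 h3
    exact hp.one_lt.ne' (Nat.dvd_one.1 h2)
  have hM := fun j => pivot_matrices p hp ρ hdet Pv j (hqp j) (hI j) b
  have hpD : (p : D) ∈ maximalIdeal D := by
    have := hx _ hdet.1
    rwa [map_natCast] at this
  obtain ⟨Sg, hSg⟩ : ∃ Sg : Fin k → Matrix (Fin 2) (Fin 2) D, ∀ j, Sg j =
      (x : R →+* D).mapMatrix (LinearMap.toMatrix b b (ρ.ρ (Pv.τ j))) := ⟨_, fun _ => rfl⟩
  obtain ⟨Ph, hPh⟩ : ∃ Ph : Fin k → Matrix (Fin 2) (Fin 2) D, ∀ j, Ph j =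
      (x : R →+* D).mapMatrix (LinearMap.toMatrix b b (ρ.ρ (Pv.frob j))) := ⟨_, fun _ => rfl⟩
  obtain ⟨Ph', hPh'⟩ : ∃ Ph' : Fin k → Matrix (Fin 2) (Fin 2) D, ∀ j, Ph' j =
      (x : R →+* D).mapMatrix (LinearMap.toMatrix b b (ρ.ρ (Pv.frob j)⁻¹)) := ⟨_, fun _ => rfl⟩
  have hc : ∀ j, IsCoordOf (x.comp γ) j 1 (Sg j) (Ph j) := by
    intro j
    rw [hSg j, hPh j]
    exact isCoordOf_of_isCoordHom γ _ _ hγ x j
  have hdetS : ∀ j, (Sg j).det = 1 := by
    intro j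
    rw [hSg j, ← RingHom.map_det, (hM j).1, map_one]
  have hdetP : ∀ j, (Ph j).det = algebraMap 𝒪 D (Pv.q j : 𝒪) := by
    intro j
    rw [hPh j, ← RingHom.map_det, (hM j).2.1, map_natCast, map_natCast]
  have hS1 : ∀ j, ∀ a c, (Sg j - 1) a c ∈ maximalIdeal D := by
    intro j a c
    have h1 := hx _ ((hM j).2.2.1 a c)
    have h2 : (Sg j - 1) a c = x ((LinearMap.toMatrix b b (ρ.ρ (Pv.τ j)) - 1) a c) := by
      rw [hSg j, Matrix.sub_apply, Matrix.sub_apply, map_sub, RingHom.mapMatrix_apply,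
        Matrix.map_apply]
      by_cases hac : a = c
      · rw [hac, Matrix.one_apply_eq, Matrix.one_apply_eq, map_one]; rfl
      · rw [Matrix.one_apply_ne hac, Matrix.one_apply_ne hac, map_zero]; rfl
    rw [h2]
    exact h1
  have hPP : ∀ j, Ph j * Ph' j = 1 := by
    intro j
    have h := congrArg (x : R →+* D).mapMatrix (hM j).2.2.2.1
    rw [map_mul, map_one] at h
    rw [hPh j, hPh' j]
    exact h
  have hrel : ∀ j, Ph j * Sg j = Sg j ^ Pv.q j * Ph j := by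
    intro j
    have h := congrArg (x : R →+* D).mapMatrix (hM j).2.2.2.2.1
    rw [map_mul, map_mul, map_pow] at h
    rw [hPh j, hSg j]
    exact h
  obtain ⟨i, hi, htr, htype, hunip⟩ := exists_type_of_tame hinj p hp hp2 hpD Pv.q n m' hn hq hm'
    ζ₀ hζ₀ (x.comp γ) (fun _ => 1) Sg Ph Ph' hc hdetS hS1 hPP hrel
  refine ⟨i, hi, fun j => by rw [← hSg j]; exact htr j, htype, fun hi0 => ?_⟩
  refine idealUnip_le_ker_of_coord _ (x.comp γ) (fun _ => 1) Sg Ph hc (fun _ => one_pow 2) hdetP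
    (fun j => (hunip j (hi0 j)).1) (fun j => (hunip j (hi0 j)).2.1) (fun j => ?_)
  rw [(hunip j (hi0 j)).2.2, map_natCast]

end Fermat.Agent.L.Pivot.H59
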