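import Fermat.Agent.L.Pivot.H59_Tame1
import Fermat.Agent.L.Pivot.H59_TameGlobal
import Fermat.Agent.L.Pivot.H59_TameMat

/-!
# PIVOT, package PV-TAME (helper59), part T1'': the unipotent criterion

`ρ : GaloisRepAdic A` (`A` noetherian local, `p ∈ 𝔪`) with cyclotomic determinant, residually
unramified at `q ≠ p`, `τ` a uniform tame generator at ONE place `P` over `q`.  Then
`tr ρ(τ) = 2` implies that `ρ` is unipotent on ALL inertia groups over `q`
(`GaloisRepAdic.IsUnipotentOnInertiaAt`).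

* `exists_pow_approx` : `ρ(σ) ≡ ρ(τ) ^ j mod 𝔪 ^ N` for `σ ∈ I_P` (some `j`, every `N`).
* `trace_eq_two_of_mem_inertia`, `isUnipotentOnInertiaAt_of_trace`.
* `trace_eq_two_of_isUnipotent` : the converse (the trace of a unipotent element is `2`).
-/

set_option autoImplicit false
set_option linter.style.haveILetI false
set_option linter.unusedSectionVars false

namespace Fermat.Agent.L.Pivot.H59

open IsLocalRing Fermat.Agent.S59.TWGal Polynomial

/-- Inertia elements are approximated by the powers of a uniform tame generator. -/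
theorem exists_pow_approx (A : Type) [CommRing A] [IsLocalRing A] [IsNoetherianRing A]
    (p : ℕ) (hp : p.Prime) (hpA : (p : A) ∈ maximalIdeal A) (ρ : GaloisRepAdic A)
    (q : ℕ) (hq : q.Prime) (hqp : q ≠ p) (P : ValuationSubring Qb)
    (hI : ∀ σ ∈ P.inertiaSubgroupIn ℚ, ∀ v : ρ.V,
      ρ.ρ σ v - v ∈ maximalIdeal A • (⊤ : Submodule A ρ.V))
    (τ₀ : GQ) (hτ₀ : τ₀ ∈ P.inertiaSubgroupIn ℚ)
    (hτ : ∀ F : IntermediateField ℚ Qb, FiniteDimensional ℚ F →
      ∀ σ ∈ P.inertiaSubgroupIn ℚ, ∃ j e : ℕ, ((τ₀ ^ j)⁻¹ * σ) ^ (q ^ e) ∈ F.fixingSubgroup)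
    (b : Module.Basis (Fin 2) A ρ.V)
    (σ : GQ) (hσ : σ ∈ P.inertiaSubgroupIn ℚ) (N : ℕ) :
    ∃ j' : ℕ, ∀ i j, (mat b (ρ.ρ σ) - mat b (ρ.ρ τ₀) ^ j') i j ∈ maximalIdeal A ^ N := by
  classical
  have hMU := H01.stmt_MatUnip
  have hcop : ∀ e : ℕ, (q ^ e).Coprime p :=
    fun e => Nat.Coprime.pow_left e ((Nat.coprime_primes hq hp).2 hqp)
  let μ : GQ →* Matrix (Fin 2) (Fin 2) A :=
    ((LinearMap.toMatrixAlgEquiv b : Module.End A ρ.V ≃ₐ[A] _) : Module.End A ρ.V →* _).comp ρ.ρ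
  have hμ : ∀ g, μ g = mat b (ρ.ρ g) := fun _ => rfl
  obtain ⟨L, hL, hcont⟩ := ρ.isAdicContinuous N
  have hfix : ∀ u ∈ L.fixingSubgroup, red (maximalIdeal A ^ N) (μ u) = 1 := by
    intro u hu
    rw [red_eq_one_iff]
    exact mat_sub_one_mem b _ _
      (hcont u (fun x hx => (IntermediateField.mem_fixingSubgroup_iff L u).1 hu x hx))
  obtain ⟨j', e, hje⟩ := hτ L hL σ hσ
  have hw : (τ₀ ^ j')⁻¹ * σ ∈ P.inertiaSubgroupIn ℚ := mul_mem (inv_mem (pow_mem hτ₀ j')) hσ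
  have h1 : red (maximalIdeal A ^ N) (μ ((τ₀ ^ j')⁻¹ * σ)) = 1 := by
    rw [red_eq_one_iff]
    refine hMU A (maximalIdeal A) p (q ^ e) N hpA (hcop e) (μ ((τ₀ ^ j')⁻¹ * σ)) ?_ ?_
    · exact mat_sub_one_mem b _ _ (hI _ hw)
    · rw [← map_pow, ← red_eq_one_iff]
      exact hfix _ hje
  have key : ∀ W : GQ, red (maximalIdeal A ^ N) (μ W) = 1 → σ = τ₀ ^ j' * W →
      red (maximalIdeal A ^ N) (μ σ - μ τ₀ ^ j') = 0 := by
    intro W hW h2
    have h3 : μ σ = μ τ₀ ^ j' * μ W := by rw [h2, map_mul, map_pow]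
    rw [h3, map_sub, map_mul, hW, mul_one, sub_self]
  have h3 : red (maximalIdeal A ^ N) (μ σ - μ τ₀ ^ j') = 0 := key _ h1 (by group)
  refine ⟨j', fun i j => ?_⟩
  rw [← hμ, ← hμ, ← red_apply_eq_zero_iff, h3, Matrix.zero_apply]

section unip

variable {A : Type} [CommRing A] [IsLocalRing A] [IsNoetherianRing A]

/-- A `2 × 2` matrix of determinant `1` and trace `2` satisfies `(Y - 1)² = 0`. -/
theorem sub_one_sq_of_trace_two (Y : Matrix (Fin 2) (Fin 2) A) (hd : Y.det = 1)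
    (ht : Y.trace = 2) : (Y - 1) * (Y - 1) = 0 := by
  have h := mul_self_of_det_one Y hd
  rw [ht] at h
  have e : (Y - 1) * (Y - 1) = Y * Y - (2 : A) • Y + 1 := by
    rw [sub_mul, mul_sub, mul_one, one_mul, two_smul]
    abel
  rw [e, h]
  abel

/-- The trace of `ρ` on the inertia group at `P` is `2` if it is `2` at a uniform tame
generator. -/
theorem trace_eq_two_of_mem_inertia (p : ℕ) (hp : p.Prime) (ρ : GaloisRepAdic A)
    (hdet : ρ.DetIsCyclotomic p) (q : ℕ) (hq : q.Prime) (hqp : q ≠ p)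
    (hunr : ρ.residual.IsUnramifiedAt q)
    (P : ValuationSubring (AlgebraicClosure ℚ)) (hP : P.LiesOverPrime q)
    (τ : GQ) (hτ : IsTameGen q P τ) (htr : LinearMap.trace A ρ.V (ρ.ρ τ) = 2)
    (σ : GQ) (hσ : σ ∈ P.inertiaSubgroupIn ℚ) :
    LinearMap.trace A ρ.V (ρ.ρ σ) = 2 := by
  classical
  let b : Module.Basis (Fin 2) A ρ.V := Module.finBasisOfFinrankEq A ρ.V ρ.finrank_eq
  have hI : ∀ σ ∈ P.inertiaSubgroupIn ℚ, ∀ v : ρ.V,
      ρ.ρ σ v - v ∈ maximalIdeal A • (⊤ : Submodule A ρ.V) := by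
    intro s hs w
    exact sub_mem_of_baseChange_eq_one b (ρ.ρ s) (hunr P hP s hs) w
  have hgen : ∀ F : IntermediateField ℚ Qb, FiniteDimensional ℚ F →
      ∀ σ ∈ P.inertiaSubgroupIn ℚ, ∃ j e : ℕ,
        ((τ ^ j)⁻¹ * σ) ^ (q ^ e) ∈ F.fixingSubgroup := by
    intro F hF s hs
    obtain ⟨i, e, h⟩ := hτ.2 F hF s hs
    exact ⟨i, e, (IntermediateField.mem_fixingSubgroup_iff F _).2 h⟩
  have hmat : ∀ f : Module.End A ρ.V, LinearMap.trace A ρ.V f = (mat b f).trace :=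
    fun f => LinearMap.trace_eq_matrix_trace A b f
  have hY1 : (mat b (ρ.ρ τ)).det = 1 := by
    have h := det_eq_one_of_mem_inertia p hp ρ hdet q hq hqp P hP τ hτ.1
    rw [← LinearMap.det_toMatrix b] at h
    exact h
  have hY2 : (mat b (ρ.ρ τ)).trace = 2 := by rw [← hmat]; exact htr
  have hsq := sub_one_sq_of_trace_two _ hY1 hY2
  have hpow : ∀ j : ℕ, (mat b (ρ.ρ τ) ^ j).trace = 2 := by
    intro j
    rw [pow_of_sq_zero _ hsq j, Matrix.trace_add, Matrix.trace_smul, Matrix.trace_sub, hY2,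
      Matrix.trace_one]
    simp
  rw [hmat, ← sub_eq_zero]
  have hk := Ideal.iInf_pow_eq_bot_of_isLocalRing (maximalIdeal A)
    (maximalIdeal.isMaximal A).ne_top
  have hmem : (mat b (ρ.ρ σ)).trace - 2 ∈ ⨅ i : ℕ, maximalIdeal A ^ i := by
    rw [Ideal.mem_iInf]
    intro N
    obtain ⟨j', hj'⟩ := exists_pow_approx A p hp hdet.1 ρ q hq hqp P hI τ hτ.1 hgen b σ hσ N
    have e : (mat b (ρ.ρ σ)).trace - 2 = (mat b (ρ.ρ σ) - mat b (ρ.ρ τ) ^ j').trace := by
      rw [Matrix.trace_sub, hpow j']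
    rw [e, Matrix.trace_fin_two]
    exact add_mem (hj' 0 0) (hj' 1 1)
  rw [hk] at hmem
  exact (Submodule.mem_bot A).1 hmem

/-- The characteristic polynomial of an endomorphism of a free module of rank `2` with trace `2`
and determinant `1`. -/
theorem charpoly_eq_of_trace_det {V : Type} [AddCommGroup V] [Module A V]
    [Module.Free A V] [Module.Finite A V]
    (b : Module.Basis (Fin 2) A V) (f : Module.End A V)
    (ht : LinearMap.trace A V f = 2) (hd : LinearMap.det f = 1) :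
    LinearMap.charpoly f = ((X - 1) ^ 2 : A[X]) := by
  rw [← LinearMap.charpoly_toMatrix f b, Matrix.charpoly_fin_two,
    ← LinearMap.trace_eq_matrix_trace A b f, LinearMap.det_toMatrix b, ht, hd]
  simp only [map_one]
  have h2 : (C (2 : A) : A[X]) = 2 := map_ofNat C 2
  rw [h2]
  ring

/-- **T1''.**  Trace `2` at a uniform tame generator at one place over `q` implies that `ρ` is
unipotent on all inertia groups over `q`. -/
theorem isUnipotentOnInertiaAt_of_trace (p : ℕ) (hp : p.Prime) (ρ : GaloisRepAdic A)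
    (hdet : ρ.DetIsCyclotomic p) (q : ℕ) (hq : q.Prime) (hqp : q ≠ p)
    (hunr : ρ.residual.IsUnramifiedAt q)
    (P : ValuationSubring (AlgebraicClosure ℚ)) (hP : P.LiesOverPrime q)
    (τ : GQ) (hτ : IsTameGen q P τ) (htr : LinearMap.trace A ρ.V (ρ.ρ τ) = 2) :
    ρ.IsUnipotentOnInertiaAt q := by
  classical
  intro A' hA' σ hσ
  let b : Module.Basis (Fin 2) A ρ.V := Module.finBasisOfFinrankEq A ρ.V ρ.finrank_eq
  have hd : LinearMap.det (ρ.ρ σ) = 1 :=
    det_eq_one_of_mem_inertia p hp ρ hdet q hq hqp A' hA' σ hσ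
  obtain ⟨g, hg⟩ := Fermat.Agent.Lib.InertiaConj.exists_conj_mem_inertia q hq P A' hP hA'
  have hs := (hg σ).1 hσ
  have h1 := trace_eq_two_of_mem_inertia p hp ρ hdet q hq hqp hunr P hP τ hτ htr _ hs
  have h2 : ρ.ρ σ = ρ.ρ g * (ρ.ρ (g⁻¹ * σ * g) * ρ.ρ g⁻¹) := by
    rw [← map_mul, ← map_mul]
    congr 1
    group
  have ht : LinearMap.trace A ρ.V (ρ.ρ σ) = 2 := by
    rw [h2, LinearMap.trace_mul_comm, mul_assoc, ← map_mul, inv_mul_cancel, map_one, mul_one]
    exact h1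
  exact charpoly_eq_of_trace_det b _ ht hd

/-- Conversely: the trace of a unipotent element is `2`. -/
theorem trace_eq_two_of_charpoly {V : Type} [AddCommGroup V] [Module A V]
    [Module.Free A V] [Module.Finite A V]
    (b : Module.Basis (Fin 2) A V) (f : Module.End A V)
    (h : LinearMap.charpoly f = ((X - 1) ^ 2 : A[X])) : LinearMap.trace A V f = 2 := by
  rw [← LinearMap.charpoly_toMatrix f b, Matrix.charpoly_fin_two,
    ← LinearMap.trace_eq_matrix_trace A b f] at h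
  have h1 := congrArg (fun P : A[X] => P.coeff 1) h
  have e : ((X : A[X]) - 1) ^ 2 = X ^ 2 - C (2 : A) * X + C (1 : A) := by
    have h2 : (C (2 : A) : A[X]) = 2 := map_ofNat C 2
    rw [h2, map_one]
    ring
  rw [e] at h1
  simp only [coeff_add, coeff_sub, coeff_X_pow, coeff_C_mul, coeff_X_one, coeff_C] at h1
  simpa using h1

end unip

end Fermat.Agent.L.Pivot.H59
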