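/-
PIVOT (item 66), PV-ASM, leaf SUPP (helper76): the support of a torsion-free quotient.

`T` a reduced finite free algebra over a complete DVR `𝒪`, `η : T → End V`, `U ⊂ V` a saturated
`𝒪`-submodule.  If `a ∈ T` vanishes at every point `x : T → O` (`O` a complete DVR finite over
`𝒪`) which kills `Ann_T (V / U) = {t | η t V ⊆ U}`, then `η a V ⊆ U`.

* `exists_notMem_mul_eq_zero` : in a reduced ring an element of a minimal prime `𝔮` is killed by
  an element outside `𝔮`;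
* `supp_core`   : the statement in terms of the minimal primes containing the annihilator;
* `supp_points` : the statement in terms of points.
-/
import Fermat.Agent.R.H2_SepTc

set_option autoImplicit false
set_option linter.style.haveILetI false

namespace Fermat.Agent.L.Pivot.H76

open IsLocalRing

section Reduced

variable {R : Type*} [CommRing R] [IsReduced R]

/-- In a reduced ring an element of a minimal prime `𝔮` is killed by an element outside `𝔮`. -/
theorem exists_notMem_mul_eq_zero {𝔮 : Ideal R} (h𝔮 : 𝔮 ∈ minimalPrimes R) {x : R}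
    (hx : x ∈ 𝔮) : ∃ y ∉ 𝔮, x * y = 0 := by
  have h𝔮p : 𝔮.IsPrime := h𝔮.1.1
  by_contra hcon
  have hcon' : ∀ y : R, y ∉ 𝔮 → x * y ≠ 0 := fun y hy h => hcon ⟨y, hy, h⟩
  have hdisj : Disjoint ((⊥ : Ideal R) : Set R) (𝔮.primeCompl ⊔ Submonoid.powers x : Submonoid R) := by
    rw [Set.disjoint_left]
    intro z hz hzS
    have hz0 : z = 0 := hz
    obtain ⟨y, hy, t, ⟨n, rfl⟩, hyt⟩ := Submonoid.mem_sup.1 hzS
    rw [hz0] at hyt
    have hxy : (x * y) ^ (n + 1) = 0 := by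
      have h1 : (x * y) ^ (n + 1) = x * y ^ n * (y * x ^ n) := by ring
      rw [h1, hyt, mul_zero]
    exact hcon' y hy (IsReduced.eq_zero _ ⟨n + 1, hxy⟩)
  obtain ⟨𝔭, h𝔭, -, h𝔭S⟩ := Ideal.exists_le_prime_disjoint (⊥ : Ideal R) _ hdisj
  have hle : 𝔭 ≤ 𝔮 := by
    intro z hz
    by_contra hz𝔮
    exact Set.disjoint_left.1 h𝔭S hz
      ((le_sup_left : 𝔮.primeCompl ≤ 𝔮.primeCompl ⊔ Submonoid.powers x) hz𝔮)
  have hge : 𝔮 ≤ 𝔭 := h𝔮.2 ⟨h𝔭, bot_le⟩ hle
  exact Set.disjoint_left.1 h𝔭S (hge hx)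
    ((le_sup_right : Submonoid.powers x ≤ 𝔮.primeCompl ⊔ Submonoid.powers x)
      (Submonoid.mem_powers x))

/-- In a reduced ring an element outside all minimal primes is a nonzerodivisor. -/
theorem mul_eq_zero_of_notMem_minimalPrimes {s : R} (hs : ∀ 𝔮 ∈ minimalPrimes R, s ∉ 𝔮)
    {x : R} (hx : s * x = 0) : x = 0 := by
  have hmem : x ∈ sInf (minimalPrimes R) := by
    rw [Submodule.mem_sInf]
    intro 𝔮 h𝔮
    have h𝔮p : Ideal.IsPrime 𝔮 := h𝔮.1.1
    have h1 : s * x ∈ 𝔮 := by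
      rw [hx]
      exact Submodule.zero_mem 𝔮
    exact (h𝔮p.mem_or_mem h1).resolve_left (hs 𝔮 h𝔮)
  have h5 : sInf (minimalPrimes R) = nilradical R := by
    rw [minimalPrimes, Ideal.sInf_minimalPrimes]
    rfl
  rw [h5, nilradical_eq_zero] at hmem
  exact hmem

end Reduced

section Core

variable {𝒪 : Type*} [CommRing 𝒪] [IsDomain 𝒪] [IsNoetherianRing 𝒪]
  {T : Type*} [CommRing T] [IsReduced T] [Algebra 𝒪 T] [Module.Finite 𝒪 T]
  {V : Type*} [AddCommGroup V] [Module 𝒪 V]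

/-- **SUPP, core.**  If `a` lies in every minimal prime of `T` containing
`{t | η t V ⊆ U}` and `U` is saturated then `η a V ⊆ U`. -/
theorem supp_core (η : T →ₐ[𝒪] Module.End 𝒪 V) (U : Submodule 𝒪 V)
    (hsat : ∀ c : 𝒪, c ≠ 0 → ∀ v : V, c • v ∈ U → v ∈ U) (a : T)
    (ha : ∀ 𝔮 ∈ minimalPrimes T, (∀ t : T, (∀ v : V, η t v ∈ U) → t ∈ 𝔮) → a ∈ 𝔮)
    (v : V) : η a v ∈ U := by
  classical
  haveI : IsNoetherianRing T := IsNoetherianRing.of_finite 𝒪 T
  -- the annihilator of `V / U`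
  let I : Ideal T :=
    { carrier := {t | ∀ v : V, η t v ∈ U}
      add_mem' := fun {s t} hs ht v => by
        rw [map_add, LinearMap.add_apply]
        exact U.add_mem (hs v) (ht v)
      zero_mem' := fun v => by
        rw [map_zero, LinearMap.zero_apply]
        exact U.zero_mem
      smul_mem' := fun c t ht v => by
        rw [smul_eq_mul, mul_comm, map_mul, Module.End.mul_apply]
        exact ht _ }
  have hI : ∀ t : T, t ∈ I ↔ ∀ v : V, η t v ∈ U := fun _ => Iff.rfl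
  -- the annihilator of `a`
  let K : Ideal T :=
    { carrier := {w | w * a = 0}
      add_mem' := fun {s t} hs ht => by
        show (s + t) * a = 0
        rw [add_mul, hs, ht, add_zero]
      zero_mem' := zero_mul a
      smul_mem' := fun c t ht => by
        show c • t * a = 0
        rw [smul_eq_mul, mul_assoc, ht, mul_zero] }
  have hK : ∀ w : T, w ∈ K ↔ w * a = 0 := fun _ => Iff.rfl
  have hfin : (minimalPrimes T).Finite := minimalPrimes.finite_of_isNoetherianRing T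
  -- prime avoidance
  have hav : ¬ ((↑(I ⊔ K) : Set T) ⊆ ⋃ 𝔮 ∈ (↑hfin.toFinset : Set (Ideal T)), (𝔮 : Set T)) := by
    intro hsub
    have h1 := (Ideal.subset_union_prime (s := hfin.toFinset) (f := fun 𝔮 : Ideal T => 𝔮)
      (⊥ : Ideal T) (⊥ : Ideal T) (fun 𝔮 h𝔮 _ _ => ((hfin.mem_toFinset).1 h𝔮).1.1)
      (I := I ⊔ K)).1 hsub
    obtain ⟨𝔮, h𝔮, hle⟩ := h1
    have h𝔮min : 𝔮 ∈ minimalPrimes T := (hfin.mem_toFinset).1 h𝔮
    have ha𝔮 : a ∈ 𝔮 := ha 𝔮 h𝔮min fun t ht => hle (Ideal.mem_sup_left ((hI t).2 ht))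
    obtain ⟨y, hy, hay⟩ := exists_notMem_mul_eq_zero h𝔮min ha𝔮
    exact hy (hle (Ideal.mem_sup_right ((hK y).2 (by rw [mul_comm]; exact hay))))
  obtain ⟨s, hsJ, hs⟩ := Set.not_subset.1 hav
  have hs' : ∀ 𝔮 ∈ minimalPrimes T, s ∉ 𝔮 := by
    intro 𝔮 h𝔮 hs𝔮
    refine hs (Set.mem_biUnion (x := 𝔮) ?_ hs𝔮)
    exact Finset.mem_coe.2 ((hfin.mem_toFinset).2 h𝔮)
  obtain ⟨u, hu, w, hw, rfl⟩ := Submodule.mem_sup.1 hsJ
  -- `u + w` is a nonzerodivisor, hence divides a nonzero element of `𝒪`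
  have hnzd : u + w ∈ nonZeroDivisors T := by
    rw [mem_nonZeroDivisors_iff_right]
    intro x hx
    exact mul_eq_zero_of_notMem_minimalPrimes hs' (by rw [mul_comm]; exact hx)
  haveI : Algebra.IsIntegral 𝒪 T := Algebra.IsIntegral.of_finite 𝒪 T
  have halg : IsAlgebraic 𝒪 (u + w) := (Algebra.IsIntegral.isIntegral (R := 𝒪) (u + w)).isAlgebraic
  obtain ⟨r, hr, s', hs'⟩ := halg.exists_nonzero_dvd hnzd
  refine hsat r hr _ ?_
  have h1 : r • η a v = η (u * (s' * a)) v := by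
    have h2 : algebraMap 𝒪 T r * a = u * (s' * a) + (w * a) * s' := by
      rw [hs']
      ring
    have h3 : r • η a v = η (algebraMap 𝒪 T r * a) v := by
      rw [map_mul, AlgHom.commutes, Module.End.mul_apply, Module.algebraMap_end_apply]
    rw [h3, h2, (hK w).1 hw, zero_mul, add_zero]
  rw [h1]
  exact (hI _).1 (I.mul_mem_right _ hu) v

end Core

section Points

open Fermat.Agent.R.H2

/-- **SUPP, points.**  `T` reduced local, finite free over the complete DVR `𝒪`; `U ⊂ V`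
saturated.  If `a` vanishes at every point of `T` (with values in a complete DVR finite over
`𝒪`) killing `{t | η t V ⊆ U}` then `η a V ⊆ U`. -/
theorem supp_points (𝒪 : Type) [CommRing 𝒪] [IsDomain 𝒪] [IsDiscreteValuationRing 𝒪]
    [IsAdicComplete (maximalIdeal 𝒪) 𝒪] [Finite (ResidueField 𝒪)] [CharZero 𝒪]
    (T : Type) [CommRing T] [Algebra 𝒪 T] [Module.Finite 𝒪 T] [Module.Free 𝒪 T]
    [IsLocalRing T] [IsReduced T]
    {V : Type*} [AddCommGroup V] [Module 𝒪 V] (η : T →ₐ[𝒪] Module.End 𝒪 V)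
    (U : Submodule 𝒪 V) (hsat : ∀ c : 𝒪, c ≠ 0 → ∀ v : V, c • v ∈ U → v ∈ U) (a : T)
    (ha : ∀ (O : Type) [CommRing O] [IsDomain O] [IsDiscreteValuationRing O]
      [IsAdicComplete (maximalIdeal O) O] [Finite (ResidueField O)] [CharZero O]
      [Algebra 𝒪 O] [Module.Finite 𝒪 O] (x : T →ₐ[𝒪] O), IsLocalHom (x : T →+* O) →
      (∀ t : T, (∀ v : V, η t v ∈ U) → x t = 0) → x a = 0)
    (v : V) : η a v ∈ U := by
  refine supp_core η U hsat a (fun 𝔮 h𝔮 hI => ?_) v
  obtain ⟨D⟩ := nonempty_algTPoint 𝒪 T 𝔮 h𝔮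
  have hker : RingHom.ker D.ψ = 𝔮 := by
    refine le_antisymm (fun t ht => D.hker t ht) ?_
    exact h𝔮.2 ⟨RingHom.ker_isPrime D.ψ, bot_le⟩ (fun t ht => D.hker t ht)
  obtain ⟨x, hx⟩ : ∃ x : T →ₐ[𝒪] D.R, ∀ t, x t = D.ψ t :=
    ⟨{ toRingHom := D.ψ, commutes' := fun c => D.hψO c }, fun _ => rfl⟩
  have hxl : IsLocalHom (x : T →+* D.R) := by
    constructor
    intro t ht
    have h1 : IsUnit (D.ψ t) := by
      rw [← hx t]
      exact ht
    exact D.isLocalHom.map_nonunit t h1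
  have h0 := ha D.R x hxl (fun t ht => by
    rw [hx t]
    have h1 : t ∈ RingHom.ker D.ψ := by
      rw [hker]
      exact hI t ht
    exact h1)
  rw [hx a] at h0
  exact D.hker a h0

end Points

end Fermat.Agent.L.Pivot.H76
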