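/-
PIVOT (item 66), PV-ASM, leaf B = PV-UNIP (helper76), core.

`unip_core`: `R` a reduced noetherian local `𝒪`-algebra carrying a deformation `ρ` with cyclotomic
determinant, residually unramified and UNIPOTENT on inertia at the pivot primes `q_j`, and
`γ : P → R` a coordinate homomorphism for `(ρ (τ_j), ρ (frob_j))`.  Then `γ` kills `idealUnip`.
[Modulo every minimal prime `𝔮` of `R`: `(Σ - 1)² = 0`, `tr Σ = 2`,
`Φ Σ = Σ ^ q Φ = (1 + q (Σ - 1)) Φ`, so LOC-MAT applies over the domain `R ⧸ 𝔮`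
(`H59.idealUnip_le_ker_of_coord`); `R` is reduced.]
-/
import Fermat.Agent.L.Pivot.H59_TameGlobal

set_option autoImplicit false
set_option linter.style.haveILetI false

namespace Fermat.Agent.L.Pivot.H76

open IsLocalRing Matrix Polynomial

/-- a `2 × 2` matrix with characteristic polynomial `(X - 1)²`. -/
theorem sq_zero_and_trace_of_charpoly {R : Type*} [CommRing R] (Y : Matrix (Fin 2) (Fin 2) R)
    (h : Y.charpoly = (X - 1) ^ 2) : (Y - 1) * (Y - 1) = 0 ∧ Y.trace = 2 := by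
  constructor
  · have h1 := Matrix.aeval_self_charpoly Y
    rw [h, map_pow, map_sub, aeval_X, map_one, pow_two] at h1
    exact h1
  · have h1 := Matrix.trace_eq_neg_charpoly_coeff Y
    rw [h, Fintype.card_fin] at h1
    have h2 : ((X - 1 : R[X]) ^ 2).coeff (2 - 1) = -2 := by
      have h3 : (X - 1 : R[X]) ^ 2 = X ^ 2 - C 2 * X + C 1 := by
        rw [map_one, map_ofNat]
        ring
      rw [h3]
      simp [coeff_one, coeff_X_pow]
    rw [h2, neg_neg] at h1
    exact h1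

/-- **PV-UNIP, core.** -/
theorem unip_core {𝒪 : Type} [CommRing 𝒪] (p : ℕ) (hp : p.Prime) {k : ℕ} (g : ℕ)
    (Pv : PivotPrimes k) (hqp : ∀ j, Pv.q j ≠ p)
    (R : Type) [CommRing R] [IsLocalRing R] [IsNoetherianRing R] [IsReduced R] [Algebra 𝒪 R]
    (ρ : GaloisRepAdic R) (hdet : ρ.DetIsCyclotomic p)
    (hI : ∀ j, ∀ σ ∈ (Pv.P j).inertiaSubgroupIn ℚ, ∀ v : ρ.V,
      ρ.ρ σ v - v ∈ maximalIdeal R • (⊤ : Submodule R ρ.V))
    (hU : ∀ j, ρ.IsUnipotentOnInertiaAt (Pv.q j))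
    (b : Module.Basis (Fin 2) R ρ.V) (γ : PRing 𝒪 k g →ₐ[𝒪] R)
    (hγ : IsCoordHom γ (fun j => LinearMap.toMatrix b b (ρ.ρ (Pv.τ j)))
      (fun j => LinearMap.toMatrix b b (ρ.ρ (Pv.frob j)))) :
    idealUnip g (fun j => ((Pv.q j : ℕ) : 𝒪)) ≤ RingHom.ker (γ : PRing 𝒪 k g →+* R) := by
  classical
  intro f hf
  rw [RingHom.mem_ker]
  -- the matrices in `R`
  have hM := fun j => H59.pivot_matrices p hp ρ hdet Pv j (hqp j) (hI j) b
  have hch : ∀ j, (LinearMap.toMatrix b b (ρ.ρ (Pv.τ j))).charpoly = (X - 1) ^ 2 := by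
    intro j
    rw [LinearMap.charpoly_toMatrix]
    exact hU j (Pv.P j) (Pv.P_over j) (Pv.τ j) (Pv.τ_gen j).1
  have hsq := fun j => (sq_zero_and_trace_of_charpoly _ (hch j)).1
  have htr := fun j => (sq_zero_and_trace_of_charpoly _ (hch j)).2
  have hrel : ∀ j, LinearMap.toMatrix b b (ρ.ρ (Pv.frob j)) *
      (LinearMap.toMatrix b b (ρ.ρ (Pv.τ j)) - 1) =
      ((Pv.q j : ℕ) : R) • ((LinearMap.toMatrix b b (ρ.ρ (Pv.τ j)) - 1) *
        LinearMap.toMatrix b b (ρ.ρ (Pv.frob j))) := by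
    intro j
    have h1 := (hM j).2.2.2.2.1
    rw [H59.pow_of_sq_zero _ (hsq j)] at h1
    rw [Matrix.mul_sub, Matrix.mul_one, h1, add_mul, one_mul, add_sub_cancel_left,
      Matrix.smul_mul]
  -- it suffices to work modulo every minimal prime
  have hmem : γ f ∈ sInf (minimalPrimes R) := by
    rw [Submodule.mem_sInf]
    intro 𝔮 h𝔮
    haveI h𝔮p : Ideal.IsPrime 𝔮 := h𝔮.1.1
    obtain ⟨x, hx⟩ : ∃ x : R →ₐ[𝒪] R ⧸ 𝔮, ∀ t, x t = Ideal.Quotient.mk 𝔮 t :=
      ⟨Ideal.Quotient.mkₐ 𝒪 𝔮, fun _ => rfl⟩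
    have hxN : ∀ m : ℕ, x (m : R) = algebraMap 𝒪 (R ⧸ 𝔮) (m : 𝒪) := by
      intro m
      rw [map_natCast, map_natCast]
    have hone : ∀ Y : Matrix (Fin 2) (Fin 2) R,
        (x : R →+* R ⧸ 𝔮).mapMatrix Y - 1 = (x : R →+* R ⧸ 𝔮).mapMatrix (Y - 1) := by
      intro Y
      rw [map_sub, map_one]
    have key := H59.idealUnip_le_ker_of_coord (g := g) (fun j => ((Pv.q j : ℕ) : 𝒪)) (x.comp γ)
      (fun _ => (1 : R ⧸ 𝔮))
      (fun j => (x : R →+* R ⧸ 𝔮).mapMatrix (LinearMap.toMatrix b b (ρ.ρ (Pv.τ j))))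
      (fun j => (x : R →+* R ⧸ 𝔮).mapMatrix (LinearMap.toMatrix b b (ρ.ρ (Pv.frob j))))
      (fun j => H59.isCoordOf_of_isCoordHom γ _ _ hγ x j) (fun _ => one_pow 2)
      (fun j => by
        rw [← RingHom.map_det, (hM j).2.1]
        exact hxN _)
      (fun j => by
        rw [hone, ← map_mul, hsq j, map_zero])
      (fun j => by
        have h1 := congrArg (x : R →+* R ⧸ 𝔮) (htr j)
        rw [map_ofNat] at h1
        rw [← h1]
        simp only [Matrix.trace, Matrix.diag_apply, RingHom.mapMatrix_apply, Matrix.map_apply,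
          map_sum])
      (fun j => by
        have h1 := congrArg (x : R →+* R ⧸ 𝔮).mapMatrix (hrel j)
        rw [map_mul] at h1
        rw [hone, h1, ← hxN]
        ext a c
        simp only [RingHom.mapMatrix_apply, Matrix.map_apply, Matrix.smul_apply, smul_eq_mul,
          map_mul, Matrix.mul_apply, map_sum]
        rfl)
    have h1 := key hf
    rw [RingHom.mem_ker] at h1
    have h2 : x (γ f) = 0 := h1
    rw [hx] at h2
    exact Ideal.Quotient.eq_zero_iff_mem.1 h2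
  have h5 : sInf (minimalPrimes R) = nilradical R := by
    rw [minimalPrimes, Ideal.sInf_minimalPrimes]
    rfl
  rw [h5, nilradical_eq_zero] at hmem
  exact hmem

end Fermat.Agent.L.Pivot.H76
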