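/-
PIVOT (item 66), PV-ASM, leaf B = PV-UNIP (helper76), abstract form.

* `isCoordHom_transport` : a coordinate homomorphism `γ : P → RQ` for `ρQ` (basis `bQ`) composed
  with `φ : RQ → T` is a coordinate homomorphism for a representation `ρ` over `T` in a basis in
  which the matrices of `ρ` are the images of those of `ρQ` (TRANSPORT).
* `pvUnip_ring` : if `ρQ ⊗_φ T ≅ ρ` with `T` reduced and `ρ` unipotent on inertia at the pivot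
  primes (S34), then `φ ∘ γ` kills `idealUnip`.
* `pvUnip_mod`  : (rel1) `η_W (φQ (γ f)) W ⊆ typeSub c 1 = ker κ` for `f ∈ idealUnip`, when
  `κ : W → W₁` intertwines `η_W` with `η_{W₁} ∘ res` and `ρQ ⊗_{res ∘ φQ} T₁ ≅ ρ₁`.
-/
import Fermat.Agent.L.Pivot.H76_Unip
import Fermat.Agent.L.Pivot.H59_Tame1
import Fermat.Agent.S59.Asm.H77_Transport

set_option autoImplicit false
set_option linter.style.haveILetI false

namespace Fermat.Agent.L.Pivot.H76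

open IsLocalRing Matrix Polynomial Fermat.Agent.S59.Asm

/-- TRANSPORT of a coordinate homomorphism. -/
theorem isCoordHom_transport {𝒪 : Type} [CommRing 𝒪] {k g : ℕ}
    {RQ : Type} [CommRing RQ] [IsLocalRing RQ] [Algebra 𝒪 RQ]
    {T : Type} [CommRing T] [IsLocalRing T] [Algebra 𝒪 T]
    (ρQ : GaloisRepAdic RQ) (ρ : GaloisRepAdic T) (σ φ : Fin k → GalQ)
    (bQ : Module.Basis (Fin 2) RQ ρQ.V) (b : Module.Basis (Fin 2) T ρ.V)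
    (f : RQ →ₐ[𝒪] T)
    (hb : ∀ (s : GalQ) (i j : Fin 2), b.repr (ρ.ρ s (b i)) j = f (bQ.repr (ρQ.ρ s (bQ i)) j))
    (γ : PRing 𝒪 k g →ₐ[𝒪] RQ)
    (hγ : IsCoordHom γ (fun j => LinearMap.toMatrix bQ bQ (ρQ.ρ (σ j)))
      (fun j => LinearMap.toMatrix bQ bQ (ρQ.ρ (φ j)))) :
    IsCoordHom (f.comp γ) (fun j => LinearMap.toMatrix b b (ρ.ρ (σ j)))
      (fun j => LinearMap.toMatrix b b (ρ.ρ (φ j))) := by
  have hent : ∀ (s : GalQ) (i j : Fin 2), LinearMap.toMatrix b b (ρ.ρ s) i j =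
      f (LinearMap.toMatrix bQ bQ (ρQ.ρ s) i j) := by
    intro s i j
    rw [LinearMap.toMatrix_apply, LinearMap.toMatrix_apply]
    exact hb s j i
  intro j
  obtain ⟨h1, h2, h3, h4, h5, h6⟩ := hγ j
  refine ⟨?_, ?_, ?_, ?_, ?_, ?_⟩
  · show f (γ _) = LinearMap.toMatrix b b (ρ.ρ (σ j)) 0 1
    rw [h1, hent]
  · show f (γ _) = LinearMap.toMatrix b b (ρ.ρ (σ j)) 1 0
    rw [h2, hent]
  · show f (γ _) = LinearMap.toMatrix b b (ρ.ρ (σ j)) 0 0 -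
      LinearMap.toMatrix b b (ρ.ρ (σ j)) 1 1
    rw [h3, hent, hent, map_sub]
  · show f (γ _) = LinearMap.toMatrix b b (ρ.ρ (φ j)) 0 1
    rw [h4, hent]
  · show f (γ _) = LinearMap.toMatrix b b (ρ.ρ (φ j)) 1 0
    rw [h5, hent]
  · show f (γ _) = LinearMap.toMatrix b b (ρ.ρ (φ j)) 0 0 -
      LinearMap.toMatrix b b (ρ.ρ (φ j)) 1 1
    rw [h6, hent, hent, map_sub]

/-- residually unramified ⟹ trivial modulo `𝔪` on inertia. -/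
theorem sub_mem_of_residual_unramified {T : Type} [CommRing T] [IsLocalRing T]
    (ρ : GaloisRepAdic T) (q : ℕ) (h : ρ.residual.IsUnramifiedAt q)
    (P : ValuationSubring (AlgebraicClosure ℚ)) (hP : P.LiesOverPrime q)
    (σ : GalQ) (hσ : σ ∈ P.inertiaSubgroupIn ℚ) (v : ρ.V) :
    ρ.ρ σ v - v ∈ maximalIdeal T • (⊤ : Submodule T ρ.V) := by
  obtain ⟨b⟩ : Nonempty (Module.Basis (Fin 2) T ρ.V) := by
    have hb := Module.finBasisOfFinrankEq T ρ.V ρ.finrank_eq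
    exact ⟨hb⟩
  exact H59.sub_mem_of_baseChange_eq_one b (ρ.ρ σ) (h P hP σ hσ) v

/-- **PV-UNIP, ring form.** -/
theorem pvUnip_ring {𝒪 : Type} [CommRing 𝒪] (p : ℕ) (hp : p.Prime) {k : ℕ} (g : ℕ)
    (Pv : PivotPrimes k) (hqp : ∀ j, Pv.q j ≠ p)
    (RQ : Type) [CommRing RQ] [IsLocalRing RQ] [Algebra 𝒪 RQ] (ρQ : GaloisRepAdic RQ)
    (bQ : Module.Basis (Fin 2) RQ ρQ.V) (γ : PRing 𝒪 k g →ₐ[𝒪] RQ)
    (hγ : IsCoordHom γ (fun j => LinearMap.toMatrix bQ bQ (ρQ.ρ (Pv.τ j)))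
      (fun j => LinearMap.toMatrix bQ bQ (ρQ.ρ (Pv.frob j))))
    (T : Type) [CommRing T] [IsLocalRing T] [IsNoetherianRing T] [IsReduced T] [Algebra 𝒪 T]
    (ρ : GaloisRepAdic T) (hdet : ρ.DetIsCyclotomic p)
    (hres : ∀ j, ρ.residual.IsUnramifiedAt (Pv.q j))
    (hU : ∀ j, ρ.IsUnipotentOnInertiaAt (Pv.q j))
    (f : RQ →ₐ[𝒪] T) (hf : IsLocalHom (f : RQ →+* T))
    (he : (ρQ.baseChangeAlong (f : RQ →+* T) hf).IsEquiv ρ) :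
    ∀ x ∈ idealUnip g (fun j => ((Pv.q j : ℕ) : 𝒪)), f (γ x) = 0 := by
  obtain ⟨b, hb⟩ := H77.stmt_TRANSPORT RQ T (f : RQ →+* T) hf ρQ ρ he bQ
  have hγ' := isCoordHom_transport ρQ ρ Pv.τ Pv.frob bQ b f hb γ hγ
  have key := unip_core p hp g Pv hqp T ρ hdet
    (fun j σ hσ v => sub_mem_of_residual_unramified ρ (Pv.q j) (hres j) (Pv.P j) (Pv.P_over j)
      σ hσ v) hU b (f.comp γ) hγ'
  intro x hx
  have h1 := key hx
  rw [RingHom.mem_ker] at h1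
  exact h1

/-- **PV-UNIP, module form (rel1).** -/
theorem pvUnip_mod {𝒪 : Type} [CommRing 𝒪] (p : ℕ) (hp : p.Prime) {k : ℕ} (g : ℕ)
    (Pv : PivotPrimes k) (hqp : ∀ j, Pv.q j ≠ p)
    (RQ : Type) [CommRing RQ] [IsLocalRing RQ] [Algebra 𝒪 RQ] (ρQ : GaloisRepAdic RQ)
    (bQ : Module.Basis (Fin 2) RQ ρQ.V) (γ : PRing 𝒪 k g →ₐ[𝒪] RQ)
    (hγ : IsCoordHom γ (fun j => LinearMap.toMatrix bQ bQ (ρQ.ρ (Pv.τ j)))
      (fun j => LinearMap.toMatrix bQ bQ (ρQ.ρ (Pv.frob j))))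
    (T₁ : Type) [CommRing T₁] [IsLocalRing T₁] [IsNoetherianRing T₁] [IsReduced T₁]
    [Algebra 𝒪 T₁]
    (ρ₁ : GaloisRepAdic T₁) (hdet : ρ₁.DetIsCyclotomic p)
    (hres : ∀ j, ρ₁.residual.IsUnramifiedAt (Pv.q j))
    (hU : ∀ j, ρ₁.IsUnipotentOnInertiaAt (Pv.q j))
    (T' : Type) [CommRing T'] [Algebra 𝒪 T'] (φQ : RQ →ₐ[𝒪] T') (res : T' →ₐ[𝒪] T₁)
    (hf : IsLocalHom ((res.comp φQ : RQ →ₐ[𝒪] T₁) : RQ →+* T₁))
    (he : (ρQ.baseChangeAlong ((res.comp φQ : RQ →ₐ[𝒪] T₁) : RQ →+* T₁) hf).IsEquiv ρ₁)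
    (W : Type) [AddCommGroup W] [Module 𝒪 W] (W₁ : Type) [AddCommGroup W₁] [Module 𝒪 W₁]
    (c : Fin k → Module.End 𝒪 W)
    (κ : W →ₗ[𝒪] W₁) (hker : LinearMap.ker κ = typeSub c (fun _ => (1 : 𝒪)))
    (ηW : T' →ₐ[𝒪] Module.End 𝒪 W) (ηW₁ : T₁ →ₐ[𝒪] Module.End 𝒪 W₁)
    (hκ : ∀ (t : T') (v : W), κ (ηW t v) = ηW₁ (res t) (κ v)) :
    ∀ x ∈ idealUnip g (fun j => ((Pv.q j : ℕ) : 𝒪)), ∀ v : W,
      ηW (φQ (γ x)) v ∈ typeSub c (fun _ => (1 : 𝒪)) := by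
  intro x hx v
  have h1 := pvUnip_ring p hp g Pv hqp RQ ρQ bQ γ hγ T₁ ρ₁ hdet hres hU (res.comp φQ) hf he
    x hx
  rw [← hker, LinearMap.mem_ker, hκ]
  have h2 : res (φQ (γ x)) = 0 := h1
  rw [h2, map_zero, LinearMap.zero_apply]

end Fermat.Agent.L.Pivot.H76
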