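/-
PIVOT (item 66), PV-ASM, leaf C = PV-NU (helper72), abstract form.

* `residual_unramified_baseChangeAlong`, `residual_unramified_of_isEquiv` : residual
  unramifiedness under base change along a local homomorphism and under equivalence.
* `gamma_X_mem` : an `𝒪`-algebra homomorphism `𝒪⟦X⟧ → R` (`R` local with residue field `k_𝒪`)
  sends the variables into the maximal ideal.
* `pvNU_mod` : (relχ) `η_W (φQ (γ f)) W ⊆ U` for `f ∈ ⋂ 𝔞_δ` when `U` is saturated and the points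
  of `T'` occurring in `W / U` are not unipotent on inertia at the pivot primes.
-/
import Fermat.Agent.L.Pivot.Asm
import Fermat.Agent.L.Pivot.H59_Unip
import Fermat.Agent.L.Pivot.H76_Supp
import Fermat.Agent.L.Pivot.H76_UnipAbs
import Fermat.Agent.S56.H92_StableSO
import Fermat.Agent.S59.H99_DefSO
import Fermat.Agent.S59.H99_DefEquiv

set_option autoImplicit false
set_option linter.style.haveILetI false
set_option linter.unusedSectionVars false

namespace Fermat.Agent.L.Pivot.H72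

open IsLocalRing Polynomial Fermat.Agent.S59.Asm
open scoped TensorProduct

section Res

variable {A : Type} [CommRing A] [IsLocalRing A] {B : Type} [CommRing B] [IsLocalRing B]

/-- `f ≡ 1 mod I` implies `f ⊗ B ≡ 1 mod J` when `I B ⊆ J`. -/
theorem baseChange_sub_mem [Algebra A B] {V : Type} [AddCommGroup V] [Module A V]
    (I : Ideal A) (J : Ideal B) (hIJ : ∀ a ∈ I, algebraMap A B a ∈ J) (f : Module.End A V)
    (h : ∀ v : V, f v - v ∈ I • (⊤ : Submodule A V)) (w : B ⊗[A] V) :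
    f.baseChange B w - w ∈ J • (⊤ : Submodule B (B ⊗[A] V)) := by
  have hpure : ∀ (b : B) (v : V),
      f.baseChange B (b ⊗ₜ[A] v) - b ⊗ₜ[A] v ∈ J • (⊤ : Submodule B (B ⊗[A] V)) := by
    intro b v
    rw [LinearMap.baseChange_tmul, ← TensorProduct.tmul_sub]
    refine Submodule.smul_induction_on (p := fun x => b ⊗ₜ[A] x ∈
      J • (⊤ : Submodule B (B ⊗[A] V))) (h v) ?_ ?_
    · intro a ha w _
      rw [TensorProduct.tmul_smul, TensorProduct.smul_tmul', Algebra.smul_def, ← smul_eq_mul,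
        ← TensorProduct.smul_tmul']
      exact Submodule.smul_mem_smul (hIJ a ha) Submodule.mem_top
    · intro x y hx hy
      rw [TensorProduct.tmul_add]
      exact Submodule.add_mem _ hx hy
  induction w using TensorProduct.induction_on with
  | zero => rw [map_zero, sub_zero]; exact Submodule.zero_mem _
  | tmul b v => exact hpure b v
  | add x y hx hy =>
    rw [map_add, add_sub_add_comm]
    exact Submodule.add_mem _ hx hy

/-- `f ≡ 1 mod 𝔪` implies that the reduction of `f` is the identity. -/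
theorem baseChange_residue_eq_one {V : Type} [AddCommGroup V] [Module A V]
    (f : Module.End A V) (h : ∀ v : V, f v - v ∈ maximalIdeal A • (⊤ : Submodule A V)) :
    f.baseChange (ResidueField A) = 1 := by
  have hkill : ∀ x ∈ maximalIdeal A • (⊤ : Submodule A V),
      ∀ c : ResidueField A, c ⊗ₜ[A] x = 0 := by
    intro x hx c
    refine Submodule.smul_induction_on
      (p := fun x => c ⊗ₜ[A] x = (0 : ResidueField A ⊗[A] V)) hx ?_ ?_
    · intro a ha w _
      rw [TensorProduct.tmul_smul, TensorProduct.smul_tmul', Algebra.smul_def,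
        ResidueField.algebraMap_eq, (residue_eq_zero_iff a).mpr ha,
        zero_mul, TensorProduct.zero_tmul]
    · intro x y hx hy
      rw [TensorProduct.tmul_add, hx, hy, add_zero]
  refine LinearMap.ext fun w => ?_
  induction w using TensorProduct.induction_on with
  | zero => rw [map_zero, map_zero]
  | tmul c v =>
    rw [LinearMap.baseChange_tmul, Module.End.one_apply, ← sub_eq_zero,
      ← TensorProduct.tmul_sub]
    exact hkill _ (h v) c
  | add x y hx hy => rw [map_add, map_add, hx, hy]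

/-- trivial modulo `𝔪` on inertia ⟹ residually unramified. -/
theorem residual_unramified_of_sub_mem (ρ : GaloisRepAdic A) (q : ℕ)
    (h : ∀ P : ValuationSubring (AlgebraicClosure ℚ), P.LiesOverPrime q →
      ∀ σ ∈ P.inertiaSubgroupIn ℚ, ∀ v : ρ.V,
        ρ.ρ σ v - v ∈ maximalIdeal A • (⊤ : Submodule A ρ.V)) :
    ρ.residual.IsUnramifiedAt q := by
  intro P hP σ hσ
  exact baseChange_residue_eq_one (ρ.ρ σ) (h P hP σ hσ)

/-- Residual unramifiedness is preserved by base change along a local homomorphism. -/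
theorem residual_unramified_baseChangeAlong (ψ : A →+* B) (hψ : IsLocalHom ψ)
    (ρ : GaloisRepAdic A) (q : ℕ) (h : ρ.residual.IsUnramifiedAt q) :
    (ρ.baseChangeAlong ψ hψ).residual.IsUnramifiedAt q := by
  letI : Algebra A B := ψ.toAlgebra
  refine residual_unramified_of_sub_mem _ q fun P hP σ hσ w => ?_
  refine baseChange_sub_mem (maximalIdeal A) (maximalIdeal B) (fun a ha => ?_) (ρ.ρ σ)
    (fun v => H76.sub_mem_of_residual_unramified ρ q h P hP σ hσ v) w
  haveI := hψ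
  exact map_nonunit ψ a ha

/-- Residual unramifiedness is invariant under equivalence. -/
theorem residual_unramified_of_isEquiv {ρ ρ' : GaloisRepAdic A} (he : ρ.IsEquiv ρ') (q : ℕ)
    (h : ρ.residual.IsUnramifiedAt q) : ρ'.residual.IsUnramifiedAt q := by
  obtain ⟨e⟩ := he
  intro P hP σ hσ
  have h1 := h P hP σ hσ
  refine LinearMap.ext fun y => ?_
  obtain ⟨x, rfl⟩ := e.residual.toLinearEquiv.surjective y
  rw [← e.residual.map_apply, h1]
  rfl

end Res

section Gamma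

variable {𝒪 : Type} [CommRing 𝒪] [IsLocalRing 𝒪]
  {R : Type} [CommRing R] [IsLocalRing R] [Algebra 𝒪 R] {n : ℕ}

/-- An `𝒪`-algebra homomorphism from a power series ring to a local ring with residue field
`k_𝒪` sends the variables into the maximal ideal. -/
theorem gamma_X_mem (hsurj : Function.Surjective (residue R ∘ algebraMap 𝒪 R))
    (γ : MvPowerSeries (Fin n) 𝒪 →ₐ[𝒪] R) (i : Fin n) :
    γ (MvPowerSeries.X i) ∈ maximalIdeal R := by
  rw [mem_maximalIdeal, mem_nonunits_iff]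
  intro hu
  obtain ⟨d, hd⟩ := hu.exists_right_inv
  obtain ⟨c, hc⟩ := hsurj (residue R d)
  have h1 : IsUnit (1 - MvPowerSeries.C c * MvPowerSeries.X i : MvPowerSeries (Fin n) 𝒪) := by
    rw [MvPowerSeries.isUnit_iff_constantCoeff]
    simp
  have h2 : IsUnit (γ (1 - MvPowerSeries.C c * MvPowerSeries.X i)) := h1.map γ
  have h3 : γ (MvPowerSeries.C c) = algebraMap 𝒪 R c := by
    have : (MvPowerSeries.C c : MvPowerSeries (Fin n) 𝒪) = algebraMap 𝒪 _ c := rfl
    rw [this, AlgHom.commutes]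
  rw [map_sub, map_one, map_mul, h3] at h2
  have h4 : residue R (1 - algebraMap 𝒪 R c * γ (MvPowerSeries.X i)) = 0 := by
    have hc' : residue R (algebraMap 𝒪 R c) = residue R d := hc
    rw [map_sub, map_one, map_mul, hc', ← map_mul, mul_comm, hd, map_one, sub_self]
  exact ((mem_maximalIdeal _).1 ((residue_eq_zero_iff _).1 h4)) h2

end Gamma

section Main

/-- `𝒪 → O` is injective for a domain `O` of characteristic zero. -/
theorem algebraMap_injective_of_charZero {𝒪 : Type} [CommRing 𝒪] [IsDomain 𝒪]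
    [IsDiscreteValuationRing 𝒪] {p : ℕ} (hp : p.Prime) (hp𝒪 : (p : 𝒪) ∈ maximalIdeal 𝒪)
    (O : Type) [CommRing O] [IsDomain O] [CharZero O] [Algebra 𝒪 O] :
    Function.Injective (algebraMap 𝒪 O) := by
  rw [injective_iff_map_eq_zero]
  intro a ha
  by_contra ha0
  obtain ⟨ϖ, hϖ⟩ := IsDiscreteValuationRing.exists_irreducible 𝒪
  obtain ⟨e, u, hu⟩ := IsDiscreteValuationRing.eq_unit_mul_pow_irreducible ha0 hϖ
  have h1 : algebraMap 𝒪 O ϖ = 0 := by
    rw [hu, map_mul, map_pow] at ha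
    rcases mul_eq_zero.1 ha with h | h
    · exact absurd h ((u.isUnit.map (algebraMap 𝒪 O)).ne_zero)
    · by_cases he : e = 0
      · rw [he, pow_zero] at h
        exact absurd h one_ne_zero
      · exact (pow_eq_zero_iff he).1 h
  have h2 : (p : 𝒪) ∈ Ideal.span {ϖ} := by
    rw [← (IsDiscreteValuationRing.irreducible_iff_uniformizer ϖ).mp hϖ]
    exact hp𝒪
  obtain ⟨c, hc⟩ := Ideal.mem_span_singleton'.1 h2
  have h3 : ((p : ℕ) : O) = 0 := by
    rw [← map_natCast (algebraMap 𝒪 O), ← hc, map_mul, h1, mul_zero]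
  exact hp.ne_zero (Nat.cast_eq_zero.1 h3)

/-- **PV-NU, module form (relχ).** -/
theorem pvNU_mod {𝒪 : Type} [CommRing 𝒪] [IsDomain 𝒪] [IsDiscreteValuationRing 𝒪]
    [IsAdicComplete (maximalIdeal 𝒪) 𝒪] [Finite (ResidueField 𝒪)] [CharZero 𝒪]
    (p : ℕ) (hp : p.Prime) (hp2 : p ≠ 2) (hp𝒪 : (p : 𝒪) ∈ maximalIdeal 𝒪)
    {k : ℕ} (g : ℕ) (Pv : PivotPrimes k) (hpq : ∀ j, p ∣ Pv.q j - 1)
    (eP : Fin k → ℕ) (heP : ∀ j, p ^ eP j ∣ Pv.q j - 1 ∧ ¬ p ^ (eP j + 1) ∣ Pv.q j - 1)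
    (ζ : Fin k → 𝒪) (hζ : ∀ j, IsPrimitiveRoot (ζ j) (p ^ eP j))
    (RQ : Type) [CommRing RQ] [IsLocalRing RQ] [IsNoetherianRing RQ] [Algebra 𝒪 RQ]
    (hsurj : Function.Surjective (residue RQ ∘ algebraMap 𝒪 RQ))
    (ρQ : GaloisRepAdic RQ) (hdetQ : ρQ.DetIsCyclotomic p)
    (hresQ : ∀ j, ρQ.residual.IsUnramifiedAt (Pv.q j))
    (bQ : Module.Basis (Fin 2) RQ ρQ.V) (γ : PRing 𝒪 k g →ₐ[𝒪] RQ)
    (hγ : IsCoordHom γ (fun j => LinearMap.toMatrix bQ bQ (ρQ.ρ (Pv.τ j)))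
      (fun j => LinearMap.toMatrix bQ bQ (ρQ.ρ (Pv.frob j))))
    (T' : Type) [CommRing T'] [Algebra 𝒪 T'] [Module.Finite 𝒪 T'] [Module.Free 𝒪 T']
    [IsLocalRing T'] [IsReduced T']
    (ρ' : GaloisRepAdic T')
    (φQ : RQ →ₐ[𝒪] T') (hφ : IsLocalHom (φQ : RQ →+* T'))
    (he : (ρQ.baseChangeAlong (φQ : RQ →+* T') hφ).IsEquiv ρ')
    (W : Type) [AddCommGroup W] [Module 𝒪 W] (ηW : T' →ₐ[𝒪] Module.End 𝒪 W)
    (U : Submodule 𝒪 W) (hsat : ∀ c : 𝒪, c ≠ 0 → ∀ v : W, c • v ∈ U → v ∈ U)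
    (hnew : ∀ (O : Type) [CommRing O] [IsDomain O] [IsDiscreteValuationRing O]
      [IsAdicComplete (maximalIdeal O) O] [Finite (ResidueField O)] [CharZero O]
      [Algebra 𝒪 O] [Module.Finite 𝒪 O] (x : T' →ₐ[𝒪] O) (hx : IsLocalHom (x : T' →+* O)),
      (∀ t : T', (∀ v : W, ηW t v ∈ U) → x t = 0) →
      ∀ j, ¬ (ρ'.baseChangeAlong (x : T' →+* O) hx).IsUnipotentOnInertiaAt (Pv.q j))
    (𝔞 : (Fin k → 𝒪) → Ideal (PRing 𝒪 k g))
    (h𝔞 : ∀ δ ∈ pvTypes p eP ζ, KilledByType g δ (𝔞 δ)) :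
    ∀ f ∈ (pvTypes p eP ζ).inf 𝔞, ∀ v : W, ηW (φQ (γ f)) v ∈ U := by
  intro f hf v
  refine H76.supp_points 𝒪 T' ηW U hsat (φQ (γ f)) ?_ v
  intro O _ _ _ _ _ _ _ _ x hx hkill
  -- arithmetic
  have hq1 : ∀ j, 1 ≤ Pv.q j := fun j => (Pv.q_prime j).one_le
  have hn0 : ∀ j, eP j ≠ 0 := by
    intro j h0
    have := (heP j).2
    rw [h0, zero_add, pow_one] at this
    exact this (hpq j)
  choose m' hm' using fun j => (heP j).1
  have hq : ∀ j, Pv.q j = 1 + p ^ eP j * m' j := by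
    intro j
    have := hm' j
    have := hq1 j
    omega
  have hm'p : ∀ j, ¬ p ∣ m' j := by
    intro j hdiv
    obtain ⟨c, hc⟩ := hdiv
    apply (heP j).2
    rw [hm' j, hc, pow_succ]
    exact ⟨c, by ring⟩
  have hqp : ∀ j, Pv.q j ≠ p := by
    intro j h
    have h1 := hpq j
    rw [h] at h1
    have h2 : p ≤ p - 1 := Nat.le_of_dvd (Nat.sub_pos_of_lt hp.one_lt) h1
    have := hp.one_lt
    omega
  -- the point
  have hinj := algebraMap_injective_of_charZero hp hp𝒪 O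
  obtain ⟨x', hx'e⟩ : ∃ x' : RQ →ₐ[𝒪] O, ∀ a, x' a = x (φQ a) := ⟨x.comp φQ, fun _ => rfl⟩
  have hx' : ∀ a ∈ maximalIdeal RQ, x' a ∈ maximalIdeal O := by
    intro a ha
    rw [hx'e]
    haveI := hx
    haveI := hφ
    exact map_nonunit (x : T' →+* O) _ (map_nonunit (φQ : RQ →+* T') a ha)
  have hI : ∀ j, ∀ σ ∈ (Pv.P j).inertiaSubgroupIn ℚ, ∀ v : ρQ.V,
      ρQ.ρ σ v - v ∈ maximalIdeal RQ • (⊤ : Submodule RQ ρQ.V) := fun j σ hσ v =>
    H76.sub_mem_of_residual_unramified ρQ (Pv.q j) (hresQ j) (Pv.P j) (Pv.P_over j) σ hσ v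
  obtain ⟨i, hi, htr, htype, -⟩ := H59.types_of_point p hp hp2 g Pv eP m' hn0 hq hm'p ζ hζ RQ ρQ
    hdetQ hI bQ γ hγ O hinj x' hx'
  -- all `i_j ≠ 0`
  have hi0 : ∀ j, i j ≠ 0 := by
    intro j hij
    apply hnew O x hx hkill j
    have hdet' : ρ'.DetIsCyclotomic p :=
      Fermat.Agent.S59.H99.detIsCyclotomic_of_isEquiv he p
        (Fermat.Agent.S56.H92.detIsCyclotomic_baseChangeAlong (φQ : RQ →+* T') hφ ρQ p hdetQ)
    have hdetx := Fermat.Agent.S56.H92.detIsCyclotomic_baseChangeAlong (x : T' →+* O) hx ρ' p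
      hdet'
    have hres' : ρ'.residual.IsUnramifiedAt (Pv.q j) :=
      residual_unramified_of_isEquiv he _
        (residual_unramified_baseChangeAlong (φQ : RQ →+* T') hφ ρQ _ (hresQ j))
    have hresx := residual_unramified_baseChangeAlong (x : T' →+* O) hx ρ' _ hres'
    refine H59.isUnipotentOnInertiaAt_of_trace p hp _ hdetx (Pv.q j) (Pv.q_prime j) (hqp j)
      hresx (Pv.P j) (Pv.P_over j) (Pv.τ j) (Pv.τ_gen j) ?_
    rw [Fermat.Agent.S59.H99.trace_baseChangeAlong]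
    obtain ⟨b', hb'⟩ := H77.stmt_TRANSPORT RQ T' (φQ : RQ →+* T') hφ ρQ ρ' he bQ
    have hent : ∀ a c, LinearMap.toMatrix b' b' (ρ'.ρ (Pv.τ j)) a c =
        φQ (LinearMap.toMatrix bQ bQ (ρQ.ρ (Pv.τ j)) a c) := by
      intro a c
      rw [LinearMap.toMatrix_apply, LinearMap.toMatrix_apply]
      exact hb' _ c a
    rw [LinearMap.trace_eq_matrix_trace T' b', Matrix.trace_fin_two, hent, hent]
    have h2 := htr j
    rw [hij, pow_zero, Nat.sub_zero, (hζ j).pow_eq_one, Matrix.trace_fin_two] at h2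
    simp only [RingHom.mapMatrix_apply, Matrix.map_apply, RingHom.coe_coe, hx'e] at h2
    have h3 : algebraMap 𝒪 O (1 + 1) = 2 := by
      rw [map_add, map_one]
      norm_num
    rw [h3] at h2
    have h4 : (x : T' →+* O) (φQ (LinearMap.toMatrix bQ bQ (ρQ.ρ (Pv.τ j)) 0 0) +
        φQ (LinearMap.toMatrix bQ bQ (ρQ.ρ (Pv.τ j)) 1 1)) =
        x (φQ (LinearMap.toMatrix bQ bQ (ρQ.ρ (Pv.τ j)) 0 0)) +
        x (φQ (LinearMap.toMatrix bQ bQ (ρQ.ρ (Pv.τ j)) 1 1)) := map_add _ _ _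
    rw [h4]
    exact h2
  -- the point is of a ramified type
  have hδ : (fun j => ζ j ^ i j - ζ j ^ (p ^ eP j - i j)) ∈ pvTypes p eP ζ :=
    mem_pvTypes.2 ⟨i, hi, hi0, rfl⟩
  have hX : ∀ a, (x'.comp γ) (MvPowerSeries.X a) ∈ maximalIdeal O := fun a =>
    hx' _ (gamma_X_mem hsurj γ a)
  have hk := h𝔞 _ hδ O (x'.comp γ) hinj hX (htype hi0)
  have hf' : f ∈ 𝔞 (fun j => ζ j ^ i j - ζ j ^ (p ^ eP j - i j)) :=
    (Finset.inf_le hδ : (pvTypes p eP ζ).inf 𝔞 ≤ _) hf
  have h5 := hk hf'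
  rw [RingHom.mem_ker] at h5
  rw [← hx'e]
  exact h5

end Main

end Fermat.Agent.L.Pivot.H72
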