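/-
PIVOT (item 66), PV-ASM, leaf C = PV-NU (helper72): arithmetic of the level
`pvLevel N1 qP qv = N1 · ∏ qv_i² · ∏ qP_j` (`N1` squarefree, `qP_j ∣ N1`).
-/
import Fermat.Agent.L.Pivot.Global

set_option autoImplicit false

namespace Fermat.Agent.L.Pivot.H72

open Fermat.Agent.S59.Asm

section Arith

variable (N1 : ℕ) {k r : ℕ} (qP : Fin k → ℕ) (qv : Fin r → ℕ)

theorem pvLevel_eq_mul : pvLevel N1 qP qv = N1 * (∏ i, qv i ^ 2) * ∏ j, qP j := rfl

/-- The prime divisors of `pvLevel`. -/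
theorem prime_dvd_pvLevel (hqP : ∀ j, (qP j).Prime) (hqv : ∀ i, (qv i).Prime)
    {q' : ℕ} (hq' : q'.Prime) (h : q' ∣ pvLevel N1 qP qv) :
    q' ∣ N1 ∨ (∃ i, q' = qv i) ∨ ∃ j, q' = qP j := by
  rw [pvLevel_eq_mul] at h
  rcases (Nat.Prime.dvd_mul hq').1 h with h | h
  · rcases (Nat.Prime.dvd_mul hq').1 h with h | h
    · exact Or.inl h
    · obtain ⟨i, -, hi⟩ := (Prime.dvd_finsetProd_iff hq'.prime _).1 h
      exact Or.inr (Or.inl ⟨i, (Nat.prime_dvd_prime_iff_eq hq' (hqv i)).1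
        (hq'.dvd_of_dvd_pow hi)⟩)
  · obtain ⟨j, -, hj⟩ := (Prime.dvd_finsetProd_iff hq'.prime _).1 h
    exact Or.inr (Or.inr ⟨j, (Nat.prime_dvd_prime_iff_eq hq' (hqP j)).1 hj⟩)

/-- `q_j² ∥ pvLevel`. -/
theorem factorization_pvLevel (hN1 : N1 ≠ 0) (hsq : Squarefree N1)
    (hqP : ∀ j, (qP j).Prime) (hinj : Function.Injective qP) (hqv : ∀ i, (qv i).Prime)
    (j : Fin k) (hdiv : qP j ∣ N1) (hne : ∀ i, qv i ≠ qP j) :
    (pvLevel N1 qP qv).factorization (qP j) = 2 := by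
  have hA : (∏ i, qv i ^ 2) ≠ 0 :=
    Finset.prod_ne_zero_iff.2 fun i _ => pow_ne_zero 2 (hqv i).ne_zero
  have hB : (∏ j, qP j) ≠ 0 := Finset.prod_ne_zero_iff.2 fun j _ => (hqP j).ne_zero
  rw [pvLevel_eq_mul, Nat.factorization_mul (mul_ne_zero hN1 hA) hB,
    Nat.factorization_mul hN1 hA]
  simp only [Finsupp.coe_add, Pi.add_apply]
  have h1 : N1.factorization (qP j) = 1 := by
    have h2 := Squarefree.natFactorization_le_one (qP j) hsq
    have h3 := Nat.Prime.factorization_pos_of_dvd (hqP j) hN1 hdiv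
    omega
  have h2 : (∏ i, qv i ^ 2).factorization (qP j) = 0 := by
    apply Nat.factorization_eq_zero_of_not_dvd
    intro h
    obtain ⟨i, -, hi⟩ := (Prime.dvd_finsetProd_iff (hqP j).prime _).1 h
    exact hne i ((Nat.prime_dvd_prime_iff_eq (hqP j) (hqv i)).1
      ((hqP j).dvd_of_dvd_pow hi)).symm
  have h3 : (∏ j, qP j).factorization (qP j) = 1 := by
    rw [Nat.factorization_prod (fun x _ => (hqP x).ne_zero), Finsupp.finsetSum_apply,
      Finset.sum_eq_single j]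
    · rw [(hqP j).factorization, Finsupp.single_eq_same]
    · intro j' _ hj'
      rw [(hqP j').factorization, Finsupp.single_eq_of_ne]
      exact fun h => hj' (hinj h).symm
    · intro h
      exact absurd (Finset.mem_univ j) h
  rw [h1, h2, h3]

/-- `pvLevel = M q_j²` with `q_j ∤ M`. -/
theorem pvLevel_split (hN1 : N1 ≠ 0) (hsq : Squarefree N1)
    (hqP : ∀ j, (qP j).Prime) (hinj : Function.Injective qP) (hqv : ∀ i, (qv i).Prime)
    (j : Fin k) (hdiv : qP j ∣ N1) (hne : ∀ i, qv i ≠ qP j) :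
    pvLevel N1 qP qv = pvLevel N1 qP qv / qP j ^ 2 * qP j ^ 2 ∧
      ¬ qP j ∣ pvLevel N1 qP qv / qP j ^ 2 ∧
      pvLevel N1 qP qv / qP j ^ 2 * qP j = pvLevel N1 qP qv / qP j := by
  have hf := factorization_pvLevel N1 qP qv hN1 hsq hqP hinj hqv j hdiv hne
  have hN : pvLevel N1 qP qv ≠ 0 := by
    rw [pvLevel_eq_mul]
    exact mul_ne_zero (mul_ne_zero hN1
      (Finset.prod_ne_zero_iff.2 fun i _ => pow_ne_zero 2 (hqv i).ne_zero))
      (Finset.prod_ne_zero_iff.2 fun j _ => (hqP j).ne_zero)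
  have h1 := Nat.ordProj_mul_ordCompl_eq_self (pvLevel N1 qP qv) (qP j)
  have h2 := Nat.not_dvd_ordCompl (hqP j) hN
  rw [hf] at h1 h2
  refine ⟨by rw [mul_comm]; exact h1.symm, h2, ?_⟩
  have hq0 : 0 < qP j := (hqP j).pos
  have h3 : pvLevel N1 qP qv = (pvLevel N1 qP qv / qP j ^ 2 * qP j) * qP j := by
    rw [mul_assoc, ← pow_two, mul_comm]
    exact h1.symm
  conv_rhs => rw [h3]
  rw [Nat.mul_div_cancel _ hq0]

end Arith

end Fermat.Agent.L.Pivot.H72
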