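/-
PIVOT (item 66), package PV-GAL-A, algebraic part (helper72).

* `residue_toMatrix_of_scalar` : if `σ` acts as a scalar in the residual representation, the
  matrix of `ρ σ` (any basis) is scalar modulo the maximal ideal.
* `baseChange_eq_smul_of_map` : if `φ` kills the traceless part of the matrix of `f`, then
  `f.baseChange` is a scalar.
* `eq_one_of_sq_eq_one` : `s² = 1`, `s ≡ 1`, `2` a unit `⟹ s = 1`.
* `exists_gens_of_quot` : relative generators from a bound on the homomorphisms of a quotient to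
  the dual numbers.
-/
import Fermat.Agent.S56.H50_Gen

set_option autoImplicit false
set_option linter.unusedSectionVars false
set_option linter.style.haveILetI false

namespace Fermat.Agent.L.Pivot.H72

open IsLocalRing Fermat.Agent.S53
open scoped TensorProduct

section Scalar

variable {A : Type} [CommRing A] [IsLocalRing A]

/-- Base change of a residual representation: a scalar stays a scalar. -/
theorem resBaseChange_scalar {k k' : Type} [Field k] [Field k'] [Algebra k k']
    (ρbar : ResidualGaloisRep k) (σ : GQ) (c : k)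
    (h : ρbar.ρ σ = c • (1 : Module.End k ρbar.V)) :
    (ρbar.baseChange k').ρ σ =
      algebraMap k k' c • (1 : Module.End k' (ρbar.baseChange k').V) := by
  show (ρbar.ρ σ).baseChange k' = _
  rw [h]
  refine LinearMap.ext fun x => ?_
  induction x using TensorProduct.induction_on with
  | zero => simp
  | tmul a v =>
    rw [LinearMap.baseChange_tmul]
    simp only [LinearMap.smul_apply, Module.End.one_apply]
    rw [TensorProduct.tmul_smul, TensorProduct.smul_tmul', Algebra.smul_def,
      TensorProduct.smul_tmul', smul_eq_mul]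
  | add x y hx hy => rw [map_add, hx, hy, map_add]

/-- If `σ` acts as the scalar `c` in a representation equivalent to the residual representation
of `ρ`, then the matrix of `ρ σ` in any basis is the scalar `c` modulo the maximal ideal. -/
theorem residue_toMatrix_of_scalar (ρ : GaloisRepAdic A)
    (ρ' : ResidualGaloisRep (ResidueField A)) (h : ρ.residual.IsEquiv ρ')
    (σ : GQ) (c : ResidueField A) (hσ : ρ'.ρ σ = c • (1 : Module.End (ResidueField A) ρ'.V))
    (b : Module.Basis (Fin 2) A ρ.V) (i j : Fin 2) :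
    residue A (LinearMap.toMatrix b b (ρ.ρ σ) i j) = if i = j then c else 0 := by
  obtain ⟨e⟩ := h
  have h1 : (ρ.ρ σ).baseChange (ResidueField A) =
      c • (1 : Module.End (ResidueField A) (ResidueField A ⊗[A] ρ.V)) := by
    refine LinearMap.ext fun x => ?_
    apply e.toLinearEquiv.injective
    have := e.map_apply σ x
    rw [hσ] at this
    refine this.trans ?_
    simp only [LinearMap.smul_apply, Module.End.one_apply]
    exact (map_smul e.toLinearEquiv c x).symm
  have h2 : LinearMap.toMatrix (Algebra.TensorProduct.basis (ResidueField A) b)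
      (Algebra.TensorProduct.basis (ResidueField A) b)
      ((ρ.ρ σ).baseChange (ResidueField A)) =
      (LinearMap.toMatrix b b (ρ.ρ σ)).map (residue A) := by
    rw [LinearMap.toMatrix_baseChange]
    rfl
  have h3 := congrFun (congrFun h2 i) j
  rw [Matrix.map_apply] at h3
  rw [← h3, h1, map_smul]
  have : LinearMap.toMatrix (Algebra.TensorProduct.basis (ResidueField A) b)
      (Algebra.TensorProduct.basis (ResidueField A) b)
      (1 : Module.End (ResidueField A) (ResidueField A ⊗[A] ρ.V)) = 1 := LinearMap.toMatrix_one _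
  rw [this, Matrix.smul_apply, Matrix.one_apply]
  split_ifs <;> simp

/-- If `φ` kills the traceless part of the matrix of `f`, then `f.baseChange` is the scalar
`φ (M 0 0)`. -/
theorem baseChange_eq_smul_of_map {B : Type} [CommRing B] (φ : A →+* B)
    {V : Type} [AddCommGroup V] [Module A V] (b : Module.Basis (Fin 2) A V)
    (f : Module.End A V)
    (h01 : φ (LinearMap.toMatrix b b f 0 1) = 0) (h10 : φ (LinearMap.toMatrix b b f 1 0) = 0)
    (hd : φ (LinearMap.toMatrix b b f 0 0 - LinearMap.toMatrix b b f 1 1) = 0) :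
    letI : Algebra A B := φ.toAlgebra
    f.baseChange B = φ (LinearMap.toMatrix b b f 0 0) • (1 : Module.End B (B ⊗[A] V)) := by
  letI : Algebra A B := φ.toAlgebra
  apply (LinearMap.toMatrix (Algebra.TensorProduct.basis B b)
    (Algebra.TensorProduct.basis B b)).injective
  rw [LinearMap.toMatrix_baseChange, map_smul]
  have : LinearMap.toMatrix (Algebra.TensorProduct.basis B b)
      (Algebra.TensorProduct.basis B b) (1 : Module.End B (B ⊗[A] V)) = 1 :=
    LinearMap.toMatrix_one _
  rw [this]
  have hd' : φ (LinearMap.toMatrix b b f 1 1) = φ (LinearMap.toMatrix b b f 0 0) := by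
    rw [map_sub, sub_eq_zero] at hd
    exact hd.symm
  ext i j
  rw [Matrix.map_apply, Matrix.smul_apply, Matrix.one_apply]
  show φ _ = _
  fin_cases i <;> fin_cases j <;> simp [h01, h10, hd']

/-- `s² = 1`, `s ≡ 1 mod 𝔪`, `2` a unit: `s = 1`. -/
theorem eq_one_of_sq_eq_one (h2 : IsUnit (2 : A)) (s : A) (hs : s * s = 1)
    (hs1 : s - 1 ∈ maximalIdeal A) : s = 1 := by
  have hu : IsUnit (s + 1) := by
    have e : s + 1 = 2 + (s - 1) := by ring
    rw [e]
    by_contra hn
    have h3 : (2 : A) + (s - 1) ∈ maximalIdeal A := (mem_maximalIdeal _).2 hn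
    have h4 : (2 : A) ∈ maximalIdeal A := by
      have := (maximalIdeal A).sub_mem h3 hs1
      simpa using this
    exact (mem_maximalIdeal _).1 h4 h2
  have h0 : (s + 1) * (s - 1) = 0 := by
    have : (s + 1) * (s - 1) = s * s - 1 := by ring
    rw [this, hs, sub_self]
  have := hu.mul_right_eq_zero.1 h0
  exact sub_eq_zero.1 this

/-- `2` is a unit in a local ring in which the odd prime `p` is not a unit. -/
theorem isUnit_two_of_odd {p : ℕ} (hp : p.Prime) (hp2 : p ≠ 2) (hpA : (p : A) ∈ maximalIdeal A) :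
    IsUnit (2 : A) := by
  by_contra hn
  have h2 : (2 : A) ∈ maximalIdeal A := (mem_maximalIdeal _).2 hn
  obtain ⟨m, hm⟩ := hp.odd_of_ne_two hp2
  have h1 : (1 : A) = (p : A) - 2 * (m : A) := by
    rw [hm]; push_cast; ring
  have : (1 : A) ∈ maximalIdeal A := by
    rw [h1]
    exact (maximalIdeal A).sub_mem hpA ((maximalIdeal A).mul_mem_right _ h2)
  exact (mem_maximalIdeal _).1 this isUnit_one

end Scalar

section Gens

variable {𝒪 : Type} [CommRing 𝒪] [IsLocalRing 𝒪] [Finite (ResidueField 𝒪)]
variable {R : Type} [CommRing R] [IsLocalRing R] [IsNoetherianRing R] [Algebra 𝒪 R]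
  [IsLocalHom (algebraMap 𝒪 R)]

/-- **Relative generators.**  If the homomorphisms `R → k[ε]` killing `J` inject into a set with
at most `|k|^g` elements, then `m_R` is generated by `g` elements together with `m_𝒪` and `J`. -/
theorem exists_gens_rel (hres : Function.Surjective (residue R ∘ algebraMap 𝒪 R))
    (J : Ideal R) (hJ : J ≤ maximalIdeal R) (g : ℕ) {Q : Type*} [Finite Q]
    (hQ : Nat.card Q ≤ Nat.card (ResidueField 𝒪) ^ g)
    (F : {φ : (letI := dualNumberAlgebra 𝒪; R →ₐ[𝒪] DualNumber (ResidueField 𝒪)) //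
      ∀ x ∈ J, φ x = 0} → Q)
    (hF : Function.Injective F) :
    ∃ x : Fin g → R, (∀ i, x i ∈ maximalIdeal R) ∧
      maximalIdeal R ≤
        Ideal.span (Set.range x) ⊔ (maximalIdeal 𝒪).map (algebraMap 𝒪 R) ⊔ J := by
  letI := dualNumberAlgebra 𝒪
  have hJtop : J ≠ ⊤ := fun h => (Ideal.IsMaximal.ne_top (maximalIdeal.isMaximal R))
    (top_le_iff.1 (h ▸ hJ))
  haveI : Nontrivial (R ⧸ J) := Ideal.Quotient.nontrivial_iff.2 hJtop
  haveI : IsLocalRing (R ⧸ J) :=
    IsLocalRing.of_surjective' (Ideal.Quotient.mk J) Ideal.Quotient.mk_surjective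
  have hmkloc : IsLocalHom (Ideal.Quotient.mk J) :=
    IsLocalHom.of_surjective _ Ideal.Quotient.mk_surjective
  have halg : (algebraMap 𝒪 (R ⧸ J)) = (Ideal.Quotient.mk J).comp (algebraMap 𝒪 R) := rfl
  haveI : IsLocalHom (algebraMap 𝒪 (R ⧸ J)) := by
    rw [halg]
    refine ⟨fun a ha => ?_⟩
    have h1 : IsUnit (algebraMap 𝒪 R a) := hmkloc.map_nonunit _ ha
    exact isUnit_of_map_unit (algebraMap 𝒪 R) a h1
  have hres' : Function.Surjective (residue (R ⧸ J) ∘ algebraMap 𝒪 (R ⧸ J)) := by
    intro y
    obtain ⟨y', rfl⟩ := residue_surjective y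
    obtain ⟨z, rfl⟩ := Ideal.Quotient.mk_surjective y'
    obtain ⟨c, hc⟩ := H55.exists_scalar_sub_mem hres z
    refine ⟨c, ?_⟩
    simp only [Function.comp_apply]
    rw [← sub_eq_zero, ← map_sub, residue_eq_zero_iff, halg, RingHom.comp_apply, ← map_sub,
      mem_maximalIdeal, mem_nonunits_iff]
    intro hu
    have h1 : IsUnit (algebraMap 𝒪 R c - z) := hmkloc.map_nonunit _ hu
    have h2 : algebraMap 𝒪 R c - z ∈ maximalIdeal R := by
      have := (maximalIdeal R).neg_mem hc
      simpa using this
    exact (mem_maximalIdeal _).1 h2 h1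
  -- the injection for the quotient
  let F' : ((R ⧸ J) →ₐ[𝒪] DualNumber (ResidueField 𝒪)) → Q := fun φ' =>
    F ⟨φ'.comp (Ideal.Quotient.mkₐ 𝒪 J), fun x hx => by
      rw [AlgHom.comp_apply, Ideal.Quotient.mkₐ_eq_mk, Ideal.Quotient.eq_zero_iff_mem.2 hx,
        map_zero]⟩
  have hF' : Function.Injective F' := by
    intro φ ψ h
    have h1 := congrArg Subtype.val (hF h)
    refine AlgHom.ext fun y => ?_
    obtain ⟨z, rfl⟩ := Ideal.Quotient.mk_surjective y
    exact congrArg (fun t : R →ₐ[𝒪] DualNumber (ResidueField 𝒪) => t z) h1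
  have hcard : Nat.card (H55.RelCot 𝒪 (R ⧸ J)) ≤ Nat.card (ResidueField 𝒪) ^ g :=
    (Fermat.Agent.S56.H50.card_relCot_le_of_injective hres' F' hF').trans hQ
  obtain ⟨x', hx', hgen'⟩ := Fermat.Agent.S56.H50.exists_gens_of_card_le hres' g hcard
  have hgen := Fermat.Agent.S56.H50.le_of_le_sup_sq _ hgen'
  choose x hx using fun i => Ideal.Quotient.mk_surjective (x' i)
  have hxm : ∀ i, x i ∈ maximalIdeal R := by
    intro i
    rw [mem_maximalIdeal, mem_nonunits_iff]
    intro hu
    have h1 : IsUnit (x' i) := by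
      rw [← hx i]
      exact hu.map (Ideal.Quotient.mk J)
    exact (mem_maximalIdeal _).1 (hx' i) h1
  refine ⟨x, hxm, fun z hz => ?_⟩
  have hz' : Ideal.Quotient.mk J z ∈ maximalIdeal (R ⧸ J) := by
    rw [mem_maximalIdeal, mem_nonunits_iff]
    intro hu
    exact (mem_maximalIdeal _).1 hz (hmkloc.map_nonunit _ hu)
  have h1 := hgen hz'
  have hmap : Ideal.span (Set.range x') ⊔ (maximalIdeal 𝒪).map (algebraMap 𝒪 (R ⧸ J)) =
      (Ideal.span (Set.range x) ⊔ (maximalIdeal 𝒪).map (algebraMap 𝒪 R)).map
        (Ideal.Quotient.mk J) := by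
    rw [Ideal.map_sup, Ideal.map_span, Ideal.map_map, ← halg]
    congr 2
    ext y
    constructor
    · rintro ⟨i, rfl⟩
      exact ⟨x i, ⟨i, rfl⟩, hx i⟩
    · rintro ⟨_, ⟨i, rfl⟩, rfl⟩
      exact ⟨i, (hx i).symm⟩
  rw [hmap] at h1
  have h2 : z ∈ ((Ideal.span (Set.range x) ⊔ (maximalIdeal 𝒪).map (algebraMap 𝒪 R)).map
      (Ideal.Quotient.mk J)).comap (Ideal.Quotient.mk J) := h1
  rw [Ideal.comap_map_of_surjective _ Ideal.Quotient.mk_surjective, ← RingHom.ker_eq_comap_bot,
    Ideal.mk_ker] at h2
  exact h2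

end Gens

end Fermat.Agent.L.Pivot.H72
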