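/-
PIVOT (item 66), package PV-GAL-A (helper72): `stmt_PVGalA : Stmt_PVGalA`.

Relative form of T-A (`Fermat.Agent.S56.H50.surj`): the tangent bound `|k|^g` for the condition
`𝒟⁰ = condPv0` gives a surjection `P = 𝒪⟦6k + g⟧ ↠ R` onto every universal ring of
`condFl … (Σ ∪ T)` sending the local coordinates to the traceless parts of `ρ (τ_j)`,
`ρ (frob_j)`.
-/
import Fermat.Agent.L.Pivot.H72_PVGalAAlg
import Fermat.Agent.L.Pivot.Global
import Fermat.Agent.S56.H92_StableFlFinal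
import Fermat.Agent.R.H89_FrobCyc

set_option autoImplicit false
set_option linter.unusedSectionVars false
set_option linter.style.haveILetI false

namespace Fermat.Agent.L.Pivot.H72

open IsLocalRing Fermat.Agent.S53 Fermat.Agent.S56
open scoped TensorProduct

section Coord

variable {R : Type} [CommRing R] {k : ℕ}

/-- The six local coordinates at the `j`-th pivot prime. -/
def coordOf (Mσ Mφ : Fin k → Matrix (Fin 2) (Fin 2) R) (j : Fin k) : Fin 6 → R :=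
  ![Mσ j 0 1, Mσ j 1 0, Mσ j 0 0 - Mσ j 1 1, Mφ j 0 1, Mφ j 1 0, Mφ j 0 0 - Mφ j 1 1]

/-- The family of `6k + g` elements. -/
def famY (g : ℕ) (c : Fin k → Fin 6 → R) (x : Fin g → R) (n : Fin (6 * k + g)) : R :=
  if h : n.1 < 6 * k then c ⟨n.1 / 6, by omega⟩ ⟨n.1 % 6, Nat.mod_lt _ (by norm_num)⟩
  else x ⟨n.1 - 6 * k, by have := n.2; omega⟩

theorem famY_cIdx (g : ℕ) (c : Fin k → Fin 6 → R) (x : Fin g → R) (j : Fin k) (i : Fin 6) :
    famY g c x (cIdx k g j i) = c j i := by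
  have h : (cIdx k g j i).1 < 6 * k := by
    show 6 * j.1 + i.1 < 6 * k
    have := j.2; have := i.2; omega
  rw [famY, dif_pos h]
  congr 1
  · apply Fin.ext
    show (6 * j.1 + i.1) / 6 = j.1
    have := i.2; omega
  · apply Fin.ext
    show (6 * j.1 + i.1) % 6 = i.1
    have := i.2; omega

theorem famY_xIdx (g : ℕ) (c : Fin k → Fin 6 → R) (x : Fin g → R) (a : Fin g) :
    famY g c x (xIdx k g a) = x a := by
  have h : ¬ (xIdx k g a).1 < 6 * k := by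
    show ¬ 6 * k + a.1 < 6 * k
    omega
  rw [famY, dif_neg h]
  congr 1
  apply Fin.ext
  show 6 * k + a.1 - 6 * k = a.1
  omega

end Coord

section Main

variable {𝒪 : Type} [CommRing 𝒪] [IsDomain 𝒪] [IsDiscreteValuationRing 𝒪]
  [IsAdicComplete (maximalIdeal 𝒪) 𝒪] [Finite (ResidueField 𝒪)]
variable {p : ℕ} [Fact p.Prime] {ρbar : ResidualGaloisRep (ResidueField 𝒪)}
variable {S Smin : Finset ℕ} {k : ℕ} {Pv : PivotPrimes k} {T : Finset ℕ}
variable {𝒟 : Cond 𝒪}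

/-- Residues of the matrix entries of the universal deformation at an element acting as a
scalar in `ρbar`. -/
theorem residue_entry (DQ : GaloisRep.DeformationRingData 𝒪 ρbar 𝒟)
    (b : Module.Basis (Fin 2) DQ.R DQ.ρ.V) (σ : Fermat.Agent.S53.GQ) (c : ResidueField 𝒪)
    (h : ρbar.ρ σ = c • (1 : Module.End (ResidueField 𝒪) ρbar.V)) (i j : Fin 2) :
    residue DQ.R (LinearMap.toMatrix b b (DQ.ρ.ρ σ) i j) =
      if i = j then ResidueField.map (algebraMap 𝒪 DQ.R) c else 0 := by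
  letI : Algebra (ResidueField 𝒪) (ResidueField DQ.R) :=
    (ResidueField.map (algebraMap 𝒪 DQ.R)).toAlgebra
  exact residue_toMatrix_of_scalar DQ.ρ _ DQ.residual_isEquiv σ _
    (resBaseChange_scalar ρbar σ c h) b i j

/-- The tame generators act trivially in `ρbar`. -/
theorem rhobar_tau (hex : Pv.IsExceptional p ρbar) (j : Fin k) :
    ρbar.ρ (Pv.τ j) = (1 : ResidueField 𝒪) • (1 : Module.End (ResidueField 𝒪) ρbar.V) := by
  rw [one_smul]
  exact (hex j).2.2.1 (Pv.P j) (Pv.P_over j) (Pv.τ j) (Pv.τ_gen j).1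

/-- The coordinates of the universal deformation at the pivot primes. -/
noncomputable def ucoord (DQ : GaloisRep.DeformationRingData 𝒪 ρbar 𝒟)
    (b : Module.Basis (Fin 2) DQ.R DQ.ρ.V) (Pv : PivotPrimes k) : Fin k → Fin 6 → DQ.R :=
  coordOf (fun j => LinearMap.toMatrix b b (DQ.ρ.ρ (Pv.τ j)))
    (fun j => LinearMap.toMatrix b b (DQ.ρ.ρ (Pv.frob j)))

theorem ucoord_mem (hex : Pv.IsExceptional p ρbar)
    (DQ : GaloisRep.DeformationRingData 𝒪 ρbar 𝒟)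
    (b : Module.Basis (Fin 2) DQ.R DQ.ρ.V) (j : Fin k) (i : Fin 6) :
    ucoord DQ b Pv j i ∈ maximalIdeal DQ.R := by
  obtain ⟨c, hc⟩ := (hex j).2.2.2
  have hτ := rhobar_tau hex j
  rw [← residue_eq_zero_iff]
  have e1 := residue_entry DQ b (Pv.τ j) 1 hτ
  have e2 := residue_entry DQ b (Pv.frob j) c hc
  fin_cases i
  · show residue DQ.R (LinearMap.toMatrix b b (DQ.ρ.ρ (Pv.τ j)) 0 1) = 0
    rw [e1 0 1]; simp
  · show residue DQ.R (LinearMap.toMatrix b b (DQ.ρ.ρ (Pv.τ j)) 1 0) = 0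
    rw [e1 1 0]; simp
  · show residue DQ.R (LinearMap.toMatrix b b (DQ.ρ.ρ (Pv.τ j)) 0 0 -
      LinearMap.toMatrix b b (DQ.ρ.ρ (Pv.τ j)) 1 1) = 0
    rw [map_sub, e1 0 0, e1 1 1]; simp
  · show residue DQ.R (LinearMap.toMatrix b b (DQ.ρ.ρ (Pv.frob j)) 0 1) = 0
    rw [e2 0 1]; simp
  · show residue DQ.R (LinearMap.toMatrix b b (DQ.ρ.ρ (Pv.frob j)) 1 0) = 0
    rw [e2 1 0]; simp
  · show residue DQ.R (LinearMap.toMatrix b b (DQ.ρ.ρ (Pv.frob j)) 0 0 -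
      LinearMap.toMatrix b b (DQ.ρ.ρ (Pv.frob j)) 1 1) = 0
    rw [map_sub, e2 0 0, e2 1 1]; simp

/-- `p = 0` in `k[ε]`. -/
theorem natCast_p_dualNumber (hp𝒪 : (p : 𝒪) ∈ maximalIdeal 𝒪) :
    ((p : ℕ) : DualNumber (ResidueField 𝒪)) = 0 := by
  letI := dualNumberAlgebra 𝒪
  rw [← map_natCast (algebraMap 𝒪 (DualNumber (ResidueField 𝒪))) p]
  show TrivSqZeroExt.inl (residue 𝒪 (p : 𝒪)) = 0
  rw [(residue_eq_zero_iff _).2 hp𝒪, TrivSqZeroExt.inl_zero]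

/-- A scalar of determinant `1` which is residually `1` is `1` (odd residue characteristic). -/
theorem scalar_eq_one {A : Type} [CommRing A] [IsLocalRing A] (hp2 : p ≠ 2)
    (hpA : (p : A) ∈ maximalIdeal A) (ρ : GaloisRepAdic A)
    (ρ' : ResidualGaloisRep (ResidueField A)) (h : ρ.residual.IsEquiv ρ')
    (σ : Fermat.Agent.S53.GQ) (hσ' : ρ'.ρ σ = (1 : ResidueField A) • 1)
    (s : A) (hσ : ρ.ρ σ = s • (1 : Module.End A ρ.V)) (hdet : LinearMap.det (ρ.ρ σ) = 1) :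
    s = 1 := by
  have hp : p.Prime := Fact.out
  apply eq_one_of_sq_eq_one (isUnit_two_of_odd hp hp2 hpA)
  · rw [hσ, LinearMap.det_smul, ρ.finrank_eq, map_one, mul_one] at hdet
    rw [← hdet]; ring
  · obtain ⟨r, b, hb⟩ := exists_isMatOf ρ
    have h1 := residue_toMatrix_of_scalar ρ ρ' h σ 1 hσ' b 0 0
    rw [hσ, map_smul] at h1
    have : LinearMap.toMatrix b b (1 : Module.End A ρ.V) = 1 := LinearMap.toMatrix_one _
    rw [this] at h1
    simp only [Matrix.smul_apply, Matrix.one_apply_eq, smul_eq_mul, mul_one, if_true] at h1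
    rw [← residue_eq_zero_iff, map_sub, h1, map_one, sub_self]

/-- The first-order deformation of type `𝒟⁰` attached to a homomorphism `R → k[ε]` killing the
local coordinates. -/
theorem exists_tsub0 (hyp : Hyp 𝒪 p ρbar S Smin) (hex : Pv.IsExceptional p ρbar)
    (DQ : GaloisRep.DeformationRingData 𝒪 ρbar (condFl 𝒪 p Smin (Pv.set ∪ T)))
    (b : Module.Basis (Fin 2) DQ.R DQ.ρ.V)
    (φ : letI := dualNumberAlgebra 𝒪; DQ.R →ₐ[𝒪] DualNumber (ResidueField 𝒪))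
    (hφJ : ∀ j i, φ (ucoord DQ b Pv j i) = 0) :
    letI := dualNumberAlgebra 𝒪
    ∃ (hφ : IsLocalHom (φ : DQ.R →+* DualNumber (ResidueField 𝒪)))
      (x : TSub 𝒪 ρbar (condPv0 𝒪 p Smin Pv T)),
      x.1 = DQ.ρ.baseChangeAlong (φ : DQ.R →+* DualNumber (ResidueField 𝒪)) hφ := by
  letI := dualNumberAlgebra 𝒪
  letI := resDualNumberAlgebra 𝒪
  have hp : p.Prime := Fact.out
  obtain ⟨hφ, x, hx⟩ := Fermat.Agent.S56.H50.exists_tsub_of_algHom
    (Fermat.Agent.S56.H92.stmt_stable_Fl 𝒪 p Smin (Pv.set ∪ T)) DQ φ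
  have hFl : condFl 𝒪 p Smin (Pv.set ∪ T)
      (DQ.ρ.baseChangeAlong (φ : DQ.R →+* DualNumber (ResidueField 𝒪)) hφ) := hx ▸ x.2.1
  have hres : (DQ.ρ.baseChangeAlong (φ : DQ.R →+* DualNumber (ResidueField 𝒪)) hφ).residual.IsEquiv
      (ρbar.baseChange (ResidueField (DualNumber (ResidueField 𝒪)))) := hx ▸ x.2.2
  refine ⟨hφ, ⟨DQ.ρ.baseChangeAlong (φ : DQ.R →+* DualNumber (ResidueField 𝒪)) hφ,
    ⟨hFl, fun j => ⟨?_, ?_⟩⟩, hres⟩, rfl⟩
  · -- the tame generator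
    have h01 : (φ : DQ.R →+* DualNumber (ResidueField 𝒪))
        (LinearMap.toMatrix b b (DQ.ρ.ρ (Pv.τ j)) 0 1) = 0 := hφJ j 0
    have h10 : (φ : DQ.R →+* DualNumber (ResidueField 𝒪))
        (LinearMap.toMatrix b b (DQ.ρ.ρ (Pv.τ j)) 1 0) = 0 := hφJ j 1
    have hd : (φ : DQ.R →+* DualNumber (ResidueField 𝒪))
        (LinearMap.toMatrix b b (DQ.ρ.ρ (Pv.τ j)) 0 0 -
          LinearMap.toMatrix b b (DQ.ρ.ρ (Pv.τ j)) 1 1) = 0 := hφJ j 2
    have hσ := baseChange_eq_smul_of_map (φ : DQ.R →+* DualNumber (ResidueField 𝒪)) b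
      (DQ.ρ.ρ (Pv.τ j)) h01 h10 hd
    have hσ2 : (DQ.ρ.baseChangeAlong (φ : DQ.R →+* DualNumber (ResidueField 𝒪)) hφ).ρ (Pv.τ j) =
        (φ : DQ.R →+* DualNumber (ResidueField 𝒪))
          (LinearMap.toMatrix b b (DQ.ρ.ρ (Pv.τ j)) 0 0) • 1 := hσ
    have hcop : (p ^ 1).Coprime (Pv.q j) :=
      Nat.Coprime.pow_left 1 ((Nat.coprime_primes hp (Pv.q_prime j)).2 (Ne.symm (hex j).2.1))
    have hdet0 := hFl.1.1.2 1 (Pv.τ j) 1 (fun μ hμ => by
      rw [pow_one]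
      exact Fermat.Agent.R.H89.inertia_fixes_rootsOfUnity (Pv.q j) (Pv.P j) (Pv.P_over j)
        (Pv.τ j) (Pv.τ_gen j).1 (p ^ 1) hcop μ hμ)
    have hdet : LinearMap.det
        ((DQ.ρ.baseChangeAlong (φ : DQ.R →+* DualNumber (ResidueField 𝒪)) hφ).ρ (Pv.τ j)) = 1 := by
      rw [pow_one, natCast_p_dualNumber hyp.hp𝒪, Ideal.span_singleton_zero, Ideal.mem_bot,
        Nat.cast_one, sub_eq_zero] at hdet0
      exact hdet0
    have hs := scalar_eq_one hyp.hp2 hFl.1.1.1 _ _ hres (Pv.τ j)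
      (by
        have := resBaseChange_scalar (k' := ResidueField (DualNumber (ResidueField 𝒪)))
          ρbar (Pv.τ j) 1 (rhobar_tau hex j)
        rw [map_one] at this
        exact this) _ hσ2 hdet
    rw [hσ2, hs, one_smul]
  · -- the Frobenius lift
    have h01 : (φ : DQ.R →+* DualNumber (ResidueField 𝒪))
        (LinearMap.toMatrix b b (DQ.ρ.ρ (Pv.frob j)) 0 1) = 0 := hφJ j 3
    have h10 : (φ : DQ.R →+* DualNumber (ResidueField 𝒪))
        (LinearMap.toMatrix b b (DQ.ρ.ρ (Pv.frob j)) 1 0) = 0 := hφJ j 4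
    have hd : (φ : DQ.R →+* DualNumber (ResidueField 𝒪))
        (LinearMap.toMatrix b b (DQ.ρ.ρ (Pv.frob j)) 0 0 -
          LinearMap.toMatrix b b (DQ.ρ.ρ (Pv.frob j)) 1 1) = 0 := hφJ j 5
    exact ⟨_, baseChange_eq_smul_of_map (φ : DQ.R →+* DualNumber (ResidueField 𝒪)) b
      (DQ.ρ.ρ (Pv.frob j)) h01 h10 hd⟩

/-- The ideal of the local coordinates. -/
noncomputable def ucoordIdeal (DQ : GaloisRep.DeformationRingData 𝒪 ρbar 𝒟)
    (b : Module.Basis (Fin 2) DQ.R DQ.ρ.V) (Pv : PivotPrimes k) : Ideal DQ.R :=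
  Ideal.span (Set.range fun x : Fin k × Fin 6 => ucoord DQ b Pv x.1 x.2)

theorem ucoordIdeal_le (hex : Pv.IsExceptional p ρbar)
    (DQ : GaloisRep.DeformationRingData 𝒪 ρbar 𝒟)
    (b : Module.Basis (Fin 2) DQ.R DQ.ρ.V) : ucoordIdeal DQ b Pv ≤ maximalIdeal DQ.R := by
  refine Ideal.span_le.2 ?_
  rintro _ ⟨x, rfl⟩
  exact ucoord_mem hex DQ b x.1 x.2

/-- The homomorphisms `R → k[ε]` killing the local coordinates inject into the classes of
first-order deformations of type `𝒟⁰`. -/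
theorem card_algHom0_le (hyp : Hyp 𝒪 p ρbar S Smin) (hex : Pv.IsExceptional p ρbar)
    (DQ : GaloisRep.DeformationRingData 𝒪 ρbar (condFl 𝒪 p Smin (Pv.set ∪ T)))
    (b : Module.Basis (Fin 2) DQ.R DQ.ρ.V) :
    letI := dualNumberAlgebra 𝒪
    ∃ F : {φ : DQ.R →ₐ[𝒪] DualNumber (ResidueField 𝒪) //
        ∀ x ∈ ucoordIdeal DQ b Pv, φ x = 0} →
      Quotient (TSetoid 𝒪 ρbar (condPv0 𝒪 p Smin Pv T)), Function.Injective F := by
  letI := dualNumberAlgebra 𝒪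
  letI := resDualNumberAlgebra 𝒪
  haveI := isLocalHom_algebraMap_dualNumber 𝒪
  haveI := finite_dualNumber 𝒪
  haveI := Fermat.Agent.S56.H50.isAdicComplete_dualNumber (𝒪 := 𝒪)
  have key : ∀ φ : {φ : DQ.R →ₐ[𝒪] DualNumber (ResidueField 𝒪) //
      ∀ x ∈ ucoordIdeal DQ b Pv, φ x = 0}, ∀ j i, φ.1 (ucoord DQ b Pv j i) = 0 :=
    fun φ j i => φ.2 _ (Ideal.subset_span ⟨(j, i), rfl⟩)
  choose hloc G hG using fun φ : {φ : DQ.R →ₐ[𝒪] DualNumber (ResidueField 𝒪) //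
      ∀ x ∈ ucoordIdeal DQ b Pv, φ x = 0} => exists_tsub0 (T := T) hyp hex DQ b φ.1 (key φ)
  refine ⟨fun φ => Quotient.mk (TSetoid 𝒪 ρbar (condPv0 𝒪 p Smin Pv T)) (G φ), fun φ ψ h => ?_⟩
  have h1 : (G φ).1.IsEquiv (G ψ).1 := Quotient.exact h
  rw [hG φ, hG ψ] at h1
  obtain ⟨rbar, hbar⟩ := exists_isMatOfRes ρbar
  obtain ⟨r, hr, hl⟩ := Fermat.Agent.S56.H50.exists_mat_baseChange DQ hbar
  have hmat : IsMatOf (DQ.ρ.baseChangeAlong (ψ.1 : DQ.R →+* DualNumber (ResidueField 𝒪)) (hloc ψ))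
      (fun σ => (r σ).map ψ.1) :=
    hr.baseChangeAlong (ψ.1 : DQ.R →+* DualNumber (ResidueField 𝒪)) (hloc ψ)
  have hl' : IsLift 𝒪 rbar (fun σ => (r σ).map ψ.1) := Univ.IsLift.map ψ.1 (hloc ψ) hl
  have hres := residual_isEquiv_of_isLift hbar hmat hl'
  have hD : condFl 𝒪 p Smin (Pv.set ∪ T)
      (DQ.ρ.baseChangeAlong (ψ.1 : DQ.R →+* DualNumber (ResidueField 𝒪)) (hloc ψ)) :=
    (hG ψ ▸ (G ψ).2.1).1
  have huniv := DQ.universal (DualNumber (ResidueField 𝒪)) (res_surj_dualNumber 𝒪)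
    (DQ.ρ.baseChangeAlong (ψ.1 : DQ.R →+* DualNumber (ResidueField 𝒪)) (hloc ψ)) hD hres
  exact Subtype.ext (huniv.unique ⟨hloc φ, h1⟩ ⟨hloc ψ, ⟨GaloisRepAdic.Equiv.refl _⟩⟩)

end Main

/-- **PV-GAL-A.** -/
theorem stmt_PVGalA : Stmt_PVGalA := by
  intro 𝒪 _ _ _ _ _ p _ ρbar S Smin hyp k Pv hex T g htan DQ b
  obtain ⟨hfin, hcard⟩ := htan
  haveI := hfin
  obtain ⟨F, hF⟩ := card_algHom0_le (T := T) hyp hex DQ b
  obtain ⟨x, hx, hgen⟩ := exists_gens_rel DQ.residue_surjective (ucoordIdeal DQ b Pv)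
    (ucoordIdeal_le hex DQ b) g hcard F hF
  have hy : ∀ n, famY g (ucoord DQ b Pv) x n ∈ maximalIdeal DQ.R := by
    intro n
    unfold famY
    split_ifs
    · exact ucoord_mem hex DQ b _ _
    · exact hx _
  obtain ⟨γ, hγ⟩ := Fermat.Agent.S56.H50.exists_eval (𝒪 := 𝒪) (6 * k + g)
    (famY g (ucoord DQ b Pv) x) hy
  have hc : ∀ (j : Fin k) (i : Fin 6),
      γ (MvPowerSeries.X (cIdx k g j i)) = ucoord DQ b Pv j i := fun j i => by
    rw [hγ, famY_cIdx]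
  refine ⟨γ, Fermat.Agent.S56.H50.surjective_of_gens DQ.residue_surjective _ _ γ hγ ?_,
    fun j => ⟨hc j 0, hc j 1, hc j 2, hc j 3, hc j 4, hc j 5⟩⟩
  refine hgen.trans (sup_le (sup_le ?_ le_sup_right) ?_)
  · refine le_sup_of_le_left (Ideal.span_le.2 ?_)
    rintro _ ⟨a, rfl⟩
    exact Ideal.subset_span ⟨xIdx k g a, famY_xIdx g _ x a⟩
  · refine le_sup_of_le_left (Ideal.span_le.2 ?_)
    rintro _ ⟨⟨j, i⟩, rfl⟩
    exact Ideal.subset_span ⟨cIdx k g j i, famY_cIdx g _ x j i⟩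

end Fermat.Agent.L.Pivot.H72
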