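/-
PIVOT (item 66), package PV-GAL-A, GENERAL form (helper72).

`pvGalA_gen` : for ANY deformation condition `𝒟` which is stable under `R → k[ε]` and implies
`DetIsCyclotomic p`, the tangent bound `|k|^g` for `addPv 𝒟 Pv`
(= `𝒟` + `ρ (τ_j) = 1` + `ρ (frob_j)` scalar) gives a surjection `P = 𝒪⟦6k + g⟧ ↠ R` onto every
universal ring of `𝒟` sending the local coordinates to the traceless parts of `ρ (τ_j)`,
`ρ (frob_j)`.

`pvGalA_cond` : the instance `𝒟 = Fermat.Agent.S59.cond 𝒪 p fl Smin (Σ ∪ T)` (flat or strictly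
ordinary at `p`).
-/
import Fermat.Agent.L.Pivot.H72_PVGalA
import Fermat.Agent.S56.H92_StableSO
import Fermat.Agent.S59.Min

set_option autoImplicit false
set_option linter.unusedSectionVars false
set_option linter.style.haveILetI false

namespace Fermat.Agent.L.Pivot.H72

open IsLocalRing Fermat.Agent.S53 Fermat.Agent.S56
open scoped TensorProduct

/-- The condition `𝒟` together with the pivot constraints `ρ (τ_j) = 1`, `ρ (frob_j)` scalar. -/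
def addPv {𝒪 : Type} [CommRing 𝒪] (𝒟 : Cond 𝒪) {k : ℕ} (Pv : PivotPrimes k) : Cond 𝒪 :=
  fun A _ _ _ ρ => 𝒟 ρ ∧
    ∀ j, ρ.ρ (Pv.τ j) = 1 ∧ ∃ c : A, ρ.ρ (Pv.frob j) = c • (1 : Module.End A ρ.V)

section MainGen

variable {𝒪 : Type} [CommRing 𝒪] [IsDomain 𝒪] [IsDiscreteValuationRing 𝒪]
  [IsAdicComplete (maximalIdeal 𝒪) 𝒪] [Finite (ResidueField 𝒪)]
variable {p : ℕ} [Fact p.Prime] {ρbar : ResidualGaloisRep (ResidueField 𝒪)}
variable {k : ℕ} {Pv : PivotPrimes k}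
variable {𝒟 : Cond 𝒪}

/-- The first-order deformation of type `addPv 𝒟 Pv` attached to a homomorphism `R → k[ε]`
killing the local coordinates. -/
theorem exists_tsub0_gen (hst : StableDual 𝒪 𝒟)
    (hdetD : ∀ ⦃A : Type⦄ [CommRing A] [IsLocalRing A] [Algebra 𝒪 A] (ρ : GaloisRepAdic A),
      𝒟 ρ → ρ.DetIsCyclotomic p)
    (hp2 : p ≠ 2) (hp𝒪 : (p : 𝒪) ∈ maximalIdeal 𝒪) (hex : Pv.IsExceptional p ρbar)
    (DQ : GaloisRep.DeformationRingData 𝒪 ρbar 𝒟)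
    (b : Module.Basis (Fin 2) DQ.R DQ.ρ.V)
    (φ : letI := dualNumberAlgebra 𝒪; DQ.R →ₐ[𝒪] DualNumber (ResidueField 𝒪))
    (hφJ : ∀ j i, φ (ucoord DQ b Pv j i) = 0) :
    letI := dualNumberAlgebra 𝒪
    ∃ (hφ : IsLocalHom (φ : DQ.R →+* DualNumber (ResidueField 𝒪)))
      (x : TSub 𝒪 ρbar (addPv 𝒟 Pv)),
      x.1 = DQ.ρ.baseChangeAlong (φ : DQ.R →+* DualNumber (ResidueField 𝒪)) hφ := by
  letI := dualNumberAlgebra 𝒪
  letI := resDualNumberAlgebra 𝒪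
  have hp : p.Prime := Fact.out
  obtain ⟨hφ, x, hx⟩ := Fermat.Agent.S56.H50.exists_tsub_of_algHom hst DQ φ
  have hFl : 𝒟 (DQ.ρ.baseChangeAlong (φ : DQ.R →+* DualNumber (ResidueField 𝒪)) hφ) :=
    hx ▸ x.2.1
  have hcyc := hdetD _ hFl
  have hres : (DQ.ρ.baseChangeAlong (φ : DQ.R →+* DualNumber (ResidueField 𝒪)) hφ).residual.IsEquiv
      (ρbar.baseChange (ResidueField (DualNumber (ResidueField 𝒪)))) := hx ▸ x.2.2
  refine ⟨hφ, ⟨DQ.ρ.baseChangeAlong (φ : DQ.R →+* DualNumber (ResidueField 𝒪)) hφ,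
    ⟨hFl, fun j => ⟨?_, ?_⟩⟩, hres⟩, rfl⟩
  · -- the tame generator
    have h01 : (φ : DQ.R →+* DualNumber (ResidueField 𝒪))
        (LinearMap.toMatrix b b (DQ.ρ.ρ (Pv.τ j)) 0 1) = 0 := hφJ j 0
    have h10 : (φ : DQ.R →+* DualNumber (ResidueField 𝒪))
        (LinearMap.toMatrix b b (DQ.ρ.ρ (Pv.τ j)) 1 0) = 0 := hφJ j 1
    have hd : (φ : DQ.R →+* DualNumber (ResidueField 𝒪))
        (LinearMap.toMatrix b b (DQ.ρ.ρ (Pv.τ j)) 0 0 -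
          LinearMap.toMatrix b b (DQ.ρ.ρ (Pv.τ j)) 1 1) = 0 := hφJ j 2
    have hσ := baseChange_eq_smul_of_map (φ : DQ.R →+* DualNumber (ResidueField 𝒪)) b
      (DQ.ρ.ρ (Pv.τ j)) h01 h10 hd
    have hσ2 : (DQ.ρ.baseChangeAlong (φ : DQ.R →+* DualNumber (ResidueField 𝒪)) hφ).ρ (Pv.τ j) =
        (φ : DQ.R →+* DualNumber (ResidueField 𝒪))
          (LinearMap.toMatrix b b (DQ.ρ.ρ (Pv.τ j)) 0 0) • 1 := hσ
    have hcop : (p ^ 1).Coprime (Pv.q j) :=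
      Nat.Coprime.pow_left 1 ((Nat.coprime_primes hp (Pv.q_prime j)).2 (Ne.symm (hex j).2.1))
    have hdet0 := hcyc.2 1 (Pv.τ j) 1 (fun μ hμ => by
      rw [pow_one]
      exact Fermat.Agent.R.H89.inertia_fixes_rootsOfUnity (Pv.q j) (Pv.P j) (Pv.P_over j)
        (Pv.τ j) (Pv.τ_gen j).1 (p ^ 1) hcop μ hμ)
    have hdet : LinearMap.det
        ((DQ.ρ.baseChangeAlong (φ : DQ.R →+* DualNumber (ResidueField 𝒪)) hφ).ρ (Pv.τ j)) = 1 := by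
      rw [pow_one, natCast_p_dualNumber hp𝒪, Ideal.span_singleton_zero, Ideal.mem_bot,
        Nat.cast_one, sub_eq_zero] at hdet0
      exact hdet0
    have hs := scalar_eq_one hp2 hcyc.1 _ _ hres (Pv.τ j)
      (by
        have := resBaseChange_scalar (k' := ResidueField (DualNumber (ResidueField 𝒪)))
          ρbar (Pv.τ j) 1 (rhobar_tau hex j)
        rw [map_one] at this
        exact this) _ hσ2 hdet
    rw [hσ2, hs, one_smul]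
  · -- the Frobenius lift
    have h01 : (φ : DQ.R →+* DualNumber (ResidueField 𝒪))
        (LinearMap.toMatrix b b (DQ.ρ.ρ (Pv.frob j)) 0 1) = 0 := hφJ j 3
    have h10 : (φ : DQ.R →+* DualNumber (ResidueField 𝒪))
        (LinearMap.toMatrix b b (DQ.ρ.ρ (Pv.frob j)) 1 0) = 0 := hφJ j 4
    have hd : (φ : DQ.R →+* DualNumber (ResidueField 𝒪))
        (LinearMap.toMatrix b b (DQ.ρ.ρ (Pv.frob j)) 0 0 -
          LinearMap.toMatrix b b (DQ.ρ.ρ (Pv.frob j)) 1 1) = 0 := hφJ j 5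
    exact ⟨_, baseChange_eq_smul_of_map (φ : DQ.R →+* DualNumber (ResidueField 𝒪)) b
      (DQ.ρ.ρ (Pv.frob j)) h01 h10 hd⟩

/-- The homomorphisms `R → k[ε]` killing the local coordinates inject into the classes of
first-order deformations of type `addPv 𝒟 Pv`. -/
theorem card_algHom0_le_gen (hst : StableDual 𝒪 𝒟)
    (hdetD : ∀ ⦃A : Type⦄ [CommRing A] [IsLocalRing A] [Algebra 𝒪 A] (ρ : GaloisRepAdic A),
      𝒟 ρ → ρ.DetIsCyclotomic p)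
    (hp2 : p ≠ 2) (hp𝒪 : (p : 𝒪) ∈ maximalIdeal 𝒪) (hex : Pv.IsExceptional p ρbar)
    (DQ : GaloisRep.DeformationRingData 𝒪 ρbar 𝒟)
    (b : Module.Basis (Fin 2) DQ.R DQ.ρ.V) :
    letI := dualNumberAlgebra 𝒪
    ∃ F : {φ : DQ.R →ₐ[𝒪] DualNumber (ResidueField 𝒪) //
        ∀ x ∈ ucoordIdeal DQ b Pv, φ x = 0} →
      Quotient (TSetoid 𝒪 ρbar (addPv 𝒟 Pv)), Function.Injective F := by
  letI := dualNumberAlgebra 𝒪
  letI := resDualNumberAlgebra 𝒪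
  haveI := isLocalHom_algebraMap_dualNumber 𝒪
  haveI := finite_dualNumber 𝒪
  haveI := Fermat.Agent.S56.H50.isAdicComplete_dualNumber (𝒪 := 𝒪)
  have key : ∀ φ : {φ : DQ.R →ₐ[𝒪] DualNumber (ResidueField 𝒪) //
      ∀ x ∈ ucoordIdeal DQ b Pv, φ x = 0}, ∀ j i, φ.1 (ucoord DQ b Pv j i) = 0 :=
    fun φ j i => φ.2 _ (Ideal.subset_span ⟨(j, i), rfl⟩)
  choose hloc G hG using fun φ : {φ : DQ.R →ₐ[𝒪] DualNumber (ResidueField 𝒪) //
      ∀ x ∈ ucoordIdeal DQ b Pv, φ x = 0} =>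
    exists_tsub0_gen hst hdetD hp2 hp𝒪 hex DQ b φ.1 (key φ)
  refine ⟨fun φ => Quotient.mk (TSetoid 𝒪 ρbar (addPv 𝒟 Pv)) (G φ), fun φ ψ h => ?_⟩
  have h1 : (G φ).1.IsEquiv (G ψ).1 := Quotient.exact h
  rw [hG φ, hG ψ] at h1
  obtain ⟨rbar, hbar⟩ := exists_isMatOfRes ρbar
  obtain ⟨r, hr, hl⟩ := Fermat.Agent.S56.H50.exists_mat_baseChange DQ hbar
  have hmat : IsMatOf (DQ.ρ.baseChangeAlong (ψ.1 : DQ.R →+* DualNumber (ResidueField 𝒪)) (hloc ψ))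
      (fun σ => (r σ).map ψ.1) :=
    hr.baseChangeAlong (ψ.1 : DQ.R →+* DualNumber (ResidueField 𝒪)) (hloc ψ)
  have hl' : IsLift 𝒪 rbar (fun σ => (r σ).map ψ.1) := Univ.IsLift.map ψ.1 (hloc ψ) hl
  have hres := residual_isEquiv_of_isLift hbar hmat hl'
  have hD : 𝒟 (DQ.ρ.baseChangeAlong (ψ.1 : DQ.R →+* DualNumber (ResidueField 𝒪)) (hloc ψ)) :=
    (hG ψ ▸ (G ψ).2.1).1
  have huniv := DQ.universal (DualNumber (ResidueField 𝒪)) (res_surj_dualNumber 𝒪)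
    (DQ.ρ.baseChangeAlong (ψ.1 : DQ.R →+* DualNumber (ResidueField 𝒪)) (hloc ψ)) hD hres
  exact Subtype.ext (huniv.unique ⟨hloc φ, h1⟩ ⟨hloc ψ, ⟨GaloisRepAdic.Equiv.refl _⟩⟩)

/-- **PV-GAL-A, general form.** -/
theorem pvGalA_gen (hst : StableDual 𝒪 𝒟)
    (hdetD : ∀ ⦃A : Type⦄ [CommRing A] [IsLocalRing A] [Algebra 𝒪 A] (ρ : GaloisRepAdic A),
      𝒟 ρ → ρ.DetIsCyclotomic p)
    (hp2 : p ≠ 2) (hp𝒪 : (p : 𝒪) ∈ maximalIdeal 𝒪) (hex : Pv.IsExceptional p ρbar) (g : ℕ)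
    (htan : TangentLE 𝒪 ρbar (addPv 𝒟 Pv) g)
    (DQ : GaloisRep.DeformationRingData 𝒪 ρbar 𝒟)
    (b : Module.Basis (Fin 2) DQ.R DQ.ρ.V) :
    ∃ γ : PRing 𝒪 k g →ₐ[𝒪] DQ.R, Function.Surjective γ ∧
      IsCoordHom γ (fun j => LinearMap.toMatrix b b (DQ.ρ.ρ (Pv.τ j)))
        (fun j => LinearMap.toMatrix b b (DQ.ρ.ρ (Pv.frob j))) := by
  obtain ⟨hfin, hcard⟩ := htan
  haveI := hfin
  obtain ⟨F, hF⟩ := card_algHom0_le_gen hst hdetD hp2 hp𝒪 hex DQ b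
  obtain ⟨x, hx, hgen⟩ := exists_gens_rel DQ.residue_surjective (ucoordIdeal DQ b Pv)
    (ucoordIdeal_le hex DQ b) g hcard F hF
  have hy : ∀ n, famY g (ucoord DQ b Pv) x n ∈ maximalIdeal DQ.R := by
    intro n
    unfold famY
    split_ifs
    · exact ucoord_mem hex DQ b _ _
    · exact hx _
  obtain ⟨γ, hγ⟩ := Fermat.Agent.S56.H50.exists_eval (𝒪 := 𝒪) (6 * k + g)
    (famY g (ucoord DQ b Pv) x) hy
  have hc : ∀ (j : Fin k) (i : Fin 6),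
      γ (MvPowerSeries.X (cIdx k g j i)) = ucoord DQ b Pv j i := fun j i => by
    rw [hγ, famY_cIdx]
  refine ⟨γ, Fermat.Agent.S56.H50.surjective_of_gens DQ.residue_surjective _ _ γ hγ ?_,
    fun j => ⟨hc j 0, hc j 1, hc j 2, hc j 3, hc j 4, hc j 5⟩⟩
  refine hgen.trans (sup_le (sup_le ?_ le_sup_right) ?_)
  · refine le_sup_of_le_left (Ideal.span_le.2 ?_)
    rintro _ ⟨a, rfl⟩
    exact Ideal.subset_span ⟨xIdx k g a, famY_xIdx g _ x a⟩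
  · refine le_sup_of_le_left (Ideal.span_le.2 ?_)
    rintro _ ⟨⟨j, i⟩, rfl⟩
    exact Ideal.subset_span ⟨cIdx k g j i, famY_cIdx g _ x j i⟩

end MainGen

section CondInst

variable {𝒪 : Type} [CommRing 𝒪] [IsDomain 𝒪] [IsDiscreteValuationRing 𝒪]
  [IsAdicComplete (maximalIdeal 𝒪) 𝒪] [Finite (ResidueField 𝒪)]
variable {p : ℕ} [Fact p.Prime] {ρbar : ResidualGaloisRep (ResidueField 𝒪)}
variable {k : ℕ} {Pv : PivotPrimes k}

/-- `cond` is stable under `R → k[ε]`. -/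
theorem stableDual_cond (fl : Bool) (Smin T : Finset ℕ) :
    StableDual 𝒪 (Fermat.Agent.S59.cond 𝒪 p fl Smin T) := by
  cases fl
  · exact Fermat.Agent.S56.H92.stmt_stable_SO 𝒪 p Smin T
  · exact Fermat.Agent.S56.H92.stmt_stable_Fl 𝒪 p Smin T

/-- `cond` implies `DetIsCyclotomic`. -/
theorem detIsCyclotomic_of_cond (fl : Bool) (Smin T : Finset ℕ)
    ⦃A : Type⦄ [CommRing A] [IsLocalRing A] [Algebra 𝒪 A] (ρ : GaloisRepAdic A)
    (h : Fermat.Agent.S59.cond 𝒪 p fl Smin T ρ) : ρ.DetIsCyclotomic p := by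
  cases fl
  · exact h.1.1
  · exact h.1.1

/-- **PV-GAL-A for `cond 𝒪 p fl Smin (Σ ∪ T)`** (flat or strictly ordinary at `p`). -/
theorem pvGalA_cond (fl : Bool) (Smin T : Finset ℕ)
    (hp2 : p ≠ 2) (hp𝒪 : (p : 𝒪) ∈ maximalIdeal 𝒪) (hex : Pv.IsExceptional p ρbar) (g : ℕ)
    (htan : TangentLE 𝒪 ρbar (addPv (Fermat.Agent.S59.cond 𝒪 p fl Smin (Pv.set ∪ T)) Pv) g)
    (DQ : GaloisRep.DeformationRingData 𝒪 ρbar (Fermat.Agent.S59.cond 𝒪 p fl Smin (Pv.set ∪ T)))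
    (b : Module.Basis (Fin 2) DQ.R DQ.ρ.V) :
    ∃ γ : PRing 𝒪 k g →ₐ[𝒪] DQ.R, Function.Surjective γ ∧
      IsCoordHom γ (fun j => LinearMap.toMatrix b b (DQ.ρ.ρ (Pv.τ j)))
        (fun j => LinearMap.toMatrix b b (DQ.ρ.ρ (Pv.frob j))) :=
  pvGalA_gen (stableDual_cond fl Smin _) (detIsCyclotomic_of_cond fl Smin _) hp2 hp𝒪 hex g htan
    DQ b

end CondInst

end Fermat.Agent.L.Pivot.H72
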