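/-
PIVOT (item 66), package PV-GAL-A for both conditions at `p` (helper72):
`stmt_PVGalAB : Stmt_PVGalAB` (statement in `L/Pivot/Asm.lean`), an instance of
`H72.pvGalA_cond` (`L/Pivot/H72_PVGalAGen.lean`).
-/
import Fermat.Agent.L.Pivot.H72_PVGalAGen
import Fermat.Agent.L.Pivot.Asm

set_option autoImplicit false

namespace Fermat.Agent.L.Pivot.H72

open IsLocalRing Fermat.Agent.S56

/-- **PV-GAL-A** for `cond 𝒪 p fl`. -/
theorem stmt_PVGalAB : Stmt_PVGalAB := by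
  intro 𝒪 _ _ _ _ _ p _ fl ρbar S Smin hyp k Pv hex T g htan DQ b
  exact pvGalA_cond fl Smin T hyp.hp2 hyp.hp𝒪 hex g htan DQ b

end Fermat.Agent.L.Pivot.H72
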