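/-
PIVOT (item 66), PV-ASM, leaf SAT (helper76): `typeSub c ψ = ∑_j (c_j - ψ_j) V` is saturated and
stable.

`V` free over `𝒪` (a domain) with basis `c ^ x d ^ y (b i)`, `c_j ^ (p ^ e_j) = 1`,
`ψ_j ^ (p ^ e_j) = 1`.  Then `V / typeSub c ψ` is free (basis `d ^ y (b i)`), so
`a v ∈ typeSub c ψ`, `a ≠ 0`, implies `v ∈ typeSub c ψ`; and `typeSub c ψ` is stable under every
operator commuting with the `c_j`.
-/
import Fermat.Agent.L.Pivot.H76_Core

set_option autoImplicit false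

namespace Fermat.Agent.L.Pivot.H76

open Fermat.Agent.S59.TWH

section Sat

variable {𝒪 : Type} [CommRing 𝒪] {V : Type} [AddCommGroup V] [Module 𝒪 V] {p r n k : ℕ}
variable {d : Fin r → Module.End 𝒪 V} {c : Fin k → Module.End 𝒪 V} {e : Fin k → ℕ} {rk : ℕ}
  {b : Fin rk → V}

/-- **SAT, stability.** -/
theorem typeSub_stable (ψ : Fin k → 𝒪) (D : Module.End 𝒪 V) (hD : ∀ j, Commute D (c j))
    {v : V} (hv : v ∈ typeSub c ψ) : D v ∈ typeSub c ψ :=
  map_mem_tsub c ψ D hD hv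

/-- **SAT, saturation.** -/
theorem typeSub_saturated [IsDomain 𝒪] (hp : 0 < p)
    (hcc : ∀ i j, Commute (c i) (c j)) (hcpow : ∀ j, c j ^ (p ^ e j) = 1)
    (hb : Function.Bijective
      (fun f : Fin rk × (∀ j : Fin k, Fin (p ^ e j)) × (Fin r → Fin (p ^ n)) → 𝒪 =>
        ∑ x : Fin rk × (∀ j : Fin k, Fin (p ^ e j)) × (Fin r → Fin (p ^ n)),
          f x • H90.mon c (fun j => (x.2.1 j : ℕ))
            (H90.mon d (fun i => (x.2.2 i : ℕ)) (b x.1))))
    (ψ : Fin k → 𝒪) (hψ : ∀ j, ψ j ^ (p ^ e j) = 1)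
    (a : 𝒪) (ha : a ≠ 0) (v : V) (hv : a • v ∈ typeSub c ψ) : v ∈ typeSub c ψ := by
  rw [typeSub_eq_tsub] at hv ⊢
  obtain ⟨f, hf⟩ := split_span hcc (bijective_bvec hb) ψ v
  have h1 : ∑ z : Fin rk × (Fin r → Fin (p ^ n)),
      (a * f z) • H90.mon d (fun i => (z.2 i : ℕ)) (b z.1) ∈ tsub c ψ := by
    have h2 : ∑ z : Fin rk × (Fin r → Fin (p ^ n)),
        (a * f z) • H90.mon d (fun i => (z.2 i : ℕ)) (b z.1) =
        a • v - a • (v - ∑ z : Fin rk × (Fin r → Fin (p ^ n)),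
          f z • H90.mon d (fun i => (z.2 i : ℕ)) (b z.1)) := by
      rw [smul_sub, sub_sub_cancel, Finset.smul_sum]
      exact Finset.sum_congr rfl fun z _ => by rw [smul_smul]
    rw [h2]
    exact Submodule.sub_mem _ hv (Submodule.smul_mem _ _ hf)
  have h3 := split_li hcc hcpow (fun j => pow_pos hp _) (bijective_bvec hb) ψ hψ
    (fun z => a * f z) h1
  have h4 : f = 0 := by
    funext z
    have h5 : a * f z = 0 := congrFun h3 z
    exact (mul_eq_zero.1 h5).resolve_left ha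
  rw [h4] at hf
  simpa using hf

end Sat

end Fermat.Agent.L.Pivot.H76
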