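/-
PIVOT (item 66), PV-ASM, leaf C = PV-NU (helper72):

  `stmt_PVNU_of : Stmt_PVNUPoint → Stmt_PVNU`.

The intersection of the ideals of the ramified types kills `W / ∑ (c_j - ψ_j) W` when all
`ψ_j ≠ 1`.  [`H72.pvNU_mod` (SUPP + `H59.types_of_point` + T1''); the points occurring in
`W / typeSub c ψ` are new at the pivot primes (field `new` of the geometric datum), hence not
unipotent there (`Stmt_PVNUPoint`); `typeSub c ψ` is saturated (`H76.typeSub_saturated`).]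
-/
import Fermat.Agent.L.Pivot.H72_NUAbs
import Fermat.Agent.L.Pivot.H72_NUArith
import Fermat.Agent.L.Pivot.H72_PVGalAGen
import Fermat.Agent.L.Pivot.H76_Sat
import Fermat.Agent.S59.Asm.H7_Cond
import Fermat.Agent.R.H86_Point

set_option autoImplicit false
set_option linter.style.haveILetI false
set_option linter.unusedSectionVars false

namespace Fermat.Agent.L.Pivot.H72

open IsLocalRing Polynomial CuspForm Fermat.Agent.S56 Fermat.Agent.S59 Fermat.Agent.S59.Asm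
open scoped TensorProduct

section ResEquiv

/-- A residual representation equivalent to a base change of an unramified one is
unramified. -/
theorem resid_unramified_of_isEquiv_baseChange {k k' : Type} [Field k] [Field k']
    (φ : k →+* k') (ρ₀ : ResidualGaloisRep k) (ρ₁ : ResidualGaloisRep k')
    (h : ρ₁.IsEquiv (ρ₀.baseChangeAlong φ)) (q : ℕ) (h0 : ρ₀.IsUnramifiedAt q) :
    ρ₁.IsUnramifiedAt q := by
  obtain ⟨e⟩ := h
  intro P hP σ hσ
  letI : Algebra k k' := φ.toAlgebra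
  have h1 : (ρ₀.baseChangeAlong φ).ρ σ = 1 := by
    show (ρ₀.ρ σ).baseChange k' = 1
    rw [h0 P hP σ hσ]
    exact LinearMap.baseChange_one (R := k) (A := k') (M := ρ₀.V)
  refine LinearMap.ext fun y => ?_
  apply e.toLinearEquiv.injective
  rw [e.map_apply, h1]
  rfl

/-- `OccursAtLevel` only depends on the level. -/
theorem occursAtLevel_congr {N : ℕ} [NeZero N] {S : Finset ℕ} {D : Type} [CommRing D]
    (χ : heckeAlgebra N 2 (↑S : Set ℕ) →+* D) {M₁ M₂ : ℕ} [NeZero M₁] [NeZero M₂]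
    (h : M₁ = M₂) (ho : Fermat.Agent.R.OccursAtLevel χ M₁) :
    Fermat.Agent.R.OccursAtLevel χ M₂ := by
  subst h
  exact ho

end ResEquiv

/-- A point which is new at `q` (`q² ∥ N`) is not unipotent on inertia at `q`. -/
theorem not_unipotent_of_new (hpt : Stmt_PVNUPoint) (p : ℕ) (hp : p.Prime) (hp2 : p ≠ 2)
    (N : ℕ) [NeZero N] (S' : Finset ℕ) (q : ℕ) (hq : q.Prime) (hqp : q ≠ p)
    (hN : N = N / q ^ 2 * q ^ 2) (hqM : ¬ q ∣ N / q ^ 2) (hMq : N / q ^ 2 * q = N / q)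
    [NeZero (N / q)] (hpS : p ∈ S') (hNS : ∀ q' : ℕ, q'.Prime → q' ∣ N → q' ∈ S')
    (T' : Type) [CommRing T'] [IsLocalRing T'] (π : heckeAlgebra N 2 (↑S' : Set ℕ) →+* T')
    (ρ' : GaloisRepAdic T') (hfrob : Fermat.Agent.R.HasFrobCharpoly π ρ')
    (habs : ρ'.residual.IsAbsolutelyIrreducible) (hpT : (p : T') ∈ maximalIdeal T')
    (O : Type) [CommRing O] [IsDomain O] [IsDiscreteValuationRing O]
    [IsAdicComplete (maximalIdeal O) O] [Finite (ResidueField O)] [CharZero O]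
    (x : T' →+* O) (hx : IsLocalHom x)
    (hnew : ∀ χ' : heckeAlgebra (N / q) 2 (↑S' : Set ℕ) →+* O,
      ¬ ∀ (ℓ : ℕ) (hℓ : ℓ.Prime) (hℓN' : ¬ ℓ ∣ N) (hℓS : ℓ ∉ (↑S' : Set ℕ))
        (hℓN : ¬ ℓ ∣ N / q),
        χ' (heckeAlgebra.T hℓ hℓN hℓS) = x (π (heckeAlgebra.T hℓ hℓN' hℓS))) :
    ¬ (ρ'.baseChangeAlong x hx).IsUnipotentOnInertiaAt q := by
  have hN0 : N ≠ 0 := NeZero.ne N
  haveI hMq0 : NeZero (N / q ^ 2 * q) := by
    refine ⟨mul_ne_zero (fun hM => hN0 ?_) hq.ne_zero⟩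
    rw [hN, hM, zero_mul]
  have hpO : (p : O) ∈ maximalIdeal O := by
    haveI := hx
    have h2 := map_nonunit x _ hpT
    rwa [map_natCast] at h2
  have hfrob' : Fermat.Agent.R.HasFrobCharpoly (x.comp π) (ρ'.baseChangeAlong x hx) :=
    Fermat.Agent.R.H86.hasFrobCharpoly_baseChangeAlong x hx π ρ' hfrob
  have habs' := Fermat.Agent.R.H86.residual_absIrr_baseChangeAlong x hx ρ' habs
  refine hpt p N (N / q ^ 2) q S' O hp hp2 hpO hq hqp hN hqM hpS hNS (x.comp π)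
    (ρ'.baseChangeAlong x hx) hfrob' habs' ?_
  intro hocc
  obtain ⟨χ', hχ'⟩ := occursAtLevel_congr (x.comp π) hMq hocc
  exact hnew χ' fun ℓ hℓ hℓN' hℓS hℓN => hχ' ℓ hℓ hℓN' hℓN hℓS

/-- **PV-NU** (C) from **PV-NU-POINT** (C-pt). -/
theorem stmt_PVNU_of (hpt : Stmt_PVNUPoint) : Stmt_PVNU := by
  intro 𝒪 _ _ _ _ _ _ p _ fl ρbar N1 _ S Smin θ M k Pv eP hPV g r n qv hqv _ _ _ X ζ hζ ψ hψ
    𝔞 h𝔞
  have hp : p.Prime := Fact.out
  have hyp := hPV.hyp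
  have hpS : p ∈ S := hyp.hSmin hyp.hpSmin
  -- the primes of the level
  have hPvS : ∀ j, Pv.q j ∈ S := fun j => hPV.hNS _ (Pv.q_prime j) (hPV.hPvN j)
  have hne : ∀ j i, qv i ≠ Pv.q j := fun j i h => (hqv.2.1 i).2.1 (h ▸ hPvS j)
  have hNS' : ∀ q' : ℕ, q'.Prime → q' ∣ pvLevel N1 Pv.q qv → q' ∈ twSet S qv := by
    intro q' hq' hdiv
    unfold twSet
    rcases prime_dvd_pvLevel N1 Pv.q qv Pv.q_prime (fun i => (hqv.2.1 i).1) hq' hdiv with
      h | ⟨i, rfl⟩ | ⟨j, rfl⟩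
    · exact Finset.mem_union_left _ (hPV.hNS q' hq' h)
    · exact Finset.mem_union_right _ (Finset.mem_image_of_mem _ (Finset.mem_univ i))
    · exact Finset.mem_union_left _ (hPvS j)
  have hNS'' : ∀ q' : ℕ, q'.Prime → q' ∣ pvLevel N1 Pv.q qv →
      q' ∈ (↑(twSet S qv) : Set ℕ) := fun q' hq' hdiv => Finset.mem_coe.2 (hNS' q' hq' hdiv)
  -- the Hecke ring is reduced
  haveI : Module.Finite ℤ (heckeAlgebra (pvLevel N1 Pv.q qv) 2 (↑(twSet S qv) : Set ℕ)) :=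
    Fermat.Agent.S22.result (pvLevel N1 Pv.q qv) 2 (↑(twSet S qv) : Set ℕ)
  haveI : IsReduced (heckeAlgebra (pvLevel N1 Pv.q qv) 2 (↑(twSet S qv) : Set ℕ)) :=
    Fermat.Agent.R.H58.stmt_HeckeReduced (pvLevel N1 Pv.q qv) (↑(twSet S qv) : Set ℕ) hNS''
  haveI : IsReduced (heckeLocal (pvLevel N1 Pv.q qv) (↑(twSet S qv) : Set ℕ) 𝒪
      ((θ.comp X.G.G1.rest).comp X.G.rest)) :=
    Fermat.Agent.R.H2.isReduced_of_flat_of_adjoin_eq_top
      (heckeAlgebra (pvLevel N1 Pv.q qv) 2 (↑(twSet S qv) : Set ℕ)) 𝒪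
      (heckeLocal (pvLevel N1 Pv.q qv) (↑(twSet S qv) : Set ℕ) 𝒪
        ((θ.comp X.G.G1.rest).comp X.G.rest)) X.HQ.π X.HQ.adjoin_range_π
  -- the universal deformation
  have hdetQ : X.DQ.ρ.DetIsCyclotomic p := detIsCyclotomic_of_cond fl Smin _ _ X.DQ.isOfType
  have hresQ : ∀ j, X.DQ.ρ.residual.IsUnramifiedAt (Pv.q j) := fun j =>
    resid_unramified_of_isEquiv_baseChange _ ρbar _ X.DQ.residual_isEquiv _ (hPV.hex j).2.2.1
  -- saturation
  have hsat : ∀ c : 𝒪, c ≠ 0 → ∀ v : X.G.W.V, c • v ∈ typeSub X.G.c ψ → v ∈ typeSub X.G.c ψ :=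
    fun c hc v hv => H76.typeSub_saturated hp.pos X.G.c_comm X.G.c_pow X.G.b_basis ψ
      (fun j => (hψ j).1) c hc v hv
  refine pvNU_mod p hp hyp.hp2 hyp.hp𝒪 g Pv (fun j => (hPV.hex j).1) eP hPV.heP ζ hζ X.DQ.R
    X.DQ.residue_surjective X.DQ.ρ hdetQ hresQ X.bQ X.γ X.γ_coord
    (heckeLocal (pvLevel N1 Pv.q qv) (↑(twSet S qv) : Set ℕ) 𝒪
      ((θ.comp X.G.G1.rest).comp X.G.rest)) X.HQ.ρ X.φQ X.φQ_local X.φQ_equiv X.G.W.V X.ηW
    (typeSub X.G.c ψ) hsat ?_ 𝔞 h𝔞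
  -- the points occurring in `W / typeSub c ψ` are not unipotent at the pivot primes
  intro O _ _ _ _ _ _ _ _ x hx hkill j
  obtain ⟨hN, hqM, hMq⟩ := pvLevel_split N1 Pv.q qv (NeZero.ne N1) hPV.hsq Pv.q_prime Pv.q_inj
    (fun i => (hqv.2.1 i).1) j (hPV.hPvN j) (hne j)
  haveI hNq0 : NeZero (pvLevel N1 Pv.q qv / Pv.q j) := by
    refine ⟨fun h0 => ?_⟩
    rw [h0] at hMq
    rcases mul_eq_zero.1 hMq with h | h
    · rw [h, zero_mul] at hN
      exact (NeZero.ne (pvLevel N1 Pv.q qv)) hN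
    · exact (Pv.q_prime j).ne_zero h
  refine not_unipotent_of_new hpt p hp hyp.hp2 (pvLevel N1 Pv.q qv) (twSet S qv) (Pv.q j)
    (Pv.q_prime j) (hPV.hex j).2.1 hN hqM hMq (Finset.mem_union_left _ hpS) hNS' _ X.HQ.π
    X.HQ.ρ X.HQ.charpoly_frob X.HQ.residual_absIrr X.HQ_det.1 O _ hx ?_
  intro χ' hχ'
  refine X.G.new ψ hψ O ((x : _ →+* O).comp X.HQ.π) (fun t ht => ?_) j χ' hχ'
  refine hkill (X.HQ.π t) fun v => ?_
  rw [X.HQ_π, X.ηW_π]
  exact ht v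

end Fermat.Agent.L.Pivot.H72
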