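/-
PIVOT (item 66), PV-WIRE2 (helper76): the Frey form with the congruence `q ≡ 1 mod p`.

`Stmt_PivotCoreB` needs `p ∣ q' - 1` at every pivot prime; a scalar Frobenius alone does not give
it.  So the exceptional case is `IsExc2 P q'` (`p ∣ q' - 1` and the Frobenius elements at some
place over `q'` act through one scalar), and Mazur's principle (`Stmt_NonExcFrey2`) has to treat
every prime which is not exceptional in this sense (`H76.removesQ2_of_toric` shows that the
proof of Mazur's principle gives exactly this).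

* `IsExc2`, `Stmt_PivotFrey2`, `Stmt_NonExcFrey2`;
* `s43_of2 : Stmt_S44T → Stmt_NonExcFrey2 → Stmt_PivotFrey2 → <frozen type of S43>`.
-/
import Fermat.Agent.L.Pivot.Frey

set_option autoImplicit false

open WeierstrassCurve WeierstrassCurve.Affine WeierstrassCurve.Affine.Point
open scoped WeierstrassCurve.Affine

namespace Fermat.Agent.L.Pivot.H76

open Fermat.Agent.S44 Fermat.Agent.L.Pivot

/-- The prime `q` is exceptional for the Frey package: `q ≡ 1 mod p` and all Frobenius elements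
at some place over `q` act on `E[p]` through one scalar. -/
def IsExc2 (P : FreyPackage) (q : ℕ) : Prop :=
  P.p ∣ q - 1 ∧ ∃ A : ValuationSubring (AlgebraicClosure ℚ), A.LiesOverPrime q ∧ IsExcAt P q A

/-- **PIVOT, Frey form** (every unramified prime of the level is exceptional, `q ≡ 1 mod p`
included). -/
def Stmt_PivotFrey2 : Prop :=
  ∀ (P : FreyPackage) (N q : ℕ), P.IsConductorLevel N → ¬ P.p ∣ N → q.Prime → q ≠ P.p → q ∣ N →
    GaloisRepIsIrreducible (K := AlgebraicClosure ℚ) ℚ P.freyCurve P.p →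
    P.ModularRepOfLevel N → P.GaloisRepUnramifiedAt q →
    (∀ q' : ℕ, q'.Prime → q' ∣ N → P.GaloisRepUnramifiedAt q' → IsExc2 P q') →
    ∃ M : ℕ, M ∣ N ∧ ¬ q ∣ M ∧ P.ModularRepOfLevel M

/-- **Mazur's principle at a prime which is not exceptional, Frey form.** -/
def Stmt_NonExcFrey2 : Prop :=
  ∀ (P : FreyPackage) (N q : ℕ), P.IsConductorLevel N → q.Prime → q ≠ P.p → q ∣ N →
    GaloisRepIsIrreducible (K := AlgebraicClosure ℚ) ℚ P.freyCurve P.p →
    P.ModularRepOfLevel N → P.GaloisRepUnramifiedAt q → ¬ IsExc2 P q →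
    ∃ M : ℕ, M ∣ N ∧ ¬ q ∣ M ∧ P.ModularRepOfLevel M

/-- `Stmt_NonExcFrey2` is stronger than `Stmt_NonExcFrey`. -/
theorem nonExcFrey_of_nonExcFrey2 (h : Stmt_NonExcFrey2) : Stmt_NonExcFrey :=
  fun P N q hc hq hqp hqN hirr hm hu hne =>
    h P N q hc hq hqp hqN hirr hm hu (fun hexc => by
      obtain ⟨-, A, hA, hexcA⟩ := hexc
      exact hne A hA hexcA)

/-- `Stmt_PivotFrey` is stronger than `Stmt_PivotFrey2`. -/
theorem pivotFrey2_of_pivotFrey (h : Stmt_PivotFrey) : Stmt_PivotFrey2 :=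
  fun P N q hc hpN hq hqp hqN hirr hm hu hall =>
    h P N q hc hpN hq hqp hqN hirr hm hu (fun q' hq' hq'N hu' => (hall q' hq' hq'N hu').2)

/-- **S43 from S44, Mazur's principle and PIVOT (Frey form, second version).** -/
theorem s43_of2 (h44 : Stmt_S44T) (hNE : Stmt_NonExcFrey2) (hPF : Stmt_PivotFrey2)
    (P : FreyPackage) {N q : ℕ} (hcond : P.IsConductorLevel N) (hq : q.Prime) (_hq2 : q ≠ 2)
    (hqp : q ≠ P.p) (_hqN : q ∣ N)
    (hirr : GaloisRepIsIrreducible (K := AlgebraicClosure ℚ) ℚ P.freyCurve P.p)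
    (hmod : P.ModularRepOfLevel N) (_hunr : P.GaloisRepUnramifiedAt q) :
    ∃ M : ℕ, M ∣ N ∧ ¬ q ∣ M ∧ P.ModularRepOfLevel M := by
  -- strong induction on the level
  have key : ∀ n : ℕ, ∀ N : ℕ, N ≤ n → P.IsConductorLevel N → P.ModularRepOfLevel N →
      P.GaloisRepUnramifiedAt q → ∃ M : ℕ, M ∣ N ∧ ¬ q ∣ M ∧ P.ModularRepOfLevel M := by
    intro n
    induction n with
    | zero =>
      intro N hN hc _ _
      exact absurd hc.pos (by omega)
    | succ n ih =>
      intro N hN hc hm hu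
      by_cases hqN : q ∣ N
      swap
      · exact ⟨N, dvd_rfl, hqN, hm⟩
      -- a smaller level suffices
      have step : ∀ M : ℕ, M ∣ N → M < N → P.ModularRepOfLevel M →
          ∃ M' : ℕ, M' ∣ N ∧ ¬ q ∣ M' ∧ P.ModularRepOfLevel M' := by
        intro M hMN hlt hM
        have hM0 : 0 < M := Nat.pos_of_dvd_of_pos hMN hc.pos
        obtain ⟨M', hM'M, hqM', hM'⟩ := ih M (by omega) (hc.of_dvd hMN hM0) hM hu
        exact ⟨M', hM'M.trans hMN, hqM', hM'⟩
      by_cases hpN : P.p ∣ N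
      · obtain ⟨M, hMN, hpM, hM⟩ := h44 P hc hpN hirr hm
        exact step M hMN (lt_of_dvd_of_not_dvd hc.pos hMN hpN hpM) hM
      · by_cases hall : ∀ q' : ℕ, q'.Prime → q' ∣ N → P.GaloisRepUnramifiedAt q' → IsExc2 P q'
        · exact hPF P N q hc hpN hq hqp hqN hirr hm hu hall
        · push Not at hall
          obtain ⟨q', hq', hq'N, hu', hne⟩ := hall
          have hq'p : q' ≠ P.p := fun h => hpN (h ▸ hq'N)
          obtain ⟨M, hMN, hq'M, hM⟩ := hNE P N q' hc hq' hq'p hq'N hirr hm hu' hne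
          exact step M hMN (lt_of_dvd_of_not_dvd hc.pos hMN hq'N hq'M) hM
  exact key N N le_rfl hcond hmod _hunr

end Fermat.Agent.L.Pivot.H76
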