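/-
PIVOT (item 66), PV-ASM, leaf B = PV-UNIP (helper76), abstract form with the residual hypothesis
on the universal side: `ρQ` is residually trivial on the inertia groups at the pivot primes.
-/
import Fermat.Agent.L.Pivot.H76_UnipAbs

set_option autoImplicit false
set_option linter.style.haveILetI false

namespace Fermat.Agent.L.Pivot.H76

open IsLocalRing Matrix Polynomial Fermat.Agent.S59.Asm Fermat.Agent.S59.TWGal

/-- triviality modulo `𝔪` is transported along a local homomorphism. -/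
theorem sub_mem_of_transport {RQ : Type} [CommRing RQ] [IsLocalRing RQ]
    {T : Type} [CommRing T] [IsLocalRing T]
    (ρQ : GaloisRepAdic RQ) (ρ : GaloisRepAdic T)
    (bQ : Module.Basis (Fin 2) RQ ρQ.V) (b : Module.Basis (Fin 2) T ρ.V)
    (f : RQ →+* T) (hf : IsLocalHom f)
    (hb : ∀ (s : GalQ) (i j : Fin 2), b.repr (ρ.ρ s (b i)) j = f (bQ.repr (ρQ.ρ s (bQ i)) j))
    (σ : GalQ) (hσ : ρQ.residual.ρ σ = 1) (v : ρ.V) :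
    ρ.ρ σ v - v ∈ maximalIdeal T • (⊤ : Submodule T ρ.V) := by
  refine H59.sub_mem_smul_top_of_mat b (maximalIdeal T) (ρ.ρ σ) (fun i j => ?_) v
  have h1 : (mat bQ (ρQ.ρ σ) - 1) i j ∈ maximalIdeal RQ :=
    mat_sub_one_mem bQ (maximalIdeal RQ) (ρQ.ρ σ)
      (fun w => H59.sub_mem_of_baseChange_eq_one bQ (ρQ.ρ σ) hσ w) i j
  have h2 : (mat b (ρ.ρ σ) - 1) i j = f ((mat bQ (ρQ.ρ σ) - 1) i j) := by
    rw [Matrix.sub_apply, Matrix.sub_apply, map_sub, mat_apply, mat_apply, hb]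
    by_cases hij : i = j
    · rw [hij, Matrix.one_apply_eq, Matrix.one_apply_eq, map_one]
    · rw [Matrix.one_apply_ne hij, Matrix.one_apply_ne hij, map_zero]
  rw [h2]
  exact map_nonunit f _ h1

/-- **PV-UNIP, ring form** (residual hypothesis on `ρQ`). -/
theorem pvUnip_ringQ {𝒪 : Type} [CommRing 𝒪] (p : ℕ) (hp : p.Prime) {k : ℕ} (g : ℕ)
    (Pv : PivotPrimes k) (hqp : ∀ j, Pv.q j ≠ p)
    (RQ : Type) [CommRing RQ] [IsLocalRing RQ] [Algebra 𝒪 RQ] (ρQ : GaloisRepAdic RQ)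
    (hresQ : ∀ j, ∀ σ ∈ (Pv.P j).inertiaSubgroupIn ℚ, ρQ.residual.ρ σ = 1)
    (bQ : Module.Basis (Fin 2) RQ ρQ.V) (γ : PRing 𝒪 k g →ₐ[𝒪] RQ)
    (hγ : IsCoordHom γ (fun j => LinearMap.toMatrix bQ bQ (ρQ.ρ (Pv.τ j)))
      (fun j => LinearMap.toMatrix bQ bQ (ρQ.ρ (Pv.frob j))))
    (T : Type) [CommRing T] [IsLocalRing T] [IsNoetherianRing T] [IsReduced T] [Algebra 𝒪 T]
    (ρ : GaloisRepAdic T) (hdet : ρ.DetIsCyclotomic p)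
    (hU : ∀ j, ρ.IsUnipotentOnInertiaAt (Pv.q j))
    (f : RQ →ₐ[𝒪] T) (hf : IsLocalHom (f : RQ →+* T))
    (he : (ρQ.baseChangeAlong (f : RQ →+* T) hf).IsEquiv ρ) :
    ∀ x ∈ idealUnip g (fun j => ((Pv.q j : ℕ) : 𝒪)), f (γ x) = 0 := by
  obtain ⟨b, hb⟩ := H77.stmt_TRANSPORT RQ T (f : RQ →+* T) hf ρQ ρ he bQ
  have hγ' := isCoordHom_transport ρQ ρ Pv.τ Pv.frob bQ b f hb γ hγ
  have key := unip_core p hp g Pv hqp T ρ hdet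
    (fun j σ hσ v => sub_mem_of_transport ρQ ρ bQ b (f : RQ →+* T) hf hb σ (hresQ j σ hσ) v)
    hU b (f.comp γ) hγ'
  intro x hx
  have h1 := key hx
  rw [RingHom.mem_ker] at h1
  exact h1

/-- **PV-UNIP, module form (rel1)** (residual hypothesis on `ρQ`). -/
theorem pvUnip_modQ {𝒪 : Type} [CommRing 𝒪] (p : ℕ) (hp : p.Prime) {k : ℕ} (g : ℕ)
    (Pv : PivotPrimes k) (hqp : ∀ j, Pv.q j ≠ p)
    (RQ : Type) [CommRing RQ] [IsLocalRing RQ] [Algebra 𝒪 RQ] (ρQ : GaloisRepAdic RQ)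
    (hresQ : ∀ j, ∀ σ ∈ (Pv.P j).inertiaSubgroupIn ℚ, ρQ.residual.ρ σ = 1)
    (bQ : Module.Basis (Fin 2) RQ ρQ.V) (γ : PRing 𝒪 k g →ₐ[𝒪] RQ)
    (hγ : IsCoordHom γ (fun j => LinearMap.toMatrix bQ bQ (ρQ.ρ (Pv.τ j)))
      (fun j => LinearMap.toMatrix bQ bQ (ρQ.ρ (Pv.frob j))))
    (T₁ : Type) [CommRing T₁] [IsLocalRing T₁] [IsNoetherianRing T₁] [IsReduced T₁]
    [Algebra 𝒪 T₁]
    (ρ₁ : GaloisRepAdic T₁) (hdet : ρ₁.DetIsCyclotomic p)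
    (hU : ∀ j, ρ₁.IsUnipotentOnInertiaAt (Pv.q j))
    (T' : Type) [CommRing T'] [Algebra 𝒪 T'] (φQ : RQ →ₐ[𝒪] T') (res : T' →ₐ[𝒪] T₁)
    (hf : IsLocalHom ((res.comp φQ : RQ →ₐ[𝒪] T₁) : RQ →+* T₁))
    (he : (ρQ.baseChangeAlong ((res.comp φQ : RQ →ₐ[𝒪] T₁) : RQ →+* T₁) hf).IsEquiv ρ₁)
    (W : Type) [AddCommGroup W] [Module 𝒪 W] (W₁ : Type) [AddCommGroup W₁] [Module 𝒪 W₁]
    (c : Fin k → Module.End 𝒪 W)
    (κ : W →ₗ[𝒪] W₁) (hker : LinearMap.ker κ = typeSub c (fun _ => (1 : 𝒪)))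
    (ηW : T' →ₐ[𝒪] Module.End 𝒪 W) (ηW₁ : T₁ →ₐ[𝒪] Module.End 𝒪 W₁)
    (hκ : ∀ (t : T') (v : W), κ (ηW t v) = ηW₁ (res t) (κ v)) :
    ∀ x ∈ idealUnip g (fun j => ((Pv.q j : ℕ) : 𝒪)), ∀ v : W,
      ηW (φQ (γ x)) v ∈ typeSub c (fun _ => (1 : 𝒪)) := by
  intro x hx v
  have h1 := pvUnip_ringQ p hp g Pv hqp RQ ρQ hresQ bQ γ hγ T₁ ρ₁ hdet hU (res.comp φQ) hf he
    x hx
  rw [← hker, LinearMap.mem_ker, hκ]
  have h2 : res (φQ (γ x)) = 0 := h1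
  rw [h2, map_zero, LinearMap.zero_apply]

end Fermat.Agent.L.Pivot.H76
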