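import Mathlib
import Fermat.Agent.S59.Patch.ULim
import Fermat.Agent.S59.Patch.Level
import Fermat.Agent.L.Pivot.Defs

/-!
# PIVOT / PV-PATCH (helper76): facts about a single level

`S = 𝒪⟦s₁..s_r⟧`, `P = 𝒪⟦X₁..X_h⟧`, `φ : S → P`.
A `Frame φ J d` is a `P`-module `N` with `d` generators `b` which is free over `S/J` through `φ`
(both modules `N1`, `Nχ` of a `PivotLevel` are frames over the same `φ`).
For a frame `F`:
* `φ` is local (`algHom_mem_max`, `phi_mem_pow`);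
* `gen F : P^d → N`, `v ↦ ∑ v i • b i` is `P`-linear and surjective;
* `phiSub F 𝔞 = {∑ φ (c i) • b i | c i ∈ 𝔞}` is a `P`-submodule, of index at most `#(S/𝔞)^d`.
-/

set_option autoImplicit false
set_option linter.style.haveILetI false
set_option linter.unusedSectionVars false

namespace Fermat.Agent.L.Pivot.H76

open IsLocalRing MvPowerSeries

section LocalHom

variable {𝒪 : Type} [CommRing 𝒪] [IsLocalRing 𝒪] {r h : ℕ}

/-- Any `𝒪`-algebra homomorphism `𝒪⟦s₁..s_r⟧ → 𝒪⟦X₁..X_h⟧` (over a local ring `𝒪`) is local. -/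
theorem algHom_mem_max
    (φ : MvPowerSeries (Fin r) 𝒪 →ₐ[𝒪] MvPowerSeries (Fin h) 𝒪)
    {f : MvPowerSeries (Fin r) 𝒪} (hf : f ∈ maximalIdeal (MvPowerSeries (Fin r) 𝒪)) :
    φ f ∈ maximalIdeal (MvPowerSeries (Fin h) 𝒪) := by
  rw [IsLocalRing.mem_maximalIdeal, mem_nonunits_iff] at hf ⊢
  intro hu
  have hu' : IsUnit (constantCoeff (φ f)) := MvPowerSeries.isUnit_iff_constantCoeff.mp hu
  obtain ⟨u, hu''⟩ := hu'
  set c : 𝒪 := ((u⁻¹ : 𝒪ˣ) : 𝒪) with hc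
  have hf0 : ¬ IsUnit (constantCoeff f) := fun h =>
    hf (MvPowerSeries.isUnit_iff_constantCoeff.mpr h)
  have hcf0 : c * constantCoeff f ∈ nonunits 𝒪 := by
    rw [mem_nonunits_iff]
    intro h
    exact hf0 (isUnit_of_mul_isUnit_right h)
  have hunit : IsUnit (1 - C c * f : MvPowerSeries (Fin r) 𝒪) := by
    rw [MvPowerSeries.isUnit_iff_constantCoeff]
    simpa using IsLocalRing.isUnit_one_sub_self_of_mem_nonunits _ hcf0
  have hφC : φ (C c) = C c := by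
    have h1 : (algebraMap 𝒪 (MvPowerSeries (Fin r) 𝒪)) c = C c := by
      rw [MvPowerSeries.algebraMap_apply]; rfl
    have h2 : (algebraMap 𝒪 (MvPowerSeries (Fin h) 𝒪)) c = C c := by
      rw [MvPowerSeries.algebraMap_apply]; rfl
    rw [← h1, φ.commutes, h2]
  have hunit' : IsUnit (φ (1 - C c * f)) := hunit.map φ
  rw [map_sub, map_one, map_mul, hφC, MvPowerSeries.isUnit_iff_constantCoeff] at hunit'
  have h0 : constantCoeff (1 - C c * φ f : MvPowerSeries (Fin h) 𝒪) = 0 := by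
    simp only [map_sub, map_one, map_mul, constantCoeff_C, ← hu'', hc]
    simp
  rw [h0] at hunit'
  exact not_isUnit_zero hunit'

/-- `(F1)`: `φ` maps `𝔪 ^ m` into `𝔪 ^ m`. -/
theorem phi_mem_pow (φ : MvPowerSeries (Fin r) 𝒪 →ₐ[𝒪] MvPowerSeries (Fin h) 𝒪)
    {m : ℕ} {f : MvPowerSeries (Fin r) 𝒪}
    (hf : f ∈ maximalIdeal (MvPowerSeries (Fin r) 𝒪) ^ m) :
    φ f ∈ maximalIdeal (MvPowerSeries (Fin h) 𝒪) ^ m := by
  have h1 : maximalIdeal (MvPowerSeries (Fin r) 𝒪) ≤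
      (maximalIdeal (MvPowerSeries (Fin h) 𝒪)).comap
        (φ : MvPowerSeries (Fin r) 𝒪 →+* MvPowerSeries (Fin h) 𝒪) := fun g hg =>
    algHom_mem_max φ hg
  have h2 := Ideal.pow_right_mono h1 m
  exact Ideal.le_comap_pow _ m (h2 hf)

variable {T : Type} [CommRing T] [IsLocalRing T] [Algebra 𝒪 T]
  (ψ : MvPowerSeries (Fin h) 𝒪 →ₐ[𝒪] T)

theorem psi_mem (hψ : Function.Surjective ψ) {f : MvPowerSeries (Fin h) 𝒪}
    (hf : f ∈ maximalIdeal (MvPowerSeries (Fin h) 𝒪)) : ψ f ∈ maximalIdeal T := by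
  have : IsLocalHom (ψ : MvPowerSeries (Fin h) 𝒪 →+* T) := IsLocalHom.of_surjective _ hψ
  rw [mem_maximalIdeal, mem_nonunits_iff] at hf ⊢
  intro h
  exact hf (this.map_nonunit f h)

/-- `(F2)`: `ψ` maps `𝔪 ^ m` into `𝔪_T ^ m`. -/
theorem psi_mem_pow (hψ : Function.Surjective ψ) {m : ℕ} {f : MvPowerSeries (Fin h) 𝒪}
    (hf : f ∈ maximalIdeal (MvPowerSeries (Fin h) 𝒪) ^ m) : ψ f ∈ maximalIdeal T ^ m := by
  have h1 : maximalIdeal (MvPowerSeries (Fin h) 𝒪) ≤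
      (maximalIdeal T).comap (ψ : MvPowerSeries (Fin h) 𝒪 →+* T) := fun g hg =>
    psi_mem ψ hψ hg
  have h2 := Ideal.pow_right_mono h1 m
  exact Ideal.le_comap_pow _ m (h2 hf)

/-- `(F2')`: `ψ` maps `𝔪 ^ m` onto `𝔪_T ^ m`. -/
theorem exists_psi_eq_of_mem_pow (hψ : Function.Surjective ψ) {m : ℕ} {a : T}
    (ha : a ∈ maximalIdeal T ^ m) :
    ∃ f ∈ maximalIdeal (MvPowerSeries (Fin h) 𝒪) ^ m, ψ f = a := by
  have h1 : maximalIdeal T ≤ (maximalIdeal (MvPowerSeries (Fin h) 𝒪)).map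
      (ψ : MvPowerSeries (Fin h) 𝒪 →+* T) := by
    intro x hx
    obtain ⟨f, rfl⟩ := hψ x
    refine Ideal.mem_map_of_mem _ ?_
    rw [mem_maximalIdeal, mem_nonunits_iff] at hx ⊢
    intro h
    exact hx (h.map ψ)
  have h2 : a ∈ (maximalIdeal (MvPowerSeries (Fin h) 𝒪) ^ m).map
      (ψ : MvPowerSeries (Fin h) 𝒪 →+* T) := by
    rw [Ideal.map_pow]
    exact Ideal.pow_right_mono h1 m ha
  obtain ⟨f, hf, hfa⟩ := (Ideal.mem_map_iff_of_surjective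
    (ψ : MvPowerSeries (Fin h) 𝒪 →+* T) hψ).mp h2
  exact ⟨f, hf, hfa⟩

end LocalHom

section Frame

variable {𝒪 : Type} [CommRing 𝒪] {r h : ℕ}

/-- A `P`-module with `d` generators, free over `S/J` through `φ`. -/
structure Frame (φ : MvPowerSeries (Fin r) 𝒪 →ₐ[𝒪] MvPowerSeries (Fin h) 𝒪)
    (J : Ideal (MvPowerSeries (Fin r) 𝒪)) (d : ℕ) : Type 1 where
  /-- the module -/
  N : Type
  [instAddCommGroup : AddCommGroup N]
  [instModule : Module (MvPowerSeries (Fin h) 𝒪) N]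
  /-- the generators -/
  b : Fin d → N
  b_span : ∀ x : N, ∃ c : Fin d → MvPowerSeries (Fin r) 𝒪, x = ∑ i, φ (c i) • b i
  b_rel : ∀ c : Fin d → MvPowerSeries (Fin r) 𝒪, ∑ i, φ (c i) • b i = 0 ↔ ∀ i, c i ∈ J

attribute [instance] Frame.instAddCommGroup Frame.instModule

variable {φ : MvPowerSeries (Fin r) 𝒪 →ₐ[𝒪] MvPowerSeries (Fin h) 𝒪}
  {J : Ideal (MvPowerSeries (Fin r) 𝒪)} {d : ℕ} (F : Frame φ J d)

/-- The generating map `P^d → N`, `v ↦ ∑ v i • b i`. -/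
noncomputable def gen : (Fin d → MvPowerSeries (Fin h) 𝒪) →ₗ[MvPowerSeries (Fin h) 𝒪] F.N :=
  Fintype.linearCombination (MvPowerSeries (Fin h) 𝒪) F.b

theorem gen_apply (v : Fin d → MvPowerSeries (Fin h) 𝒪) : gen F v = ∑ i, v i • F.b i := by
  rw [gen, Fintype.linearCombination_apply]

theorem gen_surjective : Function.Surjective (gen F) := by
  intro x
  obtain ⟨c, hc⟩ := F.b_span x
  exact ⟨fun i => φ (c i), by rw [gen_apply, hc]⟩

/-- `gen (φ ∘ c) = ∑ φ (c i) • b i`. -/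
theorem gen_phi (c : Fin d → MvPowerSeries (Fin r) 𝒪) :
    gen F (fun i => φ (c i)) = ∑ i, φ (c i) • F.b i := gen_apply F _

/-- The `φ`-multiples of an ideal `𝔞` of `S`: `{∑ φ (c i) • b i | c i ∈ 𝔞}`. -/
def phiSub (𝔞 : Ideal (MvPowerSeries (Fin r) 𝒪)) : Submodule (MvPowerSeries (Fin h) 𝒪) F.N where
  carrier := {x | ∃ c : Fin d → MvPowerSeries (Fin r) 𝒪, (∀ i, c i ∈ 𝔞) ∧
    x = ∑ i, φ (c i) • F.b i}
  zero_mem' := ⟨fun _ => 0, fun _ => 𝔞.zero_mem, by simp⟩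
  add_mem' := by
    rintro x y ⟨c, hc, rfl⟩ ⟨c', hc', rfl⟩
    refine ⟨fun i => c i + c' i, fun i => 𝔞.add_mem (hc i) (hc' i), ?_⟩
    simp [add_smul, Finset.sum_add_distrib]
  smul_mem' := by
    rintro y x ⟨c, hc, rfl⟩
    have h1 : ∀ i, ∃ e : Fin d → MvPowerSeries (Fin r) 𝒪,
        y • F.b i = ∑ j, φ (e j) • F.b j := fun i => F.b_span _
    choose e he using h1
    refine ⟨fun j => ∑ i, c i * e i j, fun j => 𝔞.sum_mem fun i _ => 𝔞.mul_mem_right _ (hc i), ?_⟩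
    rw [Finset.smul_sum]
    have h2 : ∀ i, y • φ (c i) • F.b i = ∑ j, φ (c i * e i j) • F.b j := by
      intro i
      rw [smul_comm, he i, Finset.smul_sum]
      refine Finset.sum_congr rfl fun j _ => ?_
      rw [smul_smul, map_mul]
    simp only [h2]
    rw [Finset.sum_comm]
    refine Finset.sum_congr rfl fun j _ => ?_
    rw [map_sum, Finset.sum_smul]

theorem mem_phiSub {𝔞 : Ideal (MvPowerSeries (Fin r) 𝒪)} {x : F.N} :
    x ∈ phiSub F 𝔞 ↔ ∃ c : Fin d → MvPowerSeries (Fin r) 𝒪, (∀ i, c i ∈ 𝔞) ∧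
      x = ∑ i, φ (c i) • F.b i := Iff.rfl

/-- `(F5)`: the coefficients of an element of `phiSub F 𝔞` lie in `𝔞` if `J ≤ 𝔞`. -/
theorem mem_of_sum_mem_phiSub {𝔞 : Ideal (MvPowerSeries (Fin r) 𝒪)} (hJ : J ≤ 𝔞)
    (c : Fin d → MvPowerSeries (Fin r) 𝒪) (h : ∑ i, φ (c i) • F.b i ∈ phiSub F 𝔞) (i : Fin d) :
    c i ∈ 𝔞 := by
  obtain ⟨a, ha, hx⟩ := h
  have h0 : ∑ i, φ (c i - a i) • F.b i = 0 := by
    simp only [map_sub, sub_smul, Finset.sum_sub_distrib]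
    rw [hx, sub_self]
  have h1 := (F.b_rel _).mp h0 i
  have : c i = (c i - a i) + a i := by ring
  rw [this]
  exact 𝔞.add_mem (hJ h1) (ha i)

/-- The index of `phiSub F 𝔞` is at most `#(S/𝔞)^d`. -/
theorem finite_quot_phiSub (𝔞 : Ideal (MvPowerSeries (Fin r) 𝒪))
    [Finite (MvPowerSeries (Fin r) 𝒪 ⧸ 𝔞)] :
    Finite (F.N ⧸ phiSub F 𝔞) ∧
      Nat.card (F.N ⧸ phiSub F 𝔞) ≤ Nat.card (Fin d → MvPowerSeries (Fin r) 𝒪 ⧸ 𝔞) := by
  let E : (Fin d → MvPowerSeries (Fin r) 𝒪 ⧸ 𝔞) → F.N ⧸ phiSub F 𝔞 := fun c =>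
    Submodule.Quotient.mk (∑ i, φ (Quotient.out (c i)) • F.b i)
  have hE : Function.Surjective E := by
    intro y
    obtain ⟨x, rfl⟩ := Submodule.Quotient.mk_surjective _ y
    obtain ⟨c, rfl⟩ := F.b_span x
    refine ⟨fun i => Ideal.Quotient.mk 𝔞 (c i), ?_⟩
    refine (Submodule.Quotient.eq _).mpr ?_
    refine ⟨fun i => Quotient.out (Ideal.Quotient.mk 𝔞 (c i)) - c i, fun i => ?_, ?_⟩
    · rw [← Ideal.Quotient.eq]
      exact Quotient.out_eq _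
    · simp only [map_sub, sub_smul, Finset.sum_sub_distrib]
  have hfin : Finite (F.N ⧸ phiSub F 𝔞) := Finite.of_surjective E hE
  exact ⟨hfin, Nat.card_le_card_of_surjective E hE⟩

/-- `(F3)`: `gen` maps `I • ⊤` into `I • ⊤`. -/
theorem gen_mem {I : Ideal (MvPowerSeries (Fin h) 𝒪)} {v : Fin d → MvPowerSeries (Fin h) 𝒪}
    (hv : v ∈ I • (⊤ : Submodule (MvPowerSeries (Fin h) 𝒪) (Fin d → MvPowerSeries (Fin h) 𝒪))) :
    gen F v ∈ I • (⊤ : Submodule (MvPowerSeries (Fin h) 𝒪) F.N) := by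
  have h3 : gen F v ∈ Submodule.map (gen F)
      (I • (⊤ : Submodule (MvPowerSeries (Fin h) 𝒪) (Fin d → MvPowerSeries (Fin h) 𝒪))) :=
    Submodule.mem_map_of_mem hv
  rw [Submodule.map_smul''] at h3
  exact Submodule.smul_mono le_rfl le_top h3

/-- `(F3')`: `gen` maps `I • ⊤` onto `I • ⊤`. -/
theorem exists_gen_eq_of_mem {I : Ideal (MvPowerSeries (Fin h) 𝒪)} {x : F.N}
    (hx : x ∈ I • (⊤ : Submodule (MvPowerSeries (Fin h) 𝒪) F.N)) :
    ∃ v ∈ I • (⊤ : Submodule (MvPowerSeries (Fin h) 𝒪) (Fin d → MvPowerSeries (Fin h) 𝒪)),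
      gen F v = x := by
  refine Submodule.smul_induction_on hx ?_ ?_
  · intro a ha y _
    obtain ⟨w, rfl⟩ := gen_surjective F y
    exact ⟨a • w, Submodule.smul_mem_smul ha Submodule.mem_top, map_smul _ _ _⟩
  · rintro y z ⟨v, hv, rfl⟩ ⟨w, hw, rfl⟩
    exact ⟨v + w, Submodule.add_mem _ hv hw, map_add _ _ _⟩

end Frame

section Proj

variable {𝒪 : Type} [CommRing 𝒪] [IsLocalRing 𝒪] {r h : ℕ}
  {T : Type} [CommRing T] [IsLocalRing T] [Algebra 𝒪 T]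
  {M : Type} [AddCommGroup M] [Module T M]
  {N : Type} [AddCommGroup N] [Module (MvPowerSeries (Fin h) 𝒪) N]
  (ψ : MvPowerSeries (Fin h) 𝒪 →ₐ[𝒪] T) (π : N →+ M)

/-- `(F6a)`: `π` maps `𝔪 ^ m • ⊤` into `𝔪_T ^ m • ⊤`. -/
theorem pi_mem (hψ : Function.Surjective ψ)
    (hπ : ∀ (f : MvPowerSeries (Fin h) 𝒪) (x : N), π (f • x) = ψ f • π x) {m : ℕ} {x : N}
    (hx : x ∈ (maximalIdeal (MvPowerSeries (Fin h) 𝒪) ^ m) •
      (⊤ : Submodule (MvPowerSeries (Fin h) 𝒪) N)) :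
    π x ∈ (maximalIdeal T ^ m) • (⊤ : Submodule T M) := by
  refine Submodule.smul_induction_on hx ?_ ?_
  · intro f hf y _
    rw [hπ]
    exact Submodule.smul_mem_smul (psi_mem_pow ψ hψ hf) Submodule.mem_top
  · intro x y hx hy
    rw [map_add]
    exact Submodule.add_mem _ hx hy

/-- `(F6b)`: `π` maps `𝔪 ^ m • ⊤` onto `𝔪_T ^ m • ⊤`. -/
theorem exists_pi_eq_of_mem (hψ : Function.Surjective ψ)
    (hπ : ∀ (f : MvPowerSeries (Fin h) 𝒪) (x : N), π (f • x) = ψ f • π x)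
    (hπs : Function.Surjective π) {m : ℕ} {y : M}
    (hy : y ∈ (maximalIdeal T ^ m) • (⊤ : Submodule T M)) :
    ∃ x ∈ (maximalIdeal (MvPowerSeries (Fin h) 𝒪) ^ m) •
      (⊤ : Submodule (MvPowerSeries (Fin h) 𝒪) N), π x = y := by
  refine Submodule.smul_induction_on hy ?_ ?_
  · intro a ha z _
    obtain ⟨f, hf, rfl⟩ := exists_psi_eq_of_mem_pow ψ hψ ha
    obtain ⟨w, rfl⟩ := hπs z
    exact ⟨f • w, Submodule.smul_mem_smul hf Submodule.mem_top, hπ f w⟩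
  · rintro y z ⟨x, hx, rfl⟩ ⟨x', hx', rfl⟩
    exact ⟨x + x', Submodule.add_mem _ hx hx', map_add _ _ _⟩

end Proj

section Pivot

variable {𝒪 : Type} [CommRing 𝒪] {r h : ℕ} {T : Type} [CommRing T] [Algebra 𝒪 T]
  {M : Type} [AddCommGroup M] [Module T M] {ϖ : 𝒪}
  {I1 Iχ 𝔵 : Ideal (MvPowerSeries (Fin h) 𝒪)} {Ξ : Ideal T}
  {J : Ideal (MvPowerSeries (Fin r) 𝒪)} {d : ℕ}

/-- The frame of the module of unipotent type. -/
def frame1 (L : PivotLevel 𝒪 r h T M ϖ I1 Iχ 𝔵 Ξ J d) : Frame L.φ J d where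
  N := L.N1
  b := L.b1
  b_span := L.b1_span
  b_rel := L.b1_rel

/-- The frame of the module of the ramified types. -/
def frameχ (L : PivotLevel 𝒪 r h T M ϖ I1 Iχ 𝔵 Ξ J d) : Frame L.φ J d where
  N := L.Nχ
  b := L.bχ
  b_span := L.bχ_span
  b_rel := L.bχ_rel

/-- `M` is a finite `T`-module. -/
theorem moduleFinite_of_level (L : PivotLevel 𝒪 r h T M ϖ I1 Iχ 𝔵 Ξ J d) :
    Module.Finite T M := by
  let E : (Fin d → T) →ₗ[T] M := Fintype.linearCombination T (fun i => L.π (L.b1 i))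
  have hsurj : Function.Surjective E := by
    intro y
    obtain ⟨x, rfl⟩ := L.π_surjective y
    obtain ⟨c, rfl⟩ := L.b1_span x
    refine ⟨fun i => L.ψ (L.φ (c i)), ?_⟩
    rw [Fintype.linearCombination_apply, map_sum]
    refine Finset.sum_congr rfl fun i _ => ?_
    rw [L.π_smul]
  exact Module.Finite.of_surjective E hsurj

end Pivot

end Fermat.Agent.L.Pivot.H76
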