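import Mathlib
import Fermat.Agent.S59.Patch.ULim
import Fermat.Agent.S59.Patch.Level
import Fermat.Agent.S59.Patch.Limit
import Fermat.Agent.L.Pivot.H76_PatchLevel

/-!
# PIVOT / PV-PATCH (helper76): limits of frames along an ultrafilter

`S = 𝒪⟦s₁..s_r⟧`, `P = 𝒪⟦X₁..X_h⟧`.  Given `φ n : S → P` and frames `F n` over `φ n` with relation
ideals `J n ≤ 𝔪 ^ (n + 1)`, and a non-principal ultrafilter `𝔘` on `ℕ`:
* `φ∞ w = lim_𝔘 φ_n w`;
* `N∞ = P^d ⧸ K∞`, `K∞ = {v | ∀ m, ∀ᶠ n in 𝔘, gen_n v ∈ 𝔪 ^ m • N_n}` is a frame over `φ∞`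
  with relation ideal `⊥`;
* relations `f • N_n = 0` pass to the limit, and so do comparisons modulo an element `a`.
-/

set_option autoImplicit false
set_option linter.style.haveILetI false
set_option linter.unusedSectionVars false

namespace Fermat.Agent.L.Pivot.H76

open IsLocalRing MvPowerSeries Filter
open Fermat.Agent.S59.Patch (FinQuot ulim ulim_spec ulim_spec' ulim_eq ulim_eq' ulim_const
  ulim_add ulim_mul ulim_smul ulim_eq_zero eq_of_forall_mem mem_pow_smul_top_iff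
  mem_smul_top_pi_iff exists_sum_of_mem_span_smul_top pow_smul_top_le_of_card_le)

section Limit

variable {𝒪 : Type} [CommRing 𝒪] [IsLocalRing 𝒪] {r h d : ℕ}
  [IsAdicComplete (maximalIdeal (MvPowerSeries (Fin r) 𝒪)) (MvPowerSeries (Fin r) 𝒪)]
  [FinQuot (maximalIdeal (MvPowerSeries (Fin r) 𝒪)) (MvPowerSeries (Fin r) 𝒪)]
  [IsAdicComplete (maximalIdeal (MvPowerSeries (Fin r) 𝒪)) (Fin d → MvPowerSeries (Fin r) 𝒪)]
  [FinQuot (maximalIdeal (MvPowerSeries (Fin r) 𝒪)) (Fin d → MvPowerSeries (Fin r) 𝒪)]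
  [IsAdicComplete (maximalIdeal (MvPowerSeries (Fin h) 𝒪)) (MvPowerSeries (Fin h) 𝒪)]
  [FinQuot (maximalIdeal (MvPowerSeries (Fin h) 𝒪)) (MvPowerSeries (Fin h) 𝒪)]
  [IsAdicComplete (maximalIdeal (MvPowerSeries (Fin h) 𝒪)) (Fin d → MvPowerSeries (Fin h) 𝒪)]
  [FinQuot (maximalIdeal (MvPowerSeries (Fin h) 𝒪)) (Fin d → MvPowerSeries (Fin h) 𝒪)]
  (φ : ℕ → MvPowerSeries (Fin r) 𝒪 →ₐ[𝒪] MvPowerSeries (Fin h) 𝒪)
  (𝔘 : Ultrafilter ℕ)

/-- `φ∞`. -/
noncomputable def phiInf : MvPowerSeries (Fin r) 𝒪 →ₐ[𝒪] MvPowerSeries (Fin h) 𝒪 where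
  toFun w := ulim (maximalIdeal (MvPowerSeries (Fin h) 𝒪)) 𝔘 (fun n => φ n w)
  map_one' := by
    simp only [map_one]
    exact ulim_const _ 𝔘 1
  map_mul' a b := by
    simp only [map_mul]
    exact ulim_mul _ 𝔘 _ _
  map_zero' := by
    simp only [map_zero]
    exact ulim_const _ 𝔘 0
  map_add' a b := by
    simp only [map_add]
    exact ulim_add _ 𝔘 _ _
  commutes' c := by
    simp only [AlgHom.commutes]
    exact ulim_const _ 𝔘 _

theorem phiInf_apply (w : MvPowerSeries (Fin r) 𝒪) :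
    phiInf φ 𝔘 w = ulim (maximalIdeal (MvPowerSeries (Fin h) 𝒪)) 𝔘 (fun n => φ n w) := rfl

/-- `(I1)` -/
theorem phi_close (w : MvPowerSeries (Fin r) 𝒪) (m : ℕ) :
    ∀ᶠ n in (𝔘 : Filter ℕ), φ n w - phiInf φ 𝔘 w ∈
      maximalIdeal (MvPowerSeries (Fin h) 𝒪) ^ m :=
  ulim_spec' _ 𝔘 _ m

variable {φ}
variable {J : ℕ → Ideal (MvPowerSeries (Fin r) 𝒪)} (F : ∀ n, Frame (φ n) (J n) d)

/-- `K∞`. -/
def Kinf : Submodule (MvPowerSeries (Fin h) 𝒪) (Fin d → MvPowerSeries (Fin h) 𝒪) where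
  carrier := {v | ∀ m : ℕ, ∀ᶠ n in (𝔘 : Filter ℕ), gen (F n) v ∈
    (maximalIdeal (MvPowerSeries (Fin h) 𝒪) ^ m) •
      (⊤ : Submodule (MvPowerSeries (Fin h) 𝒪) (F n).N)}
  zero_mem' := fun m => Eventually.of_forall fun n => by
    rw [map_zero]; exact Submodule.zero_mem _
  add_mem' := by
    intro v w hv hw m
    filter_upwards [hv m, hw m] with n h1 h2
    rw [map_add]
    exact Submodule.add_mem _ h1 h2
  smul_mem' := by
    intro c v hv m
    filter_upwards [hv m] with n h1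
    rw [map_smul]
    exact Submodule.smul_mem _ _ h1

theorem mem_Kinf {v : Fin d → MvPowerSeries (Fin h) 𝒪} :
    v ∈ Kinf 𝔘 F ↔ ∀ m : ℕ, ∀ᶠ n in (𝔘 : Filter ℕ), gen (F n) v ∈
      (maximalIdeal (MvPowerSeries (Fin h) 𝒪) ^ m) •
        (⊤ : Submodule (MvPowerSeries (Fin h) 𝒪) (F n).N) := Iff.rfl

/-- elements which are close to elements with small image, are in `K∞` -/
theorem mem_Kinf_of_close {v : Fin d → MvPowerSeries (Fin h) 𝒪}
    (w : ℕ → (Fin d → MvPowerSeries (Fin h) 𝒪))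
    (h1 : ∀ m : ℕ, ∀ᶠ n in (𝔘 : Filter ℕ), v - w n ∈
      (maximalIdeal (MvPowerSeries (Fin h) 𝒪) ^ m) •
        (⊤ : Submodule (MvPowerSeries (Fin h) 𝒪) (Fin d → MvPowerSeries (Fin h) 𝒪)))
    (h2 : ∀ m : ℕ, ∀ᶠ n in (𝔘 : Filter ℕ), gen (F n) (w n) ∈
      (maximalIdeal (MvPowerSeries (Fin h) 𝒪) ^ m) •
        (⊤ : Submodule (MvPowerSeries (Fin h) 𝒪) (F n).N)) :
    v ∈ Kinf 𝔘 F := by
  intro m
  filter_upwards [h1 m, h2 m] with n h3 h4
  have : gen (F n) v = gen (F n) (v - w n) + gen (F n) (w n) := by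
    rw [← map_add, sub_add_cancel]
  rw [this]
  exact Submodule.add_mem _ (gen_mem (F n) h3) h4

/-- `N∞`. -/
abbrev Ninf : Type := (Fin d → MvPowerSeries (Fin h) 𝒪) ⧸ Kinf 𝔘 F

/-- the class of `fun i => a i` is `∑ a i • b∞ i` -/
theorem mk_eq_sum (a : Fin d → MvPowerSeries (Fin h) 𝒪) :
    (Submodule.Quotient.mk a : Ninf 𝔘 F) =
      ∑ i, a i • (Submodule.Quotient.mk (Pi.single i 1) : Ninf 𝔘 F) := by
  classical
  conv_lhs => rw [pi_eq_sum_univ a]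
  have hsingle : ∀ i : Fin d,
      (fun j => if i = j then (1 : MvPowerSeries (Fin h) 𝒪) else 0) = Pi.single i 1 := by
    intro i
    funext j
    rw [Pi.single_apply]
    by_cases hij : i = j
    · rw [if_pos hij, if_pos hij.symm]
    · rw [if_neg hij, if_neg (fun h' => hij h'.symm)]
  simp only [hsingle]
  rw [← Submodule.mkQ_apply, map_sum]
  refine Finset.sum_congr rfl fun i _ => ?_
  rw [map_smul, Submodule.mkQ_apply]

/-- `(H2)` -/
theorem phi_comp_close (φ : ℕ → MvPowerSeries (Fin r) 𝒪 →ₐ[𝒪] MvPowerSeries (Fin h) 𝒪)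
    (c : ℕ → (Fin d → MvPowerSeries (Fin r) 𝒪)) (m : ℕ) :
    ∀ᶠ n in (𝔘 : Filter ℕ),
      ((fun i => φ n (c n i)) - fun i => phiInf φ 𝔘
          (ulim (maximalIdeal (MvPowerSeries (Fin r) 𝒪)) 𝔘 c i)) ∈
        (maximalIdeal (MvPowerSeries (Fin h) 𝒪) ^ m) •
          (⊤ : Submodule (MvPowerSeries (Fin h) 𝒪) (Fin d → MvPowerSeries (Fin h) 𝒪)) := by
  classical
  have h1 : ∀ᶠ n in (𝔘 : Filter ℕ), ∀ i : Fin d,
      φ n (ulim (maximalIdeal (MvPowerSeries (Fin r) 𝒪)) 𝔘 c i) -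
        phiInf φ 𝔘 (ulim (maximalIdeal (MvPowerSeries (Fin r) 𝒪)) 𝔘 c i) ∈
          maximalIdeal (MvPowerSeries (Fin h) 𝒪) ^ m :=
    Filter.eventually_all.mpr fun i => phi_close φ 𝔘 _ m
  filter_upwards [h1, ulim_spec (maximalIdeal (MvPowerSeries (Fin r) 𝒪)) 𝔘 c m] with n h2 h3
  rw [mem_smul_top_pi_iff] at h3 ⊢
  intro i
  have h4 := h3 i
  rw [Pi.sub_apply] at h4 ⊢
  have h5 : φ n (c n i) - phiInf φ 𝔘 (ulim (maximalIdeal (MvPowerSeries (Fin r) 𝒪)) 𝔘 c i) =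
      φ n (c n i - ulim (maximalIdeal (MvPowerSeries (Fin r) 𝒪)) 𝔘 c i) +
        (φ n (ulim (maximalIdeal (MvPowerSeries (Fin r) 𝒪)) 𝔘 c i) -
          phiInf φ 𝔘 (ulim (maximalIdeal (MvPowerSeries (Fin r) 𝒪)) 𝔘 c i)) := by
    rw [map_sub]; ring
  rw [h5]
  exact Ideal.add_mem _ (phi_mem_pow (φ n) h4) (h2 i)

/-- `(V6)` -/
theorem b_span_inf (x : Ninf 𝔘 F) :
    ∃ c : Fin d → MvPowerSeries (Fin r) 𝒪,
      x = ∑ i, phiInf φ 𝔘 (c i) • (Submodule.Quotient.mk (Pi.single i 1) : Ninf 𝔘 F) := by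
  obtain ⟨v, rfl⟩ := Submodule.Quotient.mk_surjective _ x
  have h1 : ∀ n, ∃ c : Fin d → MvPowerSeries (Fin r) 𝒪,
      gen (F n) v = gen (F n) (fun i => φ n (c i)) := fun n => by
    obtain ⟨c, hc⟩ := (F n).b_span (gen (F n) v)
    exact ⟨c, by rw [gen_phi, hc]⟩
  choose c hc using h1
  refine ⟨ulim (maximalIdeal (MvPowerSeries (Fin r) 𝒪)) 𝔘 c, ?_⟩
  rw [← mk_eq_sum 𝔘 F (fun i => phiInf φ 𝔘
    (ulim (maximalIdeal (MvPowerSeries (Fin r) 𝒪)) 𝔘 c i))]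
  refine (Submodule.Quotient.eq _).mpr ?_
  refine mem_Kinf_of_close 𝔘 F (fun n => v - fun i => φ n (c n i)) ?_ ?_
  · intro m
    filter_upwards [phi_comp_close 𝔘 φ c m] with n hn
    have : (v - fun i => phiInf φ 𝔘 (ulim (maximalIdeal (MvPowerSeries (Fin r) 𝒪)) 𝔘 c i)) -
        (v - fun i => φ n (c n i)) =
        (fun i => φ n (c n i)) - fun i => phiInf φ 𝔘
          (ulim (maximalIdeal (MvPowerSeries (Fin r) 𝒪)) 𝔘 c i) := by abel
    rw [this]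
    exact hn
  · intro m
    refine Eventually.of_forall fun n => ?_
    rw [map_sub, hc n, sub_self]
    exact Submodule.zero_mem _

/-- `(V7)` -/
theorem b_rel_inf (h𝔘 : (𝔘 : Filter ℕ) ≤ atTop)
    (hJ : ∀ n, J n ≤ maximalIdeal (MvPowerSeries (Fin r) 𝒪) ^ (n + 1))
    (c : Fin d → MvPowerSeries (Fin r) 𝒪) :
    ∑ i, phiInf φ 𝔘 (c i) • (Submodule.Quotient.mk (Pi.single i 1) : Ninf 𝔘 F) = 0 ↔
      ∀ i, c i ∈ (⊥ : Ideal (MvPowerSeries (Fin r) 𝒪)) := by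
  classical
  constructor
  · intro hz i₀
    rw [← mk_eq_sum 𝔘 F (fun i => phiInf φ 𝔘 (c i)), Submodule.Quotient.mk_eq_zero] at hz
    rw [Ideal.mem_bot]
    apply eq_of_forall_mem (maximalIdeal (MvPowerSeries (Fin r) 𝒪))
    intro m
    rw [sub_zero, mem_pow_smul_top_iff]
    have hfin : Finite (MvPowerSeries (Fin r) 𝒪 ⧸ maximalIdeal (MvPowerSeries (Fin r) 𝒪) ^ m) := by
      have h0 := FinQuot.fin (I := maximalIdeal (MvPowerSeries (Fin r) 𝒪))
        (M := MvPowerSeries (Fin r) 𝒪) m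
      have e : (maximalIdeal (MvPowerSeries (Fin r) 𝒪) ^ m • ⊤ :
          Submodule (MvPowerSeries (Fin r) 𝒪) (MvPowerSeries (Fin r) 𝒪)) =
          maximalIdeal (MvPowerSeries (Fin r) 𝒪) ^ m := by
        ext x
        exact mem_pow_smul_top_iff _
      rw [e] at h0
      exact h0
    set K : ℕ := Nat.card (Fin d → MvPowerSeries (Fin r) 𝒪 ⧸
      maximalIdeal (MvPowerSeries (Fin r) 𝒪) ^ m) with hK
    have h1 : ∀ᶠ n in (𝔘 : Filter ℕ), ∀ i : Fin d,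
        φ n (c i) - phiInf φ 𝔘 (c i) ∈ maximalIdeal (MvPowerSeries (Fin h) 𝒪) ^ K :=
      Filter.eventually_all.mpr fun i => phi_close φ 𝔘 _ K
    have h2 : ∀ᶠ n in (𝔘 : Filter ℕ), m ≤ n := h𝔘 (eventually_ge_atTop m)
    obtain ⟨n, hn1, hn2, hn3⟩ := (h1.and (h2.and (hz K))).exists
    have h3 : gen (F n) (fun i => φ n (c i)) ∈
        (maximalIdeal (MvPowerSeries (Fin h) 𝒪) ^ K) •
          (⊤ : Submodule (MvPowerSeries (Fin h) 𝒪) (F n).N) := by
      have h4 : (fun i => φ n (c i)) =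
          ((fun i => φ n (c i)) - fun i => phiInf φ 𝔘 (c i)) +
            fun i => phiInf φ 𝔘 (c i) := by
        rw [sub_add_cancel]
      rw [h4, map_add]
      refine Submodule.add_mem _ (gen_mem (F n) ?_) hn3
      rw [mem_smul_top_pi_iff]
      exact hn1
    obtain ⟨hfin', hcard⟩ := finite_quot_phiSub (F n)
      (maximalIdeal (MvPowerSeries (Fin r) 𝒪) ^ m)
    have h5 := pow_smul_top_le_of_card_le (phiSub (F n)
      (maximalIdeal (MvPowerSeries (Fin r) 𝒪) ^ m)) hcard h3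
    rw [gen_phi] at h5
    have hJ' : J n ≤ maximalIdeal (MvPowerSeries (Fin r) 𝒪) ^ m :=
      (hJ n).trans (Ideal.pow_le_pow_right (by omega))
    exact mem_of_sum_mem_phiSub (F n) hJ' c h5 i₀
  · intro hz
    have : ∀ i, c i = 0 := fun i => (Ideal.mem_bot).mp (hz i)
    simp [this]

/-- The limit frame. -/
noncomputable def frameInf (h𝔘 : (𝔘 : Filter ℕ) ≤ atTop)
    (hJ : ∀ n, J n ≤ maximalIdeal (MvPowerSeries (Fin r) 𝒪) ^ (n + 1)) :
    Frame (phiInf φ 𝔘) (⊥ : Ideal (MvPowerSeries (Fin r) 𝒪)) d where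
  N := Ninf 𝔘 F
  b := fun i => Submodule.Quotient.mk (Pi.single i 1)
  b_span := b_span_inf 𝔘 F
  b_rel := b_rel_inf 𝔘 F h𝔘 hJ

/-- Relations pass to the limit. -/
theorem rel_inf (f : MvPowerSeries (Fin h) 𝒪) (hf : ∀ n, ∀ x : (F n).N, f • x = 0)
    (x : Ninf 𝔘 F) : f • x = 0 := by
  obtain ⟨v, rfl⟩ := Submodule.Quotient.mk_surjective _ x
  rw [← Submodule.Quotient.mk_smul, Submodule.Quotient.mk_eq_zero]
  intro m
  refine Eventually.of_forall fun n => ?_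
  rw [map_smul, hf n]
  exact Submodule.zero_mem _

/-- Membership in `a • N∞`. -/
theorem mem_span_singleton_smul_top_iff {A : Type*} [CommRing A] {N : Type*} [AddCommGroup N]
    [Module A N] (a : A) (x : N) :
    x ∈ (Ideal.span {a}) • (⊤ : Submodule A N) ↔ ∃ y : N, x = a • y := by
  constructor
  · intro hx
    refine Submodule.smul_induction_on hx ?_ ?_
    · intro b hb z _
      obtain ⟨c, rfl⟩ := Ideal.mem_span_singleton'.mp hb
      exact ⟨c • z, by rw [smul_smul, mul_comm]⟩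
    · rintro y z ⟨y', rfl⟩ ⟨z', rfl⟩
      exact ⟨y' + z', by rw [smul_add]⟩
  · rintro ⟨y, rfl⟩
    exact Submodule.smul_mem_smul (Ideal.subset_span rfl) Submodule.mem_top

/-- Comparison modulo `a` passes to the limit (one direction). -/
theorem cmp_inf_aux {J' : ℕ → Ideal (MvPowerSeries (Fin r) 𝒪)}
    (G : ∀ n, Frame (φ n) (J' n) d) (h𝔘 : (𝔘 : Filter ℕ) ≤ atTop)
    (a : MvPowerSeries (Fin h) 𝒪)
    (hFG : ∀ n (v : Fin d → MvPowerSeries (Fin h) 𝒪),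
      gen (F n) v ∈ (Ideal.span {a}) • (⊤ : Submodule (MvPowerSeries (Fin h) 𝒪) (F n).N) →
      gen (G n) v ∈ (Ideal.span {a}) • (⊤ : Submodule (MvPowerSeries (Fin h) 𝒪) (G n).N))
    (v : Fin d → MvPowerSeries (Fin h) 𝒪)
    (hv : (Submodule.Quotient.mk v : Ninf 𝔘 F) ∈
      (Ideal.span {a}) • (⊤ : Submodule (MvPowerSeries (Fin h) 𝒪) (Ninf 𝔘 F))) :
    (Submodule.Quotient.mk v : Ninf 𝔘 G) ∈
      (Ideal.span {a}) • (⊤ : Submodule (MvPowerSeries (Fin h) 𝒪) (Ninf 𝔘 G)) := by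
  classical
  obtain ⟨y, hy⟩ := (mem_span_singleton_smul_top_iff a _).mp hv
  obtain ⟨w, rfl⟩ := Submodule.Quotient.mk_surjective _ y
  rw [← Submodule.Quotient.mk_smul, Submodule.Quotient.eq] at hy
  -- `hy : v - a • w ∈ K∞(F)`
  set Pr : ℕ → ℕ → Prop := fun n m => gen (F n) (v - a • w) ∈
    (maximalIdeal (MvPowerSeries (Fin h) 𝒪) ^ m) •
      (⊤ : Submodule (MvPowerSeries (Fin h) 𝒪) (F n).N) with hPr
  have hP0 : ∀ n, Pr n 0 := fun n => by
    simp only [hPr, pow_zero, Ideal.one_eq_top, Submodule.top_smul, Submodule.mem_top]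
  set μ : ℕ → ℕ := fun n => Nat.findGreatest (Pr n) n with hμ
  have hPμ : ∀ n, Pr n (μ n) := fun n => Nat.findGreatest_spec (Nat.zero_le n) (hP0 n)
  have h1 : ∀ n, ∃ w' : Fin d → MvPowerSeries (Fin h) 𝒪,
      gen (G n) (v - a • w') ∈ (maximalIdeal (MvPowerSeries (Fin h) 𝒪) ^ μ n) •
        (⊤ : Submodule (MvPowerSeries (Fin h) 𝒪) (G n).N) := by
    intro n
    obtain ⟨t, ht, hgt⟩ := exists_gen_eq_of_mem (F n) (hPμ n)
    have h2 : gen (F n) (v - t) ∈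
        (Ideal.span {a}) • (⊤ : Submodule (MvPowerSeries (Fin h) 𝒪) (F n).N) := by
      rw [mem_span_singleton_smul_top_iff]
      refine ⟨gen (F n) w, ?_⟩
      rw [map_sub, hgt, map_sub, map_smul]
      abel
    obtain ⟨z, hz⟩ := (mem_span_singleton_smul_top_iff a _).mp (hFG n _ h2)
    obtain ⟨w', rfl⟩ := gen_surjective (G n) z
    refine ⟨w', ?_⟩
    have h3 : gen (G n) (v - a • w') = gen (G n) t := by
      have : v - a • w' = (v - t) - a • w' + t := by abel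
      rw [this, map_add, map_sub, hz, map_smul, sub_self, zero_add]
    rw [h3]
    exact gen_mem (G n) ht
  choose w' hw' using h1
  set W : Fin d → MvPowerSeries (Fin h) 𝒪 :=
    ulim (maximalIdeal (MvPowerSeries (Fin h) 𝒪)) 𝔘 w' with hW
  have hmem : v - a • W ∈ Kinf 𝔘 G := by
    refine mem_Kinf_of_close 𝔘 G (fun n => v - a • w' n) ?_ ?_
    · intro m
      filter_upwards [ulim_spec (maximalIdeal (MvPowerSeries (Fin h) 𝒪)) 𝔘 w' m] with n hn
      have : (v - a • W) - (v - a • w' n) = a • (w' n - W) := by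
        rw [smul_sub]; abel
      rw [this]
      exact Submodule.smul_mem _ _ hn
    · intro m
      have h10 : ∀ᶠ n in (𝔘 : Filter ℕ), m ≤ n := h𝔘 (eventually_ge_atTop m)
      filter_upwards [h10, hy m] with n h12 h13
      have h14 : m ≤ μ n := Nat.le_findGreatest h12 h13
      exact Submodule.smul_mono_left (Ideal.pow_le_pow_right h14) (hw' n)
  rw [mem_span_singleton_smul_top_iff]
  refine ⟨Submodule.Quotient.mk W, ?_⟩
  rw [← Submodule.Quotient.mk_smul, Submodule.Quotient.eq]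
  exact hmem

end Limit

end Fermat.Agent.L.Pivot.H76
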