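import Mathlib
import Fermat.Agent.S59.Patch.ULim
import Fermat.Agent.S59.Patch.Level
import Fermat.Agent.S59.Patch.Limit
import Fermat.Agent.L.Pivot.H76_PatchLevel
import Fermat.Agent.L.Pivot.H76_PatchLimit

/-!
# PIVOT / PV-PATCH (helper76): the limit of the projections to level `∅`

`ψ∞ w = lim_𝔘 ψ_n w`, `π∞ [v] = lim_𝔘 π_n (gen_n v)`; `ker π∞ = (φ∞ s_j)_j • N∞`;
an ideal `Ξ ≤ ψ_n(𝔵)` for all `n` satisfies `Ξ ≤ ψ∞(𝔵)` (ideals of `P` are closed).
-/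

set_option autoImplicit false
set_option linter.style.haveILetI false
set_option linter.unusedSectionVars false

namespace Fermat.Agent.L.Pivot.H76

open IsLocalRing MvPowerSeries Filter
open Fermat.Agent.S59.Patch (FinQuot ulim ulim_spec ulim_spec' ulim_eq ulim_eq' ulim_const
  ulim_add ulim_mul ulim_smul ulim_eq_zero eq_of_forall_mem mem_pow_smul_top_iff
  mem_smul_top_pi_iff exists_sum_of_mem_span_smul_top pow_smul_top_le_of_card_le)

section ProjLimit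

variable {𝒪 : Type} [CommRing 𝒪] [IsLocalRing 𝒪] {r h d : ℕ}
  [IsAdicComplete (maximalIdeal (MvPowerSeries (Fin r) 𝒪)) (MvPowerSeries (Fin r) 𝒪)]
  [FinQuot (maximalIdeal (MvPowerSeries (Fin r) 𝒪)) (MvPowerSeries (Fin r) 𝒪)]
  [IsAdicComplete (maximalIdeal (MvPowerSeries (Fin r) 𝒪)) (Fin d → MvPowerSeries (Fin r) 𝒪)]
  [FinQuot (maximalIdeal (MvPowerSeries (Fin r) 𝒪)) (Fin d → MvPowerSeries (Fin r) 𝒪)]
  [IsAdicComplete (maximalIdeal (MvPowerSeries (Fin h) 𝒪)) (MvPowerSeries (Fin h) 𝒪)]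
  [FinQuot (maximalIdeal (MvPowerSeries (Fin h) 𝒪)) (MvPowerSeries (Fin h) 𝒪)]
  [IsAdicComplete (maximalIdeal (MvPowerSeries (Fin h) 𝒪)) (Fin d → MvPowerSeries (Fin h) 𝒪)]
  [FinQuot (maximalIdeal (MvPowerSeries (Fin h) 𝒪)) (Fin d → MvPowerSeries (Fin h) 𝒪)]
  {T : Type} [CommRing T] [IsLocalRing T] [Algebra 𝒪 T]
  {M : Type} [AddCommGroup M] [Module T M]
  [IsAdicComplete (maximalIdeal T) T] [FinQuot (maximalIdeal T) T]
  [IsAdicComplete (maximalIdeal T) M] [FinQuot (maximalIdeal T) M]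
  {φ : ℕ → MvPowerSeries (Fin r) 𝒪 →ₐ[𝒪] MvPowerSeries (Fin h) 𝒪}
  (ψ : ℕ → MvPowerSeries (Fin h) 𝒪 →ₐ[𝒪] T)
  (𝔘 : Ultrafilter ℕ)

/-- `ψ∞`. -/
noncomputable def psiInf : MvPowerSeries (Fin h) 𝒪 →ₐ[𝒪] T where
  toFun w := ulim (maximalIdeal T) 𝔘 (fun n => ψ n w)
  map_one' := by
    simp only [map_one]
    exact ulim_const _ 𝔘 1
  map_mul' a b := by
    simp only [map_mul]
    exact ulim_mul _ 𝔘 _ _
  map_zero' := by
    simp only [map_zero]
    exact ulim_const _ 𝔘 0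
  map_add' a b := by
    simp only [map_add]
    exact ulim_add _ 𝔘 _ _
  commutes' c := by
    simp only [AlgHom.commutes]
    exact ulim_const _ 𝔘 _

theorem psiInf_apply (w : MvPowerSeries (Fin h) 𝒪) :
    psiInf ψ 𝔘 w = ulim (maximalIdeal T) 𝔘 (fun n => ψ n w) := rfl

/-- `(I2)` -/
theorem psi_close (w : MvPowerSeries (Fin h) 𝒪) (m : ℕ) :
    ∀ᶠ n in (𝔘 : Filter ℕ), ψ n w - psiInf ψ 𝔘 w ∈ maximalIdeal T ^ m :=
  ulim_spec' _ 𝔘 _ m

/-- `(V1)`: `ψ∞` is surjective. -/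
theorem psiInf_surjective (hψ : ∀ n, Function.Surjective (ψ n)) :
    Function.Surjective (psiInf ψ 𝔘) := by
  intro y
  have h1 : ∀ n, ∃ w, ψ n w = y := fun n => hψ n y
  choose w hw using h1
  refine ⟨ulim (maximalIdeal (MvPowerSeries (Fin h) 𝒪)) 𝔘 w, ?_⟩
  rw [psiInf_apply]
  refine ulim_eq' _ 𝔘 _ _ (fun m => Eventually.frequently ?_)
  filter_upwards [ulim_spec' (maximalIdeal (MvPowerSeries (Fin h) 𝒪)) 𝔘 w m] with n hn
  have h2 : ψ n (ulim (maximalIdeal (MvPowerSeries (Fin h) 𝒪)) 𝔘 w) - y =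
      - ψ n (w n - ulim (maximalIdeal (MvPowerSeries (Fin h) 𝒪)) 𝔘 w) := by
    rw [map_sub, hw n]; ring
  rw [h2]
  exact neg_mem (psi_mem_pow (ψ n) (hψ n) hn)

/-- `(V2)`: `ψ∞ (φ∞ X_i) = 0`. -/
theorem psiInf_phiInf_X (hψ : ∀ n, Function.Surjective (ψ n))
    (h0 : ∀ n (i : Fin r), ψ n (φ n (X i)) = 0) (i : Fin r) :
    psiInf ψ 𝔘 (phiInf φ 𝔘 (X i)) = 0 := by
  rw [psiInf_apply]
  refine ulim_eq' _ 𝔘 _ _ (fun m => Eventually.frequently ?_)
  filter_upwards [phi_close φ 𝔘 (X i) m] with n hn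
  rw [sub_zero]
  have h2 : ψ n (phiInf φ 𝔘 (X i)) = - ψ n (φ n (X i) - phiInf φ 𝔘 (X i)) := by
    rw [map_sub, h0 n i]; ring
  rw [h2]
  exact neg_mem (psi_mem_pow (ψ n) (hψ n) hn)

/-- Ideals of `P` are closed: `Ξ ≤ ψ_n(𝔵)` for all `n` implies `Ξ ≤ ψ∞(𝔵)`. -/
theorem le_map_psiInf [IsNoetherianRing (MvPowerSeries (Fin h) 𝒪)]
    (hψ : ∀ n, Function.Surjective (ψ n))
    (𝔵 : Ideal (MvPowerSeries (Fin h) 𝒪)) (Ξ : Ideal T)
    (hΞ : ∀ n, Ξ ≤ Ideal.map (ψ n : MvPowerSeries (Fin h) 𝒪 →+* T) 𝔵) :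
    Ξ ≤ Ideal.map (psiInf ψ 𝔘 : MvPowerSeries (Fin h) 𝒪 →+* T) 𝔵 := by
  intro x hx
  have h1 : ∀ n, ∃ f ∈ 𝔵, ψ n f = x := fun n =>
    (Ideal.mem_map_iff_of_surjective (ψ n : MvPowerSeries (Fin h) 𝒪 →+* T) (hψ n)).mp (hΞ n hx)
  choose f hf hfx using h1
  set g := ulim (maximalIdeal (MvPowerSeries (Fin h) 𝒪)) 𝔘 f with hg
  -- `g ∈ 𝔵`
  have hg𝔵 : g ∈ 𝔵 := by
    have h2 : (Ideal.Quotient.mk 𝔵 g : MvPowerSeries (Fin h) 𝒪 ⧸ 𝔵) ∈
        (⨅ i : ℕ, (maximalIdeal (MvPowerSeries (Fin h) 𝒪)) ^ i •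
          (⊤ : Submodule (MvPowerSeries (Fin h) 𝒪) (MvPowerSeries (Fin h) 𝒪 ⧸ 𝔵))) := by
      rw [Submodule.mem_iInf]
      intro m
      obtain ⟨n, hn⟩ := (ulim_spec' (maximalIdeal (MvPowerSeries (Fin h) 𝒪)) 𝔘 f m).exists
      have h3 : (Ideal.Quotient.mk 𝔵 g : MvPowerSeries (Fin h) 𝒪 ⧸ 𝔵) =
          (g - f n) • (1 : MvPowerSeries (Fin h) 𝒪 ⧸ 𝔵) := by
        have h4 : (g - f n) • (1 : MvPowerSeries (Fin h) 𝒪 ⧸ 𝔵) =
            Ideal.Quotient.mk 𝔵 (g - f n) := by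
          have h5 : (1 : MvPowerSeries (Fin h) 𝒪 ⧸ 𝔵) = Ideal.Quotient.mk 𝔵 1 := rfl
          rw [h5]
          change Ideal.Quotient.mk 𝔵 ((g - f n) • 1) = _
          rw [smul_eq_mul, mul_one]
        rw [h4, map_sub, (Ideal.Quotient.eq_zero_iff_mem).mpr (hf n), sub_zero]
      rw [h3]
      refine Submodule.smul_mem_smul ?_ Submodule.mem_top
      have : g - f n = - (f n - g) := by ring
      rw [this]
      exact neg_mem hn
    rw [Ideal.iInf_pow_smul_eq_bot_of_isLocalRing _ (maximalIdeal.isMaximal _).ne_top,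
      Submodule.mem_bot] at h2
    exact (Ideal.Quotient.eq_zero_iff_mem).mp h2
  have hgx : psiInf ψ 𝔘 g = x := by
    rw [psiInf_apply]
    refine ulim_eq' _ 𝔘 _ _ (fun m => Eventually.frequently ?_)
    filter_upwards [ulim_spec' (maximalIdeal (MvPowerSeries (Fin h) 𝒪)) 𝔘 f m] with n hn
    have h2 : ψ n g - x = - ψ n (f n - g) := by
      rw [map_sub, hfx n]; ring
    rw [h2]
    exact neg_mem (psi_mem_pow (ψ n) (hψ n) hn)
  rw [← hgx]
  exact Ideal.mem_map_of_mem _ hg𝔵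

variable {J : ℕ → Ideal (MvPowerSeries (Fin r) 𝒪)} (F : ∀ n, Frame (φ n) (J n) d)
  (π : ∀ n, (F n).N →+ M)

variable (T) in
/-- `π̃ : P^d → M`. -/
noncomputable def piLim : (Fin d → MvPowerSeries (Fin h) 𝒪) →+ M where
  toFun v := ulim (maximalIdeal T) 𝔘 (fun n => π n (gen (F n) v))
  map_zero' := by
    simp only [map_zero]
    exact ulim_const (maximalIdeal T) 𝔘 0
  map_add' v w := by
    simp only [map_add]
    exact ulim_add (maximalIdeal T) 𝔘 _ _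

theorem piLim_apply (v : Fin d → MvPowerSeries (Fin h) 𝒪) :
    piLim T 𝔘 F π v = ulim (maximalIdeal T) 𝔘 (fun n => π n (gen (F n) v)) := rfl

theorem piLim_smul
    (hπ : ∀ n (f : MvPowerSeries (Fin h) 𝒪) (x : (F n).N), π n (f • x) = ψ n f • π n x)
    (f : MvPowerSeries (Fin h) 𝒪) (v : Fin d → MvPowerSeries (Fin h) 𝒪) :
    piLim T 𝔘 F π (f • v) = psiInf ψ 𝔘 f • piLim T 𝔘 F π v := by
  rw [piLim_apply, piLim_apply, psiInf_apply, ← ulim_smul]
  congr 1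
  funext n
  rw [map_smul, hπ n]

theorem piLim_eq_zero_of_mem (hψ : ∀ n, Function.Surjective (ψ n))
    (hπ : ∀ n (f : MvPowerSeries (Fin h) 𝒪) (x : (F n).N), π n (f • x) = ψ n f • π n x)
    {v : Fin d → MvPowerSeries (Fin h) 𝒪} (hv : v ∈ Kinf 𝔘 F) :
    piLim T 𝔘 F π v = 0 := by
  rw [piLim_apply]
  refine ulim_eq_zero (maximalIdeal T) 𝔘 _ (fun m => Eventually.frequently ?_)
  filter_upwards [hv m] with n hn
  exact pi_mem (ψ n) (π n) (hψ n) (hπ n) hn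

/-- `π∞ : N∞ → M`. -/
noncomputable def piInf (hψ : ∀ n, Function.Surjective (ψ n))
    (hπ : ∀ n (f : MvPowerSeries (Fin h) 𝒪) (x : (F n).N), π n (f • x) = ψ n f • π n x) :
    Ninf 𝔘 F →+ M :=
  QuotientAddGroup.lift (Kinf 𝔘 F).toAddSubgroup (piLim T 𝔘 F π)
    (fun _ hv => piLim_eq_zero_of_mem ψ 𝔘 F π hψ hπ hv)

theorem piInf_mk (hψ : ∀ n, Function.Surjective (ψ n))
    (hπ : ∀ n (f : MvPowerSeries (Fin h) 𝒪) (x : (F n).N), π n (f • x) = ψ n f • π n x)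
    (v : Fin d → MvPowerSeries (Fin h) 𝒪) :
    piInf ψ 𝔘 F π hψ hπ (Submodule.Quotient.mk v) = piLim T 𝔘 F π v := rfl

/-- `(V3)` -/
theorem piInf_smul (hψ : ∀ n, Function.Surjective (ψ n))
    (hπ : ∀ n (f : MvPowerSeries (Fin h) 𝒪) (x : (F n).N), π n (f • x) = ψ n f • π n x)
    (f : MvPowerSeries (Fin h) 𝒪) (x : Ninf 𝔘 F) :
    piInf ψ 𝔘 F π hψ hπ (f • x) = psiInf ψ 𝔘 f • piInf ψ 𝔘 F π hψ hπ x := by
  obtain ⟨v, rfl⟩ := Submodule.Quotient.mk_surjective _ x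
  rw [← Submodule.Quotient.mk_smul, piInf_mk, piInf_mk, piLim_smul ψ 𝔘 F π hπ]

/-- `(V4)` -/
theorem piInf_surjective (hψ : ∀ n, Function.Surjective (ψ n))
    (hπ : ∀ n (f : MvPowerSeries (Fin h) 𝒪) (x : (F n).N), π n (f • x) = ψ n f • π n x)
    (hπs : ∀ n, Function.Surjective (π n)) :
    Function.Surjective (piInf ψ 𝔘 F π hψ hπ) := by
  intro y
  have h1 : ∀ n, ∃ v, π n (gen (F n) v) = y := fun n => by
    obtain ⟨x, hx⟩ := hπs n y
    obtain ⟨v, rfl⟩ := gen_surjective (F n) x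
    exact ⟨v, hx⟩
  choose v hv using h1
  refine ⟨Submodule.Quotient.mk
    (ulim (maximalIdeal (MvPowerSeries (Fin h) 𝒪)) 𝔘 v), ?_⟩
  rw [piInf_mk, piLim_apply]
  refine ulim_eq (maximalIdeal T) 𝔘 _ _ (fun m => ?_)
  filter_upwards [ulim_spec (maximalIdeal (MvPowerSeries (Fin h) 𝒪)) 𝔘 v m] with n hn
  have h2 : π n (gen (F n) (ulim (maximalIdeal (MvPowerSeries (Fin h) 𝒪)) 𝔘 v)) - y =
      - π n (gen (F n) (v n - ulim (maximalIdeal (MvPowerSeries (Fin h) 𝒪)) 𝔘 v)) := by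
    rw [map_sub, map_sub, hv n]; abel
  rw [h2]
  exact neg_mem (pi_mem (ψ n) (π n) (hψ n) (hπ n) (gen_mem (F n) hn))

theorem span_le_ker_psiInf (hψ : ∀ n, Function.Surjective (ψ n))
    (h0 : ∀ n (i : Fin r), ψ n (φ n (X i)) = 0) :
    Ideal.span (Set.range fun i : Fin r => phiInf φ 𝔘 (MvPowerSeries.X i)) ≤
      RingHom.ker (psiInf ψ 𝔘 : MvPowerSeries (Fin h) 𝒪 →+* T) := by
  rw [Ideal.span_le]
  rintro _ ⟨j, rfl⟩
  exact psiInf_phiInf_X ψ 𝔘 hψ h0 j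

/-- `(V5)` -/
theorem ker_piInf (h𝔘 : (𝔘 : Filter ℕ) ≤ atTop)
    (hψ : ∀ n, Function.Surjective (ψ n))
    (h0 : ∀ n (i : Fin r), ψ n (φ n (X i)) = 0)
    (hπ : ∀ n (f : MvPowerSeries (Fin h) 𝒪) (x : (F n).N), π n (f • x) = ψ n f • π n x)
    (hπs : ∀ n, Function.Surjective (π n))
    (hker : ∀ n (x : (F n).N), π n x = 0 ↔
      x ∈ (Ideal.span (Set.range fun i : Fin r => φ n (MvPowerSeries.X i))) •
        (⊤ : Submodule (MvPowerSeries (Fin h) 𝒪) (F n).N))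
    (x : Ninf 𝔘 F) :
    piInf ψ 𝔘 F π hψ hπ x = 0 ↔
      x ∈ (Ideal.span (Set.range fun i : Fin r => phiInf φ 𝔘 (MvPowerSeries.X i))) •
        (⊤ : Submodule (MvPowerSeries (Fin h) 𝒪) (Ninf 𝔘 F)) := by
  classical
  constructor
  · intro hx
    obtain ⟨v, rfl⟩ := Submodule.Quotient.mk_surjective _ x
    rw [piInf_mk, piLim_apply] at hx
    set Pr : ℕ → ℕ → Prop := fun n m => π n (gen (F n) v) ∈
      (maximalIdeal T ^ m) • (⊤ : Submodule T M) with hPr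
    have hP0 : ∀ n, Pr n 0 := fun n => by
      simp only [hPr, pow_zero, Ideal.one_eq_top, Submodule.top_smul, Submodule.mem_top]
    set μ : ℕ → ℕ := fun n => Nat.findGreatest (Pr n) n with hμ
    have hPμ : ∀ n, Pr n (μ n) := fun n => Nat.findGreatest_spec (Nat.zero_le n) (hP0 n)
    have h1 : ∀ n, ∃ u : Fin r → (Fin d → MvPowerSeries (Fin h) 𝒪),
        gen (F n) (v - ∑ j, φ n (X j) • u j) ∈
          (maximalIdeal (MvPowerSeries (Fin h) 𝒪) ^ μ n) •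
            (⊤ : Submodule (MvPowerSeries (Fin h) 𝒪) (F n).N) := by
      intro n
      obtain ⟨xn, hxn, hxn'⟩ := exists_pi_eq_of_mem (ψ n) (π n) (hψ n) (hπ n) (hπs n) (hPμ n)
      have h2 : π n (gen (F n) v - xn) = 0 := by rw [map_sub, hxn', sub_self]
      obtain ⟨y, hy⟩ := exists_sum_of_mem_span_smul_top _ ((hker n _).mp h2)
      have h3 : ∀ j, ∃ u, gen (F n) u = y j := fun j => gen_surjective (F n) (y j)
      choose u hu using h3
      refine ⟨u, ?_⟩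
      have h4 : gen (F n) (v - ∑ j, φ n (X j) • u j) = xn := by
        rw [map_sub, map_sum]
        simp only [map_smul, hu]
        rw [← hy]
        abel
      rw [h4]
      exact hxn
    choose u hu using h1
    set U : Fin r → (Fin d → MvPowerSeries (Fin h) 𝒪) := fun j =>
      ulim (maximalIdeal (MvPowerSeries (Fin h) 𝒪)) 𝔘 (fun n => u n j) with hU
    have hmem : v - ∑ j, phiInf φ 𝔘 (X j) • U j ∈ Kinf 𝔘 F := by
      refine mem_Kinf_of_close 𝔘 F (fun n => v - ∑ j, φ n (X j) • u n j) ?_ ?_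
      · intro m
        have h5 : ∀ᶠ n in (𝔘 : Filter ℕ), ∀ j : Fin r,
            φ n (X j) - phiInf φ 𝔘 (X j) ∈ maximalIdeal (MvPowerSeries (Fin h) 𝒪) ^ m :=
          Filter.eventually_all.mpr fun j => phi_close φ 𝔘 _ m
        have h6 : ∀ᶠ n in (𝔘 : Filter ℕ), ∀ j : Fin r, u n j - U j ∈
            (maximalIdeal (MvPowerSeries (Fin h) 𝒪) ^ m) •
              (⊤ : Submodule (MvPowerSeries (Fin h) 𝒪) (Fin d → MvPowerSeries (Fin h) 𝒪)) :=
          Filter.eventually_all.mpr fun j =>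
            ulim_spec (maximalIdeal (MvPowerSeries (Fin h) 𝒪)) 𝔘 (fun n => u n j) m
        filter_upwards [h5, h6] with n h7 h8
        have h9 : (v - ∑ j, phiInf φ 𝔘 (X j) • U j) - (v - ∑ j, φ n (X j) • u n j) =
            ∑ j, (φ n (X j) • (u n j - U j) +
              (φ n (X j) - phiInf φ 𝔘 (X j)) • U j) := by
          simp only [smul_sub, sub_smul, Finset.sum_add_distrib, Finset.sum_sub_distrib]
          abel
        rw [h9]
        refine Submodule.sum_mem _ fun j _ => Submodule.add_mem _ ?_ ?_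
        · exact Submodule.smul_mem _ _ (h8 j)
        · exact Submodule.smul_mem_smul (h7 j) Submodule.mem_top
      · intro m
        have h10 : ∀ᶠ n in (𝔘 : Filter ℕ), m ≤ n := h𝔘 (eventually_ge_atTop m)
        have h11 : ∀ᶠ n in (𝔘 : Filter ℕ), Pr n m := by
          have := ulim_spec (maximalIdeal T) 𝔘 (fun n => π n (gen (F n) v)) m
          rw [hx] at this
          filter_upwards [this] with n hn
          simpa [hPr] using hn
        filter_upwards [h10, h11] with n h12 h13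
        have h14 : m ≤ μ n := Nat.le_findGreatest h12 h13
        exact Submodule.smul_mono_left (Ideal.pow_le_pow_right h14) (hu n)
    have hx' : (Submodule.Quotient.mk v : Ninf 𝔘 F) =
        ∑ j, phiInf φ 𝔘 (X j) • (Submodule.Quotient.mk (U j) : Ninf 𝔘 F) := by
      have := (Submodule.Quotient.eq (Kinf 𝔘 F)).mpr hmem
      rw [this, ← Submodule.mkQ_apply, map_sum]
      refine Finset.sum_congr rfl fun j _ => ?_
      rw [map_smul, Submodule.mkQ_apply]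
    rw [hx']
    refine Submodule.sum_mem _ fun j _ => ?_
    exact Submodule.smul_mem_smul (Ideal.subset_span (Set.mem_range_self j)) Submodule.mem_top
  · intro hx
    refine Submodule.smul_induction_on hx ?_ ?_
    · intro a ha y _
      rw [piInf_smul]
      have := span_le_ker_psiInf ψ 𝔘 hψ h0 ha
      rw [RingHom.mem_ker] at this
      have h2 : psiInf ψ 𝔘 a = 0 := this
      rw [h2, zero_smul]
    · intro y z hy hz
      rw [map_add, hy, hz, add_zero]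

end ProjLimit

end Fermat.Agent.L.Pivot.H76
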