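import Mathlib
import Fermat.Prelude.Thm_IsAdicComplete_of_module_finite
import Fermat.Agent.S53.Limit
import Fermat.Agent.S53.H50_Complete
import Fermat.Agent.S59.Patch.ULim
import Fermat.Agent.S59.Patch.Level
import Fermat.Agent.L.Pivot.Defs
import Fermat.Agent.L.Pivot.H76_PatchLevel
import Fermat.Agent.L.Pivot.H76_PatchLimit
import Fermat.Agent.L.Pivot.H76_PatchProj

/-!
# PIVOT / PV-PATCH (helper76): patching for the PIVOT datum

`Fermat.Agent.L.Pivot.H76.stmt_PVPatch : Stmt_PVPatch`: pivot levels with relation ideals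
`((1 + s_j) ^ (p ^ n) - 1)_j` for every `n` give a pivot level with relation ideal `⊥`
(limit along a non-principal ultrafilter on `ℕ`, as in `Fermat.Agent.S59.Patch.patch`).
-/

set_option autoImplicit false
set_option linter.style.haveILetI false
set_option linter.unusedSectionVars false

namespace Fermat.Agent.L.Pivot.H76

open IsLocalRing MvPowerSeries Filter
open Fermat.Agent.S59.Patch (FinQuot finQuot_of_isLocalRing finQuot_of_finite relIdeal_le_pow)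

section Assemble

variable {𝒪 : Type} [CommRing 𝒪] [IsLocalRing 𝒪] {r h d : ℕ}
  [IsAdicComplete (maximalIdeal (MvPowerSeries (Fin r) 𝒪)) (MvPowerSeries (Fin r) 𝒪)]
  [FinQuot (maximalIdeal (MvPowerSeries (Fin r) 𝒪)) (MvPowerSeries (Fin r) 𝒪)]
  [IsAdicComplete (maximalIdeal (MvPowerSeries (Fin r) 𝒪)) (Fin d → MvPowerSeries (Fin r) 𝒪)]
  [FinQuot (maximalIdeal (MvPowerSeries (Fin r) 𝒪)) (Fin d → MvPowerSeries (Fin r) 𝒪)]
  [IsAdicComplete (maximalIdeal (MvPowerSeries (Fin h) 𝒪)) (MvPowerSeries (Fin h) 𝒪)]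
  [FinQuot (maximalIdeal (MvPowerSeries (Fin h) 𝒪)) (MvPowerSeries (Fin h) 𝒪)]
  [IsAdicComplete (maximalIdeal (MvPowerSeries (Fin h) 𝒪)) (Fin d → MvPowerSeries (Fin h) 𝒪)]
  [FinQuot (maximalIdeal (MvPowerSeries (Fin h) 𝒪)) (Fin d → MvPowerSeries (Fin h) 𝒪)]
  [IsNoetherianRing (MvPowerSeries (Fin h) 𝒪)]
  {T : Type} [CommRing T] [IsLocalRing T] [Algebra 𝒪 T]
  {M : Type} [AddCommGroup M] [Module T M]
  [IsAdicComplete (maximalIdeal T) T] [FinQuot (maximalIdeal T) T]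
  [IsAdicComplete (maximalIdeal T) M] [FinQuot (maximalIdeal T) M]
  {ϖ : 𝒪} {I1 Iχ 𝔵 : Ideal (MvPowerSeries (Fin h) 𝒪)} {Ξ : Ideal T}
  {J : ℕ → Ideal (MvPowerSeries (Fin r) 𝒪)}
  (L : ∀ n, PivotLevel 𝒪 r h T M ϖ I1 Iχ 𝔵 Ξ (J n) d) (𝔘 : Ultrafilter ℕ)

/-- the maps `φ_n` -/
abbrev phiSeq : ℕ → MvPowerSeries (Fin r) 𝒪 →ₐ[𝒪] MvPowerSeries (Fin h) 𝒪 := fun n => (L n).φ

/-- the maps `ψ_n` -/
abbrev psiSeq : ℕ → MvPowerSeries (Fin h) 𝒪 →ₐ[𝒪] T := fun n => (L n).ψ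

/-- the frames of unipotent type -/
abbrev frameSeq1 : ∀ n, Frame (phiSeq L n) (J n) d := fun n => frame1 (L n)

/-- the frames of the ramified types -/
abbrev frameSeqχ : ∀ n, Frame (phiSeq L n) (J n) d := fun n => frameχ (L n)

/-- the projections -/
abbrev piSeq : ∀ n, (frameSeq1 L n).N →+ M := fun n => (L n).π

theorem psiSeq_surjective (n : ℕ) : Function.Surjective (psiSeq L n) := (L n).ψ_surjective

theorem piSeq_smul (n : ℕ) (f : MvPowerSeries (Fin h) 𝒪) (x : (frameSeq1 L n).N) :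
    piSeq L n (f • x) = psiSeq L n f • piSeq L n x := (L n).π_smul f x

theorem cmp_inf (h𝔘 : (𝔘 : Filter ℕ) ≤ atTop) (v : Fin d → MvPowerSeries (Fin h) 𝒪) :
    (∑ i, v i • (Submodule.Quotient.mk (Pi.single i 1) : Ninf 𝔘 (frameSeq1 L)) ∈
      (Ideal.span {(MvPowerSeries.C ϖ : MvPowerSeries (Fin h) 𝒪)}) •
        (⊤ : Submodule (MvPowerSeries (Fin h) 𝒪) (Ninf 𝔘 (frameSeq1 L)))) ↔
    (∑ i, v i • (Submodule.Quotient.mk (Pi.single i 1) : Ninf 𝔘 (frameSeqχ L)) ∈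
      (Ideal.span {(MvPowerSeries.C ϖ : MvPowerSeries (Fin h) 𝒪)}) •
        (⊤ : Submodule (MvPowerSeries (Fin h) 𝒪) (Ninf 𝔘 (frameSeqχ L)))) := by
  rw [← mk_eq_sum 𝔘 (frameSeq1 L) v, ← mk_eq_sum 𝔘 (frameSeqχ L) v]
  constructor
  · refine cmp_inf_aux 𝔘 (frameSeq1 L) (frameSeqχ L) h𝔘 _ ?_ v
    intro n w hw
    rw [gen_apply] at hw ⊢
    exact ((L n).cmp w).mp hw
  · refine cmp_inf_aux 𝔘 (frameSeqχ L) (frameSeq1 L) h𝔘 _ ?_ v
    intro n w hw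
    rw [gen_apply] at hw ⊢
    exact ((L n).cmp w).mpr hw

/-- The limit level. -/
noncomputable def limPivot (h𝔘 : (𝔘 : Filter ℕ) ≤ atTop)
    (hJ : ∀ n, J n ≤ maximalIdeal (MvPowerSeries (Fin r) 𝒪) ^ (n + 1)) :
    PivotLevel 𝒪 r h T M ϖ I1 Iχ 𝔵 Ξ ⊥ d where
  N1 := Ninf 𝔘 (frameSeq1 L)
  Nχ := Ninf 𝔘 (frameSeqχ L)
  φ := phiInf (phiSeq L) 𝔘
  ψ := psiInf (psiSeq L) 𝔘
  ψ_surjective := psiInf_surjective (psiSeq L) 𝔘 (psiSeq_surjective L)
  ψ_φ_X := psiInf_phiInf_X (psiSeq L) 𝔘 (psiSeq_surjective L) (fun n => (L n).ψ_φ_X)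
  Ξ_le := le_map_psiInf (psiSeq L) 𝔘 (psiSeq_surjective L) 𝔵 Ξ (fun n => (L n).Ξ_le)
  π := piInf (psiSeq L) 𝔘 (frameSeq1 L) (piSeq L) (psiSeq_surjective L) (piSeq_smul L)
  π_smul := piInf_smul (psiSeq L) 𝔘 (frameSeq1 L) (piSeq L) (psiSeq_surjective L) (piSeq_smul L)
  π_surjective := piInf_surjective (psiSeq L) 𝔘 (frameSeq1 L) (piSeq L) (psiSeq_surjective L)
    (piSeq_smul L) (fun n => (L n).π_surjective)
  ker_π := ker_piInf (psiSeq L) 𝔘 (frameSeq1 L) (piSeq L) h𝔘 (psiSeq_surjective L)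
    (fun n => (L n).ψ_φ_X) (piSeq_smul L) (fun n => (L n).π_surjective) (fun n => (L n).ker_π)
  b1 := fun i => Submodule.Quotient.mk (Pi.single i 1)
  bχ := fun i => Submodule.Quotient.mk (Pi.single i 1)
  b1_span := b_span_inf 𝔘 (frameSeq1 L)
  b1_rel := b_rel_inf 𝔘 (frameSeq1 L) h𝔘 hJ
  bχ_span := b_span_inf 𝔘 (frameSeqχ L)
  bχ_rel := b_rel_inf 𝔘 (frameSeqχ L) h𝔘 hJ
  rel1 := fun f hf x => rel_inf 𝔘 (frameSeq1 L) f (fun n y => (L n).rel1 f hf y) x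
  relχ := fun f hf x => rel_inf 𝔘 (frameSeqχ L) f (fun n y => (L n).relχ f hf y) x
  cmp := cmp_inf L 𝔘 h𝔘

end Assemble

/-- **PV-PATCH**: pivot levels for all Taylor–Wiles relation ideals give a pivot level with
trivial relation ideal. -/
theorem stmt_PVPatch : Stmt_PVPatch := by
  intro 𝒪 _ _ _ _ _ p hp r h T _ _ _ _ _ _ hres M _ _ ϖ I1 Iχ 𝔵 Ξ d hL
  classical
  let L : ∀ n, PivotLevel 𝒪 r h T M ϖ I1 Iχ 𝔵 Ξ (twIdealP 𝒪 r p n) d := fun n => (hL n).some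
  -- the profinite structures
  haveI : IsAdicComplete (maximalIdeal (MvPowerSeries (Fin r) 𝒪)) (MvPowerSeries (Fin r) 𝒪) :=
    Fermat.Agent.S53.Limit.isAdicComplete_mvPowerSeries_fin 𝒪 r
  haveI : IsLocalHom (algebraMap 𝒪 (MvPowerSeries (Fin r) 𝒪)) :=
    Fermat.Agent.S53.Limit.isLocalHom_algebraMap_mvPowerSeries 𝒪 (Fin r)
  haveI : Finite (ResidueField (MvPowerSeries (Fin r) 𝒪)) :=
    Fermat.Agent.S53.H50.finite_residueField_of_surjective 𝒪 (MvPowerSeries (Fin r) 𝒪)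
      (Fermat.Agent.S53.Limit.residue_surjective_mvPowerSeries 𝒪 (Fin r))
  haveI : FinQuot (maximalIdeal (MvPowerSeries (Fin r) 𝒪)) (MvPowerSeries (Fin r) 𝒪) :=
    finQuot_of_isLocalRing _
  haveI : IsAdicComplete (maximalIdeal (MvPowerSeries (Fin r) 𝒪))
      (Fin d → MvPowerSeries (Fin r) 𝒪) :=
    IsAdicComplete.of_module_finite _ _
  haveI : FinQuot (maximalIdeal (MvPowerSeries (Fin r) 𝒪)) (Fin d → MvPowerSeries (Fin r) 𝒪) :=
    finQuot_of_finite _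
  haveI : IsAdicComplete (maximalIdeal (MvPowerSeries (Fin h) 𝒪)) (MvPowerSeries (Fin h) 𝒪) :=
    Fermat.Agent.S53.Limit.isAdicComplete_mvPowerSeries_fin 𝒪 h
  haveI : IsLocalHom (algebraMap 𝒪 (MvPowerSeries (Fin h) 𝒪)) :=
    Fermat.Agent.S53.Limit.isLocalHom_algebraMap_mvPowerSeries 𝒪 (Fin h)
  haveI : Finite (ResidueField (MvPowerSeries (Fin h) 𝒪)) :=
    Fermat.Agent.S53.H50.finite_residueField_of_surjective 𝒪 (MvPowerSeries (Fin h) 𝒪)
      (Fermat.Agent.S53.Limit.residue_surjective_mvPowerSeries 𝒪 (Fin h))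
  haveI : FinQuot (maximalIdeal (MvPowerSeries (Fin h) 𝒪)) (MvPowerSeries (Fin h) 𝒪) :=
    finQuot_of_isLocalRing _
  haveI : IsAdicComplete (maximalIdeal (MvPowerSeries (Fin h) 𝒪))
      (Fin d → MvPowerSeries (Fin h) 𝒪) :=
    IsAdicComplete.of_module_finite _ _
  haveI : FinQuot (maximalIdeal (MvPowerSeries (Fin h) 𝒪)) (Fin d → MvPowerSeries (Fin h) 𝒪) :=
    finQuot_of_finite _
  haveI : Finite (ResidueField T) :=
    Fermat.Agent.S53.H50.finite_residueField_of_surjective 𝒪 T hres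
  haveI : FinQuot (maximalIdeal T) T := finQuot_of_isLocalRing _
  haveI : Module.Finite T M := moduleFinite_of_level (L 0)
  haveI : IsAdicComplete (maximalIdeal T) M := IsAdicComplete.of_module_finite _ _
  haveI : FinQuot (maximalIdeal T) M := finQuot_of_finite _
  -- a non-principal ultrafilter
  have h𝔘 : ((hyperfilter ℕ : Ultrafilter ℕ) : Filter ℕ) ≤ atTop := by
    rw [← Nat.cofinite_eq_atTop]
    exact hyperfilter_le_cofinite
  exact ⟨limPivot L (hyperfilter ℕ) h𝔘 (fun n => relIdeal_le_pow r hp n)⟩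

end Fermat.Agent.L.Pivot.H76
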