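/-
PIVOT (item 66), PV-WIRE2 (helper76): Mazur's principle at a prime `q ≢ 1 mod p`.

* `HeckeGaloisModule.RemovesQ2` : Mazur's principle at `q`, module form, under the hypothesis
  "the Frobenius elements at `A` do not all act on `V` through the scalar `q ε`, `ε² = 1`"
  (weaker than the hypothesis of `RemovesQ`).
* `removesQ2_of_toric : HasToricPartAt → RemovesQ2` (the proof of `S43.removesQ_of_toric`).
* `dvd_sub_one_of_scalar` : on `E[p]` (determinant = cyclotomic character, dimension `2`) the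
  scalar `q ε` is possible only if `q ≡ 1 mod p`.
* `not_scalar_of_not_exc2` : for the Frey curve, `¬ IsExc2 P q` gives the hypothesis of
  `RemovesQ2` at every place over `q`.
-/
import Fermat.Agent.S43.Wiring2
import Fermat.Agent.L.Pivot.H76_Frey2
import Fermat.Agent.L.H52_DetCycFrey
import Fermat.Agent.Lib.FrobExists

set_option autoImplicit false

open WeierstrassCurve WeierstrassCurve.Affine WeierstrassCurve.Affine.Point
open scoped WeierstrassCurve.Affine

namespace Fermat.Agent.L.Pivot.H76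

open Fermat.Agent.S44 Fermat.Agent.S43 Fermat.Agent.L.Pivot

/-- **Mazur's principle at `q`, module form, second version.** -/
def _root_.Fermat.Agent.S44.HeckeGaloisModule.RemovesQ2 {p : ℕ} (H : HeckeGaloisModule p)
    (N q : ℕ) (A : ValuationSubring (AlgebraicClosure ℚ)) : Prop :=
  ∀ (V : Type) [AddCommGroup V] [Module (ZMod p) V] (ρ : GQ →* Module.End (ZMod p) V)
    (ι : V →ₗ[ZMod p] H.J) (S : Finset ℕ) (t : ℕ → ℤ),
    (∀ W : Submodule (ZMod p) V, (∀ σ : GQ, ∀ x ∈ W, ρ σ x ∈ W) → W = ⊥ ∨ W = ⊤) →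
    (∀ σ ∈ A.inertiaSubgroupIn ℚ, ∀ v : V, ρ σ v = v) →
    (¬ ∃ ε : ZMod p, ε * ε = 1 ∧ ∀ σ : GQ, A.IsFrobeniusAt σ q → ∀ v : V,
      ρ σ v = ((q : ZMod p) * ε) • v) →
    Function.Injective ι →
    (∀ (σ : GQ) (v : V), ι (ρ σ v) = H.gal σ (ι v)) →
    (∀ ℓ : ℕ, ℓ.Prime → ℓ ∉ S → ¬ ℓ ∣ N → ℓ ≠ p →
      ∀ v : V, H.T ℓ (ι v) = ((t ℓ : ℤ) : ZMod p) • ι v) →
    (∃ ℓ : ℕ, ℓ.Prime ∧ ℓ ∉ S ∧ ¬ ℓ ∣ N ∧ ℓ ≠ p ∧ ((t ℓ : ℤ) : ZMod p) ≠ 1 + (ℓ : ZMod p)) →
    ∃ (g : CuspForm (CongruenceSubgroup.Gamma0 (N / q)) 2) (𝔪 : Ideal ZBar),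
      g.IsNormalizedEigenform ∧ 𝔪.IsMaximal ∧ (p : ZBar) ∈ 𝔪 ∧
      ∀ ℓ : ℕ, ℓ.Prime → ℓ ∉ S → ¬ ℓ ∣ N → ℓ ≠ p →
        ∃ a : ZBar, (a : ℂ) = ModularFormClass.qCoeff g ℓ ∧ a - ((t ℓ : ℤ) : ZBar) ∈ 𝔪

/-- `RemovesQ2` is stronger than `RemovesQ`. -/
theorem removesQ_of_removesQ2 {p : ℕ} (H : HeckeGaloisModule p)
    (N q : ℕ) (A : ValuationSubring (AlgebraicClosure ℚ)) (h : H.RemovesQ2 N q A) :
    H.RemovesQ N q A := by
  intro V _ _ ρ ι S t hirr hunr hnexc hinj hequiv hT hNE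
  exact h V ρ ι S t hirr hunr (fun ⟨ε, _, hε⟩ => hnexc ⟨(q : ZMod p) * ε, hε⟩) hinj hequiv hT hNE

/-- **Mazur's principle at `q`** (second version) from the abstract structure. -/
theorem removesQ2_of_toric {p : ℕ} (hp : p.Prime) (hp2 : p ≠ 2) (H : HeckeGaloisModule p)
    (N q : ℕ) (A : ValuationSubring (AlgebraicClosure ℚ))
    (hbad : H.HasToricPartAt N q A) : H.RemovesQ2 N q A := by
  have : Fact p.Prime := ⟨hp⟩
  intro V _ _ ρ ι S t hirr hunr hnexc hinj hequiv hT hNE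
  obtain ⟨T, U, hUgal, hUT, hFrob, hlow⟩ := hbad
  by_cases hcase : ∃ v : V, ι v ∉ T
  · obtain ⟨v, hv⟩ := hcase
    refine hlow S t (ι v) hv (fun σ hσ => ?_) (fun ℓ hℓ hℓS hℓN hℓp => hT ℓ hℓ hℓS hℓN hℓp v) hNE
    rw [← hequiv, hunr σ hσ v]
  · exfalso
    push Not at hcase
    have h2 : (2 : ZMod p) ≠ 0 := by
      intro h
      have h' : ((2 : ℕ) : ZMod p) = 0 := by exact_mod_cast h
      rw [ZMod.natCast_eq_zero_iff] at h'
      exact hp2 ((Nat.prime_dvd_prime_iff_eq hp Nat.prime_two).mp h')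
    -- the two eigen-components of `ι` for `U`
    have key : ∀ ε : ZMod p, ε * ε = 1 → (∃ v, ι v + ε • U (ι v) ≠ 0) →
        ∀ σ : GQ, A.IsFrobeniusAt σ q → ∀ v : V, ρ σ v = ((q : ZMod p) * ε) • v := by
      intro ε hε hne σ hσ v
      set κ : V →ₗ[ZMod p] H.J := ι + ε • (U ∘ₗ ι) with hκ
      have hκv : ∀ w, κ w = ι w + ε • U (ι w) := fun w => rfl
      have hκeq : ∀ (τ : GQ) (w : V), κ (ρ τ w) = H.gal τ (κ w) := by
        intro τ w
        rw [hκv, hκv, hequiv, map_add, map_smul]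
        congr 2
        have := congrArg (fun f : Module.End (ZMod p) H.J => f (ι w)) (hUgal τ)
        simpa using this
      have hκinj : Function.Injective κ := injective_of_irreducible ρ H.gal hirr κ hκeq hne
      have hκT : ∀ w, κ w ∈ T := fun w => by
        rw [hκv]
        exact T.add_mem (hcase w) (T.smul_mem _ (hUT _ (hcase w)).1)
      have hUκ : ∀ w, U (κ w) = ε • κ w := by
        intro w
        rw [hκv, map_add, map_smul, (hUT _ (hcase w)).2, smul_add, smul_smul, hε, one_smul, add_comm]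
      apply hκinj
      rw [hκeq, hFrob σ hσ _ (hκT v), hUκ, smul_smul, map_smul]
    apply hnexc
    by_cases hplus : ∃ v, ι v + (1 : ZMod p) • U (ι v) ≠ 0
    · exact ⟨1, by ring, key 1 (by ring) hplus⟩
    · push Not at hplus
      have hminus : ∃ v, ι v + (-1 : ZMod p) • U (ι v) ≠ 0 := by
        by_contra hcon
        push Not at hcon
        -- then `2 ι = 0`, so `V = 0`, and `⊥ = ⊤`
        have hι0 : ∀ v, ι v = 0 := by
          intro v
          have h1 := hplus v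
          have h3 := hcon v
          have h4 : (2 : ZMod p) • ι v = 0 := by
            have : (2 : ZMod p) • ι v
                = (ι v + (1 : ZMod p) • U (ι v)) + (ι v + (-1 : ZMod p) • U (ι v)) := by
              rw [two_smul]; module
            rw [this, h1, h3, add_zero]
          rcases smul_eq_zero.mp h4 with h | h
          · exact absurd h h2
          · exact h
        have hV0 : ∀ v : V, v = 0 := fun v => hinj (by rw [hι0 v, _root_.map_zero])
        -- every scalar works on the zero module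
        exact hnexc ⟨1, by ring, fun σ _ v => by rw [hV0 v]; simp⟩
      exact ⟨-1, by ring, key (-1) (by ring) hminus⟩

/-- On `E[p]` a scalar Frobenius `q ε` (`ε² = 1`) at a place over `q ≠ p` forces
`q ≡ 1 mod p`. -/
theorem dvd_sub_one_of_scalar {E : WeierstrassCurve ℚ} {W : WeierstrassCurve ℤ}
    (hW : W.IsIntegralModelOf E) (hΔ : W.Δ ≠ 0) {p : ℕ} [Fact p.Prime] {q : ℕ} (hq : q.Prime)
    (hqp : q ≠ p) (A : ValuationSubring (AlgebraicClosure ℚ)) (hA : A.LiesOverPrime q)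
    (ε : ZMod p) (hε : ε * ε = 1)
    (h : ∀ σ : GQ, A.IsFrobeniusAt σ q → ∀ v : Tors E p,
      galoisRepModuleEnd (S := ℚ) (K := AlgebraicClosure ℚ) E.toAffine p σ v
        = ((q : ZMod p) * ε) • v) :
    p ∣ q - 1 := by
  have hp : p.Prime := Fact.out
  obtain ⟨σ, hσ⟩ := Fermat.Agent.Lib.FrobExists.exists_isFrobeniusAt q hq A hA
  have hdet := Fermat.Agent.L.H52.det_eq_natCast hW hΔ σ q
    (fun ζ hζ => Fermat.Agent.L.H52.frob_root A hq hp hqp hA hσ hζ)
  have hfin : Module.finrank (ZMod p) (Tors E p) = 2 := by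
    obtain ⟨C, hC⟩ := hW
    have h1 := Fermat.Agent.L.H19.finrank_tors_eq (K := AlgebraicClosure ℚ) hC p
    have h2 := Fermat.Agent.L.H52.finrank_tors (W := W) (p := p)
      Fermat.Agent.Lib.FrobDensity.stmt_FD Fermat.Agent.Lib.EllFinite.stmt_main hΔ
    rw [← h1]
    exact h2
  have hsc : galoisRepModuleEnd (S := ℚ) (K := AlgebraicClosure ℚ) E.toAffine p σ
      = ((q : ZMod p) * ε) • (1 : Module.End (ZMod p) (Tors E p)) :=
    LinearMap.ext fun v => by
      rw [h σ hσ v, LinearMap.smul_apply, Module.End.one_apply]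
  rw [hsc, LinearMap.det_smul, hfin] at hdet
  have hd1 : LinearMap.det (1 : Module.End (ZMod p) (Tors E p)) = 1 := LinearMap.det_id
  rw [hd1, mul_one] at hdet
  -- `q² = q` in `ZMod p`
  have hq2 : (q : ZMod p) * (q : ZMod p) = (q : ZMod p) := by
    have : ((q : ZMod p) * ε) ^ 2 = (q : ZMod p) * (q : ZMod p) * (ε * ε) := by ring
    rw [this, hε, mul_one] at hdet
    exact hdet
  have hq0 : (q : ZMod p) ≠ 0 := by
    intro h0
    rw [ZMod.natCast_eq_zero_iff] at h0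
    exact hqp ((Nat.prime_dvd_prime_iff_eq hp hq).mp h0).symm
  have hq1 : (q : ZMod p) = 1 := by
    have h3 : (q : ZMod p) * ((q : ZMod p) - 1) = 0 := by
      rw [mul_sub, hq2, mul_one, sub_self]
    rcases mul_eq_zero.mp h3 with h4 | h4
    · exact absurd h4 hq0
    · exact sub_eq_zero.mp h4
  have hq1' : 1 ≤ q := hq.one_le
  have h5 : ((q - 1 : ℕ) : ZMod p) = 0 := by
    rw [Nat.cast_sub hq1', hq1, Nat.cast_one, sub_self]
  exact (ZMod.natCast_eq_zero_iff _ _).mp h5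

/-- For the Frey curve: a prime `q ≠ p` which is not exceptional satisfies the hypothesis of
`RemovesQ2` at every place over `q`. -/
theorem not_scalar_of_not_exc2 (P : FreyPackage) {q : ℕ} (hq : q.Prime) (hqp : q ≠ P.p)
    (hne : ¬ IsExc2 P q) (A : ValuationSubring (AlgebraicClosure ℚ)) (hA : A.LiesOverPrime q) :
    ¬ ∃ ε : ZMod P.p, ε * ε = 1 ∧ ∀ σ : GQ, A.IsFrobeniusAt σ q → ∀ v : Tors P.freyCurve P.p,
      galoisRepModuleEnd (S := ℚ) (K := AlgebraicClosure ℚ) P.freyCurve.toAffine P.p σ v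
        = ((q : ZMod P.p) * ε) • v := by
  rintro ⟨ε, hε, h⟩
  have : Fact P.p.Prime := ⟨P.pp⟩
  refine hne ⟨?_, A, hA, (q : ZMod P.p) * ε, h⟩
  exact dvd_sub_one_of_scalar (Fermat.Agent.L.H52.freyCurveInt_isIntegralModelOf P)
    (Fermat.Agent.S04.H59.freyCurveInt_Δ_ne_zero P) hq hqp A hA ε hε h

end Fermat.Agent.L.Pivot.H76
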