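/-
PIVOT (item 66), PV-LOC-TYPE, toolkit for the leaves TYPE-KILL and TYPE-LEQ (helper76):
* functions on the index sets `Fin (6 * k + g)`, `Fin (4 * k + g)` from their components;
* the ring homomorphism version of `(U)` (helper52's `algHom_sub_mem_pow`).
-/
import Fermat.Agent.L.Pivot.LocDefs
import Fermat.Agent.L.Pivot.H52_TPUniq

set_option autoImplicit false

namespace Fermat.Agent.L.Pivot.H76

open MvPowerSeries

section Idx

variable {α : Type*} (k g : ℕ)

/-- A function on `Fin (6 * k + g)` from its values at `cIdx j i` and at `xIdx a`. -/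
def mk6 (f : Fin k → Fin 6 → α) (h : Fin g → α) (i : Fin (6 * k + g)) : α :=
  if hi : i.1 < 6 * k then f ⟨i.1 / 6, by omega⟩ ⟨i.1 % 6, Nat.mod_lt _ (by norm_num)⟩
  else h ⟨i.1 - 6 * k, by have := i.2; omega⟩

/-- A function on `Fin (4 * k + g)` from its values at `cIdx' j i` and at `xIdx' a`. -/
def mk4 (f : Fin k → Fin 4 → α) (h : Fin g → α) (i : Fin (4 * k + g)) : α :=
  if hi : i.1 < 4 * k then f ⟨i.1 / 4, by omega⟩ ⟨i.1 % 4, Nat.mod_lt _ (by norm_num)⟩
  else h ⟨i.1 - 4 * k, by have := i.2; omega⟩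

variable {k g}

@[simp] theorem mk6_cIdx (f : Fin k → Fin 6 → α) (h : Fin g → α) (j : Fin k) (i : Fin 6) :
    mk6 k g f h (cIdx k g j i) = f j i := by
  have hj := j.2
  have hi := i.2
  have h1 : (cIdx k g j i).1 = 6 * j.1 + i.1 := rfl
  have h4 : (cIdx k g j i).1 < 6 * k := by rw [h1]; omega
  unfold mk6
  rw [dif_pos h4]
  congr 1
  · apply Fin.ext
    simp only [h1]
    omega
  · apply Fin.ext
    simp only [h1]
    omega

@[simp] theorem mk6_xIdx (f : Fin k → Fin 6 → α) (h : Fin g → α) (a : Fin g) :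
    mk6 k g f h (xIdx k g a) = h a := by
  have ha := a.2
  have h1 : (xIdx k g a).1 = 6 * k + a.1 := rfl
  unfold mk6
  rw [dif_neg (by rw [h1]; omega)]
  congr 1
  apply Fin.ext
  simp only [h1]
  omega

@[simp] theorem mk4_cIdx' (f : Fin k → Fin 4 → α) (h : Fin g → α) (j : Fin k) (i : Fin 4) :
    mk4 k g f h (cIdx' k g j i) = f j i := by
  have hj := j.2
  have hi := i.2
  have h1 : (cIdx' k g j i).1 = 4 * j.1 + i.1 := rfl
  have h4 : (cIdx' k g j i).1 < 4 * k := by rw [h1]; omega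
  unfold mk4
  rw [dif_pos h4]
  congr 1
  · apply Fin.ext
    simp only [h1]
    omega
  · apply Fin.ext
    simp only [h1]
    omega

@[simp] theorem mk4_xIdx' (f : Fin k → Fin 4 → α) (h : Fin g → α) (a : Fin g) :
    mk4 k g f h (xIdx' k g a) = h a := by
  have ha := a.2
  have h1 : (xIdx' k g a).1 = 4 * k + a.1 := rfl
  unfold mk4
  rw [dif_neg (by rw [h1]; omega)]
  congr 1
  apply Fin.ext
  simp only [h1]
  omega

theorem idx_cases (i : Fin (6 * k + g)) :
    (∃ (j : Fin k) (i' : Fin 6), i = cIdx k g j i') ∨ ∃ a : Fin g, i = xIdx k g a := by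
  by_cases h : i.1 < 6 * k
  · left
    refine ⟨⟨i.1 / 6, by omega⟩, ⟨i.1 % 6, Nat.mod_lt _ (by norm_num)⟩, ?_⟩
    apply Fin.ext
    simp only [cIdx]
    omega
  · right
    refine ⟨⟨i.1 - 6 * k, by have := i.2; omega⟩, ?_⟩
    apply Fin.ext
    simp only [xIdx]
    omega

theorem idx_cases' (i : Fin (4 * k + g)) :
    (∃ (j : Fin k) (i' : Fin 4), i = cIdx' k g j i') ∨ ∃ a : Fin g, i = xIdx' k g a := by
  by_cases h : i.1 < 4 * k
  · left
    refine ⟨⟨i.1 / 4, by omega⟩, ⟨i.1 % 4, Nat.mod_lt _ (by norm_num)⟩, ?_⟩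
    apply Fin.ext
    simp only [cIdx']
    omega
  · right
    refine ⟨⟨i.1 - 4 * k, by have := i.2; omega⟩, ?_⟩
    apply Fin.ext
    simp only [xIdx']
    omega

theorem fin6_cases (i : Fin 6) : i = 0 ∨ i = 1 ∨ i = 2 ∨ i = 3 ∨ i = 4 ∨ i = 5 := by
  fin_cases i <;> simp

theorem fin4_cases (i : Fin 4) : i = 0 ∨ i = 1 ∨ i = 2 ∨ i = 3 := by
  fin_cases i <;> simp

end Idx

section Uniq

variable {σ : Type*} [Finite σ] {𝒪 : Type*} [CommRing 𝒪] {E : Type*} [CommRing E]

/-- Key estimate for `(U)`, for ring homomorphisms (after helper52's `algHom_sub_mem_pow`). -/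
theorem ringHom_sub_mem_pow (J : Ideal E) (φ ψ : MvPowerSeries σ 𝒪 →+* E)
    (hC : ∀ c : 𝒪, φ (C c) = ψ (C c))
    (hX : ∀ i, φ (X i) = ψ (X i)) (hm : ∀ i, ψ (X i) ∈ J) (N : ℕ) (f : MvPowerSeries σ 𝒪) :
    φ f - ψ f ∈ J ^ N := by
  induction N generalizing f with
  | zero => simp
  | succ N ih =>
    have key : ∀ h ∈ Ideal.span (Set.range fun s => (X s : MvPowerSeries σ 𝒪)),
        φ h - ψ h ∈ J ^ (N + 1) ∧ ψ h ∈ J := by
      intro h hh
      induction hh using Submodule.span_induction with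
      | mem x hx =>
        obtain ⟨i, rfl⟩ := hx
        refine ⟨?_, hm i⟩
        simp only [hX i, sub_self]
        exact Ideal.zero_mem _
      | zero => simp
      | add x y _ _ hx hy =>
        refine ⟨?_, ?_⟩
        · have : φ (x + y) - ψ (x + y) = (φ x - ψ x) + (φ y - ψ y) := by
            simp only [map_add]; ring
          rw [this]
          exact Ideal.add_mem _ hx.1 hy.1
        · rw [map_add]
          exact Ideal.add_mem _ hx.2 hy.2
      | smul a x _ hx =>
        refine ⟨?_, ?_⟩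
        · have : φ (a • x) - ψ (a • x) = φ a * (φ x - ψ x) + (φ a - ψ a) * ψ x := by
            simp only [smul_eq_mul, map_mul]; ring
          rw [this]
          refine Ideal.add_mem _ (Ideal.mul_mem_left _ _ hx.1) ?_
          rw [pow_succ]
          exact Ideal.mul_mem_mul (ih a) hx.2
        · rw [smul_eq_mul, map_mul]
          exact Ideal.mul_mem_left _ _ hx.2
    have h1 := (key _ (H52.sub_C_constantCoeff_mem_span_X f)).1
    have h2 : φ (f - C (constantCoeff f)) - ψ (f - C (constantCoeff f)) = φ f - ψ f := by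
      simp only [map_sub, hC]; ring
    rwa [h2] at h1

/-- `(U)` for ring homomorphisms into a ring with a nilpotent ideal containing the images of the
variables. -/
theorem ringHom_eq_of_pow_eq_bot (J : Ideal E) (N : ℕ) (hJ : J ^ N = ⊥)
    (φ ψ : MvPowerSeries σ 𝒪 →+* E) (hC : ∀ c : 𝒪, φ (C c) = ψ (C c))
    (hX : ∀ i, φ (X i) = ψ (X i)) (hm : ∀ i, ψ (X i) ∈ J) (f : MvPowerSeries σ 𝒪) :
    φ f = ψ f := by
  have h := ringHom_sub_mem_pow J φ ψ hC hX hm N f
  rw [hJ, Ideal.mem_bot] at h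
  exact sub_eq_zero.1 h

/-- `(U)` for ring homomorphisms into a ring that is `J`-adically Hausdorff. -/
theorem ringHom_eq_of_isHausdorff (J : Ideal E) [IsHausdorff J E]
    (φ ψ : MvPowerSeries σ 𝒪 →+* E) (hC : ∀ c : 𝒪, φ (C c) = ψ (C c))
    (hX : ∀ i, φ (X i) = ψ (X i)) (hm : ∀ i, ψ (X i) ∈ J) (f : MvPowerSeries σ 𝒪) :
    φ f = ψ f := by
  have h : φ f - ψ f = 0 := by
    refine IsHausdorff.haus ‹_› _ fun n => ?_
    rw [SModEq.zero]
    simpa using ringHom_sub_mem_pow J φ ψ hC hX hm n f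
  exact sub_eq_zero.1 h

end Uniq

end Fermat.Agent.L.Pivot.H76
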