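/-
PIVOT (item 66), PV-LOC-TYPE, leaf TYPE-KILL (helper76): every point of type `δ` kills
`typeIdeal δ`.  Statement `Stmt_TypeKill` of `L/Pivot/LocDefs.lean`; route of helper3's note:

0. `c_j θ(v, w, s)_j = b_j θ(y, z, m)_j` with `c_j ≠ 0`, `b_j ∈ 𝔪_D` (minors, `Q1 ↦ δ² ≠ 0`);
1. `Θ : P → E = D⟦t⟧`, `Ψ : P' → E`, `Ψ ∘ Sub = rescale c ∘ Θ`, `Ψ (F_j) = 0`, `rescale c`
   injective: `Θ f = 0` for `f` in `typeIdeal δ`;
2. `Θ f = 0 ⇒ θ f = 0` (`H76_TypeKillA`).
-/
import Fermat.Agent.L.Pivot.H76_TypeKillA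
import Fermat.Agent.S56.H50_Gen

set_option autoImplicit false

namespace Fermat.Agent.L.Pivot.H76

open MvPowerSeries IsLocalRing

section Rescale

variable {σ : Type*} {D : Type*} [CommRing D]

theorem rescale_C' (c : σ → D) (a : D) : rescale c (C a : MvPowerSeries σ D) = C a := by
  classical
  ext n
  rw [coeff_rescale, coeff_C]
  split_ifs with h
  · subst h
    simp
  · rw [mul_zero]

theorem rescale_X' (c : σ → D) (s : σ) :
    rescale c (X s : MvPowerSeries σ D) = C (c s) * X s := by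
  classical
  ext n
  rw [coeff_rescale, coeff_C_mul, coeff_X]
  split_ifs with h
  · subst h
    simp
  · simp

theorem constantCoeff_rescale' (c : σ → D) (F : MvPowerSeries σ D) :
    constantCoeff (rescale c F) = constantCoeff F := by
  rw [← coeff_zero_eq_constantCoeff_apply, coeff_rescale]
  simp

theorem rescale_injective' [IsDomain D] (c : σ → D) (hc : ∀ s, c s ≠ 0) :
    Function.Injective (rescale c : MvPowerSeries σ D →+* MvPowerSeries σ D) := by
  rw [injective_iff_map_eq_zero]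
  intro F hF
  ext n
  have h1 := congrArg (coeff n) hF
  rw [coeff_rescale, map_zero] at h1
  rcases mul_eq_zero.1 h1 with h2 | h2
  · exfalso
    rw [Finsupp.prod, Finset.prod_eq_zero_iff] at h2
    obtain ⟨s, -, hs⟩ := h2
    exact pow_ne_zero _ (hc s) hs
  · rw [h2, map_zero]

theorem mem_maximalIdeal_mvPowerSeries [IsLocalRing D] (F : MvPowerSeries σ D) :
    F ∈ maximalIdeal (MvPowerSeries σ D) ↔ constantCoeff F ∈ maximalIdeal D := by
  rw [mem_maximalIdeal, mem_nonunits_iff, isUnit_iff_constantCoeff, mem_maximalIdeal,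
    mem_nonunits_iff]

end Rescale

section Scale

variable {𝒪 : Type} [CommRing 𝒪] {k g : ℕ}
variable {D : Type} [CommRing D] [IsDomain D] [Algebra 𝒪 D]

/-- Step 0: the point `θ(v, w, s)_j` is proportional to `θ(y, z, m)_j`. -/
theorem exists_scale (δ : Fin k → 𝒪) (hδ : ∀ j, δ j ≠ 0) (θ : PRing 𝒪 k g →ₐ[𝒪] D)
    (hinj : Function.Injective (algebraMap 𝒪 D)) (𝔪 : Ideal D) (hmem : ∀ i, θ (X i) ∈ 𝔪)
    (ht : IsTypePoint g δ θ) (j : Fin k) :
    ∃ c b : D, c ≠ 0 ∧ b ∈ 𝔪 ∧ c * θ (cv 𝒪 g j) = b * θ (cy 𝒪 g j) ∧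
      c * θ (cw 𝒪 g j) = b * θ (cz 𝒪 g j) ∧ c * θ (cs 𝒪 g j) = b * θ (cm 𝒪 g j) := by
  obtain ⟨hQ, h1, h2, h3⟩ := ht j
  simp only [minor1, minor2, minor3, map_sub, map_mul] at h1 h2 h3
  by_cases hy : θ (cy 𝒪 g j) = 0
  · by_cases hz : θ (cz 𝒪 g j) = 0
    · have hm : θ (cm 𝒪 g j) ≠ 0 := by
        intro hm
        have h4 : θ (Q1 𝒪 g j) = 0 := by
          simp only [Q1, map_add, map_mul, map_pow, hy, hz, hm]
          ring
        rw [hQ, map_pow] at h4
        have h5 : algebraMap 𝒪 D (δ j) = 0 := (pow_eq_zero_iff two_ne_zero).1 h4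
        exact hδ j ((map_eq_zero_iff _ hinj).1 h5)
      refine ⟨θ (cm 𝒪 g j), θ (cs 𝒪 g j), hm, hmem _, ?_, ?_, ?_⟩
      · linear_combination -h2
      · linear_combination -h3
      · ring
    · refine ⟨θ (cz 𝒪 g j), θ (cw 𝒪 g j), hz, hmem _, ?_, ?_, ?_⟩
      · linear_combination -h1
      · ring
      · linear_combination h3
  · refine ⟨θ (cy 𝒪 g j), θ (cv 𝒪 g j), hy, hmem _, ?_, ?_, ?_⟩
    · ring
    · linear_combination h1
    · linear_combination h2

end Scale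

/-- **TYPE-KILL.** -/
theorem stmt_TypeKill : Stmt_TypeKill := by
  intro 𝒪 _ _ k g δ hδ D _ _ _ _ _ _ θ hinj hmem ht f hf
  rw [RingHom.mem_ker]
  choose c b hc hb hv hw hs using exists_scale δ hδ θ hinj (maximalIdeal D) hmem ht
  have : IsAdicComplete (maximalIdeal (MvPowerSeries (Fin k) D)) (MvPowerSeries (Fin k) D) :=
    Fermat.Agent.S53.Limit.isAdicComplete_mvPowerSeries_fin D k
  -- the homomorphism `Θ`
  have hΘmem : ∀ i, (C (θ (X i)) * (tw D k g i : MvPowerSeries (Fin k) D)) ∈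
      maximalIdeal (MvPowerSeries (Fin k) D) := by
    intro i
    rw [mem_maximalIdeal_mvPowerSeries, map_mul, constantCoeff_C]
    exact Ideal.mul_mem_right _ _ (hmem i)
  obtain ⟨Θ, hΘ⟩ := Fermat.Agent.S56.H50.exists_eval (𝒪 := 𝒪) (6 * k + g)
    (fun i => C (θ (X i)) * (tw D k g i : MvPowerSeries (Fin k) D)) hΘmem
  -- the homomorphism `Ψ`
  have hΨmem : ∀ i, mk4 k g (fun j i' => ![(C (θ (cy 𝒪 g j)) : MvPowerSeries (Fin k) D),
      C (θ (cz 𝒪 g j)), C (θ (cm 𝒪 g j)), C (b j) * X j] i')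
      (fun a => C (θ (X (xIdx k g a)))) i ∈ maximalIdeal (MvPowerSeries (Fin k) D) := by
    intro i
    rw [mem_maximalIdeal_mvPowerSeries]
    rcases idx_cases' i with ⟨j, i', rfl⟩ | ⟨a, rfl⟩
    · rw [mk4_cIdx']
      rcases fin4_cases i' with rfl | rfl | rfl | rfl
      · show constantCoeff (C (θ (cy 𝒪 g j)) : MvPowerSeries (Fin k) D) ∈ _
        rw [constantCoeff_C]
        exact hmem _
      · show constantCoeff (C (θ (cz 𝒪 g j)) : MvPowerSeries (Fin k) D) ∈ _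
        rw [constantCoeff_C]
        exact hmem _
      · show constantCoeff (C (θ (cm 𝒪 g j)) : MvPowerSeries (Fin k) D) ∈ _
        rw [constantCoeff_C]
        exact hmem _
      · show constantCoeff (C (b j) * X j : MvPowerSeries (Fin k) D) ∈ _
        rw [map_mul, constantCoeff_C]
        exact Ideal.mul_mem_right _ _ (hb j)
    · rw [mk4_xIdx', constantCoeff_C]
      exact hmem _
  obtain ⟨Ψ, hΨ⟩ := Fermat.Agent.S56.H50.exists_eval (𝒪 := 𝒪) (4 * k + g) _ hΨmem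
  have hΨy : ∀ j, Ψ (py 𝒪 g j) = C (θ (cy 𝒪 g j)) := fun j => by
    rw [py, hΨ, mk4_cIdx']; rfl
  have hΨz : ∀ j, Ψ (pz 𝒪 g j) = C (θ (cz 𝒪 g j)) := fun j => by
    rw [pz, hΨ, mk4_cIdx']; rfl
  have hΨm : ∀ j, Ψ (pm 𝒪 g j) = C (θ (cm 𝒪 g j)) := fun j => by
    rw [pm, hΨ, mk4_cIdx']; rfl
  have hΨβ : ∀ j, Ψ (pβ 𝒪 g j) = C (b j) * X j := fun j => by
    rw [pβ, hΨ, mk4_cIdx']; rfl
  have hΨx : ∀ a, Ψ (px 𝒪 g a) = C (θ (X (xIdx k g a))) := fun a => by
    rw [px, hΨ, mk4_xIdx']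
  -- `Ψ ∘ Sub = rescale c ∘ Θ`
  have hcomp : ∀ f, Ψ (Sub 𝒪 k g f) = rescale c (Θ f) := by
    intro f
    refine ringHom_eq_of_isHausdorff (maximalIdeal (MvPowerSeries (Fin k) D))
      ((Ψ : PRing' 𝒪 k g →+* MvPowerSeries (Fin k) D).comp
        (Sub 𝒪 k g : PRing 𝒪 k g →+* PRing' 𝒪 k g))
      ((rescale c).comp (Θ : PRing 𝒪 k g →+* MvPowerSeries (Fin k) D)) ?_ ?_ ?_ f
    · intro a
      have ha : (C a : PRing 𝒪 k g) = algebraMap 𝒪 _ a := rfl
      simp only [RingHom.comp_apply, RingHom.coe_coe, ha, AlgHom.commutes]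
      rw [MvPowerSeries.algebraMap_apply, rescale_C']
    · intro i
      simp only [RingHom.comp_apply, RingHom.coe_coe]
      rw [hΘ, map_mul, rescale_C']
      rcases idx_cases i with ⟨j, i', rfl⟩ | ⟨a, rfl⟩
      · rcases fin6_cases i' with rfl | rfl | rfl | rfl | rfl | rfl
        · rw [tw_cIdx_lt _ _ _ (by decide), MvPolynomial.coe_one, map_one, mul_one]
          exact (congrArg Ψ (Sub_cy j)).trans (hΨy j)
        · rw [tw_cIdx_lt _ _ _ (by decide), MvPolynomial.coe_one, map_one, mul_one]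
          exact (congrArg Ψ (Sub_cz j)).trans (hΨz j)
        · rw [tw_cIdx_lt _ _ _ (by decide), MvPolynomial.coe_one, map_one, mul_one]
          exact (congrArg Ψ (Sub_cm j)).trans (hΨm j)
        · rw [tw_cIdx_ge _ _ _ (by decide), MvPolynomial.coe_X, rescale_X']
          have h1 : Ψ (Sub 𝒪 k g (X (cIdx k g j 3))) = C (b j) * X j * C (θ (cy 𝒪 g j)) := by
            rw [show (X (cIdx k g j 3) : PRing 𝒪 k g) = cv 𝒪 g j from rfl, Sub_cv, map_mul,
              hΨβ, hΨy]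
          have h2 : (C (c j) * C (θ (cv 𝒪 g j)) : MvPowerSeries (Fin k) D) =
              C (b j) * C (θ (cy 𝒪 g j)) := by
            rw [← map_mul, ← map_mul, hv j]
          rw [h1]
          have h3 : (X (cIdx k g j 3) : PRing 𝒪 k g) = cv 𝒪 g j := rfl
          rw [h3]
          linear_combination (-(X j : MvPowerSeries (Fin k) D)) * h2
        · rw [tw_cIdx_ge _ _ _ (by decide), MvPolynomial.coe_X, rescale_X']
          have h1 : Ψ (Sub 𝒪 k g (X (cIdx k g j 4))) = C (b j) * X j * C (θ (cz 𝒪 g j)) := by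
            rw [show (X (cIdx k g j 4) : PRing 𝒪 k g) = cw 𝒪 g j from rfl, Sub_cw, map_mul,
              hΨβ, hΨz]
          have h2 : (C (c j) * C (θ (cw 𝒪 g j)) : MvPowerSeries (Fin k) D) =
              C (b j) * C (θ (cz 𝒪 g j)) := by
            rw [← map_mul, ← map_mul, hw j]
          rw [h1]
          have h3 : (X (cIdx k g j 4) : PRing 𝒪 k g) = cw 𝒪 g j := rfl
          rw [h3]
          linear_combination (-(X j : MvPowerSeries (Fin k) D)) * h2
        · rw [tw_cIdx_ge _ _ _ (by decide), MvPolynomial.coe_X, rescale_X']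
          have h1 : Ψ (Sub 𝒪 k g (X (cIdx k g j 5))) = C (b j) * X j * C (θ (cm 𝒪 g j)) := by
            rw [show (X (cIdx k g j 5) : PRing 𝒪 k g) = cs 𝒪 g j from rfl, Sub_cs, map_mul,
              hΨβ, hΨm]
          have h2 : (C (c j) * C (θ (cs 𝒪 g j)) : MvPowerSeries (Fin k) D) =
              C (b j) * C (θ (cm 𝒪 g j)) := by
            rw [← map_mul, ← map_mul, hs j]
          rw [h1]
          have h3 : (X (cIdx k g j 5) : PRing 𝒪 k g) = cs 𝒪 g j := rfl
          rw [h3]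
          linear_combination (-(X j : MvPowerSeries (Fin k) D)) * h2
      · rw [tw_xIdx, MvPolynomial.coe_one, map_one, mul_one, Sub_xIdx, hΨx]
    · intro i
      simp only [RingHom.comp_apply, RingHom.coe_coe]
      rw [mem_maximalIdeal_mvPowerSeries, constantCoeff_rescale',
        ← mem_maximalIdeal_mvPowerSeries, hΘ]
      exact hΘmem i
  -- `Ψ` kills the generators `F_j`
  have hΨF : ∀ j, Ψ (typeF (g := g) δ j) = 0 := by
    intro j
    have h4 : Ψ (4 : PRing' 𝒪 k g) = 4 := map_ofNat _ 4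
    have h5 : Ψ (C (δ j ^ 2)) = C (θ (Q1 𝒪 g j)) := by
      have h6 : (C (δ j ^ 2) : PRing' 𝒪 k g) = algebraMap 𝒪 _ (δ j ^ 2) := rfl
      rw [h6, AlgHom.commutes, MvPowerSeries.algebraMap_apply, (ht j).1]
    have h7 : θ (4 : PRing 𝒪 k g) = 4 := map_ofNat _ 4
    rw [typeF, map_sub, map_add, map_mul, map_mul, map_pow, h4, h5, hΨy, hΨz, hΨm, Q1,
      map_add, map_mul, map_mul, map_pow, h7]
    simp only [map_add, map_mul, map_pow, map_ofNat]
    ring
  have hΨI : typeIdeal' g δ ≤ RingHom.ker (Ψ : PRing' 𝒪 k g →+* MvPowerSeries (Fin k) D) := by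
    rw [typeIdeal', Ideal.span_le]
    rintro _ ⟨j, rfl⟩
    exact hΨF j
  have h1 : rescale c (Θ f) = 0 := by
    rw [← hcomp]
    exact hΨI hf
  have h2 : Θ f = 0 := rescale_injective' c hc (h1.trans (map_zero _).symm)
  exact theta_eq_zero_of_Theta θ hmem Θ hΘ f h2

end Fermat.Agent.L.Pivot.H76
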