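/-
PIVOT (item 66), PV-LOC-TYPE, leaf TYPE-KILL, part A (helper76): the weight variables and
"setting `t = 1`".

`E = D⟦t_1, …, t_k⟧`.  If `Θ : P → E` sends `X_i ↦ C (θ X_i) * t(i)` (`t(i) = t_j` for the
coordinates `(v, w, s)_j`, `t(i) = 1` otherwise), then `Θ f = 0` implies `θ f = 0`.
Proof: modulo `𝔪 ^ M` everything is a polynomial in `t` and one can put `t = 1`
(route of helper3's note; uniqueness `(U)` of helper52).
-/
import Fermat.Agent.L.Pivot.H76_TypeIdx
import Fermat.Agent.S53.Limit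

set_option autoImplicit false

namespace Fermat.Agent.L.Pivot.H76

open MvPowerSeries IsLocalRing

section Tw

variable (A : Type*) [CommRing A] (k g : ℕ)

/-- The weight variable of a coordinate of `P`: `t_j` for `(v, w, s)_j`, `1` otherwise. -/
noncomputable def tw (i : Fin (6 * k + g)) : MvPolynomial (Fin k) A :=
  mk6 k g (fun j i' => if 3 ≤ i'.1 then MvPolynomial.X j else 1) (fun _ => 1) i

variable {k g}

theorem tw_cIdx_lt (j : Fin k) (i' : Fin 6) (h : i'.1 < 3) : tw A k g (cIdx k g j i') = 1 := by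
  rw [tw, mk6_cIdx, if_neg (by omega)]

theorem tw_cIdx_ge (j : Fin k) (i' : Fin 6) (h : 3 ≤ i'.1) :
    tw A k g (cIdx k g j i') = MvPolynomial.X j := by
  rw [tw, mk6_cIdx, if_pos h]

theorem tw_xIdx (a : Fin g) : tw A k g (xIdx k g a) = 1 := by
  rw [tw, mk6_xIdx]

variable {A}

theorem map_tw {B : Type*} [CommRing B] (q : A →+* B) (i : Fin (6 * k + g)) :
    MvPolynomial.map q (tw A k g i) = tw B k g i := by
  rcases idx_cases i with ⟨j, i', rfl⟩ | ⟨a, rfl⟩
  · by_cases h : 3 ≤ i'.1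
    · rw [tw_cIdx_ge _ _ _ h, tw_cIdx_ge _ _ _ h, MvPolynomial.map_X]
    · rw [tw_cIdx_lt _ _ _ (by omega), tw_cIdx_lt _ _ _ (by omega), map_one]
  · rw [tw_xIdx, tw_xIdx, map_one]

theorem aeval_one_tw (i : Fin (6 * k + g)) :
    MvPolynomial.aeval (fun _ : Fin k => (1 : A)) (tw A k g i) = 1 := by
  rcases idx_cases i with ⟨j, i', rfl⟩ | ⟨a, rfl⟩
  · by_cases h : 3 ≤ i'.1
    · rw [tw_cIdx_ge _ _ _ h, MvPolynomial.aeval_X]
    · rw [tw_cIdx_lt _ _ _ (by omega), map_one]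
  · rw [tw_xIdx, map_one]

theorem coe_map_poly {σ : Type*} {B : Type*} [CommRing B] (q : A →+* B) (p : MvPolynomial σ A) :
    ((MvPolynomial.map q p : MvPolynomial σ B) : MvPowerSeries σ B) =
      MvPowerSeries.map q (p : MvPowerSeries σ A) := by
  ext d
  rw [MvPolynomial.coeff_coe, MvPolynomial.coeff_map, MvPowerSeries.coeff_map,
    MvPolynomial.coeff_coe]

end Tw

section Step2

variable {𝒪 : Type} [CommRing 𝒪] {k g : ℕ}
variable {D : Type} [CommRing D] [Algebra 𝒪 D]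

/-- The truncated statement: for a quotient `q : D → B` through which the `M`-th power of an
ideal `𝔪` containing the `θ X_i` dies, `Θ f = 0` implies `q (θ f) = 0`. -/
theorem q_theta_eq_zero_of_Theta {B : Type} [CommRing B] [Algebra 𝒪 B] (q : D →ₐ[𝒪] B)
    (𝔪 : Ideal D) (M : ℕ) (hqM : Ideal.map (q : D →+* B) 𝔪 ^ M = ⊥)
    (θ : PRing 𝒪 k g →ₐ[𝒪] D) (hmem : ∀ i, θ (X i) ∈ 𝔪)
    (Θ : PRing 𝒪 k g →ₐ[𝒪] MvPowerSeries (Fin k) D)
    (hΘ : ∀ i, Θ (X i) = C (θ (X i)) * (tw D k g i : MvPowerSeries (Fin k) D))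
    (f : PRing 𝒪 k g) (hf : Θ f = 0) : q (θ f) = 0 := by
  let x : Fin (6 * k + g) → MvPolynomial (Fin k) B :=
    fun i => MvPolynomial.C (q (θ (X i))) * tw B k g i
  have hqmem : ∀ i, q (θ (X i)) ∈ Ideal.map (q : D →+* B) 𝔪 := fun i =>
    Ideal.mem_map_of_mem (q : D →+* B) (hmem i)
  -- the nilpotent ideal of the polynomial ring
  have hI : (Ideal.map (MvPolynomial.C : B →+* MvPolynomial (Fin k) B)
      (Ideal.map (q : D →+* B) 𝔪)) ^ M = ⊥ := by
    rw [← Ideal.map_pow, hqM, Ideal.map_bot]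
  have hxI : ∀ i, x i ∈ Ideal.map (MvPolynomial.C : B →+* MvPolynomial (Fin k) B)
      (Ideal.map (q : D →+* B) 𝔪) := fun i =>
    Ideal.mul_mem_right _ _ (Ideal.mem_map_of_mem _ (hqmem i))
  have hnil : ∀ p ∈ MvPolynomial.idealOfVars (Fin (6 * k + g)) 𝒪 ^ M,
      MvPolynomial.aeval (R := 𝒪) x p = 0 := by
    intro p hp
    have h1 : MvPolynomial.idealOfVars (Fin (6 * k + g)) 𝒪 ≤
        Ideal.comap (MvPolynomial.aeval (R := 𝒪) x) (Ideal.map
          (MvPolynomial.C : B →+* MvPolynomial (Fin k) B)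
          (Ideal.map (q : D →+* B) 𝔪)) := by
      rw [MvPolynomial.idealOfVars, Ideal.span_le]
      rintro _ ⟨i, rfl⟩
      rw [SetLike.mem_coe, Ideal.mem_comap, MvPolynomial.aeval_X]
      exact hxI i
    have h2 := (Ideal.pow_right_mono h1 M).trans (Ideal.le_comap_pow _ M) hp
    rw [Ideal.mem_comap, hI, Ideal.mem_bot] at h2
    exact h2
  let ΘM : PRing 𝒪 k g →ₐ[𝒪] MvPolynomial (Fin k) B := Fermat.Agent.S53.Limit.evL x M hnil
  have hΘM : ∀ i, ΘM (X i) = x i := fun i => Fermat.Agent.S53.Limit.evL_X x M hnil i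
  -- claim 1: modulo `𝔪 ^ M`, `Θ` is the polynomial evaluation
  have h1 : ∀ f, ((ΘM f : MvPolynomial (Fin k) B) : MvPowerSeries (Fin k) B) =
      MvPowerSeries.map (q : D →+* B) (Θ f) := by
    intro f
    have hJ : (Ideal.map (MvPowerSeries.C : B →+* MvPowerSeries (Fin k) B)
        (Ideal.map (q : D →+* B) 𝔪)) ^ M = ⊥ := by
      rw [← Ideal.map_pow, hqM, Ideal.map_bot]
    refine ringHom_eq_of_pow_eq_bot _ M hJ
      ((MvPolynomial.coeToMvPowerSeries.ringHom :
          MvPolynomial (Fin k) B →+* MvPowerSeries (Fin k) B).comp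
        (ΘM : PRing 𝒪 k g →+* MvPolynomial (Fin k) B))
      ((MvPowerSeries.map (q : D →+* B)).comp
        (Θ : PRing 𝒪 k g →+* MvPowerSeries (Fin k) D)) ?_ ?_ ?_ f
    · intro c
      have hc : (C c : PRing 𝒪 k g) = algebraMap 𝒪 _ c := rfl
      simp only [RingHom.comp_apply, RingHom.coe_coe, hc, AlgHom.commutes]
      rw [MvPolynomial.algebraMap_apply, MvPowerSeries.algebraMap_apply,
        MvPolynomial.coeToMvPowerSeries.ringHom_apply, MvPolynomial.coe_C, MvPowerSeries.map_C]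
      simp only [RingHom.coe_coe, AlgHom.commutes]
    · intro i
      simp only [RingHom.comp_apply, RingHom.coe_coe]
      rw [hΘM, hΘ, MvPolynomial.coeToMvPowerSeries.ringHom_apply, MvPolynomial.coe_mul,
        MvPolynomial.coe_C, map_mul (MvPowerSeries.map (q : D →+* B)), MvPowerSeries.map_C,
        ← coe_map_poly, map_tw]
      rfl
    · intro i
      simp only [RingHom.comp_apply, RingHom.coe_coe]
      rw [hΘ, map_mul (MvPowerSeries.map (q : D →+* B)), MvPowerSeries.map_C]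
      exact Ideal.mul_mem_right _ _ (Ideal.mem_map_of_mem _ (hqmem i))
  -- claim 2: putting `t = 1` gives `θ` modulo `𝔪 ^ M`
  have h2 : ∀ f, MvPolynomial.aeval (fun _ : Fin k => (1 : B)) (ΘM f) = q (θ f) := by
    intro f
    refine ringHom_eq_of_pow_eq_bot _ M hqM
      (((MvPolynomial.aeval (fun _ : Fin k => (1 : B)) : MvPolynomial (Fin k) B →ₐ[B] B) :
          MvPolynomial (Fin k) B →+* B).comp
        (ΘM : PRing 𝒪 k g →+* MvPolynomial (Fin k) B))
      ((q : D →+* B).comp (θ : PRing 𝒪 k g →+* D)) ?_ ?_ ?_ f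
    · intro c
      have hc : (C c : PRing 𝒪 k g) = algebraMap 𝒪 _ c := rfl
      simp only [RingHom.comp_apply, RingHom.coe_coe, hc, AlgHom.commutes]
      rw [MvPolynomial.algebraMap_apply, MvPolynomial.aeval_C]
      rfl
    · intro i
      simp only [RingHom.comp_apply, RingHom.coe_coe]
      rw [hΘM, map_mul, MvPolynomial.aeval_C, aeval_one_tw, mul_one]
      rfl
    · intro i
      simp only [RingHom.comp_apply, RingHom.coe_coe]
      exact hqmem i
  have h3 : ΘM f = 0 := by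
    apply MvPolynomial.coe_injective
    rw [h1, hf, map_zero, MvPolynomial.coe_zero]
  have h4 := h2 f
  rw [h3, map_zero] at h4
  exact h4.symm

/-- **Setting `t = 1`.**  If `Θ f = 0` then `θ f = 0`. -/
theorem theta_eq_zero_of_Theta [IsLocalRing D] [IsNoetherianRing D] (θ : PRing 𝒪 k g →ₐ[𝒪] D)
    (hmem : ∀ i, θ (X i) ∈ maximalIdeal D)
    (Θ : PRing 𝒪 k g →ₐ[𝒪] MvPowerSeries (Fin k) D)
    (hΘ : ∀ i, Θ (X i) = C (θ (X i)) * (tw D k g i : MvPowerSeries (Fin k) D))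
    (f : PRing 𝒪 k g) (hf : Θ f = 0) : θ f = 0 := by
  have h1 : θ f ∈ ⨅ i, maximalIdeal D ^ i := by
    rw [Ideal.mem_iInf]
    intro M
    have hqM : Ideal.map ((Ideal.Quotient.mkₐ 𝒪 (maximalIdeal D ^ M) :
        D →ₐ[𝒪] D ⧸ maximalIdeal D ^ M) : D →+* D ⧸ maximalIdeal D ^ M)
        (maximalIdeal D) ^ M = ⊥ := by
      rw [← Ideal.map_pow]
      exact Ideal.map_quotient_self _
    have h2 := q_theta_eq_zero_of_Theta (Ideal.Quotient.mkₐ 𝒪 (maximalIdeal D ^ M))
      (maximalIdeal D) M hqM θ hmem Θ hΘ f hf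
    exact Ideal.Quotient.eq_zero_iff_mem.1 h2
  rw [Ideal.iInf_pow_eq_bot_of_isLocalRing _ (maximalIdeal.isMaximal D).ne_top] at h1
  exact h1

end Step2

end Fermat.Agent.L.Pivot.H76
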