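/-
PIVOT (item 66), PV-WIRE2 (helper76), layer F: the Frey form.

* `apOfModel_congr` : two integral models of one curve over `ℚ` have the same `a_ℓ` modulo `p` at
  their common good primes `ℓ ≠ p` (item 62 + transport of the torsion along a change of
  variables).
* `pivotFrey2_of : Stmt_PivotWCore5 → Stmt_PivotFrey2`.
-/
import Fermat.Agent.L.Pivot.H76_Wire2WDefs
import Fermat.Agent.L.Pivot.H76_Frey2
import Fermat.Agent.L.H52_DetCycFrey
import Fermat.Agent.S04.H59_FreySemistable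
import Fermat.Agent.Lib.EllFinite.Main
import Fermat.Agent.Lib.FrobExists
import Fermat.Agent.L.H19_TorsLevel

set_option autoImplicit false
set_option linter.style.haveILetI false
set_option linter.unusedVariables false

open WeierstrassCurve WeierstrassCurve.Affine WeierstrassCurve.Affine.Point
open scoped WeierstrassCurve.Affine

namespace Fermat.Agent.L.Pivot.H76

open Fermat.Agent.L.Pivot Fermat.Agent.S44 Fermat.Agent.S43

/-- Two integral models of the same curve have the same `a_ℓ` modulo `p` at a common good prime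
`ℓ ≠ p`. -/
theorem apOfModel_congr {E : WeierstrassCurve ℚ} {W W' : WeierstrassCurve ℤ}
    (hW : W.IsIntegralModelOf E) (hW' : W'.IsIntegralModelOf E) (p : ℕ) [Fact p.Prime]
    {ℓ : ℕ} (hℓ : ℓ.Prime) (hpℓ : p ≠ ℓ) (hg : W.IsGoodPrimeFor ℓ)
    (hg' : W'.IsGoodPrimeFor ℓ) :
    ((W.apOfModel ℓ : ℤ) : ZMod p) = ((W'.apOfModel ℓ : ℤ) : ZMod p) := by
  obtain ⟨A, σ, hA, hσ⟩ := Fermat.Agent.Lib.FrobExists.exists_place_and_frobenius ℓ hℓ
  obtain ⟨C, hC⟩ := hW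
  obtain ⟨C', hC'⟩ := hW'
  have h1 := (Fermat.Agent.Lib.EllFinite.stmt_main W p ℓ hℓ hpℓ hg A hA σ hσ).2.1
  have h2 := (Fermat.Agent.Lib.EllFinite.stmt_main W' p ℓ hℓ hpℓ hg' A hA σ hσ).2.1
  have e1 := Fermat.Agent.L.H19.galoisTrace_eq (K := AlgebraicClosure ℚ) hC p σ
  have e2 := Fermat.Agent.L.H19.galoisTrace_eq (K := AlgebraicClosure ℚ) hC' p σ
  rw [← h1, ← h2, ← e1, ← e2]

/-- The congruence for one model gives the congruence for another model. -/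
theorem cong_of_model {E : WeierstrassCurve ℚ} {W W' : WeierstrassCurve ℤ}
    (hW : W.IsIntegralModelOf E) (hW' : W'.IsIntegralModelOf E) (p : ℕ) [Fact p.Prime]
    {ℓ : ℕ} (hℓ : ℓ.Prime) (hpℓ : p ≠ ℓ) (hg : W.IsGoodPrimeFor ℓ)
    (hg' : W'.IsGoodPrimeFor ℓ) (𝔪 : Ideal (integralClosure ℤ ℂ))
    (hp𝔪 : (p : integralClosure ℤ ℂ) ∈ 𝔪) (a : integralClosure ℤ ℂ)
    (h : a - ((W'.apOfModel ℓ : ℤ) : integralClosure ℤ ℂ) ∈ 𝔪) :
    a - ((W.apOfModel ℓ : ℤ) : integralClosure ℤ ℂ) ∈ 𝔪 := by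
  have h1 := apOfModel_congr hW hW' p hℓ hpℓ hg hg'
  have h2 : (p : ℤ) ∣ W'.apOfModel ℓ - W.apOfModel ℓ :=
    (ZMod.intCast_eq_intCast_iff_dvd_sub _ _ _).mp h1
  obtain ⟨m, hm⟩ := h2
  have h3 : a - ((W.apOfModel ℓ : ℤ) : integralClosure ℤ ℂ)
      = (a - ((W'.apOfModel ℓ : ℤ) : integralClosure ℤ ℂ))
        + (p : integralClosure ℤ ℂ) * ((m : ℤ) : integralClosure ℤ ℂ) := by
    have h4 : ((W'.apOfModel ℓ : ℤ) : integralClosure ℤ ℂ)
        - ((W.apOfModel ℓ : ℤ) : integralClosure ℤ ℂ)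
        = (p : integralClosure ℤ ℂ) * ((m : ℤ) : integralClosure ℤ ℂ) := by
      have := congrArg (fun z : ℤ => (z : integralClosure ℤ ℂ)) hm
      simpa using this
    rw [← h4]
    ring
  rw [h3]
  exact 𝔪.add_mem h (𝔪.mul_mem_right _ hp𝔪)

/-- Transfer between a curve over `ℚ` and its integral model. -/
theorem transfer_of_map_eq {W : WeierstrassCurve ℤ} {E : WeierstrassCurve ℚ}
    (h : W.map (Int.castRingHom ℚ) = E) (p : ℕ) :
    (∀ q : ℕ, UnrW W p q ↔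
      GaloisRepUnramifiedAt (K := AlgebraicClosure ℚ) ℚ E.toAffine p q) ∧
    (∀ q : ℕ, IsExcW W p q ↔ (p ∣ q - 1 ∧
      ∃ A : ValuationSubring (AlgebraicClosure ℚ), A.LiesOverPrime q ∧
        ∃ c : ZMod p, ∀ σ : GQ, A.IsFrobeniusAt σ q → ∀ v : Tors E p,
          galoisRepModuleEnd (S := ℚ) (K := AlgebraicClosure ℚ) E.toAffine p σ v = c • v)) ∧
    (GaloisRepIsIrreducible (K := AlgebraicClosure ℚ) ℚ E.toAffine p ↔
      GaloisRepIsIrreducible (K := AlgebraicClosure ℚ) ℚ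
        (W.map (Int.castRingHom ℚ)).toAffine p) := by
  subst h
  exact ⟨fun q => Iff.rfl, fun q => Iff.rfl, Iff.rfl⟩

/-- **Layer F of PV-WIRE2**: PIVOT for the Frey curve from the curve form. -/
theorem pivotFrey2_of (hW : Stmt_PivotWCore5) : Stmt_PivotFrey2 := by
  intro P N q hcond hpN hq hqp hqN hirr hmod hunr hall
  obtain ⟨f, W', 𝔪, hf, hW', h𝔪, hp𝔪, hcong⟩ := hmod
  haveI : Fact P.p.Prime := ⟨P.pp⟩
  have hmap := Fermat.Agent.S04.H59.freyCurveInt_map P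
  have hΔ₀ := Fermat.Agent.S04.H59.freyCurveInt_Δ_ne_zero P
  have hss := Fermat.Agent.S04.H59.freyCurveInt_isSemistableModel P
  have hW₀ := Fermat.Agent.L.H52.freyCurveInt_isIntegralModelOf P
  have hΔ' : W'.Δ ≠ 0 := integralModel_Δ_ne_zero P hW'
  obtain ⟨hunr_iff, hexc_iff, hirr_iff⟩ := transfer_of_map_eq hmap P.p
  have hL : LowerConcl P.p N q P.freyCurveInt := by
    refine hW P.p P.pp P.hp5 P.freyCurveInt hΔ₀ hss (hirr_iff.mp hirr) N q hcond.squarefree hpN hq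
      hqN ((hunr_iff q).mpr hunr) ?_ f 𝔪 W'.Δ.natAbs.primeFactors hf h𝔪 hp𝔪 ?_
    · intro q' hq' hq'N hu
      obtain ⟨hdvd, A, hA, c, hc⟩ := hall q' hq' hq'N ((hunr_iff q').mp hu)
      exact (hexc_iff q').mpr ⟨hdvd, A, hA, c, hc⟩
    · intro ℓ hℓ hℓS hg hℓN hℓp
      have hg' : W'.IsGoodPrimeFor ℓ := prime_not_mem_of_good hℓ hΔ' hℓS
      obtain ⟨a, ha, hac⟩ := hcong ℓ hℓ hg' hℓN hℓp
      exact ⟨a, ha, cong_of_model hW₀ hW' P.p hℓ (Ne.symm hℓp) hg hg' 𝔪 hp𝔪 a hac⟩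
  exact result_of_lowerConcl P hcond hq hqN P.freyCurveInt hW₀ hL

end Fermat.Agent.L.Pivot.H76
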