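/-
PIVOT (item 66), PV-WIRE2 (helper76), step LIFT: a residual point of the Hecke algebra is the
reduction of an eigenform.

`θ' : 𝕋_M^S → k` a ring homomorphism to a field of characteristic `p` with
`θ' (T_ℓ) = a ℓ` (`a ℓ ∈ ℤ`) for the primes `ℓ ∤ M`, `ℓ ∉ S`, `ℓ ∉ S'`.  Then there are a normalised
eigenform `g` of level `M` and a maximal ideal `𝔪 ∋ p` of the ring of algebraic integers with
`a_ℓ(g) ≡ a ℓ mod 𝔪` for these `ℓ`  (`L.LiftEig.H46.charM_hecke`, helper46).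
-/
import Fermat.Agent.L.LiftEig.H46_CharM

set_option autoImplicit false

open CongruenceSubgroup CuspForm ModularFormClass

namespace Fermat.Agent.L.Pivot.H76

/-- **LIFT.** -/
theorem exists_eigenform_of_residual_point (M : ℕ) [NeZero M] {p : ℕ} (hp : p.Prime)
    (S : Set ℕ) {k : Type*} [Field k] [CharP k p] (θ' : heckeAlgebra M 2 S →+* k)
    (a : ℕ → ℤ) (S' : Set ℕ)
    (hθ' : ∀ (ℓ : ℕ) (hℓ : ℓ.Prime) (hℓM : ¬ ℓ ∣ M) (hℓS : ℓ ∉ S), ℓ ∉ S' →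
      θ' (heckeAlgebra.T hℓ hℓM hℓS) = ((a ℓ : ℤ) : k)) :
    ∃ (g : CuspForm (Gamma0 M) 2) (𝔪 : Ideal (integralClosure ℤ ℂ)),
      g.IsNormalizedEigenform ∧ 𝔪.IsMaximal ∧ (p : integralClosure ℤ ℂ) ∈ 𝔪 ∧
      ∀ ℓ : ℕ, ℓ.Prime → ¬ ℓ ∣ M → ℓ ∉ S → ℓ ∉ S' →
        ∃ b : integralClosure ℤ ℂ, (b : ℂ) = qCoeff g ℓ ∧
          b - ((a ℓ : ℤ) : integralClosure ℤ ℂ) ∈ 𝔪 := by
  classical
  -- the family of good primes
  let ι : Type := {ℓ : ℕ // ℓ.Prime ∧ ¬ ℓ ∣ M ∧ ℓ ∉ S ∧ ℓ ∉ S'}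
  let ℓf : ι → ℕ := fun i => i.1
  have hℓ : ∀ i : ι, (ℓf i).Prime := fun i => i.2.1
  have hℓM : ∀ i : ι, ¬ ℓf i ∣ M := fun i => i.2.2.1
  let t : ι → ℤ := fun i => a i.1
  -- the two families of Hecke operators
  let famS : ι → heckeAlgebra M 2 S := fun i => heckeAlgebra.T i.2.1 i.2.2.1 i.2.2.2.1
  have hle : heckeAlgebra M 2 S ≤ heckeAlgebra M 2 ∅ :=
    heckeAlgebra_mono (Set.empty_subset S)
  let inc : heckeAlgebra M 2 S →ₐ[ℤ] heckeAlgebra M 2 ∅ := Subalgebra.inclusion hle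
  have hinc : Function.Injective inc := Subalgebra.inclusion_injective hle
  have hval : ∀ P : MvPolynomial ι ℤ,
      inc (MvPolynomial.aeval famS P)
      = MvPolynomial.aeval (Fermat.Agent.L.LiftEig.H46.heckeFam M ℓf hℓ hℓM) P := by
    intro P
    rw [MvPolynomial.comp_aeval_apply (f := famS) inc P]
    congr 1
  have H : ∀ P : MvPolynomial ι ℤ,
      MvPolynomial.aeval (Fermat.Agent.L.LiftEig.H46.heckeFam M ℓf hℓ hℓM) P = 0 →
      (p : ℤ) ∣ MvPolynomial.eval t P := by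
    intro P hP
    have h0 : (MvPolynomial.aeval famS P : heckeAlgebra M 2 S) = 0 := by
      apply hinc
      rw [hval P, hP, map_zero]
    -- apply `θ'`
    have h1 : θ'.toIntAlgHom (MvPolynomial.aeval famS P)
        = MvPolynomial.aeval (fun i => θ'.toIntAlgHom (famS i)) P :=
      MvPolynomial.comp_aeval_apply (f := famS) θ'.toIntAlgHom P
    have h2 : MvPolynomial.aeval (fun i => θ'.toIntAlgHom (famS i)) P
        = ((MvPolynomial.eval t P : ℤ) : k) := by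
      have h3 : (fun i => θ'.toIntAlgHom (famS i)) = fun i => ((t i : ℤ) : k) := by
        funext i
        exact hθ' i.1 i.2.1 i.2.2.1 i.2.2.2.1 i.2.2.2.2
      rw [h3]
      have h4 := MvPolynomial.eval₂_comp_left (Int.castRingHom k) (RingHom.id ℤ) t P
      have h5 : (Int.castRingHom k).comp (RingHom.id ℤ) = algebraMap ℤ k :=
        RingHom.ext_int _ _
      rw [h5] at h4
      rw [MvPolynomial.aeval_def]
      exact h4.symm
    have h6 : ((MvPolynomial.eval t P : ℤ) : k) = 0 := by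
      rw [← h2, ← h1, h0, map_zero]
    exact (CharP.intCast_eq_zero_iff k p _).mp h6
  obtain ⟨g, 𝔪, hg, h𝔪, hp𝔪, hcong⟩ :=
    Fermat.Agent.L.LiftEig.H46.charM_hecke M ℓf hℓ hℓM t hp H
  refine ⟨g, 𝔪, hg, h𝔪, hp𝔪, fun ℓ hℓp hℓM' hℓS hℓS' => ?_⟩
  exact hcong ⟨ℓ, hℓp, hℓM', hℓS, hℓS'⟩

end Fermat.Agent.L.Pivot.H76
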