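/-
PIVOT (item 66), PV-WIRE2 (helper76), step PV: `PivotPrimes` at prescribed places and Frobenius
lifts, for the primes of a finite set.

* `exists_pivotPrimes_at` : as `H59.exists_pivotPrimes`, with given places `P j` and Frobenius
  elements `frob j`.
* `exists_pivotPrimes_finset` : for a finite set `Σ` of primes with chosen places and Frobenius
  elements: a `PivotPrimes Σ.card` with `Pv.set = Σ` whose places and Frobenius lifts are the
  chosen ones.
-/
import Fermat.Agent.L.Pivot.H59_TameGlobal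

set_option autoImplicit false
set_option linter.style.haveILetI false

namespace Fermat.Agent.L.Pivot.H76

open Fermat.Agent.L.Pivot Fermat.Agent.L.Pivot.H59

/-- `PivotPrimes` with prescribed places and Frobenius lifts. -/
theorem exists_pivotPrimes_at (k : ℕ) (q : Fin k → ℕ) (hinj : Function.Injective q)
    (hq : ∀ j, (q j).Prime) (P : Fin k → ValuationSubring (AlgebraicClosure ℚ))
    (hP : ∀ j, (P j).LiesOverPrime (q j))
    (frob : Fin k → (AlgebraicClosure ℚ ≃ₐ[ℚ] AlgebraicClosure ℚ))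
    (hfrob : ∀ j, (P j).IsFrobeniusAt (frob j) (q j)) :
    ∃ Pv : PivotPrimes k, Pv.q = q ∧ Pv.P = P ∧ Pv.frob = frob := by
  classical
  have h2 : ∀ j, ∃ τ₀ ∈ (P j).inertiaSubgroupIn ℚ,
      ∀ F : IntermediateField ℚ (AlgebraicClosure ℚ), FiniteDimensional ℚ F →
        TameAt (P j) (frob j) (q j) F τ₀ :=
    fun j => exists_uniform_tame_generator (q j) (hq j) (P j) (hP j) (frob j) (hfrob j)
  choose τ hτ hτF using h2
  refine ⟨{ q := q, q_inj := hinj, q_prime := hq, P := P, P_over := hP, frob := frob,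
            frob_spec := hfrob, τ := τ, τ_gen := fun j => ⟨hτ j, fun F hF σ hσ => ?_⟩,
            τ_frob := fun j F hF => ?_ }, rfl, rfl, rfl⟩
  · obtain ⟨i, e, h⟩ := (hτF j F hF).1 σ hσ
    exact ⟨i, e, (IntermediateField.mem_fixingSubgroup_iff F _).1 h⟩
  · obtain ⟨e, h⟩ := (hτF j F hF).2
    exact ⟨e, (IntermediateField.mem_fixingSubgroup_iff F _).1 h⟩

/-- `PivotPrimes` for the primes of a finite set, with a property `C q A σ` of the chosen place
and Frobenius lift which holds for some place over `q` and every Frobenius lift at it. -/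
theorem exists_pivotPrimes_finset (Sg : Finset ℕ) (hSg : ∀ q ∈ Sg, q.Prime)
    (C : ℕ → ValuationSubring (AlgebraicClosure ℚ) →
      (AlgebraicClosure ℚ ≃ₐ[ℚ] AlgebraicClosure ℚ) → Prop)
    (hC : ∀ q ∈ Sg, ∃ A : ValuationSubring (AlgebraicClosure ℚ), A.LiesOverPrime q ∧
      ∀ σ : AlgebraicClosure ℚ ≃ₐ[ℚ] AlgebraicClosure ℚ, A.IsFrobeniusAt σ q → C q A σ) :
    ∃ Pv : PivotPrimes Sg.card, Pv.set = Sg ∧ (∀ j, Pv.q j ∈ Sg) ∧
      (∀ q ∈ Sg, ∃ j, Pv.q j = q) ∧ ∀ j, C (Pv.q j) (Pv.P j) (Pv.frob j) := by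
  classical
  let e : Fin Sg.card ≃ Sg := Sg.equivFin.symm
  let q : Fin Sg.card → ℕ := fun j => (e j : ℕ)
  have hqS : ∀ j, q j ∈ Sg := fun j => (e j).2
  have hinj : Function.Injective q := fun i j h => e.injective (Subtype.ext h)
  have hq : ∀ j, (q j).Prime := fun j => hSg _ (hqS j)
  have h1 : ∀ j, ∃ (A : ValuationSubring (AlgebraicClosure ℚ))
      (σ : AlgebraicClosure ℚ ≃ₐ[ℚ] AlgebraicClosure ℚ),
      A.LiesOverPrime (q j) ∧ A.IsFrobeniusAt σ (q j) ∧ C (q j) A σ := by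
    intro j
    obtain ⟨A, hA, hAC⟩ := hC (q j) (hqS j)
    obtain ⟨σ, hσ⟩ := Fermat.Agent.Lib.FrobExists.exists_isFrobeniusAt (q j) (hq j) A hA
    exact ⟨A, σ, hA, hσ, hAC σ hσ⟩
  choose P frob hP hfrob hCj using h1
  obtain ⟨Pv, hPq, hPP, hPf⟩ := exists_pivotPrimes_at Sg.card q hinj hq P hP frob hfrob
  refine ⟨Pv, ?_, ?_, ?_, ?_⟩
  · ext x
    simp only [PivotPrimes.set, Finset.mem_image, Finset.mem_univ, true_and]
    constructor
    · rintro ⟨j, rfl⟩
      rw [hPq]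
      exact hqS j
    · intro hx
      refine ⟨e.symm ⟨x, hx⟩, ?_⟩
      rw [hPq]
      show ((e (e.symm ⟨x, hx⟩) : Sg) : ℕ) = x
      rw [e.apply_symm_apply]
  · intro j
    rw [hPq]
    exact hqS j
  · intro x hx
    refine ⟨e.symm ⟨x, hx⟩, ?_⟩
    rw [hPq]
    show ((e (e.symm ⟨x, hx⟩) : Sg) : ℕ) = x
    rw [e.apply_symm_apply]
  · intro j
    rw [hPq, hPP, hPf]
    exact hCj j

end Fermat.Agent.L.Pivot.H76
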