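/-
PIVOT (item 66), PV-WIRE2 (helper76): plumbing on residual representations.

* `detIsCyclotomic_residual`, `isUnipotentOnInertiaAt_residual`, `charpoly_frob_residual` :
  properties of `ρ` pass to `ofResidualGaloisRep ρ.residual` / `ρ.residual`.
* `scalar_of_isEquiv_resid`, `scalar_bcAlong_resid` : a scalar Frobenius passes through
  equivalences and base change of residual representations.
* `exists_primitiveRoot_of_dvd` : `p`-power roots of unity of smaller order.
-/
import Fermat.Agent.S59.Asm.Plumb2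

set_option autoImplicit false
set_option linter.unusedSectionVars false
set_option linter.style.haveILetI false

open Polynomial IsLocalRing
open scoped TensorProduct

namespace Fermat.Agent.L.Pivot.H76

open Fermat.Agent.S59.Asm

section Adic

variable {A : Type} [CommRing A] [IsLocalRing A]

/-- The determinant of the residual representation is the cyclotomic character. -/
theorem detIsCyclotomic_residual (ρ : GaloisRepAdic A) (p : ℕ) (h : ρ.DetIsCyclotomic p) :
    (GaloisRepAdic.ofResidualGaloisRep ρ.residual).DetIsCyclotomic p := by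
  refine ⟨?_, fun n σ a ha => ?_⟩
  · have h1 : ((p : ℕ) : ResidueField A) = 0 := by
      rw [← map_natCast (residue A)]
      exact (residue_eq_zero_iff _).mpr h.1
    rw [h1]
    exact zero_mem _
  · obtain ⟨c, hc⟩ := Ideal.mem_span_singleton'.mp (h.2 n σ a ha)
    have hdet : LinearMap.det ((GaloisRepAdic.ofResidualGaloisRep ρ.residual).ρ σ)
        = residue A (LinearMap.det (ρ.ρ σ)) := by
      show LinearMap.det ((ρ.ρ σ).baseChange (ResidueField A)) = _
      rw [LinearMap.det_baseChange]
      rfl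
    rw [hdet]
    refine Ideal.mem_span_singleton'.mpr ⟨residue A c, ?_⟩
    rw [← map_natCast (residue A), ← map_mul, hc, map_sub, map_natCast]

/-- Unipotent inertia passes to the residual representation. -/
theorem isUnipotentOnInertiaAt_residual (ρ : GaloisRepAdic A) (q : ℕ)
    (h : ρ.IsUnipotentOnInertiaAt q) :
    (GaloisRepAdic.ofResidualGaloisRep ρ.residual).IsUnipotentOnInertiaAt q := by
  intro P hP σ hσ
  have h1 : LinearMap.charpoly ((GaloisRepAdic.ofResidualGaloisRep ρ.residual).ρ σ)
      = (LinearMap.charpoly (ρ.ρ σ)).map (residue A) := charpoly_resid ρ σ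
  rw [h1, h P hP σ hσ]
  simp only [Polynomial.map_pow, Polynomial.map_sub, Polynomial.map_X, Polynomial.map_one]

/-- Frobenius characteristic polynomials of the residual representation. -/
theorem charpoly_frob_residual (ρ : GaloisRepAdic A) (σ : AlgebraicClosure ℚ ≃ₐ[ℚ] AlgebraicClosure ℚ)
    (a : ℤ) (ℓ : ℕ)
    (h : LinearMap.charpoly (ρ.ρ σ) = X ^ 2 - C ((a : ℤ) : A) * X + C ((ℓ : A))) :
    LinearMap.charpoly (ρ.residual.ρ σ)
      = X ^ 2 - C ((a : ℤ) : ResidueField A) * X + C ((ℓ : ResidueField A)) := by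
  rw [charpoly_resid ρ σ, h]
  simp only [Polynomial.map_add, Polynomial.map_sub, Polynomial.map_mul, Polynomial.map_pow,
    Polynomial.map_X, map_intCast, map_natCast, Polynomial.map_intCast,
    Polynomial.map_natCast]

end Adic

section Resid

variable {k : Type} [Field k]

/-- A scalar passes through an equivalence. -/
theorem scalar_of_isEquiv_resid {ρ₁ ρ₂ : ResidualGaloisRep k} (h : ρ₁.IsEquiv ρ₂)
    (σ : AlgebraicClosure ℚ ≃ₐ[ℚ] AlgebraicClosure ℚ) (c : k)
    (h1 : ρ₁.ρ σ = c • (1 : Module.End k ρ₁.V)) :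
    ρ₂.ρ σ = c • (1 : Module.End k ρ₂.V) := by
  obtain ⟨e⟩ := h
  refine LinearMap.ext fun y => ?_
  obtain ⟨x, rfl⟩ := e.toLinearEquiv.surjective y
  rw [← e.map_apply, h1, LinearMap.smul_apply, Module.End.one_apply, map_smul,
    LinearMap.smul_apply, Module.End.one_apply]

/-- A scalar passes through base change. -/
theorem scalar_bcAlong_resid {k' : Type} [Field k'] (j : k →+* k') (ρ : ResidualGaloisRep k)
    (σ : AlgebraicClosure ℚ ≃ₐ[ℚ] AlgebraicClosure ℚ) (c : k)
    (h1 : ρ.ρ σ = c • (1 : Module.End k ρ.V)) :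
    (ρ.baseChangeAlong j).ρ σ = j c • (1 : Module.End k' (ρ.baseChangeAlong j).V) := by
  letI : Algebra k k' := j.toAlgebra
  show (ρ.ρ σ).baseChange k' = j c • (1 : Module.End k' (k' ⊗[k] ρ.V))
  rw [h1]
  refine LinearMap.ext fun x => ?_
  induction x using TensorProduct.induction_on with
  | zero => simp only [map_zero]
  | tmul b v =>
    rw [LinearMap.baseChange_tmul, LinearMap.smul_apply, Module.End.one_apply,
      LinearMap.smul_apply, Module.End.one_apply, TensorProduct.tmul_smul,
      TensorProduct.smul_tmul', TensorProduct.smul_tmul', Algebra.smul_def, smul_eq_mul]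
    rfl
  | add x y hx hy => simp only [map_add, hx, hy]

end Resid

/-- A primitive `p^E`-th root of unity gives primitive `p^e`-th roots of unity, `e ≤ E`. -/
theorem exists_primitiveRoot_of_le {R : Type*} [CommRing R] {p E : ℕ} (hp : p.Prime)
    {ζ : R} (hζ : IsPrimitiveRoot ζ (p ^ E)) {e : ℕ} (he : e ≤ E) :
    ∃ ζ' : R, IsPrimitiveRoot ζ' (p ^ e) := by
  refine ⟨ζ ^ (p ^ (E - e)), ?_⟩
  refine hζ.pow (pow_pos hp.pos E) ?_
  rw [← pow_add]
  congr 1
  omega

/-- `p ^ e ∣ m`, `0 < m < N` gives `e ≤ N`. -/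
theorem le_of_pow_dvd {p e m N : ℕ} (hp : p.Prime) (h : p ^ e ∣ m) (hm : 0 < m) (hmN : m ≤ N) :
    e ≤ N := by
  have h1 : p ^ e ≤ m := Nat.le_of_dvd hm h
  have h2 : e < p ^ e := Nat.lt_pow_self hp.one_lt
  omega

end Fermat.Agent.L.Pivot.H76
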