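/-
PIVOT (item 66), PV-WIRE2 (helper76), layer W: the curve form.

* `exists_coeff_rep` : for a semistable model `W` with `E[p]` irreducible: a coefficient ring `𝒪`
  (complete DVR, characteristic `0`, finite residue field) containing a primitive `p^E`-th root
  of unity, and a `p`-adic representation `ρ` over `𝒪` with the Frobenius characteristic
  polynomials of `W`, cyclotomic determinant, unipotent inertia away from `p`, strictly
  ordinary at a bad `p`, residually absolutely irreducible with the Taylor–Wiles condition and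
  split residual characteristic polynomials  (`Tate.stmt_Tate` + `Stmt_CYC`).
* `pivotWCore_of : Stmt_CYC → Stmt_PivotGal → Stmt_PivotWCore5`.
-/
import Fermat.Agent.L.Pivot.H76_Wire2G
import Fermat.Agent.L.Pivot.H76_Wire2WDefs
import Fermat.Agent.L.Pivot.H76_Wire2Res
import Fermat.Agent.Tate.Main
import Fermat.Agent.S59.LL.H77_BridgeRes
import Fermat.Agent.S59.H99_Split
import Fermat.Agent.S58.H99_Tors

set_option autoImplicit false
set_option linter.style.haveILetI false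
set_option linter.unusedVariables false

open Polynomial IsLocalRing CuspForm CongruenceSubgroup ModularFormClass
open WeierstrassCurve WeierstrassCurve.Affine WeierstrassCurve.Affine.Point
open scoped WeierstrassCurve.Affine

namespace Fermat.Agent.L.Pivot.H76

open Fermat.Agent.L.Pivot Fermat.Agent.S59 Fermat.Agent.S59.Asm Fermat.Agent.S44
  Fermat.Agent.S43

set_option maxHeartbeats 1000000 in
set_option synthInstance.maxHeartbeats 400000 in
/-- The coefficient ring and the `p`-adic representation of a semistable curve. -/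
theorem exists_coeff_rep (hCYC : Stmt_CYC) (p : ℕ) [Fact p.Prime] (hp2 : p ≠ 2)
    (W : WeierstrassCurve ℤ) (hΔ : W.Δ ≠ 0) (hss : W.IsSemistableModel)
    (hirr : W.ModRepIsIrreducible p) (E : ℕ) :
    ∃ (𝒪 : Type) (_ : CommRing 𝒪) (_ : IsDomain 𝒪) (_ : IsDiscreteValuationRing 𝒪)
      (_ : IsAdicComplete (maximalIdeal 𝒪) 𝒪) (_ : Finite (ResidueField 𝒪)) (_ : CharZero 𝒪)
      (ρ : GaloisRepAdic 𝒪),
      ρ.DetIsCyclotomic p ∧
      (∀ q : ℕ, q.Prime → q ≠ p → ρ.IsUnipotentOnInertiaAt q) ∧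
      (¬ W.IsGoodPrimeFor p → ρ.IsStrictOrdinaryAt p) ∧
      (∀ ℓ : ℕ, ℓ.Prime → ℓ ≠ p → W.IsGoodPrimeFor ℓ →
        ∀ A : ValuationSubring (AlgebraicClosure ℚ), A.LiesOverPrime ℓ →
          ∀ σ : AlgebraicClosure ℚ ≃ₐ[ℚ] AlgebraicClosure ℚ, A.IsFrobeniusAt σ ℓ →
            LinearMap.charpoly (ρ.ρ σ) =
              X ^ 2 - C (((W.apOfModel ℓ : ℤ) : 𝒪)) * X + C ((ℓ : 𝒪))) ∧
      ρ.residual.IsAbsolutelyIrreducible ∧ TWCond ρ.residual ∧
      (∀ σ : AlgebraicClosure ℚ ≃ₐ[ℚ] AlgebraicClosure ℚ,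
        ∃ α β : ResidueField 𝒪,
          LinearMap.charpoly (ρ.residual.ρ σ) = (X - C α) * (X - C β)) ∧
      ∃ ζ : 𝒪, IsPrimitiveRoot ζ (p ^ E) := by
  have hpp : p.Prime := Fact.out
  obtain ⟨𝒪₀, i1, i2, i3, i4, i5, i6, ρ₀, hdet₀, hunr₀, hunip₀, hflat₀, hord₀, hfrob₀, hres₀⟩ :=
    Fermat.Agent.Tate.stmt_Tate p hp2 W hΔ hss
  obtain ⟨habs₀, hTW₀⟩ := hres₀ hirr
  obtain ⟨𝒪, j1, j2, j3, j4, j5, j6, j7, j8, j9, j10, hquad, ζ, hζ⟩ := hCYC 𝒪₀ p E hpp
  refine ⟨𝒪, j1, j2, j3, j4, j5, j6, ρ₀.baseChangeAlong (algebraMap 𝒪₀ 𝒪) j10,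
    ?_, ?_, ?_, ?_, ?_, ?_, ?_, ζ, hζ⟩
  · exact Fermat.Agent.S56.H92.detIsCyclotomic_baseChangeAlong _ j10 ρ₀ p hdet₀
  · exact fun q hq hqp =>
      Fermat.Agent.S56.H92.isUnipotentOnInertiaAt_baseChangeAlong _ j10 ρ₀ q (hunip₀ q hq hqp)
  · exact fun hbad =>
      Fermat.Agent.S56.H92.isStrictOrdinaryAt_baseChangeAlong _ j10 ρ₀ p (hord₀ hbad)
  · intro ℓ hℓ hℓp hgood A hA σ hσ
    rw [Fermat.Agent.R.H86.baseChangeAlong_charpoly, hfrob₀ ℓ hℓ hℓp hgood A hA σ hσ]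
    simp only [Polynomial.map_add, Polynomial.map_sub, Polynomial.map_mul, Polynomial.map_pow,
      Polynomial.map_X, map_intCast, map_natCast, Polynomial.map_intCast,
      Polynomial.map_natCast, Polynomial.map_C]
  · exact Fermat.Agent.R.H86.residual_absIrr_baseChangeAlong _ j10 ρ₀ habs₀
  · exact Fermat.Agent.S59.H99.twCond_baseChangeAlong _ j10 ρ₀ hTW₀
  · intro σ
    have hm : (LinearMap.charpoly (ρ₀.residual.ρ σ)).Monic := LinearMap.charpoly_monic _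
    have hd : (LinearMap.charpoly (ρ₀.residual.ρ σ)).natDegree = 2 := by
      rw [LinearMap.charpoly_natDegree, ρ₀.residual.finrank_eq]
    obtain ⟨α, β, hαβ⟩ := hquad _ hm hd
    refine ⟨α, β, ?_⟩
    rw [← hαβ, Fermat.Agent.S59.H99.charpoly_residual, Fermat.Agent.S59.H99.charpoly_residual,
      Fermat.Agent.R.H86.baseChangeAlong_charpoly, Polynomial.map_map, Polynomial.map_map]
    congr 1

/-- `E[p]` of the model as a residual representation. -/
noncomputable abbrev torsRes (W : WeierstrassCurve ℤ) (hΔ : W.Δ ≠ 0) (p : ℕ) [Fact p.Prime] :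
    ResidualGaloisRep (ZMod p) :=
  Fermat.Agent.S59.LL.H77.torsRep W p
    (by
      have hfr := Fermat.Agent.S58.H99.finrank_torsW W hΔ p
      have : Module.Finite (ZMod p) (Fermat.Agent.S58.H99.TorsW W p) :=
        Module.finite_of_finrank_eq_succ hfr
      have h := Module.natCard_eq_pow_finrank (K := ZMod p)
        (V := Fermat.Agent.S58.H99.TorsW W p)
      rw [hfr, Nat.card_zmod] at h
      exact h)
    (Fermat.Agent.S58.H99.torsW_finiteLevel W hΔ p)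

/-- `UnrW` is unramifiedness of `torsRes`. -/
theorem torsRes_isUnramifiedAt_iff (W : WeierstrassCurve ℤ) (hΔ : W.Δ ≠ 0) (p : ℕ)
    [Fact p.Prime] (q : ℕ) : (torsRes W hΔ p).IsUnramifiedAt q ↔ UnrW W p q := by
  constructor
  · intro h A hA σ hσ v
    have h1 := h A hA σ hσ
    have h2 := congrArg (fun F : Module.End (ZMod p) (torsRes W hΔ p).V => F v) h1
    exact h2
  · intro h A hA σ hσ
    exact LinearMap.ext fun v => h A hA σ hσ v

set_option maxHeartbeats 1000000 in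
set_option synthInstance.maxHeartbeats 400000 in
/-- **Layer W of PV-WIRE2** (level prime to `p`). -/
theorem pivotWCore_of (hCYC : Stmt_CYC) (hG : Stmt_PivotGal) : Stmt_PivotWCore5 := by
  classical
  intro p hp h5 W hΔ hss hirr N q hsq hpN hq hqN hunrq hexc f 𝔪 S hf h𝔪 hp𝔪 hcong
  have hp2 : p ≠ 2 := by omega
  haveI : Fact p.Prime := ⟨hp⟩
  have hN0 : 0 < N := Nat.pos_of_ne_zero hsq.ne_zero
  obtain ⟨𝒪, _, _, _, _, _, _, ρ, hdet, hunip, -, hfrob, habs, hTW, hsplit, ζ, hζ⟩ :=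
    exists_coeff_rep hCYC p hp2 W hΔ hss hirr N
  have hp𝒪 : (p : 𝒪) ∈ maximalIdeal 𝒪 := hdet.1
  haveI hchar : CharP (ResidueField 𝒪) p := by
    refine (CharP.charP_iff_prime_eq_zero hp).mpr ?_
    have : residue 𝒪 (p : 𝒪) = 0 := (residue_eq_zero_iff _).mpr hp𝒪
    rwa [map_natCast] at this
  let j : ZMod p →+* ResidueField 𝒪 := ZMod.castHom (dvd_refl p) (ResidueField 𝒪)
  have hbr : ((torsRes W hΔ p).baseChangeAlong j).IsEquiv ρ.residual :=
    Fermat.Agent.S59.LL.H77.bridgeRes W hΔ p _ _ j ρ ∅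
      (fun ℓ hℓ hℓp _ hg A hA σ hσ => hfrob ℓ hℓ hℓp hg A hA σ hσ) habs
  have hunr_iff : ∀ q' : ℕ, ρ.residual.IsUnramifiedAt q' ↔ UnrW W p q' := fun q' =>
    (Fermat.Agent.S59.LL.H77.unramified_iff_of_isEquiv j _ _ hbr q').trans
      (torsRes_isUnramifiedAt_iff W hΔ p q')
  have hqp : q ≠ p := fun h => hpN (h ▸ hqN)
  have hgoodS : ∀ ℓ : ℕ, ℓ.Prime → ℓ ∉ S ∪ W.Δ.natAbs.primeFactors → W.IsGoodPrimeFor ℓ := by
    intro ℓ hℓ hℓS hdvd
    refine hℓS (Finset.mem_union_right _ (Nat.mem_primeFactors.2 ⟨hℓ, ?_, ?_⟩))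
    · exact Int.natCast_dvd.1 hdvd
    · exact Int.natAbs_ne_zero.2 hΔ
  obtain ⟨g, 𝔪', S', hg, h𝔪', hp𝔪', hgc⟩ := hG 𝒪 p hp2 h5 hp𝒪 true ρ.residual habs
    (detIsCyclotomic_residual ρ p hdet) hsplit hTW N hsq (fun _ => hpN)
    (fun h => by cases h)
    (fun q' hq' _ hq'p => isUnipotentOnInertiaAt_residual ρ q' (hunip q' hq' hq'p))
    (fun q' hq' hq'N hq'p hu => by
      obtain ⟨hdvd, A, hA, c, hc⟩ := hexc q' hq' hq'N ((hunr_iff q').mp hu)
      refine ⟨hdvd, A, hA, fun σ hσ => ⟨j c, ?_⟩⟩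
      have h1 : (torsRes W hΔ p).ρ σ = c • (1 : Module.End (ZMod p) (torsRes W hΔ p).V) :=
        LinearMap.ext fun v => hc σ hσ v
      exact scalar_of_isEquiv_resid hbr σ (j c) (scalar_bcAlong_resid j _ σ c h1))
    (fun q' hq' hq'N e he => by
      have h1 : 0 < q' - 1 := by have := hq'.two_le; omega
      have h2 : q' - 1 ≤ N := by
        have := Nat.le_of_dvd hN0 hq'N
        omega
      exact exists_primitiveRoot_of_le hp hζ (le_of_pow_dvd hp he h1 h2))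
    f 𝔪 (fun ℓ => W.apOfModel ℓ) (S ∪ W.Δ.natAbs.primeFactors) hf h𝔪 hp𝔪
    (fun ℓ hℓ hℓS hℓN hℓp =>
      hcong ℓ hℓ (fun h => hℓS (Finset.mem_union_left _ h)) (hgoodS ℓ hℓ hℓS) hℓN hℓp)
    (fun ℓ hℓ hℓS hℓp A hA σ hσ =>
      charpoly_frob_residual ρ σ _ ℓ (hfrob ℓ hℓ hℓp (hgoodS ℓ hℓ hℓS) A hA σ hσ))
    q hq hqN hqp ((hunr_iff q).mpr hunrq)
  exact ⟨g, 𝔪', S', hg, h𝔪', hp𝔪', fun ℓ hℓ hℓS hℓN hℓp _ => hgc ℓ hℓ hℓS hℓN hℓp⟩

end Fermat.Agent.L.Pivot.H76
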