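/-
PIVOT (item 66), PV-WIRE2 (helper76): the assembly.

`pivotFrey2_of_core :
   Stmt_CYC → S59.Asm.Stmt_THETAMIN → S59.Asm.Stmt_EXACTb → Stmt_PivotCoreB → Stmt_PivotFrey2`
and, for any semistable model,
`pivotWCore_of_core :
   Stmt_CYC → S59.Asm.Stmt_THETAMIN → S59.Asm.Stmt_EXACTb → Stmt_PivotCoreB → Stmt_PivotWCore5`.

With `s43_of2 : Stmt_S44T → Stmt_NonExcFrey2 → Stmt_PivotFrey2 → <frozen S43>` (H76_Frey2.lean)
this is the top of the row S43.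
-/
import Fermat.Agent.L.Pivot.H76_Wire2W
import Fermat.Agent.L.Pivot.H76_Wire2F

set_option autoImplicit false

namespace Fermat.Agent.L.Pivot.H76

open Fermat.Agent.L.Pivot Fermat.Agent.S59.Asm

/-- **PV-WIRE2, curve form.** -/
theorem pivotWCore_of_core (hCYC : Stmt_CYC) (hTM : Stmt_THETAMIN) (hEX : Stmt_EXACTb)
    (hPC : Stmt_PivotCoreB) : Stmt_PivotWCore5 :=
  pivotWCore_of hCYC (pivotGal_of hTM hEX hPC)

/-- **PV-WIRE2, Frey form.** -/
theorem pivotFrey2_of_core (hCYC : Stmt_CYC) (hTM : Stmt_THETAMIN) (hEX : Stmt_EXACTb)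
    (hPC : Stmt_PivotCoreB) : Stmt_PivotFrey2 :=
  pivotFrey2_of (pivotWCore_of_core hCYC hTM hEX hPC)

end Fermat.Agent.L.Pivot.H76
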