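/-
PIVOT (item 66), PV-WIRE2 (helper76): final form, all inputs but `Stmt_PivotCoreB` plugged in
(`H3.stmt_CYC` helper3, `S59.Asm.H92.stmt_THETAMIN` helper92, `S59.Asm.H80.stmt_EXACTb` helper80).

* `pivotWCore_of_pivotCoreB : Stmt_PivotCoreB → Stmt_PivotWCore5`  (any semistable model, `5 ≤ p`);
* `pivotFrey2_of_pivotCoreB : Stmt_PivotCoreB → Stmt_PivotFrey2`   (Frey curve);
* `s43_of_pivotCoreB : Stmt_S44T → Stmt_NonExcFrey2 → Stmt_PivotCoreB → <frozen type of S43>`.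
-/
import Fermat.Agent.L.Pivot.H76_Wire2
import Fermat.Agent.L.Pivot.H3_CycH76
import Fermat.Agent.S59.Asm.H92_ThetaMin
import Fermat.Agent.S59.Asm.H80_ExactB

set_option autoImplicit false

open WeierstrassCurve WeierstrassCurve.Affine WeierstrassCurve.Affine.Point
open scoped WeierstrassCurve.Affine

namespace Fermat.Agent.L.Pivot.H76

open Fermat.Agent.L.Pivot Fermat.Agent.S59.Asm

/-- **PV-WIRE2, curve form.** -/
theorem pivotWCore_of_pivotCoreB (hPC : Stmt_PivotCoreB) : Stmt_PivotWCore5 :=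
  pivotWCore_of_core Fermat.Agent.L.Pivot.H3.stmt_CYC Fermat.Agent.S59.Asm.H92.stmt_THETAMIN
    Fermat.Agent.S59.Asm.H80.stmt_EXACTb hPC

/-- **PV-WIRE2, Frey form.** -/
theorem pivotFrey2_of_pivotCoreB (hPC : Stmt_PivotCoreB) : Stmt_PivotFrey2 :=
  pivotFrey2_of (pivotWCore_of_pivotCoreB hPC)

/-- **S43 from S44, Mazur's principle and the PIVOT core.** -/
theorem s43_of_pivotCoreB (h44 : Stmt_S44T) (hNE : Stmt_NonExcFrey2) (hPC : Stmt_PivotCoreB)
    (P : FreyPackage) {N q : ℕ} (hcond : P.IsConductorLevel N) (hq : q.Prime) (hq2 : q ≠ 2)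
    (hqp : q ≠ P.p) (hqN : q ∣ N)
    (hirr : GaloisRepIsIrreducible (K := AlgebraicClosure ℚ) ℚ P.freyCurve P.p)
    (hmod : P.ModularRepOfLevel N) (hunr : P.GaloisRepUnramifiedAt q) :
    ∃ M : ℕ, M ∣ N ∧ ¬ q ∣ M ∧ P.ModularRepOfLevel M :=
  s43_of2 h44 hNE (pivotFrey2_of_pivotCoreB hPC) P hcond hq hq2 hqp hqN hirr hmod hunr

end Fermat.Agent.L.Pivot.H76
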