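/-
PIVOT (item 66), PV-WIRE2 (helper76), layer W, the case `p ∥ N`, `E[p]` très ramifiée at `p`.

* `isStrictOrdinaryAt_residual` : strict ordinarity passes to `ofResidualGaloisRep ρ.residual`.
* `pivotWCoreSO_of : Stmt_CYC → Stmt_TRES → Stmt_PivotGal → Stmt_PivotWCoreSO5`.
-/
import Fermat.Agent.L.Pivot.H76_Wire2W
import Fermat.Agent.S56.H92_StableSO

set_option autoImplicit false
set_option linter.style.haveILetI false
set_option linter.unusedVariables false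
set_option linter.unusedSectionVars false

open Polynomial IsLocalRing CuspForm CongruenceSubgroup ModularFormClass
open WeierstrassCurve WeierstrassCurve.Affine WeierstrassCurve.Affine.Point
open scoped WeierstrassCurve.Affine TensorProduct

namespace Fermat.Agent.L.Pivot.H76

open Fermat.Agent.L.Pivot Fermat.Agent.S59 Fermat.Agent.S59.Asm Fermat.Agent.S44
  Fermat.Agent.S43

section Adic

variable {A : Type} [CommRing A] [IsLocalRing A]

/-- Strict ordinarity passes to the residual representation. -/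
theorem isStrictOrdinaryAt_residual (ρ : GaloisRepAdic A) (p : ℕ)
    (h : ρ.IsStrictOrdinaryAt p) :
    (GaloisRepAdic.ofResidualGaloisRep ρ.residual).IsStrictOrdinaryAt p := by
  refine ⟨?_, fun P hP => ?_⟩
  · have h1 : ((p : ℕ) : ResidueField A) = 0 := by
      rw [← map_natCast (residue A)]
      exact (residue_eq_zero_iff _).mpr h.1
    rw [h1]
    exact zero_mem _
  · exact Fermat.Agent.S56.H92.strictOrdinary_core (residue A) ρ p P (h.2 P hP)

end Adic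

set_option maxHeartbeats 1000000 in
set_option synthInstance.maxHeartbeats 400000 in
/-- **Layer W of PV-WIRE2** (`p ∥ N`, `E[p]` très ramifiée at `p`). -/
theorem pivotWCoreSO_of (hCYC : Stmt_CYC) (hTRES : Stmt_TRES) (hG : Stmt_PivotGal) :
    Stmt_PivotWCoreSO5 := by
  classical
  intro p hp h5 W hΔ hss hirr N q hsq hpN hpΔ hpeu hq hqp hqN hunrq hexc f 𝔪 S hf h𝔪 hp𝔪 hcong
  have hp2 : p ≠ 2 := by omega
  haveI : Fact p.Prime := ⟨hp⟩
  have hN0 : 0 < N := Nat.pos_of_ne_zero hsq.ne_zero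
  obtain ⟨𝒪, _, _, _, _, _, _, ρ, hdet, hunip, hSO, hfrob, habs, hTW, hsplit, ζ, hζ⟩ :=
    exists_coeff_rep hCYC p hp2 W hΔ hss hirr N
  have hp𝒪 : (p : 𝒪) ∈ maximalIdeal 𝒪 := hdet.1
  haveI hchar : CharP (ResidueField 𝒪) p := by
    refine (CharP.charP_iff_prime_eq_zero hp).mpr ?_
    have : residue 𝒪 (p : 𝒪) = 0 := (residue_eq_zero_iff _).mpr hp𝒪
    rwa [map_natCast] at this
  let j : ZMod p →+* ResidueField 𝒪 := ZMod.castHom (dvd_refl p) (ResidueField 𝒪)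
  have hbr : ((torsRes W hΔ p).baseChangeAlong j).IsEquiv ρ.residual :=
    Fermat.Agent.S59.LL.H77.bridgeRes W hΔ p _ _ j ρ ∅
      (fun ℓ hℓ hℓp _ hg A hA σ hσ => hfrob ℓ hℓ hℓp hg A hA σ hσ) habs
  have hunr_iff : ∀ q' : ℕ, ρ.residual.IsUnramifiedAt q' ↔ UnrW W p q' := fun q' =>
    (Fermat.Agent.S59.LL.H77.unramified_iff_of_isEquiv j _ _ hbr q').trans
      (torsRes_isUnramifiedAt_iff W hΔ p q')
  have hbad : ¬ W.IsGoodPrimeFor p := fun h => h hpΔ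
  have hnflat : ¬ (GaloisRepAdic.ofResidualGaloisRep ρ.residual).IsFlatAt p :=
    hTRES p hp2 W hΔ hss hirr hpeu 𝒪 ρ hdet habs hfrob
  have hgoodS : ∀ ℓ : ℕ, ℓ.Prime → ℓ ∉ S ∪ W.Δ.natAbs.primeFactors → W.IsGoodPrimeFor ℓ := by
    intro ℓ hℓ hℓS hdvd
    refine hℓS (Finset.mem_union_right _ (Nat.mem_primeFactors.2 ⟨hℓ, ?_, ?_⟩))
    · exact Int.natCast_dvd.1 hdvd
    · exact Int.natAbs_ne_zero.2 hΔ
  obtain ⟨g, 𝔪', S', hg, h𝔪', hp𝔪', hgc⟩ := hG 𝒪 p hp2 h5 hp𝒪 false ρ.residual habs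
    (detIsCyclotomic_residual ρ p hdet) hsplit hTW N hsq (fun h => by cases h)
    (fun _ => ⟨hpN, isStrictOrdinaryAt_residual ρ p (hSO hbad), hnflat⟩)
    (fun q' hq' _ hq'p => isUnipotentOnInertiaAt_residual ρ q' (hunip q' hq' hq'p))
    (fun q' hq' hq'N hq'p hu => by
      obtain ⟨hdvd, A, hA, c, hc⟩ := hexc q' hq' hq'p hq'N ((hunr_iff q').mp hu)
      refine ⟨hdvd, A, hA, fun σ hσ => ⟨j c, ?_⟩⟩
      have h1 : (torsRes W hΔ p).ρ σ = c • (1 : Module.End (ZMod p) (torsRes W hΔ p).V) :=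
        LinearMap.ext fun v => hc σ hσ v
      exact scalar_of_isEquiv_resid hbr σ (j c) (scalar_bcAlong_resid j _ σ c h1))
    (fun q' hq' hq'N e he => by
      have h1 : 0 < q' - 1 := by have := hq'.two_le; omega
      have h2 : q' - 1 ≤ N := by
        have := Nat.le_of_dvd hN0 hq'N
        omega
      exact exists_primitiveRoot_of_le hp hζ (le_of_pow_dvd hp he h1 h2))
    f 𝔪 (fun ℓ => W.apOfModel ℓ) (S ∪ W.Δ.natAbs.primeFactors) hf h𝔪 hp𝔪
    (fun ℓ hℓ hℓS hℓN hℓp =>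
      hcong ℓ hℓ (fun h => hℓS (Finset.mem_union_left _ h)) (hgoodS ℓ hℓ hℓS) hℓN hℓp)
    (fun ℓ hℓ hℓS hℓp A hA σ hσ =>
      charpoly_frob_residual ρ σ _ ℓ (hfrob ℓ hℓ hℓp (hgoodS ℓ hℓ hℓS) A hA σ hσ))
    q hq hqN hqp ((hunr_iff q).mpr hunrq)
  exact ⟨g, 𝔪', S', hg, h𝔪', hp𝔪', fun ℓ hℓ hℓS hℓN hℓp _ => hgc ℓ hℓ hℓS hℓN hℓp⟩

end Fermat.Agent.L.Pivot.H76
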