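/-
PIVOT (item 66), PV-WIRE2 (helper76): the case `p ∥ N`, `E[p]` très ramifiée, final form.

* `pivotWCoreSO_of_pivotCoreB : Stmt_TRES → Stmt_PivotCoreB → Stmt_PivotWCoreSO5`
  (`H3.stmt_CYC`, `S59.Asm.H92.stmt_THETAMIN`, `S59.Asm.H80.stmt_EXACTb` plugged in).
-/
import Fermat.Agent.L.Pivot.H76_Wire2Final
import Fermat.Agent.L.Pivot.H76_Wire2SO

set_option autoImplicit false

namespace Fermat.Agent.L.Pivot.H76

open Fermat.Agent.L.Pivot Fermat.Agent.S59.Asm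

/-- **PV-WIRE2, curve form, `p ∥ N` très ramifiée.** -/
theorem pivotWCoreSO_of_pivotCoreB (hTRES : Stmt_TRES) (hPC : Stmt_PivotCoreB) :
    Stmt_PivotWCoreSO5 :=
  pivotWCoreSO_of Fermat.Agent.L.Pivot.H3.stmt_CYC hTRES
    (pivotGal_of Fermat.Agent.S59.Asm.H92.stmt_THETAMIN Fermat.Agent.S59.Asm.H80.stmt_EXACTb hPC)

end Fermat.Agent.L.Pivot.H76
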