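/-
PIVOT (item 66), PV-ASM, leaf XI (helper76): the ideal `Ξ = pvXi ρ b Pv` of the entries of
`ρ (τ_j) - 1`.

* `pvXi_le_iff`  : `Ξ ≤ J ↔ ∀ j v, ρ (τ_j) v - v ∈ J V` (so `Ξ` does not depend on the basis);
* `entries_mem_of_coords` : for a `2 × 2` matrix `Σ` of determinant `1` with `1 + Σ₁₁` a unit,
  the entries of `Σ - 1` lie in the ideal generated by the traceless coordinates
  `Σ₀₁, Σ₁₀, Σ₀₀ - Σ₁₁`;
* `pvXi_le_map`  : `Ξ ≤ (τ ∘ γ) (idealX)` for a coordinate homomorphism `γ : P → RQ` of `ρQ` and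
  `τ : RQ → T` carrying (a basis of) `ρQ` to (a basis of) `ρ`: the hypothesis `Ξ_le` of `pvCore`.
-/
import Fermat.Agent.L.Pivot.Global2
import Fermat.Agent.S59.TWGal.G1

set_option autoImplicit false

namespace Fermat.Agent.L.Pivot.H76

open IsLocalRing Fermat.Agent.S59.TWGal

theorem entries_mem_of_coords {T : Type*} [CommRing T] (Sg : Matrix (Fin 2) (Fin 2) T)
    (hdet : Sg.det = 1) (hu : IsUnit (1 + Sg 1 1)) (J : Ideal T)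
    (h01 : Sg 0 1 ∈ J) (h10 : Sg 1 0 ∈ J) (hm : Sg 0 0 - Sg 1 1 ∈ J) (a c : Fin 2) :
    (Sg - 1) a c ∈ J := by
  rw [Matrix.det_fin_two] at hdet
  have key : (Sg 0 0 - 1) * (1 + Sg 1 1) = Sg 0 1 * Sg 1 0 + (Sg 0 0 - Sg 1 1) := by
    linear_combination hdet
  have h00 : Sg 0 0 - 1 ∈ J := by
    have h1 : (Sg 0 0 - 1) * (1 + Sg 1 1) ∈ J := by
      rw [key]
      exact J.add_mem (J.mul_mem_right _ h01) hm
    obtain ⟨u, hu⟩ := hu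
    have h2 : Sg 0 0 - 1 = (Sg 0 0 - 1) * (1 + Sg 1 1) * ((u⁻¹ : Tˣ) : T) := by
      rw [← hu, mul_assoc, Units.mul_inv, mul_one]
    rw [h2]
    exact J.mul_mem_right _ h1
  have h11 : Sg 1 1 - 1 ∈ J := by
    have h1 : Sg 1 1 - 1 = (Sg 0 0 - 1) - (Sg 0 0 - Sg 1 1) := by ring
    rw [h1]
    exact J.sub_mem h00 hm
  fin_cases a <;> fin_cases c
  · simpa [Matrix.sub_apply] using h00
  · simpa [Matrix.sub_apply] using h01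
  · simpa [Matrix.sub_apply] using h10
  · simpa [Matrix.sub_apply] using h11

/-- `Ξ ≤ J` iff `ρ (τ_j) ≡ 1` modulo `J` for all `j`. -/
theorem pvXi_le_iff {T : Type} [CommRing T] [IsLocalRing T] (ρ : GaloisRepAdic T)
    (b : Module.Basis (Fin 2) T ρ.V) {k : ℕ} (Pv : PivotPrimes k) (J : Ideal T) :
    pvXi ρ b Pv ≤ J ↔
      ∀ (j : Fin k) (v : ρ.V), ρ.ρ (Pv.τ j) v - v ∈ (J • ⊤ : Submodule T ρ.V) := by
  constructor
  · intro h j v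
    exact sub_mem_smul_top_of_entries b _ J
      (fun a c => h (Ideal.subset_span ⟨j, a, c, rfl⟩)) v
  · intro h
    rw [pvXi, Ideal.span_le]
    rintro _ ⟨j, a, c, rfl⟩
    exact mat_sub_one_mem b J _ (h j) a c

/-- `Ξ` does not depend on the basis. -/
theorem pvXi_eq_of_bases {T : Type} [CommRing T] [IsLocalRing T] (ρ : GaloisRepAdic T)
    (b b' : Module.Basis (Fin 2) T ρ.V) {k : ℕ} (Pv : PivotPrimes k) :
    pvXi ρ b Pv = pvXi ρ b' Pv :=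
  le_antisymm ((pvXi_le_iff ρ b Pv _).2 ((pvXi_le_iff ρ b' Pv _).1 le_rfl))
    ((pvXi_le_iff ρ b' Pv _).2 ((pvXi_le_iff ρ b Pv _).1 le_rfl))

theorem sigmaCoord_mem_idealX (𝒪 : Type) [CommRing 𝒪] (k g : ℕ) (x : Fin k × Fin 3) :
    sigmaCoord 𝒪 g x ∈ idealX 𝒪 k g :=
  Ideal.subset_span ⟨x, rfl⟩

theorem cy_mem_idealX (𝒪 : Type) [CommRing 𝒪] (k g : ℕ) (j : Fin k) :
    cy 𝒪 g j ∈ idealX 𝒪 k g := sigmaCoord_mem_idealX 𝒪 k g (j, 0)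

theorem cz_mem_idealX (𝒪 : Type) [CommRing 𝒪] (k g : ℕ) (j : Fin k) :
    cz 𝒪 g j ∈ idealX 𝒪 k g := sigmaCoord_mem_idealX 𝒪 k g (j, 1)

theorem cm_mem_idealX (𝒪 : Type) [CommRing 𝒪] (k g : ℕ) (j : Fin k) :
    cm 𝒪 g j ∈ idealX 𝒪 k g := sigmaCoord_mem_idealX 𝒪 k g (j, 2)

/-- **XI**: the hypothesis `Ξ_le` of `pvCore`.  `ρQ` over `RQ` with a coordinate homomorphism
`γ` in the basis `bQ`; `τ : RQ → T` and a basis `b'` of `ρ` in which the matrices of `ρ` are the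
images of those of `ρQ` (TRANSPORT); `det ρ (τ_j) = 1`, `ρ (τ_j) ≡ 1` modulo `𝔪`, `2` a unit. -/
theorem pvXi_le_map {𝒪 : Type} [CommRing 𝒪] {k g : ℕ}
    {T : Type} [CommRing T] [IsLocalRing T] [Algebra 𝒪 T]
    {RQ : Type} [CommRing RQ] [IsLocalRing RQ] [Algebra 𝒪 RQ]
    (ρ : GaloisRepAdic T) (ρQ : GaloisRepAdic RQ) (Pv : PivotPrimes k)
    (γ : PRing 𝒪 k g →ₐ[𝒪] RQ) (τ : RQ →ₐ[𝒪] T)
    (b : Module.Basis (Fin 2) T ρ.V) (bQ : Module.Basis (Fin 2) RQ ρQ.V)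
    (b' : Module.Basis (Fin 2) T ρ.V)
    (hb' : ∀ (j : Fin k) (i i' : Fin 2), b'.repr (ρ.ρ (Pv.τ j) (b' i)) i' =
      τ (bQ.repr (ρQ.ρ (Pv.τ j) (bQ i)) i'))
    (Mφ : Fin k → Matrix (Fin 2) (Fin 2) RQ)
    (hγ : IsCoordHom γ (fun j => LinearMap.toMatrix bQ bQ (ρQ.ρ (Pv.τ j))) Mφ)
    (h2 : IsUnit (2 : T))
    (hdet : ∀ j, LinearMap.det (ρ.ρ (Pv.τ j)) = 1)
    (hres : ∀ (j : Fin k) (v : ρ.V),
      ρ.ρ (Pv.τ j) v - v ∈ (maximalIdeal T • ⊤ : Submodule T ρ.V)) :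
    pvXi ρ b Pv ≤ Ideal.map ((τ.comp γ : PRing 𝒪 k g →ₐ[𝒪] T) : PRing 𝒪 k g →+* T)
      (idealX 𝒪 k g) := by
  rw [pvXi_le_iff]
  intro j v
  refine sub_mem_smul_top_of_entries b' _ _ (fun a c => ?_) v
  have hmap : ∀ f ∈ idealX 𝒪 k g, τ (γ f) ∈
      Ideal.map ((τ.comp γ : PRing 𝒪 k g →ₐ[𝒪] T) : PRing 𝒪 k g →+* T) (idealX 𝒪 k g) :=
    fun f hf => Ideal.mem_map_of_mem _ hf
  have hent : ∀ i i' : Fin 2, LinearMap.toMatrix b' b' (ρ.ρ (Pv.τ j)) i' i =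
      τ (LinearMap.toMatrix bQ bQ (ρQ.ρ (Pv.τ j)) i' i) := by
    intro i i'
    rw [LinearMap.toMatrix_apply, LinearMap.toMatrix_apply]
    exact hb' j i i'
  obtain ⟨hy0, hz0, hm0, -⟩ := hγ j
  have hy : γ (cy 𝒪 g j) = LinearMap.toMatrix bQ bQ (ρQ.ρ (Pv.τ j)) 0 1 := hy0
  have hz : γ (cz 𝒪 g j) = LinearMap.toMatrix bQ bQ (ρQ.ρ (Pv.τ j)) 1 0 := hz0
  have hm : γ (cm 𝒪 g j) = LinearMap.toMatrix bQ bQ (ρQ.ρ (Pv.τ j)) 0 0 -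
      LinearMap.toMatrix bQ bQ (ρQ.ρ (Pv.τ j)) 1 1 := hm0
  refine entries_mem_of_coords _ ?_ ?_ _ ?_ ?_ ?_ a c
  · rw [LinearMap.det_toMatrix]
    exact hdet j
  · have h1 : (LinearMap.toMatrix b' b' (ρ.ρ (Pv.τ j)) - 1) 1 1 ∈ maximalIdeal T :=
      mat_sub_one_mem b' (maximalIdeal T) _ (hres j) 1 1
    rw [Matrix.sub_apply, Matrix.one_apply_eq] at h1
    have h3 : 1 + LinearMap.toMatrix b' b' (ρ.ρ (Pv.τ j)) 1 1 =
        2 + (LinearMap.toMatrix b' b' (ρ.ρ (Pv.τ j)) 1 1 - 1) := by ring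
    rw [h3]
    by_contra hnu
    have h4 : (2 : T) ∈ maximalIdeal T := by
      have h5 := Ideal.sub_mem _ ((mem_maximalIdeal _).2 hnu) h1
      rwa [add_sub_cancel_right] at h5
    exact ((mem_maximalIdeal _).1 h4) h2
  · rw [hent, ← hy]
    exact hmap _ (cy_mem_idealX 𝒪 k g j)
  · rw [hent, ← hz]
    exact hmap _ (cz_mem_idealX 𝒪 k g j)
  · rw [hent, hent, ← map_sub, ← hm]
    exact hmap _ (cm_mem_idealX 𝒪 k g j)

end Fermat.Agent.L.Pivot.H76
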