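import Fermat.Agent.S59.Asm.Main
import Fermat.Agent.S59.Asm.Plumb2
import Fermat.Agent.S59.Asm.H57_Compat
import Fermat.Agent.S59.Asm.H77_MainCompat
import Fermat.Agent.S59.Asm.H77_MainDelta
import Fermat.Agent.S59.Datum.H57_ResEq
import Fermat.Agent.S59.Datum.H57_ResIrr
import Fermat.Agent.L.Pivot.H59_Tame1

/-!
# PIVOT (item 66), package PV-ASM-CORE (helper77): the abstract steps

* `resid_isEquiv_of_tau` : the residual representation of `ρT` is `ρbar`, when `ρT` is the base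
  change of a deformation `ρR` of `ρbar` along a local homomorphism `τ : R → T`;
* `compat_tau` : `res ∘ φQ = τ` (universal property of the deformation ring, `H57.stmt_COMPAT`);
* `sub_mem_of_resid_unram` : `ρT (σ) ≡ 1` modulo the maximal ideal when `ρbar (σ) = 1`.
-/

set_option autoImplicit false
set_option linter.unusedSectionVars false
set_option linter.unusedVariables false

open Polynomial CuspForm IsLocalRing

namespace Fermat.Agent.L.Pivot.H77

open Fermat.Agent.S59 Fermat.Agent.S59.Asm Fermat.Agent.S59.Asm.H77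

/-- the residue field map of a composition with the structure map -/
theorem residueField_map_comp_algebraMap {𝒪 : Type} [CommRing 𝒪] [IsLocalRing 𝒪]
    {R : Type} [CommRing R] [IsLocalRing R] [Algebra 𝒪 R] [IsLocalHom (algebraMap 𝒪 R)]
    {T : Type} [CommRing T] [IsLocalRing T] [Algebra 𝒪 T] [IsLocalHom (algebraMap 𝒪 T)]
    (τ : R →ₐ[𝒪] T) [IsLocalHom (τ : R →+* T)] :
    (ResidueField.map (τ : R →+* T)).comp (ResidueField.map (algebraMap 𝒪 R)) =
      ResidueField.map (algebraMap 𝒪 T) := by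
  refine RingHom.ext fun x => ?_
  obtain ⟨a, rfl⟩ := residue_surjective x
  rw [RingHom.comp_apply, ResidueField.map_residue, ResidueField.map_residue,
    ResidueField.map_residue]
  congr 1
  exact τ.commutes a

/-- **the residual representation of a base change of a deformation of `ρbar`.** -/
theorem resid_isEquiv_of_tau {𝒪 : Type} [CommRing 𝒪] [IsLocalRing 𝒪]
    (ρbar : ResidualGaloisRep (ResidueField 𝒪)) (habs : ρbar.IsAbsolutelyIrreducible)
    {R : Type} [CommRing R] [IsLocalRing R] [Algebra 𝒪 R] [IsLocalHom (algebraMap 𝒪 R)]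
    {T : Type} [CommRing T] [IsLocalRing T] [Algebra 𝒪 T] [IsLocalHom (algebraMap 𝒪 T)]
    (ρR : GaloisRepAdic R) (ρT : GaloisRepAdic T)
    (hR : ρR.residual.IsEquiv (ρbar.baseChangeAlong (ResidueField.map (algebraMap 𝒪 R))))
    (τ : R →ₐ[𝒪] T) (hτl : IsLocalHom (τ : R →+* T))
    (hτe : (ρR.baseChangeAlong (τ : R →+* T) hτl).IsEquiv ρT) :
    ρT.residual.IsEquiv (ρbar.baseChangeAlong (ResidueField.map (algebraMap 𝒪 T))) := by
  have := hτl
  refine Fermat.Agent.S59.Datum.H57.isEquiv_of_charpoly_eq _ _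
    (Fermat.Agent.S59.Datum.H57.absIrr_baseChangeAlong _ ρbar habs) fun σ => ?_
  have h2 := charpoly_of_isEquiv_resid hR σ
  rw [charpoly_resid, charpoly_bcAlong_resid] at h2
  have h1 : (residue T).comp (τ : R →+* T) = (ResidueField.map (τ : R →+* T)).comp (residue R) :=
    (ResidueField.map_comp_residue _).symm
  rw [charpoly_resid, ← charpoly_of_isEquiv hτe σ, charpoly_bcAlong, Polynomial.map_map,
    charpoly_bcAlong_resid, h1, ← Polynomial.map_map, h2, Polynomial.map_map,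
    residueField_map_comp_algebraMap τ]

/-- **Step 5 of PV-ASM**, abstract form: `res ∘ φQ = τ`. -/
theorem compat_tau {𝒪 : Type} [CommRing 𝒪] [IsDomain 𝒪] [IsDiscreteValuationRing 𝒪]
    [IsAdicComplete (maximalIdeal 𝒪) 𝒪]
    (ρbar : ResidualGaloisRep (ResidueField 𝒪))
    (𝒟Q : ∀ ⦃A : Type⦄ [CommRing A] [IsLocalRing A] [Algebra 𝒪 A], GaloisRepAdic A → Prop)
    (DQ : GaloisRep.DeformationRingData 𝒪 ρbar 𝒟Q)
    {T : Type} [CommRing T] [IsLocalRing T] [IsNoetherianRing T]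
    [IsAdicComplete (maximalIdeal T) T] [Algebra 𝒪 T] [IsLocalHom (algebraMap 𝒪 T)]
    {TQ : Type} [CommRing TQ] [IsLocalRing TQ] [Algebra 𝒪 TQ] [Module.Finite 𝒪 TQ]
    [IsLocalHom (algebraMap 𝒪 TQ)]
    (hsurj : Function.Surjective (residue T ∘ algebraMap 𝒪 T))
    (ρT : GaloisRepAdic T) (hρT : 𝒟Q ρT)
    (ρTQ : GaloisRepAdic TQ)
    (τ : DQ.R →ₐ[𝒪] T) (hτl : IsLocalHom (τ : DQ.R →+* T))
    (hτe : (DQ.ρ.baseChangeAlong (τ : DQ.R →+* T) hτl).IsEquiv ρT)
    (φQ : DQ.R →ₐ[𝒪] TQ) (hφQ : IsLocalHom (φQ : DQ.R →+* TQ))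
    (hφQe : (DQ.ρ.baseChangeAlong (φQ : DQ.R →+* TQ) hφQ).IsEquiv ρTQ)
    (res : TQ →ₐ[𝒪] T) (S' : Finset ℕ)
    (hfrob : ∀ ℓ : ℕ, ℓ.Prime → ℓ ∉ S' → ∀ B : ValuationSubring (AlgebraicClosure ℚ),
      B.LiesOverPrime ℓ → ∀ σ : GalQ, B.IsFrobeniusAt σ ℓ →
        (LinearMap.charpoly (ρTQ.ρ σ)).map (res : TQ →+* T) = LinearMap.charpoly (ρT.ρ σ)) :
    res.comp φQ = τ := by
  have hresl : IsLocalHom (res : TQ →+* T) := isLocalHom_of_finite (𝒪 := 𝒪) res
  have h₁ : IsLocalHom ((res.comp φQ : DQ.R →ₐ[𝒪] T) : DQ.R →+* T) :=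
    isLocalHom_comp_algHom res φQ hresl hφQ
  have hres : ρT.residual.IsEquiv (ρbar.baseChangeAlong (ResidueField.map (algebraMap 𝒪 T))) :=
    resid_isEquiv_of_tau ρbar DQ.absIrr DQ.ρ ρT DQ.residual_isEquiv τ hτl hτe
  refine H57.stmt_COMPAT 𝒪 ρbar 𝒟Q DQ T hsurj ρT hρT hres (res.comp φQ) τ h₁ hτl S' ?_ hτe
  intro ℓ hℓ hℓS B hB σ hσ
  rw [charpoly_bcAlong, ← hfrob ℓ hℓ hℓS B hB σ hσ, ← charpoly_of_isEquiv hφQe σ,
    charpoly_bcAlong, Polynomial.map_map]
  rfl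

/-- `cond` contains the determinant condition -/
theorem cond_det {𝒪 : Type} [CommRing 𝒪] {p : ℕ} {fl : Bool} {Smin T : Finset ℕ}
    {A : Type} [CommRing A] [IsLocalRing A] [Algebra 𝒪 A] {ρ : GaloisRepAdic A}
    (h : cond 𝒪 p fl Smin T ρ) : ρ.DetIsCyclotomic p := by
  cases fl
  · exact h.1.1
  · exact h.1.1

/-- `ρT (σ) ≡ 1` modulo the maximal ideal when `ρbar (σ) = 1`. -/
theorem sub_mem_of_resid_unram {𝒪 : Type} [CommRing 𝒪] [IsLocalRing 𝒪]
    {T : Type} [CommRing T] [IsLocalRing T] [Algebra 𝒪 T] [IsLocalHom (algebraMap 𝒪 T)]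
    (ρbar : ResidualGaloisRep (ResidueField 𝒪)) (ρT : GaloisRepAdic T)
    (h : ρT.residual.IsEquiv (ρbar.baseChangeAlong (ResidueField.map (algebraMap 𝒪 T))))
    (b : Module.Basis (Fin 2) T ρT.V)
    (σ : GalQ) (hσ : ρbar.ρ σ = 1) (v : ρT.V) :
    ρT.ρ σ v - v ∈ (maximalIdeal T • ⊤ : Submodule T ρT.V) :=
  Fermat.Agent.L.Pivot.H59.sub_mem_of_baseChange_eq_one b (ρT.ρ σ)
    (resid_eq_one_of_isEquiv ρbar ρT h σ hσ) v

end Fermat.Agent.L.Pivot.H77
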