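import Mathlib

/-!
# PIVOT (item 66), package PV-ASM-CORE (helper77): auxiliary algebra

* `ker_comp_eq_sup` : the kernel of `π₁ ∘ κ` when `ker π₁ = ∑ range (d₁ i - 1)`.
-/

set_option autoImplicit false

open IsLocalRing

namespace Fermat.Agent.L.Pivot.H77

section Ker

variable {𝒪 : Type*} [CommRing 𝒪] {V V₁ M : Type*} [AddCommGroup V] [Module 𝒪 V]
  [AddCommGroup V₁] [Module 𝒪 V₁] [AddCommGroup M] [Module 𝒪 M]

/-- the image of `∑ range (d i - 1)` under a surjection intertwining `d i` and `d₁ i` -/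
theorem map_iSup_range_sub_one (κ : V →ₗ[𝒪] V₁) (hκ : Function.Surjective κ) {ι : Type*}
    (d : ι → Module.End 𝒪 V) (d₁ : ι → Module.End 𝒪 V₁)
    (hκd : ∀ i v, κ (d i v) = d₁ i (κ v)) :
    Submodule.map κ (⨆ i, LinearMap.range (d i - 1)) = ⨆ i, LinearMap.range (d₁ i - 1) := by
  rw [Submodule.map_iSup]
  refine iSup_congr fun i => ?_
  ext w
  constructor
  · rintro ⟨_, ⟨v, rfl⟩, rfl⟩
    refine ⟨κ v, ?_⟩
    rw [LinearMap.sub_apply, LinearMap.sub_apply, Module.End.one_apply, Module.End.one_apply,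
      map_sub, hκd]
  · rintro ⟨w', rfl⟩
    obtain ⟨v, rfl⟩ := hκ w'
    refine ⟨(d i - 1) v, ⟨v, rfl⟩, ?_⟩
    rw [LinearMap.sub_apply, LinearMap.sub_apply, Module.End.one_apply, Module.End.one_apply,
      map_sub, hκd]

/-- the kernel of `π₁ ∘ κ` -/
theorem ker_comp_eq_sup (κ : V →ₗ[𝒪] V₁) (hκ : Function.Surjective κ) (π₁ : V₁ →ₗ[𝒪] M)
    {ι : Type*} (d : ι → Module.End 𝒪 V) (d₁ : ι → Module.End 𝒪 V₁)
    (hκd : ∀ i v, κ (d i v) = d₁ i (κ v))
    (hker : LinearMap.ker π₁ = ⨆ i, LinearMap.range (d₁ i - 1)) :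
    LinearMap.ker (π₁.comp κ) = LinearMap.ker κ ⊔ ⨆ i, LinearMap.range (d i - 1) := by
  rw [LinearMap.ker_comp, hker, ← map_iSup_range_sub_one κ hκ d d₁ hκd,
    Submodule.comap_map_eq, sup_comm]

end Ker



end Fermat.Agent.L.Pivot.H77
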